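import Mathlib
import Fermat.Agent.S23Lib.Conj

/-!
# PROJECT X (S20): core definitions

* `dpow m`  : the function `Δ ^ m` (`m : ℤ`) on `ℍ`;
* `jFun`, `om1` : `j = E₄³/Δ` and `ω₁ = E₄²E₆/Δ`;
* `WHle N w m` : weakly holomorphic forms of weight `w` for `Γ₀(N)` with `(F ∣[w] γ) * Δ^m`
  bounded at `i∞` for every `γ : SL(2, ℤ)`;
* `WHlt N w m` : the same with "zero at `i∞`";
* `WH N w` : the union over `m`.
-/

set_option autoImplicit false

noncomputable section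

namespace Fermat.Agent.GenusLib.Defs

open UpperHalfPlane hiding I
open Filter Topology Complex Function Asymptotics
open scoped Real MatrixGroups ModularForm Manifold
open CongruenceSubgroup Matrix.SpecialLinearGroup ModularForm
open Fermat.Agent.S23Lib Fermat.Agent.S23Lib.Conj

local notation "Δ" => ModularForm.discriminant

/-! ### Integer powers of the discriminant -/

/-- `Δ ^ m` (`m : ℤ`) as a function on `ℍ`. -/
def dpow (m : ℤ) : ℍ → ℂ := fun z => Δ z ^ m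

theorem dpow_apply (m : ℤ) (z : ℍ) : dpow m z = Δ z ^ m := rfl

theorem dpow_ne_zero (m : ℤ) (z : ℍ) : dpow m z ≠ 0 :=
  zpow_ne_zero m (discriminant_ne_zero z)

theorem dpow_zero : dpow 0 = 1 := by
  funext z; simp [dpow]

theorem dpow_one : dpow 1 = Δ := by
  funext z; simp [dpow]

theorem dpow_add (m n : ℤ) : dpow (m + n) = dpow m * dpow n := by
  funext z
  simp only [dpow, Pi.mul_apply]
  exact zpow_add₀ (discriminant_ne_zero z) m n

theorem dpow_neg_mul (m : ℤ) : dpow (-m) * dpow m = 1 := by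
  rw [← dpow_add, neg_add_cancel, dpow_zero]

theorem dpow_mul_neg (m : ℤ) : dpow m * dpow (-m) = 1 := by
  rw [← dpow_add, add_neg_cancel, dpow_zero]

theorem dpow_natCast (n : ℕ) : dpow (n : ℤ) = Δ ^ n := by
  funext z; simp [dpow]

theorem discriminant_mdiff : MDiff (Δ : ℍ → ℂ) := CuspForm.discriminant.holo'

theorem discriminant_slash (γ : SL(2, ℤ)) : (Δ : ℍ → ℂ) ∣[(12 : ℤ)] γ = Δ :=
  SlashInvariantFormClass.slash_action_eq CuspForm.discriminant _ ⟨γ, rfl⟩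

theorem discriminant_isZeroAtImInfty : IsZeroAtImInfty (Δ : ℍ → ℂ) :=
  CuspFormClass.zero_at_infty CuspForm.discriminant

theorem discriminant_smul (γ : SL(2, ℤ)) (z : ℍ) : Δ (γ • z) = denom γ z ^ (12 : ℤ) * Δ z := by
  have h := congrFun (discriminant_slash γ) z
  rw [ModularForm.SL_slash_apply] at h
  have hd : denom γ z ≠ 0 := denom_ne_zero γ z
  rw [← h, mul_comm (Δ (γ • z)), ← mul_assoc, ← zpow_add₀ hd]
  simp

theorem dpow_mdiff (m : ℤ) : MDiff (dpow m) := by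
  have h : ∀ n : ℕ, MDiff (dpow (n : ℤ)) := fun n => by
    rw [dpow_natCast]; exact discriminant_mdiff.pow n
  have h' : ∀ n : ℕ, MDiff (dpow (-(n : ℤ))) := fun n => by
    rw [UpperHalfPlane.mdifferentiable_iff]
    have h1 := UpperHalfPlane.mdifferentiable_iff.mp (h n)
    have h2 : dpow (-(n : ℤ)) ∘ ofComplex = fun z => ((dpow (n : ℤ) ∘ ofComplex) z)⁻¹ := by
      funext z; simp [dpow, zpow_neg]
    rw [h2]
    exact h1.inv fun z _ => dpow_ne_zero _ _
  obtain ⟨n, rfl | rfl⟩ := Int.eq_nat_or_neg m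
  · exact h n
  · exact h' n

theorem dpow_slash (m : ℤ) (γ : SL(2, ℤ)) : dpow m ∣[12 * m] γ = dpow m := by
  funext z
  rw [ModularForm.SL_slash_apply, dpow_apply, dpow_apply, discriminant_smul, mul_zpow,
    ← zpow_mul, mul_comm, ← mul_assoc, ← zpow_add₀ (denom_ne_zero γ z)]
  simp

/-! ### `j` and `ω₁` -/

/-- The `j`-function `E₄³/Δ` (not normalised by `1728`). -/
def jFun : ℍ → ℂ := fun z => E₄ z ^ 3 / Δ z

/-- The weight two form `ω₁ = E₄²E₆/Δ` with a simple pole at `i∞`. -/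
def om1 : ℍ → ℂ := fun z => E₄ z ^ 2 * E₆ z / Δ z

theorem jFun_eq : jFun = (⇑E₄) ^ 3 * dpow (-1) := by
  funext z; simp [jFun, dpow, div_eq_mul_inv]

theorem om1_eq : om1 = (⇑E₄) ^ 2 * ⇑E₆ * dpow (-1) := by
  funext z; simp [om1, dpow, div_eq_mul_inv]

/-! ### Weakly holomorphic forms -/

/-- Weight `w` weakly holomorphic forms `F` for `Γ₀(N)` with `(F ∣[w] γ) * Δ^m` bounded at
`i∞` for all `γ : SL(2, ℤ)` ("pole order at most `m` in the level one parameter at every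
cusp"). -/
def WHle (N : ℕ) (w m : ℤ) : Submodule ℂ (ℍ → ℂ) where
  carrier := {F | MDiff F ∧ Inv (Gamma0 N) w F ∧
    ∀ γ : SL(2, ℤ), IsBoundedAtImInfty ((F ∣[w] γ) * dpow m)}
  add_mem' := by
    rintro F G ⟨hF1, hF2, hF3⟩ ⟨hG1, hG2, hG3⟩
    refine ⟨hF1.add hG1, fun γ hγ => ?_, fun γ => ?_⟩
    · rw [SlashAction.add_slash, hF2 γ hγ, hG2 γ hγ]
    · rw [SlashAction.add_slash, add_mul]
      exact (hF3 γ).add (hG3 γ)
  zero_mem' := by
    refine ⟨(mdifferentiable_const : MDiff (fun _ : ℍ => (0 : ℂ))), fun γ _ => ?_, fun γ => ?_⟩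
    · exact SlashAction.zero_slash _ _
    · rw [SlashAction.zero_slash, zero_mul]
      exact Filter.const_boundedAtFilter atImInfty (0 : ℂ)
  smul_mem' := by
    rintro c F ⟨hF1, hF2, hF3⟩
    refine ⟨?_, Inv.smul c hF2, fun γ => ?_⟩
    · have : c • F = (fun _ : ℍ => c) * F := by funext z; simp
      rw [this]; exact mdifferentiable_const.mul hF1
    · rw [ModularForm.SL_smul_slash, smul_mul_assoc]
      exact (hF3 γ).const_smul_left c

/-- The same with "zero at `i∞`" ("pole order less than `m`"). -/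
def WHlt (N : ℕ) (w m : ℤ) : Submodule ℂ (ℍ → ℂ) where
  carrier := {F | MDiff F ∧ Inv (Gamma0 N) w F ∧
    ∀ γ : SL(2, ℤ), IsZeroAtImInfty ((F ∣[w] γ) * dpow m)}
  add_mem' := by
    rintro F G ⟨hF1, hF2, hF3⟩ ⟨hG1, hG2, hG3⟩
    refine ⟨hF1.add hG1, fun γ hγ => ?_, fun γ => ?_⟩
    · rw [SlashAction.add_slash, hF2 γ hγ, hG2 γ hγ]
    · rw [SlashAction.add_slash, add_mul]
      exact (hF3 γ).add (hG3 γ)
  zero_mem' := by
    refine ⟨(mdifferentiable_const : MDiff (fun _ : ℍ => (0 : ℂ))), fun γ _ => ?_, fun γ => ?_⟩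
    · exact SlashAction.zero_slash _ _
    · rw [SlashAction.zero_slash, zero_mul]
      exact Filter.zero_zeroAtFilter atImInfty
  smul_mem' := by
    rintro c F ⟨hF1, hF2, hF3⟩
    refine ⟨?_, Inv.smul c hF2, fun γ => ?_⟩
    · have : c • F = (fun _ : ℍ => c) * F := by funext z; simp
      rw [this]; exact mdifferentiable_const.mul hF1
    · rw [ModularForm.SL_smul_slash, smul_mul_assoc]
      exact (hF3 γ).smul c

theorem mem_WHle {N : ℕ} {w m : ℤ} {F : ℍ → ℂ} :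
    F ∈ WHle N w m ↔ MDiff F ∧ Inv (Gamma0 N) w F ∧
      ∀ γ : SL(2, ℤ), IsBoundedAtImInfty ((F ∣[w] γ) * dpow m) := Iff.rfl

theorem mem_WHlt {N : ℕ} {w m : ℤ} {F : ℍ → ℂ} :
    F ∈ WHlt N w m ↔ MDiff F ∧ Inv (Gamma0 N) w F ∧
      ∀ γ : SL(2, ℤ), IsZeroAtImInfty ((F ∣[w] γ) * dpow m) := Iff.rfl

theorem WHlt_le_WHle (N : ℕ) (w m : ℤ) : WHlt N w m ≤ WHle N w m :=
  fun _ hF => ⟨hF.1, hF.2.1, fun γ => (hF.2.2 γ).boundedAtFilter⟩

/-- `WHle N w m ≤ WHlt N w (m + 1)`: bounded times `Δ` is zero at `i∞`. -/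
theorem WHle_le_WHlt_succ (N : ℕ) (w m : ℤ) : WHle N w m ≤ WHlt N w (m + 1) := by
  intro F hF
  refine ⟨hF.1, hF.2.1, fun γ => ?_⟩
  rw [dpow_add, dpow_one, ← mul_assoc, mul_comm]
  exact Sym.zero_mul_bdd discriminant_isZeroAtImInfty (hF.2.2 γ)

theorem WHle_mono (N : ℕ) (w : ℤ) : Monotone (WHle N w) := by
  have step : ∀ m : ℤ, WHle N w m ≤ WHle N w (m + 1) := fun m =>
    (WHle_le_WHlt_succ N w m).trans (WHlt_le_WHle N w (m + 1))
  exact monotone_int_of_le_succ step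

theorem WHlt_mono (N : ℕ) (w : ℤ) : Monotone (WHlt N w) := by
  have step : ∀ m : ℤ, WHlt N w m ≤ WHlt N w (m + 1) := fun m =>
    (WHlt_le_WHle N w m).trans (WHle_le_WHlt_succ N w m)
  exact monotone_int_of_le_succ step

/-- All weakly holomorphic forms of weight `w` for `Γ₀(N)` (meromorphic at the cusps). -/
def WH (N : ℕ) (w : ℤ) : Submodule ℂ (ℍ → ℂ) where
  carrier := {F | ∃ m : ℤ, F ∈ WHle N w m}
  add_mem' := by
    rintro F G ⟨m, hF⟩ ⟨n, hG⟩
    exact ⟨max m n, (WHle N w (max m n)).add_mem (WHle_mono N w (le_max_left m n) hF)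
      (WHle_mono N w (le_max_right m n) hG)⟩
  zero_mem' := ⟨0, (WHle N w 0).zero_mem⟩
  smul_mem' := by
    rintro c F ⟨m, hF⟩
    exact ⟨m, (WHle N w m).smul_mem c hF⟩

theorem mem_WH {N : ℕ} {w : ℤ} {F : ℍ → ℂ} : F ∈ WH N w ↔ ∃ m : ℤ, F ∈ WHle N w m := Iff.rfl

theorem WHle_le_WH (N : ℕ) (w m : ℤ) : WHle N w m ≤ WH N w := fun _ hF => ⟨m, hF⟩

end Fermat.Agent.GenusLib.Defs
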