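import Mathlib
import Fermat.Agent.GenusLib.Defs

/-!
# PROJECT X (S20), work package J0: level one input

* (a) level one forms of weight `12 m` are `P(j) Δ^m`, of weight `12 m + 14` are `E₄² E₆ P(j) Δ^m`;
* (b), (c) `SL(2, ℤ)`-invariant weakly holomorphic functions of weight `0` (resp. `2`) are
  `P(j)` (resp. `P(j) ω₁`), with sharp degree bounds; membership criteria for
  `WHle 1 0 m`, `WHle 1 2 m`, `WHlt 1 2 m`.
-/

set_option autoImplicit false

open UpperHalfPlane ModularForm SlashInvariantForm SlashInvariantFormClass ModularFormClass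
  CuspFormClass MatrixGroups OnePoint Filter EisensteinSeries Asymptotics Polynomial
  CongruenceSubgroup

open scoped Topology Manifold

open Fermat.Agent.S23Lib Fermat.Agent.S23Lib.Conj Fermat.Agent.GenusLib.Defs

noncomputable section

namespace Fermat.Agent.GenusLib.LevelOne

local notation "Δ" => ModularForm.discriminant

/-! ### (a) Level one forms -/

/-- Constant `q`-coefficient of a product of level one forms. -/
lemma coeff_zero_mul {k₁ k₂ : ℤ} (f : ModularForm 𝒮ℒ k₁) (g : ModularForm 𝒮ℒ k₂) :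
    (qExpansion 1 (f.mul g)).coeff 0 = (qExpansion 1 f).coeff 0 * (qExpansion 1 g).coeff 0 := by
  rw [ModularForm.qExpansion_mul one_pos one_mem_strictPeriods_SL]
  simp [PowerSeries.coeff_mul]

lemma coeff_zero_E₄ : (qExpansion 1 E₄).coeff 0 = 1 := E_qExpansion_coeff_zero _ ⟨2, rfl⟩

lemma coeff_zero_E₆ : (qExpansion 1 E₆).coeff 0 = 1 := E_qExpansion_coeff_zero _ ⟨3, rfl⟩

lemma coeff_zero_pow {k : ℤ} (f : ModularForm 𝒮ℒ k) (n : ℕ) :
    (qExpansion 1 (f.pow n)).coeff 0 = (qExpansion 1 f).coeff 0 ^ n := by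
  rw [ModularForm.qExpansion_pow one_pos one_mem_strictPeriods_SL]
  simp [PowerSeries.coeff_zero_eq_constantCoeff]

lemma jFun_mul_discriminant (z : ℍ) : jFun z * Δ z = E₄ z ^ 3 := by
  unfold jFun
  exact div_mul_cancel₀ _ (discriminant_ne_zero z)

lemma om1_mul_discriminant (z : ℍ) : om1 z * Δ z = E₄ z ^ 2 * E₆ z := by
  unfold om1
  exact div_mul_cancel₀ _ (discriminant_ne_zero z)

lemma jFun_pow_mul (z : ℍ) (n : ℕ) : jFun z ^ n * Δ z ^ n = E₄ z ^ (3 * n) := by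
  rw [← mul_pow, jFun_mul_discriminant, ← pow_mul]

/-- Structure of level one forms of weight `k₀ + 12 m` relative to a base form `B` of weight `k₀`
with constant coefficient `1`, when there are no nonzero forms of weight `k₀ - 12`. -/
theorem exists_poly_of_base {k₀ : ℤ} (B : ModularForm 𝒮ℒ k₀) (hB : (qExpansion 1 B).coeff 0 = 1)
    (h0 : ∀ f : ModularForm 𝒮ℒ (k₀ - 12), f = 0) :
    ∀ (m : ℕ) (k : ℤ), k = k₀ + 12 * m → ∀ F : ModularForm 𝒮ℒ k,
      ∃ P : ℂ[X], P.natDegree ≤ m ∧ ∀ z : ℍ, F z = B z * P.eval (jFun z) * Δ z ^ m := by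
  intro m
  induction m with
  | zero =>
    intro k hk F
    have hk' : k = k₀ := by simpa using hk
    subst hk'
    obtain ⟨g, hg⟩ := ModularForm.sub_smul_isCuspForm F B hB
    have hH := h0 (CuspForm.discriminantEquiv g)
    refine ⟨C ((qExpansion 1 F).coeff 0), by simp, fun z => ?_⟩
    have h1 : Δ z * (CuspForm.discriminantEquiv g) z = g z :=
      discriminant_mul_discriminantEquiv_apply g z
    have h2 : g z = F z - (qExpansion 1 F).coeff 0 * B z := by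
      have := congrArg (fun f : ModularForm 𝒮ℒ k => f z) hg
      simpa using this
    rw [hH] at h1
    simp only [zero_apply, mul_zero] at h1
    simp only [eval_C, pow_zero, mul_one]
    linear_combination -h1 - h2
  | succ m ih =>
    intro k hk F
    have hw : k₀ + ((3 * (m + 1) : ℕ) : ℤ) * 4 = k := by rw [hk]; push_cast; ring
    set G : ModularForm 𝒮ℒ k := ModularForm.mcast hw (B.mul (E₄.pow (3 * (m + 1)))) with hG
    have hGc : (qExpansion 1 G).coeff 0 = 1 := by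
      have : (G : ℍ → ℂ) = (B.mul (E₄.pow (3 * (m + 1))) : ℍ → ℂ) := by
        rw [hG]; rfl
      rw [this, coeff_zero_mul, coeff_zero_pow, hB, coeff_zero_E₄]
      simp
    have hGz : ∀ z, G z = B z * E₄ z ^ (3 * (m + 1)) := by
      intro z
      have h4 : ((E₄.pow (3 * (m + 1)) : ModularForm 𝒮ℒ _) : ℍ → ℂ)
          = (E₄ : ℍ → ℂ) ^ (3 * (m + 1)) := ModularForm.coe_pow _ _
      have h5 : G z = B z * (E₄.pow (3 * (m + 1))) z := by simp [hG]
      rw [h5, h4]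
      rfl
    obtain ⟨g, hg⟩ := ModularForm.sub_smul_isCuspForm F G hGc
    obtain ⟨P, hP, hPz⟩ := ih (k - 12) (by rw [hk]; push_cast; ring) (CuspForm.discriminantEquiv g)
    refine ⟨C ((qExpansion 1 F).coeff 0) * X ^ (m + 1) + P, ?_, fun z => ?_⟩
    · refine (natDegree_add_le _ _).trans (max_le ?_ (hP.trans (Nat.le_succ m)))
      exact natDegree_C_mul_X_pow_le _ _
    · have h1 : Δ z * (CuspForm.discriminantEquiv g) z = g z :=
        discriminant_mul_discriminantEquiv_apply g z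
      have h2 : g z = F z - (qExpansion 1 F).coeff 0 * G z := by
        have := congrArg (fun f : ModularForm 𝒮ℒ k => f z) hg
        simpa using this
      rw [hPz z] at h1
      have h3 := jFun_pow_mul z (m + 1)
      rw [hGz z] at h2
      simp only [eval_add, eval_mul, eval_C, eval_pow, eval_X]
      linear_combination -h1 - h2 - ((qExpansion 1 F).coeff 0 * B z) * h3

/-- (a) Level one forms of weight `12 m` are `P(j) Δ^m` with `natDegree P ≤ m`. -/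
theorem exists_poly_weight_twelve_mul (m : ℕ) (k : ℤ) (hk : k = 12 * m) (F : ModularForm 𝒮ℒ k) :
    ∃ P : ℂ[X], P.natDegree ≤ m ∧ ∀ z : ℍ, F z = P.eval (jFun z) * Δ z ^ m := by
  have hB : (qExpansion 1 (1 : ModularForm 𝒮ℒ 0)).coeff 0 = 1 := by
    rw [ModularForm.one_coe_eq_one, qExpansion_one]
    simp
  have h0 : ∀ f : ModularForm 𝒮ℒ ((0 : ℤ) - 12), f = 0 := by
    intro f
    have := levelOne_neg_weight_eq_zero (by norm_num : ((0 : ℤ) - 12) < 0) f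
    exact DFunLike.coe_injective this
  obtain ⟨P, hP, hPz⟩ := exists_poly_of_base (1 : ModularForm 𝒮ℒ 0) hB h0 m k (by rw [hk]; ring) F
  refine ⟨P, hP, fun z => ?_⟩
  rw [hPz z, ModularForm.one_coe_eq_one]
  simp

/-- The weight 14 form `E₄² E₆`. -/
def E14 : ModularForm 𝒮ℒ 14 :=
  ModularForm.mcast (by norm_num) ((E₄.pow 2).mul E₆)

lemma E14_apply (z : ℍ) : E14 z = E₄ z ^ 2 * E₆ z := by
  have h4 : ((E₄.pow 2 : ModularForm 𝒮ℒ _) : ℍ → ℂ) = (E₄ : ℍ → ℂ) ^ 2 := ModularForm.coe_pow _ _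
  have h5 : E14 z = (E₄.pow 2) z * E₆ z := rfl
  rw [h5, h4]
  rfl

lemma coeff_zero_E14 : (qExpansion 1 E14).coeff 0 = 1 := by
  have : (E14 : ℍ → ℂ) = ((E₄.pow 2).mul E₆ : ℍ → ℂ) := rfl
  rw [this, coeff_zero_mul, coeff_zero_pow, coeff_zero_E₄, coeff_zero_E₆]
  simp

/-- Level one forms of weight `2` vanish. -/
theorem weight_two_eq_zero (F : ModularForm 𝒮ℒ 2) : F = 0 :=
  rank_zero_iff_forall_zero.mp levelOne_weight_two_rank_zero F

/-- (a) Level one forms of weight `12 m + 14` are `E₄² E₆ P(j) Δ^m` with `natDegree P ≤ m`. -/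
theorem exists_poly_weight_twelve_mul_add (m : ℕ) (k : ℤ) (hk : k = 12 * m + 14)
    (F : ModularForm 𝒮ℒ k) :
    ∃ P : ℂ[X], P.natDegree ≤ m ∧
      ∀ z : ℍ, F z = E₄ z ^ 2 * E₆ z * P.eval (jFun z) * Δ z ^ m := by
  have h0 : ∀ f : ModularForm 𝒮ℒ ((14 : ℤ) - 12), f = 0 := by
    intro f
    have := weight_two_eq_zero (ModularForm.mcast (by norm_num) f)
    ext z
    have h3 := congrArg (fun g : ModularForm 𝒮ℒ 2 => g z) this
    simpa using h3
  obtain ⟨P, hP, hPz⟩ := exists_poly_of_base E14 coeff_zero_E14 h0 m k (by rw [hk]; ring) F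
  refine ⟨P, hP, fun z => ?_⟩
  rw [hPz z, E14_apply]

/-! ### Transformation behaviour of `j` and `ω₁` -/

/-- Level one forms: `f (γ • z) = (cz + d)^k f z`. -/
theorem levelOne_smul {k : ℤ} (f : ModularForm 𝒮ℒ k) (γ : SL(2, ℤ)) (z : ℍ) :
    f (γ • z) = denom γ z ^ k * f z := by
  have h0 : (f : ℍ → ℂ) ∣[k] γ = f := SlashInvariantFormClass.slash_action_eq f _ ⟨γ, rfl⟩
  have h := congrFun h0 z
  rw [ModularForm.SL_slash_apply] at h
  have hd : denom γ z ≠ 0 := denom_ne_zero γ z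
  rw [← h, mul_comm (f (γ • z)), ← mul_assoc, ← zpow_add₀ hd]
  simp

theorem jFun_smul (γ : SL(2, ℤ)) (z : ℍ) : jFun (γ • z) = jFun z := by
  have hd : denom γ z ≠ 0 := denom_ne_zero γ z
  unfold jFun
  rw [levelOne_smul E₄ γ z, discriminant_smul γ z]
  have h12 : (denom γ z ^ (4 : ℤ)) ^ 3 = denom γ z ^ (12 : ℤ) := by
    rw [← zpow_natCast (denom γ z ^ (4 : ℤ)), ← zpow_mul]; norm_num
  rw [mul_pow, h12, mul_div_mul_left _ _ (zpow_ne_zero 12 hd)]

theorem om1_smul (γ : SL(2, ℤ)) (z : ℍ) : om1 (γ • z) = denom γ z ^ (2 : ℤ) * om1 z := by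
  have hd : denom γ z ≠ 0 := denom_ne_zero γ z
  unfold om1
  rw [levelOne_smul E₄ γ z, levelOne_smul E₆ γ z, discriminant_smul γ z]
  have h8 : (denom γ z ^ (4 : ℤ) * E₄ z) ^ 2 * (denom γ z ^ (6 : ℤ) * E₆ z)
      = denom γ z ^ (2 : ℤ) * (denom γ z ^ (12 : ℤ) * (E₄ z ^ 2 * E₆ z)) := by
    have : (denom γ z ^ (4 : ℤ)) ^ 2 * denom γ z ^ (6 : ℤ)
        = denom γ z ^ (2 : ℤ) * (denom γ z ^ (12 : ℤ)) := by
      rw [← zpow_natCast (denom γ z ^ (4 : ℤ)), ← zpow_mul, ← zpow_add₀ hd, ← zpow_add₀ hd]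
      norm_num
    linear_combination (E₄ z ^ 2 * E₆ z) * this
  rw [h8, mul_div_assoc, mul_div_mul_left _ _ (zpow_ne_zero 12 hd)]

theorem jFun_mdiff : MDiff jFun := by
  rw [jFun_eq]
  exact (E₄.holo'.pow 3).mul (dpow_mdiff (-1))

theorem om1_mdiff : MDiff om1 := by
  rw [om1_eq]
  exact ((E₄.holo'.pow 2).mul E₆.holo').mul (dpow_mdiff (-1))

theorem slash_zero_eq_of_smul {F : ℍ → ℂ} (h : ∀ (γ : SL(2, ℤ)) (z : ℍ), F (γ • z) = F z)
    (γ : SL(2, ℤ)) : F ∣[(0 : ℤ)] γ = F := by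
  funext z
  rw [ModularForm.SL_slash_apply, h]
  simp

theorem slash_two_eq_of_smul {F : ℍ → ℂ}
    (h : ∀ (γ : SL(2, ℤ)) (z : ℍ), F (γ • z) = denom γ z ^ (2 : ℤ) * F z)
    (γ : SL(2, ℤ)) : F ∣[(2 : ℤ)] γ = F := by
  funext z
  have hd : denom γ z ≠ 0 := denom_ne_zero γ z
  rw [ModularForm.SL_slash_apply, h, mul_comm (denom γ z ^ (2 : ℤ)), mul_assoc, ← zpow_add₀ hd]
  simp

theorem jFun_slash (γ : SL(2, ℤ)) : jFun ∣[(0 : ℤ)] γ = jFun :=
  slash_zero_eq_of_smul jFun_smul γ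

theorem om1_slash (γ : SL(2, ℤ)) : om1 ∣[(2 : ℤ)] γ = om1 :=
  slash_two_eq_of_smul om1_smul γ

/-- `P(j)` as a function on `ℍ`. -/
def polyJ (P : ℂ[X]) : ℍ → ℂ := fun τ => P.eval (jFun τ)

theorem polyJ_apply (P : ℂ[X]) (τ : ℍ) : polyJ P τ = P.eval (jFun τ) := rfl

theorem polyJ_smul (P : ℂ[X]) (γ : SL(2, ℤ)) (z : ℍ) : polyJ P (γ • z) = polyJ P z := by
  show P.eval (jFun (γ • z)) = P.eval (jFun z)
  rw [jFun_smul]

theorem polyJ_slash (P : ℂ[X]) (γ : SL(2, ℤ)) : polyJ P ∣[(0 : ℤ)] γ = polyJ P :=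
  slash_zero_eq_of_smul (polyJ_smul P) γ

theorem polyJ_mdiff (P : ℂ[X]) : MDiff (polyJ P) := by
  rw [UpperHalfPlane.mdifferentiable_iff]
  have h1 := UpperHalfPlane.mdifferentiable_iff.mp jFun_mdiff
  have h2 : polyJ P ∘ ofComplex = (fun x => P.eval x) ∘ (jFun ∘ ofComplex) := rfl
  rw [h2]
  exact P.differentiable.comp_differentiableOn h1

theorem polyJ_mul_om1_slash (P : ℂ[X]) (γ : SL(2, ℤ)) :
    (polyJ P * om1) ∣[(2 : ℤ)] γ = polyJ P * om1 := by
  have := ModularForm.mul_slash_SL2 0 2 γ (polyJ P) om1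
  rw [zero_add] at this
  rw [this, polyJ_slash, om1_slash]

theorem polyJ_mul_om1_mdiff (P : ℂ[X]) : MDiff (polyJ P * om1) :=
  (polyJ_mdiff P).mul om1_mdiff

/-! ### (b), (c): function level -/

/-- (b) An `SL(2, ℤ)`-invariant holomorphic function `F` with `F Δ^m` bounded at `i∞` is a
polynomial of degree `≤ m` in `j`. -/
theorem exists_poly_weight_zero {F : ℍ → ℂ} (hF : MDiff F)
    (hinv : ∀ γ : SL(2, ℤ), F ∣[(0 : ℤ)] γ = F) (m : ℕ)
    (hb : IsBoundedAtImInfty (F * dpow m)) :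
    ∃ P : ℂ[X], P.natDegree ≤ m ∧ ∀ τ : ℍ, F τ = P.eval (jFun τ) := by
  have hinv' : ∀ γ : SL(2, ℤ), (F * dpow m) ∣[(12 * m : ℤ)] γ = F * dpow m := by
    intro γ
    have := ModularForm.mul_slash_SL2 0 (12 * m) γ F (dpow m)
    rw [zero_add] at this
    rw [this, hinv γ, dpow_slash]
  obtain ⟨P, hP, hPz⟩ := exists_poly_weight_twelve_mul m (12 * m) rfl
    (Sym.mkLevelOne (F * dpow m) (12 * m) hinv' (hF.mul (dpow_mdiff m)) hb)
  refine ⟨P, hP, fun τ => ?_⟩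
  have h2 := hPz τ
  simp only [Sym.coe_mkLevelOne, Pi.mul_apply, dpow_apply, zpow_natCast] at h2
  exact mul_right_cancel₀ (pow_ne_zero m (discriminant_ne_zero τ)) h2

/-- (c) A weight two `SL(2, ℤ)`-invariant holomorphic function `F` with `F Δ^m` bounded at `i∞`
is `P(j) ω₁` with `P = 0` or `natDegree P + 1 ≤ m`. -/
theorem exists_poly_weight_two {F : ℍ → ℂ} (hF : MDiff F)
    (hinv : ∀ γ : SL(2, ℤ), F ∣[(2 : ℤ)] γ = F) (m : ℕ)
    (hb : IsBoundedAtImInfty (F * dpow m)) :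
    ∃ P : ℂ[X], (P = 0 ∨ P.natDegree + 1 ≤ m) ∧ ∀ τ : ℍ, F τ = P.eval (jFun τ) * om1 τ := by
  have hinv' : ∀ γ : SL(2, ℤ), (F * dpow m) ∣[(2 + 12 * m : ℤ)] γ = F * dpow m := by
    intro γ
    rw [ModularForm.mul_slash_SL2 2 (12 * m) γ F (dpow m), hinv γ, dpow_slash]
  cases m with
  | zero =>
    have h0 := weight_two_eq_zero (ModularForm.mcast (by norm_num)
      (Sym.mkLevelOne (F * dpow (0 : ℕ)) (2 + 12 * (0 : ℕ)) hinv' (hF.mul (dpow_mdiff _)) hb))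
    refine ⟨0, Or.inl rfl, fun τ => ?_⟩
    have h3 := congrArg (fun g : ModularForm 𝒮ℒ 2 => g τ) h0
    simpa [dpow_apply] using h3
  | succ n =>
    obtain ⟨P, hP, hPz⟩ := exists_poly_weight_twelve_mul_add n (2 + 12 * ((n + 1 : ℕ) : ℤ))
      (by push_cast; ring)
      (Sym.mkLevelOne (F * dpow (n + 1 : ℕ)) _ hinv' (hF.mul (dpow_mdiff _)) hb)
    refine ⟨P, Or.inr (by omega), fun τ => ?_⟩
    have h2 := hPz τ
    simp only [Sym.coe_mkLevelOne, Pi.mul_apply, dpow_apply, zpow_natCast] at h2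
    have hΔ := discriminant_ne_zero τ
    unfold om1
    field_simp
    rw [pow_succ] at h2
    have h3 : F τ * Δ τ * Δ τ ^ n = (E₄ τ ^ 2 * E₆ τ * eval (jFun τ) P) * Δ τ ^ n := by
      linear_combination h2
    have h4 := mul_right_cancel₀ (pow_ne_zero n hΔ) h3
    linear_combination h4

/-! ### Behaviour at `i∞` -/

theorem tendsto_levelOne {k : ℤ} (f : ModularForm 𝒮ℒ k) :
    Tendsto (fun z : ℍ => f z) atImInfty (𝓝 ((qExpansion 1 f).coeff 0)) :=
  qf_tendsto (qf_levelOne f)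

theorem tendsto_E₄ : Tendsto (fun z : ℍ => E₄ z) atImInfty (𝓝 1) := by
  have := tendsto_levelOne E₄
  rwa [coeff_zero_E₄] at this

theorem tendsto_E₆ : Tendsto (fun z : ℍ => E₆ z) atImInfty (𝓝 1) := by
  have := tendsto_levelOne E₆
  rwa [coeff_zero_E₆] at this

theorem tendsto_discriminant : Tendsto (fun z : ℍ => Δ z) atImInfty (𝓝 0) :=
  ModularForm.discriminant_isZeroAtImInfty

theorem tendsto_jFun_mul : Tendsto (fun z : ℍ => jFun z * Δ z) atImInfty (𝓝 1) := by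
  simp_rw [jFun_mul_discriminant]
  simpa using tendsto_E₄.pow 3

theorem tendsto_om1_mul : Tendsto (fun z : ℍ => om1 z * Δ z) atImInfty (𝓝 1) := by
  simp_rw [om1_mul_discriminant]
  simpa using (tendsto_E₄.pow 2).mul tendsto_E₆

/-- `P(j) Δ^(deg P)` tends to the leading coefficient of `P` at `i∞`. -/
theorem tendsto_polyJ_mul (P : ℂ[X]) :
    Tendsto (fun z : ℍ => polyJ P z * Δ z ^ P.natDegree) atImInfty (𝓝 P.leadingCoeff) := by
  have h : ∀ z : ℍ, polyJ P z * Δ z ^ P.natDegree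
      = ∑ i ∈ Finset.range (P.natDegree + 1),
          P.coeff i * (jFun z * Δ z) ^ i * Δ z ^ (P.natDegree - i) := by
    intro z
    rw [polyJ_apply, eval_eq_sum_range, Finset.sum_mul]
    refine Finset.sum_congr rfl fun i hi => ?_
    have hi' : i ≤ P.natDegree := Nat.lt_succ_iff.mp (Finset.mem_range.mp hi)
    have : Δ z ^ P.natDegree = Δ z ^ i * Δ z ^ (P.natDegree - i) := by
      rw [← pow_add]; congr 1; omega
    rw [this, mul_pow]; ring
  simp_rw [h]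
  have h2 : P.leadingCoeff
      = ∑ i ∈ Finset.range (P.natDegree + 1), P.coeff i * 1 ^ i * 0 ^ (P.natDegree - i) := by
    rw [Finset.sum_range_succ, Finset.sum_eq_zero]
    · simp
    · intro i hi
      have : P.natDegree - i ≠ 0 := by have := Finset.mem_range.mp hi; omega
      simp [this]
  rw [h2]
  exact tendsto_finsetSum _ fun i _ =>
    ((tendsto_const_nhds.mul (tendsto_jFun_mul.pow i)).mul (tendsto_discriminant.pow _))

theorem isBoundedAtImInfty_of_tendsto {g : ℍ → ℂ} {c : ℂ} (hg : Tendsto g atImInfty (𝓝 c)) :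
    IsBoundedAtImInfty g :=
  hg.isBigO_one ℝ

theorem tendsto_dpow_of_pos {k : ℤ} (hk : 1 ≤ k) : Tendsto (dpow k) atImInfty (𝓝 0) := by
  obtain ⟨n, rfl⟩ := Int.eq_ofNat_of_zero_le (by omega : 0 ≤ k)
  rw [dpow_natCast]
  have h := tendsto_discriminant.pow n
  have hn : n ≠ 0 := by omega
  rw [zero_pow hn] at h
  exact h

theorem isBoundedAtImInfty_dpow {k : ℤ} (hk : 0 ≤ k) : IsBoundedAtImInfty (dpow k) := by
  rcases hk.eq_or_lt with h | h
  · rw [← h, dpow_zero]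
    exact isBoundedAtImInfty_of_tendsto (tendsto_const_nhds (x := (1 : ℂ)))
  · exact isBoundedAtImInfty_of_tendsto (tendsto_dpow_of_pos (by omega))

theorem mul_dpow_cancel (g : ℍ → ℂ) (k : ℤ) : dpow (-k) * (g * dpow k) = g := by
  rw [mul_comm g, ← mul_assoc, dpow_neg_mul, one_mul]

/-- If `g → c ≠ 0` at `i∞`, then `g Δ^k` is bounded at `i∞` iff `0 ≤ k`. -/
theorem isBoundedAtImInfty_mul_dpow_iff {g : ℍ → ℂ} {c : ℂ} (hc : c ≠ 0)
    (hg : Tendsto g atImInfty (𝓝 c)) (k : ℤ) :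
    IsBoundedAtImInfty (g * dpow k) ↔ 0 ≤ k := by
  constructor
  · intro hb
    by_contra hk
    have h1 : IsZeroAtImInfty (dpow (-k) * (g * dpow k)) :=
      Sym.zero_mul_bdd (tendsto_dpow_of_pos (by omega)) hb
    rw [mul_dpow_cancel] at h1
    exact hc (tendsto_nhds_unique hg h1)
  · intro hk
    exact (isBoundedAtImInfty_of_tendsto hg).mul (isBoundedAtImInfty_dpow hk)

/-- If `g → c ≠ 0` at `i∞`, then `g Δ^k` is zero at `i∞` iff `1 ≤ k`. -/
theorem isZeroAtImInfty_mul_dpow_iff {g : ℍ → ℂ} {c : ℂ} (hc : c ≠ 0)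
    (hg : Tendsto g atImInfty (𝓝 c)) (k : ℤ) :
    IsZeroAtImInfty (g * dpow k) ↔ 1 ≤ k := by
  constructor
  · intro hb
    by_contra hk
    have h1 : IsZeroAtImInfty ((g * dpow k) * dpow (-k)) :=
      Sym.zero_mul_bdd hb (isBoundedAtImInfty_dpow (by omega))
    rw [mul_comm, mul_dpow_cancel] at h1
    exact hc (tendsto_nhds_unique hg h1)
  · intro hk
    have := hg.mul (tendsto_dpow_of_pos hk)
    rw [mul_zero] at this
    exact this

theorem polyJ_mul_dpow (P : ℂ[X]) (m : ℤ) :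
    polyJ P * dpow m
      = (fun z : ℍ => polyJ P z * Δ z ^ P.natDegree) * dpow (m - P.natDegree) := by
  funext z
  simp only [Pi.mul_apply, dpow_apply]
  rw [mul_assoc, ← zpow_natCast (Δ z) P.natDegree, ← zpow_add₀ (discriminant_ne_zero z)]
  congr 2; ring

theorem polyJ_mul_om1_mul_dpow (P : ℂ[X]) (m : ℤ) :
    polyJ P * om1 * dpow m
      = (fun z : ℍ => (polyJ P z * Δ z ^ P.natDegree) * (om1 z * Δ z))
          * dpow (m - P.natDegree - 1) := by
  funext z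
  simp only [Pi.mul_apply, dpow_apply]
  have h : Δ z ^ m = Δ z ^ P.natDegree * Δ z * Δ z ^ (m - P.natDegree - 1) := by
    rw [← zpow_natCast (Δ z) P.natDegree, ← zpow_add_one₀ (discriminant_ne_zero z),
      ← zpow_add₀ (discriminant_ne_zero z)]
    congr 1; ring
  rw [h]; ring

theorem tendsto_polyJ_mul_om1 (P : ℂ[X]) :
    Tendsto (fun z : ℍ => (polyJ P z * Δ z ^ P.natDegree) * (om1 z * Δ z)) atImInfty
      (𝓝 P.leadingCoeff) := by
  simpa using (tendsto_polyJ_mul P).mul tendsto_om1_mul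

theorem isBoundedAtImInfty_polyJ_iff {P : ℂ[X]} (hP : P ≠ 0) (m : ℤ) :
    IsBoundedAtImInfty (polyJ P * dpow m) ↔ (P.natDegree : ℤ) ≤ m := by
  rw [polyJ_mul_dpow, isBoundedAtImInfty_mul_dpow_iff (leadingCoeff_ne_zero.mpr hP)
    (tendsto_polyJ_mul P)]
  omega

theorem isZeroAtImInfty_polyJ_iff {P : ℂ[X]} (hP : P ≠ 0) (m : ℤ) :
    IsZeroAtImInfty (polyJ P * dpow m) ↔ (P.natDegree : ℤ) + 1 ≤ m := by
  rw [polyJ_mul_dpow, isZeroAtImInfty_mul_dpow_iff (leadingCoeff_ne_zero.mpr hP)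
    (tendsto_polyJ_mul P)]
  omega

theorem isBoundedAtImInfty_polyJ_mul_om1_iff {P : ℂ[X]} (hP : P ≠ 0) (m : ℤ) :
    IsBoundedAtImInfty (polyJ P * om1 * dpow m) ↔ (P.natDegree : ℤ) + 1 ≤ m := by
  rw [polyJ_mul_om1_mul_dpow, isBoundedAtImInfty_mul_dpow_iff (leadingCoeff_ne_zero.mpr hP)
    (tendsto_polyJ_mul_om1 P)]
  omega

theorem isZeroAtImInfty_polyJ_mul_om1_iff {P : ℂ[X]} (hP : P ≠ 0) (m : ℤ) :
    IsZeroAtImInfty (polyJ P * om1 * dpow m) ↔ (P.natDegree : ℤ) + 2 ≤ m := by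
  rw [polyJ_mul_om1_mul_dpow, isZeroAtImInfty_mul_dpow_iff (leadingCoeff_ne_zero.mpr hP)
    (tendsto_polyJ_mul_om1 P)]
  omega

/-! ### Algebraic properties of `P ↦ P(j)` -/

theorem polyJ_zero : polyJ 0 = 0 := by funext z; simp [polyJ]

theorem polyJ_one : polyJ 1 = 1 := by funext z; simp [polyJ]

theorem polyJ_C (c : ℂ) : polyJ (C c) = fun _ => c := by funext z; simp [polyJ]

theorem polyJ_X : polyJ X = jFun := by funext z; simp [polyJ]

theorem polyJ_add (P Q : ℂ[X]) : polyJ (P + Q) = polyJ P + polyJ Q := by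
  funext z; simp [polyJ]

theorem polyJ_sub (P Q : ℂ[X]) : polyJ (P - Q) = polyJ P - polyJ Q := by
  funext z; simp [polyJ]

theorem polyJ_mul (P Q : ℂ[X]) : polyJ (P * Q) = polyJ P * polyJ Q := by
  funext z; simp [polyJ]

theorem polyJ_const_smul (c : ℂ) (P : ℂ[X]) : polyJ (c • P) = c • polyJ P := by
  funext z; simp [polyJ]

theorem polyJ_eq_aeval (P : ℂ[X]) : polyJ P = Polynomial.aeval jFun P := by
  funext z
  have h := Polynomial.aeval_algHom_apply (Pi.evalAlgHom ℂ (fun _ : ℍ => ℂ) z) jFun P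
  simp only [Pi.evalAlgHom_apply] at h
  rw [← h, polyJ_apply, Polynomial.coe_aeval_eq_eval]

/-- `j` is transcendental: `P(j) = 0` as a function only for `P = 0`. -/
theorem polyJ_eq_zero_iff {P : ℂ[X]} : polyJ P = 0 ↔ P = 0 := by
  constructor
  · intro h
    by_contra hP
    have h1 := tendsto_polyJ_mul P
    have h2 : (fun z : ℍ => polyJ P z * Δ z ^ P.natDegree) = fun _ => 0 := by
      funext z; rw [h]; simp
    rw [h2] at h1
    exact leadingCoeff_ne_zero.mpr hP (tendsto_nhds_unique h1 tendsto_const_nhds)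
  · rintro rfl
    exact polyJ_zero

theorem polyJ_injective : Function.Injective polyJ := by
  intro P Q h
  have : polyJ (P - Q) = 0 := by rw [polyJ_sub, h, sub_self]
  exact sub_eq_zero.mp (polyJ_eq_zero_iff.mp this)

theorem om1_ne_zero : om1 ≠ 0 := by
  intro h
  have h1 := tendsto_om1_mul
  have h2 : (fun z : ℍ => om1 z * Δ z) = fun _ => 0 := by
    funext z; rw [h]; simp
  rw [h2] at h1
  exact one_ne_zero (tendsto_nhds_unique h1 tendsto_const_nhds)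

theorem polyJ_mul_om1_eq_zero_iff {P : ℂ[X]} : polyJ P * om1 = 0 ↔ P = 0 := by
  constructor
  · intro h
    by_contra hP
    have h1 := tendsto_polyJ_mul_om1 P
    have h2 : (fun z : ℍ => (polyJ P z * Δ z ^ P.natDegree) * (om1 z * Δ z)) = fun _ => 0 := by
      funext z
      have := congrFun h z
      simp only [Pi.mul_apply, Pi.zero_apply] at this
      linear_combination (Δ z ^ P.natDegree * Δ z) * this
    rw [h2] at h1
    exact leadingCoeff_ne_zero.mpr hP (tendsto_nhds_unique h1 tendsto_const_nhds)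
  · rintro rfl
    rw [polyJ_zero, zero_mul]

theorem polyJ_mul_om1_injective : Function.Injective fun P : ℂ[X] => polyJ P * om1 := by
  intro P Q h
  have : polyJ (P - Q) * om1 = 0 := by
    rw [polyJ_sub, sub_mul]; exact sub_eq_zero.mpr h
  exact sub_eq_zero.mp (polyJ_mul_om1_eq_zero_iff.mp this)

/-! ### (b), (c): sharp forms with integer exponents -/

theorem isBoundedAtImInfty_mul_dpow_mono {F : ℍ → ℂ} {m m' : ℤ} (h : m ≤ m')
    (hb : IsBoundedAtImInfty (F * dpow m)) : IsBoundedAtImInfty (F * dpow m') := by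
  have : F * dpow m' = (F * dpow m) * dpow (m' - m) := by
    rw [mul_assoc, ← dpow_add]; congr 2; ring
  rw [this]
  exact hb.mul (isBoundedAtImInfty_dpow (by omega))

/-- (b) sharp form: an `SL(2, ℤ)`-invariant holomorphic `F` with `F Δ^m` bounded at `i∞`
(`m : ℤ`) is `P(j)` with `P = 0` or `natDegree P ≤ m`. -/
theorem exists_polyJ_of_bounded {F : ℍ → ℂ} (hF : MDiff F)
    (hinv : ∀ γ : SL(2, ℤ), F ∣[(0 : ℤ)] γ = F) (m : ℤ)
    (hb : IsBoundedAtImInfty (F * dpow m)) :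
    ∃ P : ℂ[X], (P = 0 ∨ (P.natDegree : ℤ) ≤ m) ∧ F = polyJ P := by
  have hb' : IsBoundedAtImInfty (F * dpow (m.toNat : ℤ)) :=
    isBoundedAtImInfty_mul_dpow_mono (Int.self_le_toNat m) hb
  obtain ⟨P, -, hPz⟩ := exists_poly_weight_zero hF hinv m.toNat hb'
  have hFP : F = polyJ P := funext hPz
  refine ⟨P, ?_, hFP⟩
  by_cases hP : P = 0
  · exact Or.inl hP
  · right
    rw [hFP] at hb
    exact (isBoundedAtImInfty_polyJ_iff hP m).mp hb

/-- (c) sharp form: a weight two `SL(2, ℤ)`-invariant holomorphic `F` with `F Δ^m` bounded at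
`i∞` (`m : ℤ`) is `P(j) ω₁` with `P = 0` or `natDegree P + 1 ≤ m`. -/
theorem exists_polyJ_mul_om1_of_bounded {F : ℍ → ℂ} (hF : MDiff F)
    (hinv : ∀ γ : SL(2, ℤ), F ∣[(2 : ℤ)] γ = F) (m : ℤ)
    (hb : IsBoundedAtImInfty (F * dpow m)) :
    ∃ P : ℂ[X], (P = 0 ∨ (P.natDegree : ℤ) + 1 ≤ m) ∧ F = polyJ P * om1 := by
  have hb' : IsBoundedAtImInfty (F * dpow (m.toNat : ℤ)) :=
    isBoundedAtImInfty_mul_dpow_mono (Int.self_le_toNat m) hb
  obtain ⟨P, -, hPz⟩ := exists_poly_weight_two hF hinv m.toNat hb'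
  have hFP : F = polyJ P * om1 := funext hPz
  refine ⟨P, ?_, hFP⟩
  by_cases hP : P = 0
  · exact Or.inl hP
  · right
    rw [hFP] at hb
    exact (isBoundedAtImInfty_polyJ_mul_om1_iff hP m).mp hb

/-- (c) cuspidal variant: if `F Δ^m` is zero at `i∞`, then `P = 0` or `natDegree P + 2 ≤ m`. -/
theorem exists_polyJ_mul_om1_of_zero {F : ℍ → ℂ} (hF : MDiff F)
    (hinv : ∀ γ : SL(2, ℤ), F ∣[(2 : ℤ)] γ = F) (m : ℤ)
    (hb : IsZeroAtImInfty (F * dpow m)) :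
    ∃ P : ℂ[X], (P = 0 ∨ (P.natDegree : ℤ) + 2 ≤ m) ∧ F = polyJ P * om1 := by
  obtain ⟨P, -, hFP⟩ := exists_polyJ_mul_om1_of_bounded hF hinv m hb.boundedAtFilter
  refine ⟨P, ?_, hFP⟩
  by_cases hP : P = 0
  · exact Or.inl hP
  · right
    rw [hFP] at hb
    exact (isZeroAtImInfty_polyJ_mul_om1_iff hP m).mp hb

/-- (b) cuspidal variant. -/
theorem exists_polyJ_of_zero {F : ℍ → ℂ} (hF : MDiff F)
    (hinv : ∀ γ : SL(2, ℤ), F ∣[(0 : ℤ)] γ = F) (m : ℤ)
    (hb : IsZeroAtImInfty (F * dpow m)) :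
    ∃ P : ℂ[X], (P = 0 ∨ (P.natDegree : ℤ) + 1 ≤ m) ∧ F = polyJ P := by
  obtain ⟨P, -, hFP⟩ := exists_polyJ_of_bounded hF hinv m hb.boundedAtFilter
  refine ⟨P, ?_, hFP⟩
  by_cases hP : P = 0
  · exact Or.inl hP
  · right
    rw [hFP] at hb
    exact (isZeroAtImInfty_polyJ_iff hP m).mp hb

/-! ### Membership in `WHle`, `WHlt` -/

theorem Gamma0_one_eq_top : Gamma0 1 = ⊤ := by
  ext γ
  simp only [Gamma0_mem, Subgroup.mem_top, iff_true]
  exact Subsingleton.elim _ _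

theorem polyJ_mem_WHle (N : ℕ) {P : ℂ[X]} {m : ℤ} (h : P = 0 ∨ (P.natDegree : ℤ) ≤ m) :
    polyJ P ∈ WHle N 0 m := by
  refine ⟨polyJ_mdiff P, fun γ _ => polyJ_slash P γ, fun γ => ?_⟩
  rw [polyJ_slash]
  rcases h with rfl | h
  · rw [polyJ_zero, zero_mul]
    exact isBoundedAtImInfty_of_tendsto (tendsto_const_nhds (x := (0 : ℂ)))
  · by_cases hP : P = 0
    · rw [hP, polyJ_zero, zero_mul]
      exact isBoundedAtImInfty_of_tendsto (tendsto_const_nhds (x := (0 : ℂ)))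
    · exact (isBoundedAtImInfty_polyJ_iff hP m).mpr h

theorem polyJ_mem_WHlt (N : ℕ) {P : ℂ[X]} {m : ℤ} (h : P = 0 ∨ (P.natDegree : ℤ) + 1 ≤ m) :
    polyJ P ∈ WHlt N 0 m := by
  refine ⟨polyJ_mdiff P, fun γ _ => polyJ_slash P γ, fun γ => ?_⟩
  rw [polyJ_slash]
  by_cases hP : P = 0
  · rw [hP, polyJ_zero, zero_mul]
    exact (tendsto_const_nhds (x := (0 : ℂ)))
  · exact (isZeroAtImInfty_polyJ_iff hP m).mpr (h.resolve_left hP)

theorem polyJ_mul_om1_mem_WHle (N : ℕ) {P : ℂ[X]} {m : ℤ}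
    (h : P = 0 ∨ (P.natDegree : ℤ) + 1 ≤ m) : polyJ P * om1 ∈ WHle N 2 m := by
  refine ⟨polyJ_mul_om1_mdiff P, fun γ _ => polyJ_mul_om1_slash P γ, fun γ => ?_⟩
  rw [polyJ_mul_om1_slash]
  by_cases hP : P = 0
  · rw [hP, polyJ_zero, zero_mul, zero_mul]
    exact isBoundedAtImInfty_of_tendsto (tendsto_const_nhds (x := (0 : ℂ)))
  · exact (isBoundedAtImInfty_polyJ_mul_om1_iff hP m).mpr (h.resolve_left hP)

theorem polyJ_mul_om1_mem_WHlt (N : ℕ) {P : ℂ[X]} {m : ℤ}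
    (h : P = 0 ∨ (P.natDegree : ℤ) + 2 ≤ m) : polyJ P * om1 ∈ WHlt N 2 m := by
  refine ⟨polyJ_mul_om1_mdiff P, fun γ _ => polyJ_mul_om1_slash P γ, fun γ => ?_⟩
  rw [polyJ_mul_om1_slash]
  by_cases hP : P = 0
  · rw [hP, polyJ_zero, zero_mul, zero_mul]
    exact (tendsto_const_nhds (x := (0 : ℂ)))
  · exact (isZeroAtImInfty_polyJ_mul_om1_iff hP m).mpr (h.resolve_left hP)

theorem inv_Gamma0_one {w : ℤ} {F : ℍ → ℂ} (h : Inv (Gamma0 1) w F) (γ : SL(2, ℤ)) :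
    F ∣[w] γ = F :=
  h γ (by rw [Gamma0_one_eq_top]; exact Subgroup.mem_top γ)

theorem slash_one_SL (w : ℤ) (F : ℍ → ℂ) : F ∣[w] (1 : SL(2, ℤ)) = F :=
  SlashAction.slash_one w F

theorem mem_WHle_one_zero_iff {F : ℍ → ℂ} {m : ℤ} :
    F ∈ WHle 1 0 m ↔ ∃ P : ℂ[X], (P = 0 ∨ (P.natDegree : ℤ) ≤ m) ∧ F = polyJ P := by
  constructor
  · rintro ⟨hF, hinv, hb⟩
    have h1 := hb 1
    rw [slash_one_SL] at h1
    exact exists_polyJ_of_bounded hF (inv_Gamma0_one hinv) m h1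
  · rintro ⟨P, hP, rfl⟩
    exact polyJ_mem_WHle 1 hP

theorem mem_WHlt_one_zero_iff {F : ℍ → ℂ} {m : ℤ} :
    F ∈ WHlt 1 0 m ↔ ∃ P : ℂ[X], (P = 0 ∨ (P.natDegree : ℤ) + 1 ≤ m) ∧ F = polyJ P := by
  constructor
  · rintro ⟨hF, hinv, hb⟩
    have h1 := hb 1
    rw [slash_one_SL] at h1
    exact exists_polyJ_of_zero hF (inv_Gamma0_one hinv) m h1
  · rintro ⟨P, hP, rfl⟩
    exact polyJ_mem_WHlt 1 hP

theorem mem_WHle_one_two_iff {F : ℍ → ℂ} {m : ℤ} :
    F ∈ WHle 1 2 m ↔ ∃ P : ℂ[X], (P = 0 ∨ (P.natDegree : ℤ) + 1 ≤ m) ∧ F = polyJ P * om1 := by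
  constructor
  · rintro ⟨hF, hinv, hb⟩
    have h1 := hb 1
    rw [slash_one_SL] at h1
    exact exists_polyJ_mul_om1_of_bounded hF (inv_Gamma0_one hinv) m h1
  · rintro ⟨P, hP, rfl⟩
    exact polyJ_mul_om1_mem_WHle 1 hP

theorem mem_WHlt_one_two_iff {F : ℍ → ℂ} {m : ℤ} :
    F ∈ WHlt 1 2 m ↔ ∃ P : ℂ[X], (P = 0 ∨ (P.natDegree : ℤ) + 2 ≤ m) ∧ F = polyJ P * om1 := by
  constructor
  · rintro ⟨hF, hinv, hb⟩
    have h1 := hb 1
    rw [slash_one_SL] at h1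
    exact exists_polyJ_mul_om1_of_zero hF (inv_Gamma0_one hinv) m h1
  · rintro ⟨P, hP, rfl⟩
    exact polyJ_mul_om1_mem_WHlt 1 hP

theorem mem_WH_one_zero_iff {F : ℍ → ℂ} : F ∈ WH 1 0 ↔ ∃ P : ℂ[X], F = polyJ P := by
  constructor
  · rintro ⟨m, hm⟩
    obtain ⟨P, -, hP⟩ := mem_WHle_one_zero_iff.mp hm
    exact ⟨P, hP⟩
  · rintro ⟨P, rfl⟩
    exact ⟨P.natDegree, polyJ_mem_WHle 1 (Or.inr le_rfl)⟩

theorem mem_WH_one_two_iff {F : ℍ → ℂ} : F ∈ WH 1 2 ↔ ∃ P : ℂ[X], F = polyJ P * om1 := by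
  constructor
  · rintro ⟨m, hm⟩
    obtain ⟨P, -, hP⟩ := mem_WHle_one_two_iff.mp hm
    exact ⟨P, hP⟩
  · rintro ⟨P, rfl⟩
    exact ⟨P.natDegree + 1, polyJ_mul_om1_mem_WHle 1 (Or.inr le_rfl)⟩

end Fermat.Agent.GenusLib.LevelOne
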