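import Mathlib

/-!
# Riemann–Roch on the projective line for a filtered free `k[X]`-module

Pure algebra (Dedekind–Weber reduced bases).  For a free `k[X]`-module `M` of finite rank with a
`ℤ`-indexed filtration `F` by finite-dimensional `k`-subspaces such that
`X • m ∈ F (d + 1) ↔ m ∈ F d`, there is a `k[X]`-basis `b` and integers `n i` with
`F d = ⊕ᵢ {a • b i | deg a ≤ d - n i}`.  Consequently
`dim F d - dim F^∨ (-2 - d) = rank M * d + χ` for all `d`.
-/

set_option autoImplicit false

open Polynomial Module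

namespace Fermat.Agent.GenusLib.RRP1

section DegLE

variable {k : Type*} [Field k]

/-- `p` has degree at most `z`, for an integer bound `z` (for `z < 0` this forces `p = 0`). -/
def DegLE (p : k[X]) (z : ℤ) : Prop := p = 0 ∨ (p.natDegree : ℤ) ≤ z

theorem degLE_zero (z : ℤ) : DegLE (0 : k[X]) z := Or.inl rfl

theorem DegLE.mono {p : k[X]} {z z' : ℤ} (h : DegLE p z) (hz : z ≤ z') : DegLE p z' :=
  h.imp id fun h => h.trans hz

theorem DegLE.add {p q : k[X]} {z : ℤ} (hp : DegLE p z) (hq : DegLE q z) :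
    DegLE (p + q) z := by
  rcases hp with rfl | hp
  · simpa using hq
  rcases hq with rfl | hq
  · rw [add_zero]; exact Or.inr hp
  · right
    have h1 := natDegree_add_le p q
    have h2 : ((p + q).natDegree : ℤ) ≤ max (p.natDegree : ℤ) (q.natDegree : ℤ) := by
      exact_mod_cast h1
    exact h2.trans (max_le hp hq)

theorem DegLE.sum {ι : Type*} (s : Finset ι) (f : ι → k[X]) {z : ℤ}
    (h : ∀ i ∈ s, DegLE (f i) z) : DegLE (∑ i ∈ s, f i) z := by
  classical
  induction s using Finset.induction_on with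
  | empty => simpa using degLE_zero (k := k) z
  | insert a s ha ih =>
    rw [Finset.sum_insert ha]
    exact (h a (Finset.mem_insert_self a s)).add
      (ih fun i hi => h i (Finset.mem_insert_of_mem hi))

theorem DegLE.smul {p : k[X]} {z : ℤ} (c : k) (hp : DegLE p z) : DegLE (c • p) z := by
  rcases hp with rfl | hp
  · left; simp
  · right
    have h1 := natDegree_smul_le c p
    have h2 : ((c • p).natDegree : ℤ) ≤ (p.natDegree : ℤ) := by exact_mod_cast h1
    exact h2.trans hp

theorem DegLE.mul {p q : k[X]} {z z' : ℤ} (hp : DegLE p z) (hq : DegLE q z') :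
    DegLE (p * q) (z + z') := by
  rcases hp with rfl | hp
  · left; simp
  rcases hq with rfl | hq
  · left; simp
  · right
    have h1 := natDegree_mul_le (p := p) (q := q)
    have h2 : ((p * q).natDegree : ℤ) ≤ (p.natDegree : ℤ) + q.natDegree := by exact_mod_cast h1
    linarith

theorem DegLE.eq_zero {p : k[X]} {z : ℤ} (hp : DegLE p z) (hz : z < 0) : p = 0 := by
  rcases hp with rfl | hp
  · rfl
  · have := Int.natCast_nonneg p.natDegree
    omega

theorem degLE_iff_mem_degreeLT {p : k[X]} {z : ℤ} :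
    DegLE p z ↔ p ∈ degreeLT k (z + 1).toNat := by
  rw [mem_degreeLT]
  by_cases hp : p = 0
  · subst hp
    simp [DegLE]
  · rw [← natDegree_lt_iff_degree_lt hp, Int.lt_toNat]
    simp only [DegLE, hp, false_or]
    omega

end DegLE

variable {k : Type*} [Field k] {M : Type*} [AddCommGroup M] [Module k[X] M] [Module k M]
  [IsScalarTower k k[X] M]

/-- A `ℤ`-indexed filtration of `M` by finite-dimensional `k`-subspaces, compatible with `X`. -/
structure IsFilt (F : ℤ → Submodule k M) : Prop where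
  mono : Monotone F
  X_smul_mem_iff : ∀ (d : ℤ) (m : M), (X : k[X]) • m ∈ F (d + 1) ↔ m ∈ F d
  exhaustive : ∀ m : M, ∃ d : ℤ, m ∈ F d
  finite : ∀ d : ℤ, FiniteDimensional k (F d)

/-- The dual filtration on `Hom_{k[X]}(M, k[X])`. -/
def dualFilt (F : ℤ → Submodule k M) (e : ℤ) : Submodule k (M →ₗ[k[X]] k[X]) where
  carrier := {φ | ∀ (d : ℤ) (m : M), m ∈ F d → φ m = 0 ∨ ((φ m).natDegree : ℤ) ≤ d + e}
  add_mem' := by
    intro φ ψ hφ hψ d m hm
    exact DegLE.add (hφ d m hm) (hψ d m hm)
  zero_mem' := by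
    intro d m hm
    exact Or.inl rfl
  smul_mem' := by
    intro c φ hφ d m hm
    exact DegLE.smul c (hφ d m hm)

omit [IsScalarTower k k[X] M] in
theorem mem_dualFilt {F : ℤ → Submodule k M} {e : ℤ} {φ : M →ₗ[k[X]] k[X]} :
    φ ∈ dualFilt F e ↔
      ∀ (d : ℤ) (m : M), m ∈ F d → φ m = 0 ∨ ((φ m).natDegree : ℤ) ≤ d + e :=
  Iff.rfl

omit [IsScalarTower k k[X] M] in
theorem IsFilt.X_pow_smul_mem_iff {F : ℤ → Submodule k M} (hF : IsFilt F) (j : ℕ) (d : ℤ)
    (m : M) : (X ^ j : k[X]) • m ∈ F (d + j) ↔ m ∈ F d := by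
  induction j generalizing d m with
  | zero => simp
  | succ j ih =>
    rw [pow_succ, mul_smul]
    have h := ih (d + 1) ((X : k[X]) • m)
    rw [show d + ((j + 1 : ℕ) : ℤ) = d + 1 + j by push_cast; ring, h, hF.X_smul_mem_iff]

theorem IsFilt.smul_mem {F : ℤ → Submodule k M} (hF : IsFilt F) {d : ℤ} {m : M} (hm : m ∈ F d)
    {p : k[X]} {j : ℤ} (hp : DegLE p j) : p • m ∈ F (d + j) := by
  rcases hp with rfl | hp
  · simp
  · have hsum := p.as_sum_range
    rw [hsum, Finset.sum_smul]
    refine Submodule.sum_mem _ fun i hi => ?_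
    rw [← C_mul_X_pow_eq_monomial, ← smul_eq_C_mul, smul_assoc]
    refine Submodule.smul_mem _ _ ?_
    have hi' : (i : ℤ) ≤ j := by
      have := Finset.mem_range.mp hi
      omega
    exact hF.mono (by omega) ((hF.X_pow_smul_mem_iff i d m).mpr hm)

/-- Replacing one vector of a basis by a combination in which it occurs with a unit coefficient
gives a basis. -/
theorem exists_basis_update {R : Type*} [CommRing R] {N : Type*} [AddCommGroup N] [Module R N]
    {ι : Type*} [Fintype ι] [DecidableEq ι] (b : Basis ι R N) (i₀ : ι) (g : ι → R)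
    (hg : IsUnit (g i₀)) :
    ∃ b' : Basis ι R N, b' i₀ = ∑ j, g j • b j ∧ ∀ i, i ≠ i₀ → b' i = b i := by
  obtain ⟨u, hu⟩ := hg
  obtain ⟨w, hw⟩ : ∃ w : N, w = ∑ j, g j • b j := ⟨_, rfl⟩
  obtain ⟨w', hw'⟩ : ∃ w' : N,
      w' = (↑u⁻¹ : R) • (b i₀ - ∑ j ∈ Finset.univ.erase i₀, g j • b j) := ⟨_, rfl⟩
  let f : N →ₗ[R] N := b.constr ℕ (Function.update b i₀ w)
  let f' : N →ₗ[R] N := b.constr ℕ (Function.update b i₀ w')
  have hf : ∀ i, f (b i) = Function.update b i₀ w i := fun i => b.constr_basis ℕ _ i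
  have hf' : ∀ i, f' (b i) = Function.update b i₀ w' i := fun i => b.constr_basis ℕ _ i
  have hsplit : w = g i₀ • b i₀ + ∑ j ∈ Finset.univ.erase i₀, g j • b j := by
    rw [hw]
    exact (Finset.add_sum_erase Finset.univ (fun j => g j • b j) (Finset.mem_univ i₀)).symm
  have h1 : f ∘ₗ f' = LinearMap.id := by
    refine b.ext fun i => ?_
    simp only [LinearMap.comp_apply, LinearMap.id_apply, hf']
    by_cases hi : i = i₀
    · subst hi
      rw [Function.update_self, hw', map_smul, map_sub, map_sum, hf, Function.update_self]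
      have hs : ∀ j ∈ Finset.univ.erase i, f (g j • b j) = g j • b j := by
        intro j hj
        rw [map_smul, hf, Function.update_of_ne (Finset.ne_of_mem_erase hj)]
      rw [Finset.sum_congr rfl hs, hsplit, add_sub_cancel_right, smul_smul, ← hu,
        Units.inv_mul, one_smul]
    · rw [Function.update_of_ne hi, hf, Function.update_of_ne hi]
  have h2 : f' ∘ₗ f = LinearMap.id := by
    refine b.ext fun i => ?_
    simp only [LinearMap.comp_apply, LinearMap.id_apply, hf]
    by_cases hi : i = i₀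
    · subst hi
      rw [Function.update_self, hsplit, map_add, map_smul, map_sum, hf', Function.update_self]
      have hs : ∀ j ∈ Finset.univ.erase i, f' (g j • b j) = g j • b j := by
        intro j hj
        rw [map_smul, hf', Function.update_of_ne (Finset.ne_of_mem_erase hj)]
      rw [Finset.sum_congr rfl hs, hw', smul_smul, ← hu, Units.mul_inv, one_smul,
        sub_add_cancel]
    · rw [Function.update_of_ne hi, hf', Function.update_of_ne hi]
  refine ⟨b.map (LinearEquiv.ofLinearMap (f := f) (g := f') h1 h2), ?_, ?_⟩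
  · rw [Basis.map_apply]
    show f (b i₀) = _
    rw [hf, Function.update_self, hw]
  · intro i hi
    rw [Basis.map_apply]
    show f (b i) = b i
    rw [hf, Function.update_of_ne hi]

section Free

variable [Module.Free k[X] M]

/-- A nonzero vector cannot lie arbitrarily deep in the filtration. -/
theorem IsFilt.neg_finrank_le {F : ℤ → Submodule k M} (hF : IsFilt F) {m : M} (hm0 : m ≠ 0)
    {d : ℤ} (hm : m ∈ F d) : -(Module.finrank k (F 0) : ℤ) ≤ d := by
  by_contra hlt
  rw [not_le] at hlt
  obtain ⟨r, hr⟩ : ∃ r : ℕ, r = Module.finrank k (F 0) := ⟨_, rfl⟩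
  rw [← hr] at hlt
  have hfin := hF.finite 0
  have hmem : ∀ p : degreeLT k (r + 1), (p : k[X]) • m ∈ F 0 := by
    intro p
    have hp : DegLE (p : k[X]) (r : ℤ) := by
      rw [degLE_iff_mem_degreeLT]
      have e : ((r : ℤ) + 1).toNat = r + 1 := by omega
      rw [e]
      exact p.2
    exact hF.mono (by omega) (hF.smul_mem hm hp)
  let g : degreeLT k (r + 1) →ₗ[k] F 0 :=
    { toFun := fun p => ⟨(p : k[X]) • m, hmem p⟩
      map_add' := fun p q => by
        apply Subtype.ext
        simp [add_smul]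
      map_smul' := fun c p => by
        apply Subtype.ext
        simp [smul_assoc] }
  have hg : Function.Injective g := by
    intro p q hpq
    have h0 : (p : k[X]) • m = (q : k[X]) • m := congrArg Subtype.val hpq
    have h1 : ((p : k[X]) - q) • m = 0 := by
      rw [sub_smul, h0, sub_self]
    have h2 := ((Free.chooseBasis k[X] M).smul_eq_zero.mp h1).resolve_right hm0
    exact Subtype.ext (sub_eq_zero.mp h2)
  have h3 := LinearMap.finrank_le_finrank_of_injective hg
  rw [Module.finrank_eq_card_basis (degreeLT.basis k (r + 1)), Fintype.card_fin, ← hr] at h3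
  omega

variable [Module.Finite k[X] M]

/-- A basis adapted to the filtration with minimal total norm. -/
theorem exists_min_pair {F : ℤ → Submodule k M} (hF : IsFilt F) :
    ∃ (b : Basis (Free.ChooseBasisIndex k[X] M) k[X] M)
      (n : Free.ChooseBasisIndex k[X] M → ℤ),
      (∀ i, b i ∈ F (n i)) ∧
      ∀ (b' : Basis (Free.ChooseBasisIndex k[X] M) k[X] M)
        (n' : Free.ChooseBasisIndex k[X] M → ℤ),
        (∀ i, b' i ∈ F (n' i)) → ∑ i, n i ≤ ∑ i, n' i := by
  classical
  let P : ℤ → Prop := fun s =>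
    ∃ (b : Basis (Free.ChooseBasisIndex k[X] M) k[X] M)
      (n : Free.ChooseBasisIndex k[X] M → ℤ), (∀ i, b i ∈ F (n i)) ∧ ∑ i, n i = s
  have hbdd : ∃ B : ℤ, ∀ z, P z → B ≤ z := by
    refine ⟨∑ _i : Free.ChooseBasisIndex k[X] M, -(Module.finrank k (F 0) : ℤ), ?_⟩
    rintro z ⟨b, n, hb, rfl⟩
    exact Finset.sum_le_sum fun i _ => hF.neg_finrank_le (b.ne_zero i) (hb i)
  have hinh : ∃ z, P z := by
    choose n hn using fun i => hF.exhaustive (Free.chooseBasis k[X] M i)
    exact ⟨_, Free.chooseBasis k[X] M, n, hn, rfl⟩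
  obtain ⟨s, ⟨b, n, hb, rfl⟩, hmin⟩ := Int.exists_least_of_bdd hbdd hinh
  exact ⟨b, n, hb, fun b' n' hb' => hmin _ ⟨b', n', hb', rfl⟩⟩

omit [IsScalarTower k k[X] M] in
/-- Independence of the leading forms of a minimal adapted basis. -/
theorem reduced_aux {F : ℤ → Submodule k M} (hF : IsFilt F)
    (b : Basis (Free.ChooseBasisIndex k[X] M) k[X] M) (n : Free.ChooseBasisIndex k[X] M → ℤ)
    (hmin : ∀ (b' : Basis (Free.ChooseBasisIndex k[X] M) k[X] M)
        (n' : Free.ChooseBasisIndex k[X] M → ℤ),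
        (∀ i, b' i ∈ F (n' i)) → ∑ i, n i ≤ ∑ i, n' i)
    (hb : ∀ i, b i ∈ F (n i))
    (c : Free.ChooseBasisIndex k[X] M → k) (t : ℤ) (hc : ∀ i, c i ≠ 0 → n i ≤ t)
    (hv : ∑ i, (C (c i) * X ^ (t - n i).toNat : k[X]) • b i ∈ F (t - 1)) : c = 0 := by
  classical
  by_contra hne
  have hsupp : (Finset.univ.filter fun i => c i ≠ 0).Nonempty := by
    by_contra h
    apply hne
    funext i
    by_contra hi
    exact h ⟨i, by simpa using hi⟩
  obtain ⟨i₀, hi₀, hmax⟩ := Finset.exists_max_image _ n hsupp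
  have hci₀ : c i₀ ≠ 0 := (Finset.mem_filter.mp hi₀).2
  have hmax' : ∀ i, c i ≠ 0 → n i ≤ n i₀ := fun i hi => hmax i (by simpa using hi)
  obtain ⟨g, hg⟩ : ∃ g : Free.ChooseBasisIndex k[X] M → k[X],
      g = fun i => C (c i) * X ^ (n i₀ - n i).toNat := ⟨_, rfl⟩
  obtain ⟨w, hw⟩ : ∃ w : M, w = ∑ i, g i • b i := ⟨_, rfl⟩
  have ht := hc i₀ hci₀
  have hXw : (X ^ (t - n i₀).toNat : k[X]) • w
      = ∑ i, (C (c i) * X ^ (t - n i).toNat : k[X]) • b i := by
    rw [hw, Finset.smul_sum]
    refine Finset.sum_congr rfl fun i _ => ?_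
    rw [smul_smul, hg]
    by_cases hi : c i = 0
    · simp [hi]
    · have h1 := hmax' i hi
      have e : (t - n i).toNat = (t - n i₀).toNat + (n i₀ - n i).toNat := by omega
      rw [e, pow_add]
      congr 1
      ring
  have hw_mem : w ∈ F (n i₀ - 1) := by
    refine (hF.X_pow_smul_mem_iff (t - n i₀).toNat (n i₀ - 1) w).mp ?_
    rw [hXw]
    have e : n i₀ - 1 + ((t - n i₀).toNat : ℤ) = t - 1 := by omega
    rw [e]
    exact hv
  have hunit : IsUnit (g i₀) := by
    rw [hg]
    simp only [sub_self, Int.toNat_zero, pow_zero, mul_one]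
    exact isUnit_C.mpr (IsUnit.mk0 _ hci₀)
  obtain ⟨b', hb'0, hb'⟩ := exists_basis_update b i₀ g hunit
  have h1 := hmin b' (Function.update n i₀ (n i₀ - 1)) (by
    intro i
    by_cases hi : i = i₀
    · subst hi
      rw [Function.update_self, hb'0, ← hw]
      exact hw_mem
    · rw [Function.update_of_ne hi, hb' i hi]
      exact hb i)
  have h2 : ∑ i, Function.update n i₀ (n i₀ - 1) i = (n i₀ - 1) + ∑ i ∈ Finset.univ.erase i₀, n i := by
    rw [Finset.sum_update_of_mem (Finset.mem_univ i₀), Finset.sdiff_singleton_eq_erase]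
  have h3 : n i₀ + ∑ i ∈ Finset.univ.erase i₀, n i = ∑ i, n i :=
    Finset.add_sum_erase Finset.univ n (Finset.mem_univ i₀)
  omega

/-- A minimal adapted basis is reduced. -/
theorem reduced_of_min {F : ℤ → Submodule k M} (hF : IsFilt F)
    (b : Basis (Free.ChooseBasisIndex k[X] M) k[X] M) (n : Free.ChooseBasisIndex k[X] M → ℤ)
    (hmin : ∀ (b' : Basis (Free.ChooseBasisIndex k[X] M) k[X] M)
        (n' : Free.ChooseBasisIndex k[X] M → ℤ),
        (∀ i, b' i ∈ F (n' i)) → ∑ i, n i ≤ ∑ i, n' i)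
    (hb : ∀ i, b i ∈ F (n i))
    (a : Free.ChooseBasisIndex k[X] M → k[X]) (d : ℤ) (ha : ∑ i, a i • b i ∈ F d) :
    ∀ i, DegLE (a i) (d - n i) := by
  classical
  by_contra hcon
  rw [not_forall] at hcon
  obtain ⟨i₁, hi₁⟩ := hcon
  have hi₁' : a i₁ ≠ 0 ∧ d - n i₁ < ((a i₁).natDegree : ℤ) := by
    simpa [DegLE, not_or] using hi₁
  have hsupp : (Finset.univ.filter fun i => a i ≠ 0).Nonempty := ⟨i₁, by simpa using hi₁'.1⟩
  obtain ⟨i₂, hi₂, hmax⟩ :=
    Finset.exists_max_image _ (fun i => ((a i).natDegree : ℤ) + n i) hsupp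
  obtain ⟨D, hD⟩ : ∃ D : ℤ, D = ((a i₂).natDegree : ℤ) + n i₂ := ⟨_, rfl⟩
  have hai₂ : a i₂ ≠ 0 := (Finset.mem_filter.mp hi₂).2
  have hle : ∀ i, a i ≠ 0 → ((a i).natDegree : ℤ) + n i ≤ D := by
    intro i hi
    rw [hD]
    exact hmax i (by simpa using hi)
  have hDd : d < D := by
    have := hle i₁ hi₁'.1
    omega
  obtain ⟨c, hc⟩ : ∃ c : Free.ChooseBasisIndex k[X] M → k,
      c = fun i => if a i ≠ 0 ∧ ((a i).natDegree : ℤ) + n i = D then (a i).leadingCoeff else 0 :=
    ⟨_, rfl⟩
  have hdec : ∀ i, DegLE (a i - C (c i) * X ^ (D - n i).toNat) (D - 1 - n i) := by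
    intro i
    by_cases h0 : a i = 0
    · left
      simp [hc, h0]
    by_cases h1 : ((a i).natDegree : ℤ) + n i = D
    · have e : (D - n i).toNat = (a i).natDegree := by omega
      have hci : c i = (a i).leadingCoeff := by simp [hc, h0, h1]
      rw [hci, e]
      have h3 : a i - C (a i).leadingCoeff * X ^ (a i).natDegree = (a i).eraseLead := by
        have := eraseLead_add_C_mul_X_pow (a i)
        exact sub_eq_of_eq_add this.symm
      rw [h3]
      rcases eraseLead_natDegree_lt_or_eraseLead_eq_zero (a i) with h4 | h4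
      · right
        omega
      · left
        exact h4
    · have hci : c i = 0 := by simp [hc, h1]
      rw [hci]
      simp only [map_zero, zero_mul, sub_zero]
      right
      have := hle i h0
      omega
  have h1 : ∑ i, (a i - C (c i) * X ^ (D - n i).toNat) • b i ∈ F (D - 1) := by
    refine Submodule.sum_mem _ fun i _ => ?_
    have := hF.smul_mem (hb i) (hdec i)
    rwa [show n i + (D - 1 - n i) = D - 1 by ring] at this
  have h2 : ∑ i, (C (c i) * X ^ (D - n i).toNat : k[X]) • b i ∈ F (D - 1) := by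
    have h3 : ∑ i, (C (c i) * X ^ (D - n i).toNat : k[X]) • b i
        = ∑ i, a i • b i - ∑ i, (a i - C (c i) * X ^ (D - n i).toNat) • b i := by
      rw [← Finset.sum_sub_distrib]
      refine Finset.sum_congr rfl fun i _ => ?_
      rw [← sub_smul]
      congr 1
      ring
    rw [h3]
    exact Submodule.sub_mem _ (hF.mono (by omega) ha) h1
  have h4 := reduced_aux hF b n hmin hb c D (fun i hi => by
      have h : a i ≠ 0 ∧ ((a i).natDegree : ℤ) + n i = D := by
        by_contra h
        exact hi (by simp [hc, h])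
      omega) h2
  have h5 : c i₂ = (a i₂).leadingCoeff := by simp [hc, hai₂, hD]
  have h6 : c i₂ = 0 := by rw [h4]; rfl
  rw [h5] at h6
  exact hai₂ (leadingCoeff_eq_zero.mp h6)

/-- Existence of a reduced basis (Dedekind–Weber). -/
theorem exists_reduced {F : ℤ → Submodule k M} (hF : IsFilt F) :
    ∃ (b : Basis (Free.ChooseBasisIndex k[X] M) k[X] M)
      (n : Free.ChooseBasisIndex k[X] M → ℤ),
      (∀ i, b i ∈ F (n i)) ∧
      ∀ (a : Free.ChooseBasisIndex k[X] M → k[X]) (d : ℤ), ∑ i, a i • b i ∈ F d →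
        ∀ i, a i = 0 ∨ ((a i).natDegree : ℤ) + n i ≤ d := by
  obtain ⟨b, n, hb, hmin⟩ := exists_min_pair hF
  refine ⟨b, n, hb, fun a d ha i => ?_⟩
  rcases reduced_of_min hF b n hmin hb a d ha i with h | h
  · exact Or.inl h
  · right
    omega

end Free

/-- A submodule cut out, through a linear equivalence with `ι → k[X]`, by degree bounds in each
coordinate is finite-dimensional of dimension the sum of the bounds. -/
theorem finrank_of_equiv {V : Type*} [AddCommGroup V] [Module k V] {ι : Type*} [Fintype ι]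
    (Θ : V ≃ₗ[k] (ι → k[X])) (S : Submodule k V) (N : ι → ℕ)
    (hS : ∀ v, v ∈ S ↔ ∀ i, Θ v i ∈ degreeLT k (N i)) :
    FiniteDimensional k S ∧ Module.finrank k S = ∑ i, N i := by
  let E : S ≃ₗ[k] (∀ i, degreeLT k (N i)) :=
    { toFun := fun v i => ⟨Θ v.1 i, (hS v.1).mp v.2 i⟩
      map_add' := fun v w => by
        funext i
        apply Subtype.ext
        simp
      map_smul' := fun c v => by
        funext i
        apply Subtype.ext
        simp
      invFun := fun p => ⟨Θ.symm (fun i => (p i : k[X])), (hS _).mpr (fun i => by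
        rw [LinearEquiv.apply_symm_apply]
        exact (p i).2)⟩
      left_inv := fun v => by
        apply Subtype.ext
        simp
      right_inv := fun p => by
        funext i
        apply Subtype.ext
        simp }
  refine ⟨Module.Finite.equiv E.symm, ?_⟩
  rw [E.finrank_eq, Module.finrank_pi_fintype]
  refine Finset.sum_congr rfl fun i _ => ?_
  rw [Module.finrank_eq_card_basis (degreeLT.basis k (N i)), Fintype.card_fin]

section Counts

variable {ι : Type*} [Fintype ι] {F : ℤ → Submodule k M} (hF : IsFilt F) (b : Basis ι k[X] M)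
  (n : ι → ℤ) (hb : ∀ i, b i ∈ F (n i))
  (hred : ∀ (a : ι → k[X]) (d : ℤ), ∑ i, a i • b i ∈ F d →
    ∀ i, a i = 0 ∨ ((a i).natDegree : ℤ) + n i ≤ d)

include hF hb hred

theorem mem_iff_of_reduced (d : ℤ) (m : M) :
    m ∈ F d ↔ ∀ i, DegLE (b.repr m i) (d - n i) := by
  constructor
  · intro hm i
    have h := hred (fun i => b.repr m i) d (by rw [b.sum_repr]; exact hm) i
    rcases h with h | h
    · exact Or.inl h
    · right
      omega
  · intro h
    rw [← b.sum_repr m]
    refine Submodule.sum_mem _ fun i _ => ?_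
    have := hF.smul_mem (hb i) (h i)
    rwa [show n i + (d - n i) = d by ring] at this

theorem mem_dualFilt_iff_of_reduced (e : ℤ) (φ : M →ₗ[k[X]] k[X]) :
    φ ∈ dualFilt F e ↔ ∀ i, DegLE (φ (b i)) (n i + e) := by
  constructor
  · intro hφ i
    exact hφ (n i) (b i) (hb i)
  · intro h d m hm
    have hm' := (mem_iff_of_reduced hF b n hb hred d m).mp hm
    have hsum : φ m = ∑ i, b.repr m i * φ (b i) := by
      conv_lhs => rw [← b.sum_repr m]
      rw [map_sum]
      refine Finset.sum_congr rfl fun i _ => ?_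
      rw [map_smul, smul_eq_mul]
    show DegLE (φ m) (d + e)
    rw [hsum]
    refine DegLE.sum _ _ fun i _ => ?_
    have := (hm' i).mul (h i)
    rwa [show d - n i + (n i + e) = d + e by ring] at this

theorem finrank_of_reduced (d : ℤ) :
    Module.finrank k (F d) = ∑ i, (d - n i + 1).toNat := by
  refine (finrank_of_equiv (b.equivFun.restrictScalars k) (F d)
    (fun i => (d - n i + 1).toNat) fun m => ?_).2
  rw [mem_iff_of_reduced hF b n hb hred d m]
  refine forall_congr' fun i => ?_
  rw [degLE_iff_mem_degreeLT]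
  rfl

theorem finrank_dualFilt_of_reduced (e : ℤ) :
    FiniteDimensional k (dualFilt F e) ∧
      Module.finrank k (dualFilt F e) = ∑ i, (n i + e + 1).toNat := by
  refine finrank_of_equiv (b.constr k).symm (dualFilt F e)
    (fun i => (n i + e + 1).toNat) fun φ => ?_
  rw [mem_dualFilt_iff_of_reduced hF b n hb hred e φ]
  refine forall_congr' fun i => ?_
  rw [degLE_iff_mem_degreeLT]
  rfl

end Counts

variable [Module.Free k[X] M] [Module.Finite k[X] M]

/-- **Riemann–Roch on the projective line** for a filtered free `k[X]`-module. -/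
theorem rr {F : ℤ → Submodule k M} (hF : IsFilt F) : ∃ χ : ℤ,
    (∀ d : ℤ, (Module.finrank k (F d) : ℤ) - (Module.finrank k (dualFilt F (-2 - d)) : ℤ)
        = (Module.finrank k[X] M : ℤ) * d + χ)
      ∧ (∃ d₀ : ℤ, ∀ d : ℤ, d₀ ≤ d → dualFilt F (-2 - d) = ⊥)
      ∧ (∃ d₁ : ℤ, ∀ d : ℤ, d ≤ d₁ → F d = ⊥) := by
  classical
  obtain ⟨b, n, hb, hred⟩ := exists_reduced hF
  have habs : ∀ i, |n i| ≤ ∑ j, |n j| := fun i =>
    Finset.single_le_sum (f := fun j => |n j|) (fun j _ => abs_nonneg (n j)) (Finset.mem_univ i)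
  refine ⟨(Fintype.card (Free.ChooseBasisIndex k[X] M) : ℤ) - ∑ i, n i, ?_, ?_, ?_⟩
  · intro d
    rw [finrank_of_reduced hF b n hb hred d,
      (finrank_dualFilt_of_reduced hF b n hb hred (-2 - d)).2,
      Module.finrank_eq_card_basis b]
    push_cast
    rw [← Finset.sum_sub_distrib]
    have h1 : ∀ i, (((d - n i + 1).toNat : ℤ)) - ((n i + (-2 - d) + 1).toNat : ℤ)
        = d - n i + 1 := by
      intro i
      omega
    rw [Finset.sum_congr rfl fun i _ => h1 i]
    simp only [Finset.sum_add_distrib, Finset.sum_sub_distrib, Finset.sum_const,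
      Finset.card_univ, nsmul_eq_mul, mul_one]
    ring
  · refine ⟨∑ j, |n j|, fun d hd => ?_⟩
    rw [eq_bot_iff]
    intro φ hφ
    rw [Submodule.mem_bot]
    have h := (mem_dualFilt_iff_of_reduced hF b n hb hred (-2 - d) φ).mp hφ
    refine b.ext fun i => ?_
    rw [LinearMap.zero_apply]
    refine (h i).eq_zero ?_
    have := habs i
    have := le_abs_self (n i)
    omega
  · refine ⟨-(∑ j, |n j|) - 1, fun d hd => ?_⟩
    rw [eq_bot_iff]
    intro m hm
    rw [Submodule.mem_bot]
    have h := (mem_iff_of_reduced hF b n hb hred d m).mp hm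
    apply b.repr.injective
    refine Finsupp.ext fun i => ?_
    rw [map_zero, Finsupp.zero_apply]
    refine (h i).eq_zero ?_
    have := habs i
    have := neg_abs_le (n i)
    omega

theorem finite_dualFilt {F : ℤ → Submodule k M} (hF : IsFilt F) (e : ℤ) :
    FiniteDimensional k (dualFilt F e) := by
  classical
  obtain ⟨b, n, hb, hred⟩ := exists_reduced hF
  exact (finrank_dualFilt_of_reduced hF b n hb hred e).1

/-- Explicit dimension formulas in terms of a reduced basis (all in one statement). -/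
theorem exists_reduced_finrank {F : ℤ → Submodule k M} (hF : IsFilt F) :
    ∃ n : Free.ChooseBasisIndex k[X] M → ℤ,
      (∀ d : ℤ, Module.finrank k (F d) = ∑ i, (d - n i + 1).toNat) ∧
      (∀ e : ℤ, Module.finrank k (dualFilt F e) = ∑ i, (n i + e + 1).toNat) := by
  classical
  obtain ⟨b, n, hb, hred⟩ := exists_reduced hF
  exact ⟨n, fun d => finrank_of_reduced hF b n hb hred d,
    fun e => (finrank_dualFilt_of_reduced hF b n hb hred e).2⟩

end Fermat.Agent.GenusLib.RRP1
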