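import Mathlib
import Fermat.Agent.GenusLib.Defs
import Fermat.Prelude.Thm_CongruenceSubgroup_one_mem_strictPeriods_Gamma0
import Fermat.Prelude.Thm_ModularForm_sturm_bound_Gamma0

/-!
# PROJECT X (S20): basic structure of the spaces `WHle`, `WHlt`

* products, level one multipliers (`E₄`, `E₆`, `Δ^k`, `j`, `ω₁`);
* `j * b ∈ WHle N w (m+1) ↔ b ∈ WHle N w m`;
* `WHle N w m ≃ M_{w+12m}(Γ₀(N))`, `WHlt N w m ≃ S_{w+12m}(Γ₀(N))`;
* finite dimensionality, vanishing in negative weight, weight zero constants.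
-/

set_option autoImplicit false

noncomputable section

namespace Fermat.Agent.GenusLib.WHBasic

open UpperHalfPlane hiding I
open Filter Topology Complex Function Asymptotics
open scoped Real MatrixGroups ModularForm Manifold
open CongruenceSubgroup Matrix.SpecialLinearGroup ModularForm
open Fermat.Agent.S23Lib Fermat.Agent.S23Lib.Conj
open Fermat.Agent.GenusLib.Defs

local notation "Δ" => ModularForm.discriminant

/-! ### Products -/

theorem slash_mul_dpow (F G : ℍ → ℂ) (w w' m m' : ℤ) (γ : SL(2, ℤ)) :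
    ((F * G) ∣[w + w'] γ) * dpow (m + m') =
      ((F ∣[w] γ) * dpow m) * ((G ∣[w'] γ) * dpow m') := by
  rw [ModularForm.mul_slash_SL2, dpow_add, mul_mul_mul_comm]

theorem WHle_mul {N : ℕ} {w w' m m' : ℤ} {F G : ℍ → ℂ} (hF : F ∈ WHle N w m)
    (hG : G ∈ WHle N w' m') : F * G ∈ WHle N (w + w') (m + m') := by
  refine ⟨hF.1.mul hG.1, Inv.mul hF.2.1 hG.2.1 rfl, fun γ => ?_⟩
  rw [slash_mul_dpow]
  exact (hF.2.2 γ).mul (hG.2.2 γ)

theorem WHlt_mul_WHle {N : ℕ} {w w' m m' : ℤ} {F G : ℍ → ℂ} (hF : F ∈ WHlt N w m)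
    (hG : G ∈ WHle N w' m') : F * G ∈ WHlt N (w + w') (m + m') := by
  refine ⟨hF.1.mul hG.1, Inv.mul hF.2.1 hG.2.1 rfl, fun γ => ?_⟩
  rw [slash_mul_dpow]
  exact Sym.zero_mul_bdd (hF.2.2 γ) (hG.2.2 γ)

theorem WHle_mul_WHlt {N : ℕ} {w w' m m' : ℤ} {F G : ℍ → ℂ} (hF : F ∈ WHle N w m)
    (hG : G ∈ WHlt N w' m') : F * G ∈ WHlt N (w + w') (m + m') := by
  rw [mul_comm, add_comm w, add_comm m]
  exact WHlt_mul_WHle hG hF

/-- Product with explicit target indices. -/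
theorem WHle_mul' {N : ℕ} {w w' w'' m m' m'' : ℤ} {F G : ℍ → ℂ} (hF : F ∈ WHle N w m)
    (hG : G ∈ WHle N w' m') (hw : w + w' = w'') (hm : m + m' = m'') :
    F * G ∈ WHle N w'' m'' := by
  subst hw hm; exact WHle_mul hF hG

theorem WHlt_mul_WHle' {N : ℕ} {w w' w'' m m' m'' : ℤ} {F G : ℍ → ℂ} (hF : F ∈ WHlt N w m)
    (hG : G ∈ WHle N w' m') (hw : w + w' = w'') (hm : m + m' = m'') :
    F * G ∈ WHlt N w'' m'' := by
  subst hw hm; exact WHlt_mul_WHle hF hG

theorem WHle_mul_WHlt' {N : ℕ} {w w' w'' m m' m'' : ℤ} {F G : ℍ → ℂ} (hF : F ∈ WHle N w m)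
    (hG : G ∈ WHlt N w' m') (hw : w + w' = w'') (hm : m + m' = m'') :
    F * G ∈ WHlt N w'' m'' := by
  subst hw hm; exact WHle_mul_WHlt hF hG

theorem WHle_pow {N : ℕ} {w m : ℤ} {F : ℍ → ℂ} (hF : F ∈ WHle N w m) (n : ℕ) :
    F ^ n ∈ WHle N (n * w) (n * m) := by
  induction n with
  | zero =>
    simp only [pow_zero, Nat.cast_zero, zero_mul]
    refine ⟨(mdifferentiable_const : MDiff (fun _ : ℍ => (1 : ℂ))), fun γ _ => ?_, fun γ => ?_⟩
    · exact ModularForm.is_invariant_one γ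
    · rw [dpow_zero, mul_one]
      have : (1 : ℍ → ℂ) ∣[(0 : ℤ)] γ = 1 := ModularForm.is_invariant_one γ
      rw [this]
      exact Filter.const_boundedAtFilter atImInfty (1 : ℂ)
  | succ n ih =>
    rw [pow_succ]
    exact WHle_mul' ih hF (by push_cast; ring) (by push_cast; ring)

theorem one_mem_WHle (N : ℕ) : (1 : ℍ → ℂ) ∈ WHle N 0 0 := by
  have h := WHle_pow (N := N) (w := 0) (m := 0) (F := 0) (WHle N 0 0).zero_mem 0
  simpa using h

/-! ### Level one multipliers -/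

theorem levelOne_mem_WHle (N : ℕ) {k : ℤ} (φ : ModularForm 𝒮ℒ k) : ⇑φ ∈ WHle N k 0 := by
  refine ⟨φ.holo', inv_levelOne _ φ, fun γ => ?_⟩
  rw [dpow_zero, mul_one]
  have : (⇑φ) ∣[k] γ = ⇑φ := SlashInvariantFormClass.slash_action_eq φ _ ⟨γ, rfl⟩
  rw [this]
  exact ModularFormClass.bdd_at_infty φ

theorem dpow_mem_WHle (N : ℕ) (k : ℤ) : dpow k ∈ WHle N (12 * k) (-k) := by
  refine ⟨dpow_mdiff k, fun γ _ => dpow_slash k γ, fun γ => ?_⟩
  rw [dpow_slash, dpow_mul_neg]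
  exact Filter.const_boundedAtFilter atImInfty (1 : ℂ)

theorem discriminant_mem_WHlt (N : ℕ) : (Δ : ℍ → ℂ) ∈ WHlt N 12 0 := by
  refine ⟨discriminant_mdiff, fun γ _ => discriminant_slash γ, fun γ => ?_⟩
  rw [discriminant_slash, dpow_zero, mul_one]
  exact Defs.discriminant_isZeroAtImInfty

theorem jFun_mem_WHle (N : ℕ) : jFun ∈ WHle N 0 1 := by
  rw [jFun_eq]
  exact WHle_mul' (WHle_pow (levelOne_mem_WHle N E₄) 3) (dpow_mem_WHle N (-1))
    (by norm_num) (by norm_num)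

theorem om1_mem_WHle (N : ℕ) : om1 ∈ WHle N 2 1 := by
  rw [om1_eq]
  exact WHle_mul' (WHle_mul (WHle_pow (levelOne_mem_WHle N E₄) 2) (levelOne_mem_WHle N E₆))
    (dpow_mem_WHle N (-1)) (by norm_num) (by norm_num)

theorem mem_Gamma0_one (γ : SL(2, ℤ)) : γ ∈ Gamma0 1 := by
  rw [Gamma0_mem]
  exact Subsingleton.elim _ _

theorem jFun_mdiff : MDiff jFun := (jFun_mem_WHle 1).1

theorem om1_mdiff : MDiff om1 := (om1_mem_WHle 1).1

theorem jFun_slash (γ : SL(2, ℤ)) : jFun ∣[(0 : ℤ)] γ = jFun :=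
  (jFun_mem_WHle 1).2.1 γ (mem_Gamma0_one γ)

theorem om1_slash (γ : SL(2, ℤ)) : om1 ∣[(2 : ℤ)] γ = om1 :=
  (om1_mem_WHle 1).2.1 γ (mem_Gamma0_one γ)

theorem jFun_smul (γ : SL(2, ℤ)) (z : ℍ) : jFun (γ • z) = jFun z := by
  have h := congrFun (jFun_slash γ) z
  rw [ModularForm.SL_slash_apply] at h
  simpa using h

/-! ### Multiplication by `j` raises the pole order by exactly one -/

theorem E4_tendsto : Tendsto (⇑E₄) atImInfty (𝓝 1) := by
  have h := Conj.qf_tendsto (qf_levelOne E₄)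
  have h1 : (qExpansion 1 ⇑E₄).coeff 0 = 1 :=
    EisensteinSeries.E_qExpansion_coeff_zero (by norm_num) (by decide)
  rwa [h1] at h

theorem E6_tendsto : Tendsto (⇑E₆) atImInfty (𝓝 1) := by
  have h := Conj.qf_tendsto (qf_levelOne E₆)
  have h1 : (qExpansion 1 ⇑E₆).coeff 0 = 1 :=
    EisensteinSeries.E_qExpansion_coeff_zero (by norm_num) (by decide)
  rwa [h1] at h

theorem E4_cube_tendsto : Tendsto ((⇑E₄) ^ 3 : ℍ → ℂ) atImInfty (𝓝 1) := by
  have h := E4_tendsto.pow 3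
  rw [one_pow] at h
  exact h

/-- If `u → 1` at `i∞` and `u * g` is bounded at `i∞`, so is `g`. -/
theorem bdd_of_mul_bdd {u g : ℍ → ℂ} (hu : Tendsto u atImInfty (𝓝 1))
    (h : IsBoundedAtImInfty (u * g)) : IsBoundedAtImInfty g := by
  have hu0 : ∀ᶠ z in atImInfty, u z ≠ 0 := hu.eventually_ne one_ne_zero
  have hinv : Tendsto (fun z => (u z)⁻¹) atImInfty (𝓝 (1 : ℂ)) := by
    simpa using hu.inv₀ one_ne_zero
  have hb : IsBoundedAtImInfty (fun z => (u z)⁻¹) := hinv.isBigO_one ℝ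
  have hprod : IsBoundedAtImInfty ((fun z => (u z)⁻¹) * (u * g)) := hb.mul h
  refine hprod.congr' ?_ EventuallyEq.rfl
  filter_upwards [hu0] with z hz
  simp only [Pi.mul_apply]
  field_simp

/-- If `u → 1` at `i∞` and `u * g` is zero at `i∞`, so is `g`. -/
theorem zero_of_mul_zero {u g : ℍ → ℂ} (hu : Tendsto u atImInfty (𝓝 1))
    (h : IsZeroAtImInfty (u * g)) : IsZeroAtImInfty g := by
  have hu0 : ∀ᶠ z in atImInfty, u z ≠ 0 := hu.eventually_ne one_ne_zero
  have hinv : Tendsto (fun z => (u z)⁻¹) atImInfty (𝓝 (1 : ℂ)) := by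
    simpa using hu.inv₀ one_ne_zero
  have hprod : Tendsto ((fun z => (u z)⁻¹) * (u * g)) atImInfty (𝓝 (1 * 0)) := hinv.mul h
  rw [mul_zero] at hprod
  refine hprod.congr' ?_
  filter_upwards [hu0] with z hz
  simp only [Pi.mul_apply]
  field_simp

theorem jFun_slash_mul_dpow (b : ℍ → ℂ) (w m : ℤ) (γ : SL(2, ℤ)) :
    ((jFun * b) ∣[w] γ) * dpow (m + 1) = (⇑E₄) ^ 3 * ((b ∣[w] γ) * dpow m) := by
  have h0 : (jFun * b) ∣[w] γ = jFun * (b ∣[w] γ) := by
    have := ModularForm.mul_slash_SL2 0 w γ jFun b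
    rw [zero_add] at this
    rw [this, jFun_slash]
  rw [h0, dpow_add, dpow_one]
  funext z
  simp only [Pi.mul_apply, Pi.pow_apply, jFun]
  have := discriminant_ne_zero z
  field_simp

theorem jFun_mul_mem_WHle_iff {N : ℕ} {w m : ℤ} {b : ℍ → ℂ} (hb : MDiff b)
    (hinv : Inv (Gamma0 N) w b) : jFun * b ∈ WHle N w (m + 1) ↔ b ∈ WHle N w m := by
  constructor
  · intro h
    refine ⟨hb, hinv, fun γ => ?_⟩
    have h1 := h.2.2 γ
    rw [jFun_slash_mul_dpow] at h1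
    exact bdd_of_mul_bdd E4_cube_tendsto h1
  · intro h
    exact WHle_mul' (jFun_mem_WHle N) h (zero_add w) (add_comm 1 m)

theorem jFun_mul_mem_WHlt_iff {N : ℕ} {w m : ℤ} {b : ℍ → ℂ} (hb : MDiff b)
    (hinv : Inv (Gamma0 N) w b) : jFun * b ∈ WHlt N w (m + 1) ↔ b ∈ WHlt N w m := by
  constructor
  · intro h
    refine ⟨hb, hinv, fun γ => ?_⟩
    have h1 := h.2.2 γ
    rw [jFun_slash_mul_dpow] at h1
    exact zero_of_mul_zero E4_cube_tendsto h1
  · intro h
    exact WHle_mul_WHlt' (jFun_mem_WHle N) h (zero_add w) (add_comm 1 m)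

/-! ### Comparison with modular forms and cusp forms -/

section Equiv

variable (N : ℕ) [NeZero N]

theorem mul_dpow_slash (F : ℍ → ℂ) (w m k : ℤ) (hk : k = w + 12 * m) (γ : SL(2, ℤ)) :
    (F * dpow m) ∣[k] γ = (F ∣[w] γ) * dpow m := by
  subst hk
  rw [ModularForm.mul_slash_SL2, dpow_slash]

/-- `F ↦ F * Δ^m` from `WHle N w m` to `M_k(Γ₀(N))`, `k = w + 12 m`. -/
def toMF (w m k : ℤ) (hk : k = w + 12 * m) (F : WHle N w m) : ModularForm (Gamma0 N) k :=
  mkMF N (F.1 * dpow m) k (Inv.mul F.2.2.1 (fun γ _ => dpow_slash m γ) hk.symm)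
    (F.2.1.mul (dpow_mdiff m)) (fun γ => by
      rw [mul_dpow_slash _ w m k hk]; exact F.2.2.2 γ)

@[simp] theorem coe_toMF (w m k : ℤ) (hk : k = w + 12 * m) (F : WHle N w m) :
    ⇑(toMF N w m k hk F) = F.1 * dpow m := rfl

theorem ofMF_mem (w m k : ℤ) (hk : k = w + 12 * m) (f : ModularForm (Gamma0 N) k) :
    ⇑f * dpow (-m) ∈ WHle N w m := by
  have hinv : Inv (Gamma0 N) k ⇑f := fun γ hγ =>
    SlashInvariantFormClass.slash_action_eq f _ ⟨γ, hγ, rfl⟩
  refine ⟨f.holo'.mul (dpow_mdiff (-m)),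
    Inv.mul hinv (fun γ _ => dpow_slash (-m) γ) (by rw [hk]; ring), fun γ => ?_⟩
  rw [mul_dpow_slash _ k (-m) w (by rw [hk]; ring), mul_assoc, dpow_neg_mul, mul_one]
  exact ModularFormClass.bdd_at_infty_slash f γ

/-- `WHle N w m ≃ M_{w + 12 m}(Γ₀(N))`. -/
def WHleEquiv (w m k : ℤ) (hk : k = w + 12 * m) : WHle N w m ≃ₗ[ℂ] ModularForm (Gamma0 N) k where
  toFun := toMF N w m k hk
  map_add' F G := by
    ext z; simp [add_mul]
  map_smul' c F := by
    ext z; simp [mul_assoc]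
  invFun f := ⟨⇑f * dpow (-m), ofMF_mem N w m k hk f⟩
  left_inv F := by
    apply Subtype.ext
    simp only [coe_toMF]
    rw [mul_assoc, dpow_mul_neg, mul_one]
  right_inv f := by
    apply DFunLike.coe_injective
    rw [coe_toMF]
    simp only
    rw [mul_assoc, dpow_neg_mul, mul_one]

@[simp] theorem WHleEquiv_apply (w m k : ℤ) (hk : k = w + 12 * m) (F : WHle N w m) :
    ⇑(WHleEquiv N w m k hk F) = F.1 * dpow m := rfl

@[simp] theorem WHleEquiv_symm_apply (w m k : ℤ) (hk : k = w + 12 * m)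
    (f : ModularForm (Gamma0 N) k) :
    (((WHleEquiv N w m k hk).symm f : WHle N w m) : ℍ → ℂ) = ⇑f * dpow (-m) := rfl

/-- `F ↦ F * Δ^m` from `WHlt N w m` to `S_k(Γ₀(N))`, `k = w + 12 m`. -/
def toCusp (w m k : ℤ) (hk : k = w + 12 * m) (F : WHlt N w m) : CuspForm (Gamma0 N) k :=
  mkCusp N (F.1 * dpow m) k (Inv.mul F.2.2.1 (fun γ _ => dpow_slash m γ) hk.symm)
    (F.2.1.mul (dpow_mdiff m)) (fun γ => by
      rw [mul_dpow_slash _ w m k hk]; exact F.2.2.2 γ)

@[simp] theorem coe_toCusp (w m k : ℤ) (hk : k = w + 12 * m) (F : WHlt N w m) :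
    ⇑(toCusp N w m k hk F) = F.1 * dpow m := rfl

theorem ofCusp_mem (w m k : ℤ) (hk : k = w + 12 * m) (f : CuspForm (Gamma0 N) k) :
    ⇑f * dpow (-m) ∈ WHlt N w m := by
  have hinv : Inv (Gamma0 N) k ⇑f := fun γ hγ =>
    SlashInvariantFormClass.slash_action_eq f _ ⟨γ, hγ, rfl⟩
  refine ⟨f.holo'.mul (dpow_mdiff (-m)),
    Inv.mul hinv (fun γ _ => dpow_slash (-m) γ) (by rw [hk]; ring), fun γ => ?_⟩
  rw [mul_dpow_slash _ k (-m) w (by rw [hk]; ring), mul_assoc, dpow_neg_mul, mul_one]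
  exact CuspFormClass.zero_at_infty_slash f γ

/-- `WHlt N w m ≃ S_{w + 12 m}(Γ₀(N))`. -/
def WHltEquiv (w m k : ℤ) (hk : k = w + 12 * m) : WHlt N w m ≃ₗ[ℂ] CuspForm (Gamma0 N) k where
  toFun := toCusp N w m k hk
  map_add' F G := by
    ext z; simp [add_mul]
  map_smul' c F := by
    ext z; simp [mul_assoc]
  invFun f := ⟨⇑f * dpow (-m), ofCusp_mem N w m k hk f⟩
  left_inv F := by
    apply Subtype.ext
    simp only [coe_toCusp]
    rw [mul_assoc, dpow_mul_neg, mul_one]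
  right_inv f := by
    apply DFunLike.coe_injective
    rw [coe_toCusp]
    simp only
    rw [mul_assoc, dpow_neg_mul, mul_one]

@[simp] theorem WHltEquiv_apply (w m k : ℤ) (hk : k = w + 12 * m) (F : WHlt N w m) :
    ⇑(WHltEquiv N w m k hk F) = F.1 * dpow m := rfl

@[simp] theorem WHltEquiv_symm_apply (w m k : ℤ) (hk : k = w + 12 * m)
    (f : CuspForm (Gamma0 N) k) :
    (((WHltEquiv N w m k hk).symm f : WHlt N w m) : ℍ → ℂ) = ⇑f * dpow (-m) := rfl

/-- The space of cusp forms of weight two is `WHlt N 2 0`. -/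
def cuspTwoEquiv : WHlt N 2 0 ≃ₗ[ℂ] CuspForm (Gamma0 N) 2 := WHltEquiv N 2 0 2 (by norm_num)

theorem cuspTwoEquiv_apply (F : WHlt N 2 0) : ⇑(cuspTwoEquiv N F) = F.1 := by
  rw [cuspTwoEquiv, WHltEquiv_apply, dpow_zero, mul_one]

/-! ### Finite dimensionality -/

omit [NeZero N] in
theorem analyticAt_cusp_mf {k : ℤ} (f : ModularForm (Gamma0 N) k) :
    AnalyticAt ℂ (cuspFunction 1 (f : ℍ → ℂ)) 0 :=
  ModularFormClass.analyticAt_cuspFunction_zero f one_pos
    (CongruenceSubgroup.one_mem_strictPeriods_Gamma0 N)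

/-- `M_k(Γ₀(N))` is finite-dimensional, by the Sturm bound. -/
theorem finiteDimensional_modularForm (k : ℤ) :
    FiniteDimensional ℂ (ModularForm (Gamma0 N) k) := by
  let Φ : ModularForm (Gamma0 N) k →ₗ[ℂ]
      (Fin ((k * (Gamma0 N).index).toNat / 12 + 1) → ℂ) :=
    { toFun := fun f n => (qExpansion 1 f).coeff n
      map_add' := fun f g => funext fun n => by
        simp only [Pi.add_apply]
        rw [FunLike.coe_add, qExpansion_add (analyticAt_cusp_mf N f) (analyticAt_cusp_mf N g),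
          map_add]
      map_smul' := fun c f => funext fun n => by
        simp only [Pi.smul_apply, RingHom.id_apply]
        rw [FunLike.coe_smul, qExpansion_smul (analyticAt_cusp_mf N f)]
        simp }
  have hΦ : Function.Injective Φ := by
    rw [← LinearMap.ker_eq_bot, LinearMap.ker_eq_bot']
    intro f hf
    apply ModularForm.sturm_bound_Gamma0 N
    intro n hn
    exact congrFun hf ⟨n, by omega⟩
  exact FiniteDimensional.of_injective Φ hΦ

instance finiteDimensional_WHle (w m : ℤ) : FiniteDimensional ℂ (WHle N w m) :=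
  haveI := finiteDimensional_modularForm N (w + 12 * m)
  LinearEquiv.finiteDimensional (WHleEquiv N w m (w + 12 * m) rfl).symm

instance finiteDimensional_WHlt (w m : ℤ) : FiniteDimensional ℂ (WHlt N w m) :=
  Submodule.finiteDimensional_of_le (WHlt_le_WHle N w m)

theorem finrank_WHle (w m k : ℤ) (hk : k = w + 12 * m) :
    Module.finrank ℂ (WHle N w m) = Module.finrank ℂ (ModularForm (Gamma0 N) k) :=
  (WHleEquiv N w m k hk).finrank_eq

theorem finrank_WHlt (w m k : ℤ) (hk : k = w + 12 * m) :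
    Module.finrank ℂ (WHlt N w m) = Module.finrank ℂ (CuspForm (Gamma0 N) k) :=
  (WHltEquiv N w m k hk).finrank_eq

theorem finrank_cuspTwo :
    Module.finrank ℂ (CuspForm (Gamma0 N) 2) = Module.finrank ℂ (WHlt N 2 0) :=
  (cuspTwoEquiv N).finrank_eq.symm

/-! ### Vanishing and constants -/

theorem WHle_eq_bot_of_neg (w m : ℤ) (h : w + 12 * m < 0) : WHle N w m = ⊥ := by
  rw [eq_bot_iff]
  intro F hF
  rw [Submodule.mem_bot]
  have h1 := ModularForm.isZero_of_neg_weight h (WHleEquiv N w m _ rfl ⟨F, hF⟩)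
  have h2 : (⟨F, hF⟩ : WHle N w m) = 0 := (WHleEquiv N w m _ rfl).map_eq_zero_iff.mp h1
  exact congrArg Subtype.val h2

theorem WHlt_eq_bot_of_neg (w m : ℤ) (h : w + 12 * m < 0) : WHlt N w m = ⊥ := by
  rw [eq_bot_iff, ← WHle_eq_bot_of_neg N w m h]
  exact WHlt_le_WHle N w m

/-- Weight zero, no poles: constants. -/
theorem mem_WHle_zero_zero {F : ℍ → ℂ} : F ∈ WHle N 0 0 ↔ ∃ c : ℂ, F = fun _ => c := by
  constructor
  · intro hF
    obtain ⟨c, hc⟩ := ModularForm.eq_const_of_weight_zero (WHleEquiv N 0 0 0 (by norm_num) ⟨F, hF⟩)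
    rw [WHleEquiv_apply, dpow_zero, mul_one] at hc
    exact ⟨c, hc⟩
  · rintro ⟨c, rfl⟩
    have h : (fun _ : ℍ => c) = c • (1 : ℍ → ℂ) := by funext z; simp
    rw [h]
    exact (WHle N 0 0).smul_mem c (one_mem_WHle N)

/-- Weight zero, zero at all cusps: nothing. -/
theorem WHlt_zero_zero : WHlt N 0 0 = ⊥ := by
  rw [eq_bot_iff]
  intro F hF
  rw [Submodule.mem_bot]
  obtain ⟨c, rfl⟩ := (mem_WHle_zero_zero N).mp (WHlt_le_WHle N 0 0 hF)
  have h := hF.2.2 1
  rw [dpow_zero, mul_one, SlashAction.slash_one] at h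
  have hc : c = 0 := tendsto_nhds_unique tendsto_const_nhds h
  rw [hc]; rfl

end Equiv

end Fermat.Agent.GenusLib.WHBasic
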