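import Mathlib
import Fermat.Agent.GenusLib.WHBasic
import Fermat.Agent.GenusLib.RRP1
import Fermat.Agent.GenusLib.LevelOne
import Fermat.Agent.S23Lib.Distinct

/-!
# PROJECT X (S20), step (1): the structure of `B = WH N 0` over `ℂ[j]`

* `BAlg N` : the `ℂ`-algebra of weakly holomorphic functions for `Γ₀(N)`; `ℂ[X]` acts through `j`;
* `L N d` : the filtration by pole order, an `RRP1.IsFilt`;
* `B` is a domain, torsion free, finite and free of rank `|SL(2, ℤ) ⧸ Γ₀(N)|` over `ℂ[X]`.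
-/

set_option autoImplicit false

noncomputable section

namespace Fermat.Agent.GenusLib.BStruct

open UpperHalfPlane hiding I
open Filter Topology Complex Function Asymptotics
open scoped Real MatrixGroups ModularForm Manifold
open CongruenceSubgroup Matrix.SpecialLinearGroup ModularForm Polynomial
open Fermat.Agent.S23Lib Fermat.Agent.S23Lib.Conj
open Fermat.Agent.GenusLib.Defs Fermat.Agent.GenusLib.WHBasic

local notation "Δ" => ModularForm.discriminant

/-! ### The algebra `B` -/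

/-- The `ℂ`-algebra of weakly holomorphic modular functions for `Γ₀(N)`. -/
def BAlg (N : ℕ) : Subalgebra ℂ (ℍ → ℂ) where
  carrier := {F | F ∈ WH N 0}
  mul_mem' := by
    rintro F G ⟨m, hF⟩ ⟨n, hG⟩
    exact ⟨m + n, WHle_mul' hF hG (add_zero 0) rfl⟩
  one_mem' := ⟨0, one_mem_WHle N⟩
  add_mem' := (WH N 0).add_mem
  zero_mem' := (WH N 0).zero_mem
  algebraMap_mem' := fun c => ⟨0, by
    have : algebraMap ℂ (ℍ → ℂ) c = c • (1 : ℍ → ℂ) := by ext z; simp
    rw [this]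
    exact (WHle N 0 0).smul_mem c (one_mem_WHle N)⟩

theorem mem_BAlg {N : ℕ} {F : ℍ → ℂ} : F ∈ BAlg N ↔ F ∈ WH N 0 := Iff.rfl

theorem BAlg_mdiff {N : ℕ} (b : BAlg N) : MDiff (b : ℍ → ℂ) := by
  obtain ⟨m, hm⟩ := b.2
  exact hm.1

theorem BAlg_inv {N : ℕ} (b : BAlg N) : Inv (Gamma0 N) 0 (b : ℍ → ℂ) := by
  obtain ⟨m, hm⟩ := b.2
  exact hm.2.1

/-- `j` as an element of `B`. -/
def jB (N : ℕ) : BAlg N := ⟨jFun, 1, jFun_mem_WHle N⟩

@[simp] theorem coe_jB (N : ℕ) : ((jB N : BAlg N) : ℍ → ℂ) = jFun := rfl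

instance instNoZeroDivisors (N : ℕ) : NoZeroDivisors (BAlg N) where
  eq_zero_or_eq_zero_of_mul_eq_zero := by
    intro a b hab
    have h : (a : ℍ → ℂ) * (b : ℍ → ℂ) = 0 := congrArg Subtype.val hab
    rcases (UpperHalfPlane.mul_eq_zero_iff (BAlg_mdiff a) (BAlg_mdiff b)).mp h with h | h
    · exact Or.inl (Subtype.ext h)
    · exact Or.inr (Subtype.ext h)

instance instIsDomain (N : ℕ) : IsDomain (BAlg N) := NoZeroDivisors.to_isDomain _

/-- `ℂ[X]` acts on `B` through `j`. -/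
instance instAlgebra (N : ℕ) : Algebra ℂ[X] (BAlg N) := (aeval (jB N)).toRingHom.toAlgebra

theorem algebraMap_eq (N : ℕ) (p : ℂ[X]) : algebraMap ℂ[X] (BAlg N) p = aeval (jB N) p := rfl

instance instIsScalarTower (N : ℕ) : IsScalarTower ℂ ℂ[X] (BAlg N) :=
  IsScalarTower.of_algebraMap_eq fun c => by
    rw [algebraMap_eq, ← Polynomial.C_eq_algebraMap, aeval_C]

theorem aeval_fun_apply (F : ℍ → ℂ) (p : ℂ[X]) (z : ℍ) : (aeval F p) z = p.eval (F z) := by
  have h := aeval_algHom_apply (Pi.evalAlgHom ℂ (fun _ : ℍ => ℂ) z) F p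
  simp only [Pi.evalAlgHom_apply] at h
  rw [← h, coe_aeval_eq_eval]

theorem coe_aeval_jB (N : ℕ) (p : ℂ[X]) (z : ℍ) :
    ((aeval (jB N) p : BAlg N) : ℍ → ℂ) z = p.eval (jFun z) := by
  rw [← Subalgebra.aeval_coe, coe_jB, aeval_fun_apply]

theorem smul_def' {N : ℕ} (p : ℂ[X]) (b : BAlg N) : p • b = aeval (jB N) p * b := by
  rw [Algebra.smul_def, algebraMap_eq]

@[simp] theorem coe_smul_apply {N : ℕ} (p : ℂ[X]) (b : BAlg N) (z : ℍ) :
    ((p • b : BAlg N) : ℍ → ℂ) z = p.eval (jFun z) * (b : ℍ → ℂ) z := by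
  rw [smul_def', Subalgebra.coe_mul, Pi.mul_apply, coe_aeval_jB]

theorem coe_X_smul {N : ℕ} (b : BAlg N) :
    (((X : ℂ[X]) • b : BAlg N) : ℍ → ℂ) = jFun * (b : ℍ → ℂ) := by
  funext z
  simp

/-! ### `j` is transcendental -/

theorem jFun_norm_tendsto : Tendsto (fun z : ℍ => ‖jFun z‖) atImInfty atTop := by
  have h1 : Tendsto (fun z : ℍ => ‖(E₄ z) ^ 3‖) atImInfty (𝓝 1) := by
    have := (E4_cube_tendsto).norm
    simpa using this
  have h2 : Tendsto (fun z : ℍ => ‖Δ z‖⁻¹) atImInfty atTop := by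
    apply Filter.Tendsto.inv_tendsto_nhdsGT_zero
    rw [tendsto_nhdsWithin_iff]
    refine ⟨?_, Eventually.of_forall fun z => norm_pos_iff.mpr (discriminant_ne_zero z)⟩
    have := (Defs.discriminant_isZeroAtImInfty).norm
    simpa using this
  have h3 := h2.atTop_mul_pos one_pos h1
  refine h3.congr fun z => ?_
  simp only [jFun, norm_div]
  rw [div_eq_mul_inv, mul_comm]

theorem aeval_jFun_ne_zero {p : ℂ[X]} (hp : p ≠ 0) : ∃ z : ℍ, p.eval (jFun z) ≠ 0 := by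
  by_contra hcon
  push Not at hcon
  -- all values of `j` are roots of `p`: a bounded set
  have hfin : (p.roots.toFinset : Set ℂ).Finite := Finset.finite_toSet _
  obtain ⟨R, hR⟩ := hfin.isBounded.exists_norm_le
  have h1 : ∀ᶠ z in atImInfty, R + 1 ≤ ‖jFun z‖ := jFun_norm_tendsto.eventually_ge_atTop (R + 1)
  obtain ⟨z, hz⟩ := h1.exists
  have h2 : jFun z ∈ (p.roots.toFinset : Set ℂ) := by
    simp only [Finset.mem_coe, Multiset.mem_toFinset]
    exact (mem_roots hp).mpr (hcon z)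
  have := hR _ h2
  linarith

theorem algebraMap_injective (N : ℕ) : Function.Injective (algebraMap ℂ[X] (BAlg N)) := by
  rw [injective_iff_map_eq_zero]
  intro p hp
  by_contra hne
  obtain ⟨z, hz⟩ := aeval_jFun_ne_zero hne
  apply hz
  rw [algebraMap_eq] at hp
  rw [← coe_aeval_jB N p z, hp]
  rfl

instance instIsTorsionFree (N : ℕ) : Module.IsTorsionFree ℂ[X] (BAlg N) :=
  Module.isTorsionFree_iff_algebraMap_injective.mpr (algebraMap_injective N)

/-! ### The filtration by pole order -/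

/-- `L N d`: the elements of `B` with pole order at most `d` at all cusps. -/
def L (N : ℕ) (d : ℤ) : Submodule ℂ (BAlg N) := (WHle N 0 d).comap (BAlg N).val.toLinearMap

theorem mem_L {N : ℕ} {d : ℤ} {b : BAlg N} : b ∈ L N d ↔ (b : ℍ → ℂ) ∈ WHle N 0 d := Iff.rfl

/-- `L N d` is `WHle N 0 d`. -/
def LEquiv (N : ℕ) (d : ℤ) : L N d ≃ₗ[ℂ] WHle N 0 d where
  toFun b := ⟨(b.1 : ℍ → ℂ), b.2⟩
  map_add' _ _ := rfl
  map_smul' _ _ := rfl
  invFun F := ⟨⟨F.1, d, F.2⟩, F.2⟩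
  left_inv _ := rfl
  right_inv _ := rfl

theorem isFilt_L (N : ℕ) [NeZero N] : RRP1.IsFilt (L N) where
  mono := fun d e hde b hb => WHle_mono N 0 hde hb
  X_smul_mem_iff := fun d b => by
    rw [mem_L, mem_L, coe_X_smul]
    exact jFun_mul_mem_WHle_iff (BAlg_mdiff b) (BAlg_inv b)
  exhaustive := fun b => b.2
  finite := fun d => LinearEquiv.finiteDimensional (LEquiv N d).symm

/-! ### The level one input -/

/-- Level one input: weakly holomorphic level one functions are polynomials in `j`. -/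
def LevelOneHyp : Prop :=
  ∀ (m : ℤ) (F : ℍ → ℂ), F ∈ WHle 1 0 m → ∃ P : ℂ[X], ∀ z, F z = P.eval (jFun z)

theorem levelOneHyp : LevelOneHyp := by
  intro m F hF
  obtain ⟨P, -, hP⟩ := LevelOne.mem_WHle_one_zero_iff.mp hF
  exact ⟨P, fun z => by rw [hP]; rfl⟩

/-! ### Translates -/

section Translates

variable {N : ℕ}

theorem tr_mdiff {w : ℤ} {F : ℍ → ℂ} (hinv : Inv (Gamma0 N) w F) (hF : MDiff F)
    (q : SL(2, ℤ) ⧸ Gamma0 N) : MDiff (Sym.tr F w hinv q) := by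
  induction q using QuotientGroup.induction_on with
  | H γ =>
    rw [Sym.tr_mk]
    exact hF.slash w ((γ⁻¹ : SL(2, ℤ)) : GL (Fin 2) ℝ)

theorem tr_bdd {w m : ℤ} {F : ℍ → ℂ} (hF : F ∈ WHle N w m) (q : SL(2, ℤ) ⧸ Gamma0 N) :
    IsBoundedAtImInfty (Sym.tr F w hF.2.1 q * dpow m) := by
  induction q using QuotientGroup.induction_on with
  | H γ =>
    rw [Sym.tr_mk]
    exact hF.2.2 γ⁻¹

theorem tr_zero {w m : ℤ} {F : ℍ → ℂ} (hF : F ∈ WHlt N w m) (q : SL(2, ℤ) ⧸ Gamma0 N) :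
    IsZeroAtImInfty (Sym.tr F w hF.2.1 q * dpow m) := by
  induction q using QuotientGroup.induction_on with
  | H γ =>
    rw [Sym.tr_mk]
    exact hF.2.2 γ⁻¹

/-- Weight zero slash is composition. -/
theorem slash_zero_apply (F : ℍ → ℂ) (γ : SL(2, ℤ)) (z : ℍ) :
    (F ∣[(0 : ℤ)] γ) z = F (γ • z) := by
  rw [ModularForm.SL_slash_apply]
  simp

variable [Fintype (SL(2, ℤ) ⧸ Gamma0 N)] [DecidableEq (SL(2, ℤ) ⧸ Gamma0 N)]

theorem psi_mul_dpow (j : ℕ) (a b : SL(2, ℤ) ⧸ Gamma0 N → ℍ → ℂ) (m : ℤ) :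
    Sym.psi j a b * dpow (m + j) = Sym.psi j (fun q => a q * dpow m) (fun q => b q * dpow 1) := by
  funext z
  rw [Pi.mul_apply, Sym.psi_apply, Sym.psi_apply, Finset.sum_mul]
  refine Finset.sum_congr rfl fun x _ => ?_
  simp only [Pi.mul_apply]
  have h1 : ∀ s ∈ Finset.powersetCard j ((Finset.univ : Finset (SL(2, ℤ) ⧸ Gamma0 N)).erase x),
      ∏ q ∈ s, (b q z * dpow 1 z) = (∏ q ∈ s, b q z) * dpow j z := by
    intro s hs
    have hc : s.card = j := (Finset.mem_powersetCard.mp hs).2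
    rw [Finset.prod_mul_distrib, Finset.prod_const, hc, dpow_apply, dpow_apply, zpow_one,
      zpow_natCast]
  rw [Finset.sum_congr rfl h1, ← Finset.sum_mul]
  have h2 : dpow (m + j) z = dpow m z * dpow j z := by
    rw [dpow_add]; rfl
  rw [h2]
  ring

/-- The mixed symmetric functions of translates are weakly holomorphic of level one. -/
theorem psi_mem {w m : ℤ} {F G : ℍ → ℂ} (hF : F ∈ WHle N w m) (hG : G ∈ WHle N 0 1) (j : ℕ) :
    Sym.psi j (Sym.tr F w hF.2.1) (Sym.tr G 0 hG.2.1) ∈ WHle 1 w (m + j) := by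
  have hinv : ∀ γ : SL(2, ℤ), Sym.psi j (Sym.tr F w hF.2.1) (Sym.tr G 0 hG.2.1) ∣[w] γ =
      Sym.psi j (Sym.tr F w hF.2.1) (Sym.tr G 0 hG.2.1) := by
    intro γ
    have h := Sym.psi_slash (Sym.eqv_tr F w hF.2.1) (Sym.eqv_tr G 0 hG.2.1) j γ
    simpa using h
  refine ⟨Sym.psi_mdiff (tr_mdiff _ hF.1) (tr_mdiff _ hG.1) j, fun γ _ => hinv γ, fun γ => ?_⟩
  rw [hinv γ, psi_mul_dpow]
  exact Sym.psi_bdd (tr_bdd hF) (tr_bdd hG) j

end Translates

/-! ### The primitive element and Lagrange interpolation -/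

section Struct

variable (N : ℕ) [NeZero N]

/-- The primitive element `h = Δ(N·)/Δ`. -/
def hfun : ℍ → ℂ := Distinct.deltaN N * dpow (-1)

theorem deltaN_mem_WHle : Distinct.deltaN N ∈ WHle N 12 0 := by
  refine ⟨Distinct.deltaN_mdiff N, fun γ hγ => Distinct.deltaN_slash_Gamma0 N γ hγ, fun γ => ?_⟩
  rw [dpow_zero, mul_one]
  exact Distinct.deltaN_bdd_slash N γ

theorem hfun_mem_WHle : hfun N ∈ WHle N 0 1 :=
  WHle_mul' (deltaN_mem_WHle N) (dpow_mem_WHle N (-1)) (by norm_num) (by norm_num)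

/-- `h` as an element of `B`. -/
def hB : BAlg N := ⟨hfun N, 1, hfun_mem_WHle N⟩

@[simp] theorem coe_hB : ((hB N : BAlg N) : ℍ → ℂ) = hfun N := rfl

theorem hfun_slash (γ : SL(2, ℤ)) :
    hfun N ∣[(0 : ℤ)] γ = (Distinct.deltaN N ∣[(12 : ℤ)] γ) * dpow (-1) :=
  mul_dpow_slash _ 12 (-1) 0 (by norm_num) γ

theorem hfun_slash_ne (γ : SL(2, ℤ)) (hγ : γ ∉ Gamma0 N) : hfun N ∣[(0 : ℤ)] γ ≠ hfun N := by
  intro h
  apply Distinct.deltaN_slash_ne N γ hγ
  rw [hfun_slash] at h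
  have h1 := congrArg (fun f : ℍ → ℂ => f * dpow 1) h
  simp only [hfun, mul_assoc] at h1
  have h2 : dpow (-1) * dpow 1 = 1 := dpow_neg_mul 1
  rw [h2, mul_one, mul_one] at h1
  exact h1

/-- The translates of `h`. -/
def htr : SL(2, ℤ) ⧸ Gamma0 N → ℍ → ℂ := Sym.tr (hfun N) 0 (hfun_mem_WHle N).2.1

theorem htr_one : htr N ((1 : SL(2, ℤ)) : SL(2, ℤ) ⧸ Gamma0 N) = hfun N := Sym.tr_one _ _ _

theorem htr_mdiff (q : SL(2, ℤ) ⧸ Gamma0 N) : MDiff (htr N q) :=
  tr_mdiff _ (hfun_mem_WHle N).1 q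

theorem htr_injective : Function.Injective (htr N) := by
  intro q q' h
  induction q using QuotientGroup.induction_on with
  | H γ =>
    induction q' using QuotientGroup.induction_on with
    | H γ' =>
      rw [htr, Sym.tr_mk, Sym.tr_mk] at h
      rw [QuotientGroup.eq]
      by_contra hne
      apply hfun_slash_ne N (γ⁻¹ * γ') hne
      rw [SlashAction.slash_mul, h, ← SlashAction.slash_mul, inv_mul_cancel,
        SlashAction.slash_one]

theorem htr_apply_mk (γ : SL(2, ℤ)) (z : ℍ) :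
    htr N (γ : SL(2, ℤ) ⧸ Gamma0 N) z = hfun N (γ⁻¹ • z) := by
  rw [htr, Sym.tr_mk, slash_zero_apply]

local instance fintypeQuot : Fintype (SL(2, ℤ) ⧸ Gamma0 N) := Fintype.ofFinite _

local instance decEqQuot : DecidableEq (SL(2, ℤ) ⧸ Gamma0 N) := Classical.decEq _

/-- The degree `|SL(2, ℤ) ⧸ Γ₀(N)|`. -/
def deg : ℕ := Nat.card (SL(2, ℤ) ⧸ Gamma0 N)

theorem deg_eq : deg N = Fintype.card (SL(2, ℤ) ⧸ Gamma0 N) := Nat.card_eq_fintype_card

theorem deg_pos : 0 < deg N := by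
  rw [deg_eq]
  exact Fintype.card_pos_iff.mpr ⟨((1 : SL(2, ℤ)) : SL(2, ℤ) ⧸ Gamma0 N)⟩

/-- The "different" `∏_{q ≠ 1} (h - h_q)`. -/
def DpFun : ℍ → ℂ :=
  ∏ q ∈ (Finset.univ : Finset (SL(2, ℤ) ⧸ Gamma0 N)).erase ((1 : SL(2, ℤ)) : SL(2, ℤ) ⧸ Gamma0 N),
    (hfun N - htr N q)

theorem DpFun_ne_zero : DpFun N ≠ 0 := by
  intro h0
  rw [DpFun, UpperHalfPlane.prod_eq_zero_iff
    (fun q _ => (hfun_mem_WHle N).1.sub (htr_mdiff N q))] at h0
  obtain ⟨q, hq, hq0⟩ := h0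
  have hq1 : q ≠ ((1 : SL(2, ℤ)) : SL(2, ℤ) ⧸ Gamma0 N) := (Finset.mem_erase.mp hq).1
  apply hq1
  apply htr_injective N
  rw [htr_one]
  exact (sub_eq_zero.mp hq0).symm

/-- The `ℂ[X]`-span of `1, h, …, h^(d-1)`. -/
def M₀ : Submodule ℂ[X] (BAlg N) :=
  Submodule.span ℂ[X] (Set.range fun i : Fin (deg N) => hB N ^ (i : ℕ))

omit [NeZero N] in
theorem coe_sum_apply {ι : Type*} (s : Finset ι) (f : ι → BAlg N) (z : ℍ) :
    ((∑ i ∈ s, f i : BAlg N) : ℍ → ℂ) z = ∑ i ∈ s, (f i : ℍ → ℂ) z := by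
  have h : ((∑ i ∈ s, f i : BAlg N) : ℍ → ℂ) = ∑ i ∈ s, (f i : ℍ → ℂ) :=
    map_sum (BAlg N).val f s
  rw [h, Finset.sum_apply]

/-- Lagrange interpolation: `F * ∏_{q ≠ 1} (h - h_q)` is a `ℂ[j]`-combination of powers of `h`. -/
theorem lagrange_mem (hJ : LevelOneHyp) {F : ℍ → ℂ} (hF : F ∈ WH N 0) :
    ∃ x ∈ M₀ N, (x : ℍ → ℂ) = F * DpFun N := by
  obtain ⟨m, hm⟩ := hF
  have hpsi := fun j : ℕ => hJ (m + j) _ (psi_mem hm (hfun_mem_WHle N) j)
  choose P hP using hpsi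
  have hd := deg_eq N
  refine ⟨∑ j ∈ Finset.range (deg N), (C ((-1 : ℂ) ^ j) * P j) • hB N ^ (deg N - 1 - j), ?_, ?_⟩
  · refine Submodule.sum_mem _ fun j hj => Submodule.smul_mem _ _ (Submodule.subset_span ?_)
    have hj' := Finset.mem_range.mp hj
    exact ⟨⟨deg N - 1 - j, by omega⟩, rfl⟩
  · funext z
    have h := Sym.lagrange (Sym.tr F 0 hm.2.1) (htr N) ((1 : SL(2, ℤ)) : SL(2, ℤ) ⧸ Gamma0 N) z
    rw [Sym.tr_one, htr_one, ← hd] at h
    rw [coe_sum_apply, Pi.mul_apply, DpFun, Finset.prod_apply]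
    simp only [Pi.sub_apply]
    rw [h]
    refine Finset.sum_congr rfl fun j _ => ?_
    rw [coe_smul_apply, eval_mul, eval_C, Subalgebra.coe_pow, Pi.pow_apply, coe_hB, ← hP j z]
    rw [htr]
    ring

/-- `∏_{q ≠ 1} (h - h_q)` as an element of `B`. -/
theorem exists_Dp (hJ : LevelOneHyp) : ∃ D : BAlg N, D ≠ 0 ∧ ∀ b : BAlg N, D * b ∈ M₀ N := by
  obtain ⟨D, hD, hDc⟩ := lagrange_mem N hJ (BAlg N).one_mem
  rw [one_mul] at hDc
  refine ⟨D, fun h0 => DpFun_ne_zero N (by rw [← hDc, h0]; rfl), fun b => ?_⟩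
  obtain ⟨x, hx, hxc⟩ := lagrange_mem N hJ b.2
  have : D * b = x := Subtype.ext (by rw [hxc, Subalgebra.coe_mul, hDc, mul_comm])
  rw [this]
  exact hx

/-- `B` is a finite `ℂ[j]`-module. -/
theorem finite (hJ : LevelOneHyp) : Module.Finite ℂ[X] (BAlg N) := by
  obtain ⟨D, hD, hDmem⟩ := exists_Dp N hJ
  have : IsNoetherian ℂ[X] (M₀ N) := isNoetherian_span_of_finite ℂ[X] (Set.finite_range _)
  let f : BAlg N →ₗ[ℂ[X]] M₀ N := (LinearMap.mulLeft ℂ[X] D).codRestrict (M₀ N) hDmem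
  have hf : Function.Injective f := by
    intro a b hab
    have h1 : D * a = D * b := congrArg Subtype.val hab
    exact mul_left_cancel₀ hD h1
  exact Module.Finite.of_injective f hf

/-- `B` is a free `ℂ[j]`-module. -/
theorem free (hJ : LevelOneHyp) : Module.Free ℂ[X] (BAlg N) :=
  haveI := finite N hJ
  Module.free_of_finite_type_torsion_free'

/-! ### The rank -/

theorem vandermonde_aux {ι : Type*} [Fintype ι] (d : ℕ) (hd : Fintype.card ι = d) (v : ι → ℂ)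
    (hv : Function.Injective v) (c : Fin d → ℂ)
    (h : ∀ q, ∑ i : Fin d, c i * v q ^ (i : ℕ) = 0) : c = 0 := by
  set p : ℂ[X] := ∑ i : Fin d, C (c i) * X ^ (i : ℕ) with hp
  have hdeg : p.degree < d := degree_sum_fin_lt c
  have hp0 : p = 0 := by
    by_cases hp0 : p = 0
    · exact hp0
    · apply eq_zero_of_natDegree_lt_card_of_eval_eq_zero p hv
      · intro q
        rw [hp, eval_finsetSum]
        simpa using h q
      · rw [hd]
        exact (natDegree_lt_iff_degree_lt hp0).mpr hdeg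
  funext i
  have h1 := congrArg (fun p : ℂ[X] => p.coeff (i : ℕ)) hp0
  simp only [hp, finsetSum_coeff, coeff_C_mul, coeff_X_pow, coeff_zero] at h1
  simp only [Fin.val_inj, mul_ite, mul_one, mul_zero] at h1
  rw [Finset.sum_ite_eq] at h1
  simpa using h1

/-- The full discriminant `∏_{q ≠ q'} (h_q - h_q')`. -/
def DiscFun : ℍ → ℂ :=
  ∏ q : SL(2, ℤ) ⧸ Gamma0 N,
    ∏ q' ∈ (Finset.univ : Finset (SL(2, ℤ) ⧸ Gamma0 N)).erase q, (htr N q - htr N q')

theorem DiscFun_mdiff : MDiff (DiscFun N) :=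
  Sym.mdiff_prod _ fun q _ => Sym.mdiff_prod _ fun q' _ => (htr_mdiff N q).sub (htr_mdiff N q')

theorem DiscFun_ne_zero : DiscFun N ≠ 0 := by
  intro h0
  rw [DiscFun, UpperHalfPlane.prod_eq_zero_iff (fun q _ =>
    Sym.mdiff_prod _ fun q' _ => (htr_mdiff N q).sub (htr_mdiff N q'))] at h0
  obtain ⟨q, -, hq0⟩ := h0
  rw [UpperHalfPlane.prod_eq_zero_iff (fun q' _ => (htr_mdiff N q).sub (htr_mdiff N q'))] at hq0
  obtain ⟨q', hq', h⟩ := hq0
  exact (Finset.mem_erase.mp hq').1 (htr_injective N (sub_eq_zero.mp h)).symm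

theorem DiscFun_apply_eq_zero {z : ℍ} (h : ¬ Function.Injective fun q => htr N q z) :
    DiscFun N z = 0 := by
  rw [Function.Injective] at h
  push Not at h
  obtain ⟨q, q', heq, hne⟩ := h
  rw [DiscFun, Finset.prod_apply]
  refine Finset.prod_eq_zero (Finset.mem_univ q) ?_
  rw [Finset.prod_apply]
  refine Finset.prod_eq_zero (Finset.mem_erase.mpr ⟨Ne.symm hne, Finset.mem_univ q'⟩) ?_
  simp only [Pi.sub_apply]
  exact sub_eq_zero.mpr heq

/-- `1, h, …, h^(d-1)` are linearly independent over `ℂ[j]`. -/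
theorem linearIndependent_pow :
    LinearIndependent ℂ[X] (fun i : Fin (deg N) => hB N ^ (i : ℕ)) := by
  rw [Fintype.linearIndependent_iff]
  intro g hg i
  -- pointwise form of the relation
  have h1 : ∀ z : ℍ, ∑ i : Fin (deg N), (g i).eval (jFun z) * hfun N z ^ (i : ℕ) = 0 := by
    intro z
    have h := congrFun (congrArg Subtype.val hg) z
    rw [coe_sum_apply] at h
    simpa using h
  -- the same for all translates
  have h2 : ∀ (q : SL(2, ℤ) ⧸ Gamma0 N) (z : ℍ),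
      ∑ i : Fin (deg N), (g i).eval (jFun z) * htr N q z ^ (i : ℕ) = 0 := by
    intro q z
    induction q using QuotientGroup.induction_on with
    | H γ =>
      have h := h1 (γ⁻¹ • z)
      rw [jFun_smul] at h
      rw [htr_apply_mk]
      exact h
  -- hence the coefficients vanish wherever the discriminant does not
  have h3 : ∀ z : ℍ, DiscFun N z * (g i).eval (jFun z) = 0 := by
    intro z
    by_cases hinj : Function.Injective fun q => htr N q z
    · have h := vandermonde_aux (deg N) (deg_eq N).symm (fun q => htr N q z) hinj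
        (fun i => (g i).eval (jFun z)) (fun q => h2 q z)
      rw [congrFun h i]
      simp
    · rw [DiscFun_apply_eq_zero N hinj, zero_mul]
  have h4 : DiscFun N * ((aeval (jB N) (g i) : BAlg N) : ℍ → ℂ) = 0 := by
    funext z
    rw [Pi.mul_apply, coe_aeval_jB]
    exact h3 z
  rcases (UpperHalfPlane.mul_eq_zero_iff (DiscFun_mdiff N) (BAlg_mdiff _)).mp h4 with h | h
  · exact absurd h (DiscFun_ne_zero N)
  · have h5 : algebraMap ℂ[X] (BAlg N) (g i) = 0 := Subtype.ext h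
    exact (injective_iff_map_eq_zero _).mp (algebraMap_injective N) _ h5

/-- The rank of `B` over `ℂ[j]` is the index of `Γ₀(N)`. -/
theorem finrank_eq (hJ : LevelOneHyp) :
    Module.finrank ℂ[X] (BAlg N) = Nat.card (SL(2, ℤ) ⧸ Gamma0 N) := by
  have hfin := finite N hJ
  apply le_antisymm
  · obtain ⟨D, hD, hDmem⟩ := exists_Dp N hJ
    have : Module.Finite ℂ[X] (M₀ N) := Module.Finite.span_of_finite ℂ[X] (Set.finite_range _)
    let f : BAlg N →ₗ[ℂ[X]] M₀ N := (LinearMap.mulLeft ℂ[X] D).codRestrict (M₀ N) hDmem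
    have hf : Function.Injective f := by
      intro a b hab
      have h1 : D * a = D * b := congrArg Subtype.val hab
      exact mul_left_cancel₀ hD h1
    have h1 := LinearMap.finrank_le_finrank_of_injective hf
    have h2 := finrank_range_le_card (R := ℂ[X]) (fun i : Fin (deg N) => hB N ^ (i : ℕ))
    rw [Fintype.card_fin] at h2
    exact h1.trans h2
  · have h := (linearIndependent_pow N).fintype_card_le_finrank
    rwa [Fintype.card_fin] at h

end Struct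

/-! ### Final form -/

instance instFinite (N : ℕ) [NeZero N] : Module.Finite ℂ[X] (BAlg N) := finite N levelOneHyp

instance instFree (N : ℕ) [NeZero N] : Module.Free ℂ[X] (BAlg N) := free N levelOneHyp

/-- `B` is free of rank `[SL(2, ℤ) : Γ₀(N)]` over `ℂ[j]`. -/
theorem finrank_BAlg (N : ℕ) [NeZero N] :
    Module.finrank ℂ[X] (BAlg N) = Nat.card (SL(2, ℤ) ⧸ Gamma0 N) := finrank_eq N levelOneHyp

/-- Riemann–Roch on the projective `j`-line for `B` with its pole order filtration. -/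
theorem rr_BAlg (N : ℕ) [NeZero N] : ∃ χ : ℤ,
    (∀ d : ℤ, (Module.finrank ℂ (L N d) : ℤ) -
        (Module.finrank ℂ (RRP1.dualFilt (L N) (-2 - d)) : ℤ) =
          (Nat.card (SL(2, ℤ) ⧸ Gamma0 N) : ℤ) * d + χ) ∧
      (∃ d₀ : ℤ, ∀ d : ℤ, d₀ ≤ d → RRP1.dualFilt (L N) (-2 - d) = ⊥) ∧
      (∃ d₁ : ℤ, ∀ d : ℤ, d ≤ d₁ → L N d = ⊥) := by
  have h := RRP1.rr (isFilt_L N)
  rw [finrank_BAlg] at h
  exact h

theorem finrank_L (N : ℕ) [NeZero N] (d k : ℤ) (hk : k = 12 * d) :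
    Module.finrank ℂ (L N d) = Module.finrank ℂ (ModularForm (Gamma0 N) k) := by
  rw [(LEquiv N d).finrank_eq]
  exact finrank_WHle N 0 d k (by rw [hk]; ring)

end Fermat.Agent.GenusLib.BStruct
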