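import Mathlib
import Fermat.Agent.GenusLib.BStruct

/-!
# PROJECT X (S20): dimensions of `WHle N 0 d` for large `d` (no duality needed)
-/

set_option autoImplicit false

noncomputable section

namespace Fermat.Agent.GenusLib.BStruct

open UpperHalfPlane hiding I
open scoped MatrixGroups ModularForm Manifold
open CongruenceSubgroup Polynomial
open Fermat.Agent.GenusLib.Defs Fermat.Agent.GenusLib.WHBasic

/-- For large `d`: `dim L(d) = μ d + χ`. -/
theorem finrank_WHle_large (N : ℕ) [NeZero N] : ∃ χ d₀ : ℤ, ∀ d : ℤ, d₀ ≤ d →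
    (Module.finrank ℂ (WHle N 0 d) : ℤ) = (Nat.card (SL(2, ℤ) ⧸ Gamma0 N) : ℤ) * d + χ := by
  obtain ⟨χ, hχ, ⟨d₀, hd₀⟩, -⟩ := rr_BAlg N
  refine ⟨χ, d₀, fun d hd => ?_⟩
  have h := hχ d
  rw [hd₀ d hd, finrank_bot, (LEquiv N d).finrank_eq] at h
  push_cast at h
  linarith

/-- For large `d`: `dim L(d) = dim L(d - r) + r μ`. -/
theorem finrank_WHle_sub (N : ℕ) [NeZero N] : ∃ d₀ : ℤ, ∀ (d : ℤ) (r : ℕ), d₀ + r ≤ d →
    Module.finrank ℂ (WHle N 0 d) =
      Module.finrank ℂ (WHle N 0 (d - r)) + r * Nat.card (SL(2, ℤ) ⧸ Gamma0 N) := by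
  obtain ⟨χ, d₀, h⟩ := finrank_WHle_large N
  refine ⟨d₀, fun d r hd => ?_⟩
  have h1 := h d (by linarith)
  have h2 := h (d - r) (by linarith)
  have h3 : (Module.finrank ℂ (WHle N 0 d) : ℤ) =
      ((Module.finrank ℂ (WHle N 0 (d - r)) + r * Nat.card (SL(2, ℤ) ⧸ Gamma0 N) : ℕ) : ℤ) := by
    push_cast
    rw [h1, h2]
    ring
  exact_mod_cast h3

end Fermat.Agent.GenusLib.BStruct
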