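import Mathlib
import Fermat.Prelude.Def_ModularCurve_LaurentCoeff

/-!
# PROJECT Y (S24), leaf [S24-LD]: linear disjointness for Laurent series under extension of the
coefficient field

For a field embedding `ι : K →+* L`, `LaurentSeries K ⊗ L → LaurentSeries L` is injective on
"finite" tensors; consequently `K[J]`-linear independence in `LaurentSeries K` is preserved as
`L[J]`-linear independence in `LaurentSeries L`, and algebraic relations descend.
-/

set_option autoImplicit false

noncomputable section

namespace Fermat.Agent.GenusLib.FormalLD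

open Polynomial ModularCurve

variable {K L : Type*} [Field K] [Field L]

theorem coeff_C_mul' (c : L) (x : LaurentSeries L) (n : ℤ) :
    (HahnSeries.C c * x).coeff n = c * x.coeff n := by
  rw [HahnSeries.C_mul_eq_smul, HahnSeries.coeff_smul, smul_eq_mul]

theorem coeff_finset_sum {R : Type*} [Semiring R] {κ : Type*} (s : Finset κ)
    (f : κ → LaurentSeries R) (n : ℤ) : (∑ k ∈ s, f k).coeff n = ∑ k ∈ s, (f k).coeff n :=
  map_sum (HahnSeries.coeff.addMonoidHom n) f s

/-- (a), `Finset` version: compare Laurent coefficients. -/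
theorem coeffMap_eq_zero_of_linearIndependent (ι : K →+* L) {κ : Type*} (s : Finset κ)
    (e : κ → L) (he : ∀ a : κ → K, ∑ k ∈ s, ι (a k) * e k = 0 → ∀ k ∈ s, a k = 0)
    (y : κ → LaurentSeries K) (h : ∑ k ∈ s, HahnSeries.C (e k) * coeffMap ι (y k) = 0) :
    ∀ k ∈ s, y k = 0 := by
  have h1 : ∀ n : ℤ, ∀ k ∈ s, (y k).coeff n = 0 := by
    intro n
    apply he (fun k => (y k).coeff n)
    have h2 := congrArg (fun x : LaurentSeries L => x.coeff n) h
    simp only [coeff_finset_sum, coeff_C_mul', coeffMap_coeff, HahnSeries.coeff_zero] at h2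
    rw [← h2]
    exact Finset.sum_congr rfl fun k _ => mul_comm _ _
  intro k hk
  ext n
  exact h1 n k hk

/-- (a): if `e` is `K`-linearly independent in `L` and `∑ e_k · ι(y_k) = 0` then all `y_k = 0`. -/
theorem coeffMap_injective_of_linearIndependent (ι : K →+* L) {m : ℕ} (e : Fin m → L)
    (he : ∀ a : Fin m → K, ∑ k, ι (a k) * e k = 0 → a = 0) (y : Fin m → LaurentSeries K)
    (h : ∑ k, HahnSeries.C (e k) * ModularCurve.coeffMap ι (y k) = 0) : y = 0 := by
  funext k
  exact coeffMap_eq_zero_of_linearIndependent ι Finset.univ e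
    (fun a ha k _ => congrFun (he a ha) k) y h k (Finset.mem_univ k)

theorem coeffMap_algebraMap' (ι : K →+* L) (c : K) :
    coeffMap ι (algebraMap K (LaurentSeries K) c) = algebraMap L (LaurentSeries L) (ι c) := by
  rw [algebraMap_laurentSeries_eq_single, algebraMap_laurentSeries_eq_single, coeffMap_single]

theorem C_eq_algebraMap (c : L) : (HahnSeries.C c : LaurentSeries L) = algebraMap L _ c := by
  rw [algebraMap_laurentSeries_eq_single, HahnSeries.C_apply]

/-- `coeffMap` commutes with evaluation of polynomials. -/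
theorem aeval_coeffMap_map (ι : K →+* L) (J : LaurentSeries K) (p : K[X]) :
    aeval (coeffMap ι J) (p.map ι) = coeffMap ι (aeval J p) := by
  have hφ : (algebraMap L (LaurentSeries L)).comp ι =
      (coeffMap ι).comp (algebraMap K (LaurentSeries K)) :=
    RingHom.ext fun c => (coeffMap_algebraMap' ι c).symm
  rw [aeval_def, aeval_def, eval₂_map, hom_eval₂, hφ]

/-- (b) **Linear disjointness**: `K[J]`-linear independence in `LaurentSeries K` gives
`L[J]`-linear independence in `LaurentSeries L`. -/
theorem linearDisjoint (ι : K →+* L) (J : LaurentSeries K) {n : ℕ} (x : Fin n → LaurentSeries K)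
    (h : ∀ p : Fin n → K[X], ∑ i, Polynomial.aeval J (p i) * x i = 0 → p = 0) :
    ∀ P : Fin n → L[X],
      ∑ i, Polynomial.aeval (ModularCurve.coeffMap ι J) (P i) * ModularCurve.coeffMap ι (x i) = 0 →
        P = 0 := by
  classical
  intro P hP
  let _ : Algebra K L := ι.toAlgebra
  have hsmul : ∀ (c : K) (l : L), c • l = ι c * l := fun c l => by
    rw [Algebra.smul_def, RingHom.algebraMap_toAlgebra]
  let bas := Module.Basis.ofVectorSpace K L
  -- the finitely many basis vectors involved
  let T : Finset (Module.Basis.ofVectorSpaceIndex K L) :=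
    Finset.univ.biUnion fun i : Fin n =>
      (P i).support.biUnion fun t => (bas.repr ((P i).coeff t)).support
  have hsub : ∀ (i : Fin n) (t : ℕ), (bas.repr ((P i).coeff t)).support ⊆ T := by
    intro i t b hb
    by_cases ht : t ∈ (P i).support
    · exact Finset.mem_biUnion.mpr ⟨i, Finset.mem_univ i, Finset.mem_biUnion.mpr ⟨t, ht, hb⟩⟩
    · rw [Polynomial.notMem_support_iff.mp ht, map_zero] at hb
      simp at hb
  let p : Fin n → Module.Basis.ofVectorSpaceIndex K L → K[X] := fun i b =>
    ∑ t ∈ (P i).support, monomial t (bas.repr ((P i).coeff t) b)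
  have hpcoeff : ∀ i b t, (p i b).coeff t = bas.repr ((P i).coeff t) b := by
    intro i b t
    simp only [p, finsetSum_coeff, coeff_monomial]
    rw [Finset.sum_ite_eq']
    split_ifs with ht
    · rfl
    · rw [Polynomial.notMem_support_iff.mp ht, map_zero]
      rfl
  have hP_eq : ∀ i, P i = ∑ b ∈ T, C (bas b) * (p i b).map ι := by
    intro i
    ext t
    simp only [finsetSum_coeff, coeff_C_mul, coeff_map, hpcoeff]
    have h1 := bas.linearCombination_repr ((P i).coeff t)
    rw [Finsupp.linearCombination_apply, Finsupp.sum] at h1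
    conv_lhs => rw [← h1]
    rw [Finset.sum_subset (hsub i t)
      (fun b _ hb => by rw [Finsupp.notMem_support_iff.mp hb, zero_smul])]
    refine Finset.sum_congr rfl fun b _ => ?_
    rw [hsmul, mul_comm]
  -- the relation over `K` for each basis vector
  let y : Module.Basis.ofVectorSpaceIndex K L → LaurentSeries K := fun b =>
    ∑ i, aeval J (p i b) * x i
  have hy : ∑ b ∈ T, HahnSeries.C (bas b) * coeffMap ι (y b) = 0 := by
    rw [← hP]
    simp only [y, map_sum, map_mul, Finset.mul_sum]
    rw [Finset.sum_comm]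
    refine Finset.sum_congr rfl fun i _ => ?_
    conv_rhs => rw [hP_eq i, map_sum, Finset.sum_mul]
    refine Finset.sum_congr rfl fun b _ => ?_
    rw [map_mul, aeval_C, aeval_coeffMap_map, C_eq_algebraMap, mul_assoc]
  have hy0 : ∀ b ∈ T, y b = 0 := by
    refine coeffMap_eq_zero_of_linearIndependent ι T (fun b => bas b) ?_ y hy
    intro a ha
    refine linearIndependent_iff'.mp bas.linearIndependent T a ?_
    rw [← ha]
    exact Finset.sum_congr rfl fun b _ => hsmul _ _
  have hp0 : ∀ b ∈ T, ∀ i, p i b = 0 := by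
    intro b hb i
    exact congrFun (h (fun i => p i b) (hy0 b hb)) i
  funext i
  rw [hP_eq i]
  exact Finset.sum_eq_zero fun b hb => by rw [hp0 b hb i, Polynomial.map_zero, mul_zero]

/-- (c), family version: a nontrivial `L[J]`-relation between the `ι(x_i)` descends to a nontrivial
`K[J]`-relation between the `x_i`. -/
theorem exists_relation (ι : K →+* L) (J : LaurentSeries K) {n : ℕ} (x : Fin n → LaurentSeries K)
    (P : Fin n → L[X]) (hP0 : P ≠ 0)
    (hP : ∑ i, aeval (coeffMap ι J) (P i) * coeffMap ι (x i) = 0) :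
    ∃ p : Fin n → K[X], p ≠ 0 ∧ ∑ i, aeval J (p i) * x i = 0 := by
  by_contra hcon
  push Not at hcon
  exact hP0 (linearDisjoint ι J x (fun p hp => by_contra fun hp0 => hcon p hp0 hp) P hP)

/-- (c) **degree transfer**: if `ι(z)` satisfies a nonzero polynomial of `Y`-degree `≤ d` with
coefficients in `L[ι(J)]`, then `z` satisfies a nonzero polynomial of `Y`-degree `≤ d` with
coefficients in `K[J]`. -/
theorem exists_poly_of_poly (ι : K →+* L) (J z : LaurentSeries K) (d : ℕ) (Q : L[X][X])
    (hQ0 : Q ≠ 0) (hQd : Q.natDegree ≤ d)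
    (hQ : Q.eval₂ (aeval (coeffMap ι J) : L[X] →ₐ[L] LaurentSeries L).toRingHom (coeffMap ι z) = 0) :
    ∃ q : K[X][X], q ≠ 0 ∧ q.natDegree ≤ d ∧
      q.eval₂ (aeval J : K[X] →ₐ[K] LaurentSeries K).toRingHom z = 0 := by
  classical
  -- the family of coefficients
  have h1 : ∑ i : Fin (d + 1), aeval (coeffMap ι J) (Q.coeff i) * coeffMap ι (z ^ (i : ℕ)) = 0 := by
    rw [eval₂_eq_sum_range' _ (Nat.lt_succ_of_le hQd), ← Fin.sum_univ_eq_sum_range
      (fun i => (aeval (coeffMap ι J) : L[X] →ₐ[L] LaurentSeries L).toRingHom (Q.coeff i) *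
        coeffMap ι z ^ i) (d + 1)] at hQ
    rw [← hQ]
    refine Finset.sum_congr rfl fun i _ => ?_
    rw [map_pow]
    rfl
  have hP0 : (fun i : Fin (d + 1) => Q.coeff i) ≠ 0 := by
    intro h0
    apply hQ0
    refine Polynomial.ext fun t => ?_
    by_cases ht : t < d + 1
    · exact congrFun h0 ⟨t, ht⟩
    · rw [coeff_eq_zero_of_natDegree_lt (by omega), coeff_zero]
  obtain ⟨p, hp0, hp⟩ := exists_relation ι J (fun i : Fin (d + 1) => z ^ (i : ℕ))
    (fun i => Q.coeff i) hP0 h1
  refine ⟨∑ i : Fin (d + 1), C (p i) * X ^ (i : ℕ), ?_, ?_, ?_⟩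
  · intro h0
    apply hp0
    funext i
    have h2 := congrArg (fun q : K[X][X] => q.coeff (i : ℕ)) h0
    simp only [finsetSum_coeff, coeff_C_mul, coeff_X_pow, coeff_zero] at h2
    simp only [Fin.val_inj, mul_ite, mul_one, mul_zero] at h2
    rw [Finset.sum_ite_eq] at h2
    simpa using h2
  · have h2 := degree_sum_fin_lt (fun i : Fin (d + 1) => p i)
    by_cases h0 : (∑ i : Fin (d + 1), C (p i) * X ^ (i : ℕ)) = 0
    · rw [h0]; simp
    · have := (natDegree_lt_iff_degree_lt h0).mpr h2
      omega
  · rw [eval₂_finsetSum]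
    rw [← hp]
    refine Finset.sum_congr rfl fun i _ => ?_
    rw [eval₂_mul, eval₂_C, eval₂_pow, eval₂_X]
    rfl

end Fermat.Agent.GenusLib.FormalLD
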