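import Mathlib
import Fermat.Prelude.Def_ModularCurve_X0
import Fermat.Agent.S23Lib.QF

/-!
# S24 leaf QX, part 1: the formal series of the prelude are analytic `q`-expansions

* `qExpansion_E4` : `qExpansion 1 E₄ = eisenstein4` (coefficients cast to `ℂ`).
* `iteratedDeriv_tprod_one_sub_pow` : the Taylor coefficients of `q ↦ ∏ (1 - qⁿ)` at `0` are the
  coefficients of the formal product `etaProd` (Pi topology).
* `qf_comp_qParam`, `qExpansion_comp_qParam_coeff` : `τ ↦ g (q(τ))` for `g` holomorphic on the unit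
  disc is a `q`-function whose `q`-expansion is the Taylor series of `g`.
* `qFun`, `etaFun`, `qExpansion_qFun`, `qExpansion_etaFun`.
* `qExpansion_discriminant` : `qExpansion 1 Δ = X * dedekindEtaUnit` (coefficients cast to `ℂ`).
-/

set_option autoImplicit false

noncomputable section

namespace Fermat.Agent.GenusLib.QExp

open UpperHalfPlane hiding I
open ModularForm EisensteinSeries Filter Topology Function Complex
open scoped MatrixGroups PowerSeries.WithPiTopology Real Manifold
open Fermat.Agent.S23Lib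

local notation "𝕢" => Periodic.qParam

/-- Iterated derivatives pass to locally uniform limits of holomorphic functions. -/
theorem tendstoLocallyUniformlyOn_iterate_deriv {ι : Type*} {φ : Filter ι} [φ.NeBot] {U : Set ℂ}
    (hU : IsOpen U) {F : ι → ℂ → ℂ} {f : ℂ → ℂ} (hf : TendstoLocallyUniformlyOn F f φ U)
    (hF : ∀ i, DifferentiableOn ℂ (F i) U) (k : ℕ) :
    TendstoLocallyUniformlyOn (fun i => deriv^[k] (F i)) (deriv^[k] f) φ U ∧
      ∀ i, DifferentiableOn ℂ (deriv^[k] (F i)) U := by
  induction k with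
  | zero => exact ⟨hf, hF⟩
  | succ k ih =>
    obtain ⟨h1, h2⟩ := ih
    refine ⟨?_, fun i => ?_⟩
    · have h3 := h1.deriv (Eventually.of_forall h2) hU
      simpa only [Function.iterate_succ_apply', Function.comp_def] using h3
    · rw [Function.iterate_succ_apply']
      exact (h2 i).deriv hU

theorem iterate_deriv_polynomial (p : Polynomial ℂ) (k : ℕ) :
    deriv^[k] (fun q => p.eval q) = fun q => (Polynomial.derivative^[k] p).eval q := by
  induction k with
  | zero => rfl
  | succ k ih =>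
    rw [Function.iterate_succ_apply', ih, Function.iterate_succ_apply']
    funext q
    exact Polynomial.deriv _

theorem iteratedDeriv_polynomial_zero (p : Polynomial ℂ) (k : ℕ) :
    iteratedDeriv k (fun q => p.eval q) 0 = (k.factorial : ℂ) * p.coeff k := by
  rw [iteratedDeriv_eq_iterate, iterate_deriv_polynomial]
  simp only
  rw [← Polynomial.coeff_zero_eq_eval_zero, Polynomial.coeff_iterate_derivative, zero_add,
    Nat.descFactorial_self, nsmul_eq_mul]

/-- The analytic partial product is the evaluation of the integral polynomial partial product. -/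
theorem prod_eq_eval (I : Finset ℕ) (q : ℂ) :
    ∏ n ∈ I, (1 - q ^ (n + 1)) =
      ((∏ n ∈ I, (1 - Polynomial.X ^ (n + 1)) : Polynomial ℤ).map (Int.castRingHom ℂ)).eval q := by
  simp [Polynomial.map_prod, Polynomial.eval_prod]

theorem coeff_prod_eq (I : Finset ℕ) (k : ℕ) :
    (∏ n ∈ I, (1 - PowerSeries.X ^ (n + 1)) : PowerSeries ℤ).coeff k =
      (∏ n ∈ I, (1 - Polynomial.X ^ (n + 1)) : Polynomial ℤ).coeff k := by
  rw [← Polynomial.coeff_coe]
  congr 1
  have h := map_prod (Polynomial.coeToPowerSeries.ringHom (R := ℤ))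
    (fun n => (1 - Polynomial.X ^ (n + 1) : Polynomial ℤ)) I
  simp only [Polynomial.coeToPowerSeries.ringHom_apply] at h
  rw [h]
  refine Finset.prod_congr rfl fun n _ => ?_
  simp

/-- The Taylor coefficients at `0` of `q ↦ ∏' n, (1 - q ^ (n + 1))` are the coefficients of the
formal product `etaProd`. -/
theorem iteratedDeriv_tprod_one_sub_pow (k : ℕ) :
    ((k.factorial : ℂ))⁻¹ * iteratedDeriv k (fun q : ℂ => ∏' n : ℕ, (1 - q ^ (n + 1))) 0 =
      ((ModularCurve.etaProd.coeff k : ℤ) : ℂ) := by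
  have hloc : TendstoLocallyUniformlyOn
      (fun (I : Finset ℕ) (q : ℂ) => ∏ n ∈ I, (1 - q ^ (n + 1)))
      (fun q => ∏' n : ℕ, (1 - q ^ (n + 1))) atTop (Metric.ball 0 1) :=
    ModularForm.multipliableLocallyUniformlyOn_one_sub_pow.hasProdLocallyUniformlyOn
  have hdiff : ∀ I : Finset ℕ,
      DifferentiableOn ℂ (fun q : ℂ => ∏ n ∈ I, (1 - q ^ (n + 1))) (Metric.ball 0 1) := by
    intro I
    have h : (fun q : ℂ => ∏ n ∈ I, (1 - q ^ (n + 1))) = fun q =>
        ((∏ n ∈ I, (1 - Polynomial.X ^ (n + 1)) : Polynomial ℤ).map (Int.castRingHom ℂ)).eval q :=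
      funext fun q => prod_eq_eval I q
    rw [h]
    exact (Polynomial.differentiable _).differentiableOn
  have h1 := (tendstoLocallyUniformlyOn_iterate_deriv Metric.isOpen_ball hloc hdiff k).1.tendsto_at
    (Metric.mem_ball_self one_pos)
  have h2 : ∀ I : Finset ℕ, deriv^[k] (fun q : ℂ => ∏ n ∈ I, (1 - q ^ (n + 1))) 0 =
      (k.factorial : ℂ) * (((∏ n ∈ I, (1 - PowerSeries.X ^ (n + 1)) : PowerSeries ℤ).coeff k : ℤ) : ℂ) := by
    intro I
    have h : (fun q : ℂ => ∏ n ∈ I, (1 - q ^ (n + 1))) = fun q =>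
        ((∏ n ∈ I, (1 - Polynomial.X ^ (n + 1)) : Polynomial ℤ).map (Int.castRingHom ℂ)).eval q :=
      funext fun q => prod_eq_eval I q
    rw [h, ← iteratedDeriv_eq_iterate, iteratedDeriv_polynomial_zero, Polynomial.coeff_map,
      coeff_prod_eq, eq_intCast]
  have h3 : Tendsto (fun I : Finset ℕ =>
      (((∏ n ∈ I, (1 - PowerSeries.X ^ (n + 1)) : PowerSeries ℤ).coeff k : ℤ) : ℂ)) atTop
      (𝓝 ((ModularCurve.etaProd.coeff k : ℤ) : ℂ)) := by
    have h4 := (PowerSeries.WithPiTopology.multipliable_one_sub_X_pow ℤ).hasProd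
    have h5 := ((PowerSeries.WithPiTopology.continuous_coeff ℤ k).tendsto _).comp h4
    exact ((continuous_of_discreteTopology (f := (Int.cast : ℤ → ℂ))).tendsto _).comp h5
  have h6 : Tendsto (fun I : Finset ℕ =>
      (((∏ n ∈ I, (1 - PowerSeries.X ^ (n + 1)) : PowerSeries ℤ).coeff k : ℤ) : ℂ)) atTop
      (𝓝 (((k.factorial : ℂ))⁻¹ * iteratedDeriv k (fun q : ℂ => ∏' n : ℕ, (1 - q ^ (n + 1))) 0)) := by
    have h7 := h1.const_mul ((k.factorial : ℂ))⁻¹
    rw [iteratedDeriv_eq_iterate]
    refine h7.congr fun I => ?_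
    rw [h2 I, ← mul_assoc, inv_mul_cancel₀ (Nat.cast_ne_zero.mpr (Nat.factorial_ne_zero k)), one_mul]
  exact tendsto_nhds_unique h6 h3


/-! ### Functions of `q` on the upper half plane -/

theorem qParam_one_periodic : Periodic (𝕢 1) 1 := by
  intro z
  simp only [Periodic.qParam, ofReal_one, div_one]
  rw [mul_add, mul_one]
  exact Complex.exp_periodic _

theorem periodic_comp_ofComplex_of_periodic {g : ℂ → ℂ} (hg : Periodic g 1) :
    Periodic ((fun τ : ℍ => g τ) ∘ ofComplex) 1 := by
  intro z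
  simp only [Function.comp_apply]
  by_cases hz : 0 < z.im
  · have hz1 : 0 < (z + 1).im := by simpa using hz
    rw [ofComplex_apply_of_im_pos hz, ofComplex_apply_of_im_pos hz1]
    exact hg z
  · have hz' : z.im ≤ 0 := not_lt.mp hz
    have hz1 : (z + 1).im ≤ 0 := by simpa using hz'
    rw [ofComplex_apply_of_im_nonpos hz', ofComplex_apply_of_im_nonpos hz1]

theorem mdiff_of_differentiableOn {g : ℂ → ℂ} (hg : DifferentiableOn ℂ g {z | 0 < z.im}) :
    MDiff (fun τ : ℍ => g τ) := by
  rw [UpperHalfPlane.mdifferentiable_iff]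
  refine hg.congr fun z hz => ?_
  simp only [Function.comp_apply]
  rw [ofComplex_apply_of_im_pos hz]

/-- A function of the form `τ ↦ g (q(τ))` with `g` holomorphic on the unit disc is a
`q`-function, and its `q`-expansion is the Taylor series of `g`. -/
theorem qf_comp_qParam {g : ℂ → ℂ} (hg : DifferentiableOn ℂ g (Metric.ball 0 1)) :
    QF (fun τ : ℍ => g (𝕢 1 τ)) where
  per := periodic_comp_ofComplex_of_periodic (g := fun z => g (𝕢 1 z))
    (fun z => by simp only [qParam_one_periodic z])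
  hol := by
    apply mdiff_of_differentiableOn (g := fun z => g (𝕢 1 z))
    intro z hz
    have hq : 𝕢 1 z ∈ Metric.ball (0 : ℂ) 1 := by
      simpa using Periodic.norm_qParam_lt_one one_pos hz
    exact ((hg.differentiableAt (Metric.isOpen_ball.mem_nhds hq)).comp z
      (Periodic.differentiable_qParam z)).differentiableWithinAt
  bdd := by
    have h0 : ContinuousAt g 0 :=
      (hg.differentiableAt (Metric.isOpen_ball.mem_nhds (Metric.mem_ball_self one_pos))).continuousAt
    have h1 : Tendsto (fun τ : ℍ => g (𝕢 1 τ)) atImInfty (𝓝 (g 0)) :=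
      h0.tendsto.comp (qParam_tendsto_atImInfty one_pos)
    exact h1.isBigO_one ℝ

theorem qExpansion_comp_qParam_coeff {g : ℂ → ℂ} (hg : DifferentiableOn ℂ g (Metric.ball 0 1))
    (m : ℕ) : (qExpansion 1 (fun τ : ℍ => g (𝕢 1 τ))).coeff m =
      ((m.factorial : ℂ))⁻¹ * iteratedDeriv m g 0 := by
  let _ : FunLike (ℍ → ℂ) ℍ ℂ := { coe := id, coe_injective := fun _ _ h => h }
  refine (UpperHalfPlane.qExpansion_coeff_unique (F := ℍ → ℂ) (fun τ : ℍ => g (𝕢 1 τ))
    (c := fun m => ((m.factorial : ℂ))⁻¹ * iteratedDeriv m g 0) one_pos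
    (qf_comp_qParam hg).analyticAt ?_ m).symm
  intro τ
  have hq : 𝕢 1 (τ : ℂ) ∈ Metric.ball (0 : ℂ) 1 := by
    simpa using Periodic.norm_qParam_lt_one one_pos τ.im_pos
  have h1 := Complex.hasSum_taylorSeries_on_ball hg hq
  have h2 : (fun m : ℕ => (((m.factorial : ℂ))⁻¹ * iteratedDeriv m g 0) • 𝕢 1 (τ : ℂ) ^ m) =
      fun n : ℕ => ((n.factorial : ℂ))⁻¹ • (𝕢 1 (τ : ℂ) - 0) ^ n • iteratedDeriv n g 0 := by
    funext n
    simp only [smul_eq_mul, sub_zero]
    ring
  rw [h2]
  exact h1

/-- The function `τ ↦ q = exp (2πiτ)` on the upper half plane. -/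
def qFun : ℍ → ℂ := fun τ => 𝕢 1 τ

/-- The function `τ ↦ ∏ (1 - qⁿ)` on the upper half plane (`η` without its factor `q^(1/24)`). -/
def etaFun : ℍ → ℂ := fun τ => ∏' n : ℕ, (1 - 𝕢 1 τ ^ (n + 1))

theorem qf_qFun : QF qFun := qf_comp_qParam (g := fun q => q) differentiableOn_id

theorem qf_etaFun : QF etaFun :=
  qf_comp_qParam (g := fun q => ∏' n : ℕ, (1 - q ^ (n + 1)))
    ModularForm.differentiableOn_tprod_one_sub_pow

theorem qExpansion_qFun : qExpansion 1 qFun = PowerSeries.X := by
  ext m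
  have h := qExpansion_comp_qParam_coeff (g := fun q => q) differentiableOn_id m
  have h1 : (fun q : ℂ => q) = fun q => (Polynomial.X : Polynomial ℂ).eval q := by
    funext q; simp
  rw [h1, iteratedDeriv_polynomial_zero, ← mul_assoc,
    inv_mul_cancel₀ (Nat.cast_ne_zero.mpr (Nat.factorial_ne_zero m)), one_mul] at h
  rw [PowerSeries.coeff_X, show qFun = (fun τ : ℍ => 𝕢 1 τ) from rfl, h, Polynomial.coeff_X]
  simp only [eq_comm]

theorem qExpansion_etaFun :
    qExpansion 1 etaFun = ModularCurve.etaProd.map (Int.castRingHom ℂ) := by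
  ext m
  rw [PowerSeries.coeff_map, eq_intCast, ← iteratedDeriv_tprod_one_sub_pow]
  exact qExpansion_comp_qParam_coeff ModularForm.differentiableOn_tprod_one_sub_pow m

theorem discriminant_eq_qFun_mul : (ModularForm.discriminant : ℍ → ℂ) = qFun * etaFun ^ 24 := by
  funext z
  rw [ModularForm.discriminant_eq_q_prod, Pi.mul_apply, Pi.pow_apply, qFun, etaFun]
  congr 1
  exact (ModularForm.multipliableLocallyUniformlyOn_eta.multipliable z.2).tprod_pow 24

/-- The `q`-expansion of `Δ` is the formal product `q ∏ (1 - qⁿ)^24` of the prelude. -/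
theorem qExpansion_discriminant :
    qExpansion 1 (ModularForm.discriminant : ℍ → ℂ) =
      (PowerSeries.X * ModularCurve.dedekindEtaUnit).map (Int.castRingHom ℂ) := by
  rw [discriminant_eq_qFun_mul, qf_qFun.qExpansion_mul (qf_etaFun.pow 24),
    qf_etaFun.qExpansion_pow, qExpansion_qFun, qExpansion_etaFun, ModularCurve.dedekindEtaUnit,
    map_mul, map_pow, PowerSeries.map_X]


/-- The `q`-expansion of `E₄` is the formal series `1 + 240 ∑ σ₃(n) qⁿ` of the prelude. -/
theorem qExpansion_E4 :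
    qExpansion 1 (E₄ : ℍ → ℂ) = ModularCurve.eisenstein4.map (Int.castRingHom ℂ) := by
  ext n
  rw [E_qExpansion_coeff (by norm_num : 3 ≤ 4) ⟨2, rfl⟩, PowerSeries.coeff_map,
    ModularCurve.eisenstein4, PowerSeries.coeff_mk]
  by_cases hn : n = 0
  · simp [hn]
  · rw [if_neg hn, if_neg hn]
    have hb : bernoulli 4 = -1 / 30 := by
      rw [bernoulli_eq_bernoulli'_of_ne_one (by norm_num), bernoulli'_four]
    rw [hb, ArithmeticFunction.sigma_apply]
    simp only [eq_intCast]
    push_cast
    ring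

end Fermat.Agent.GenusLib.QExp
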