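import Mathlib
import Fermat.Prelude.Def_ModularCurve_X0ModL
import Fermat.Agent.S23Lib.Distinct
import Fermat.Agent.GenusLib.QExp

/-!
# S24 leaf QX, part 2: dilations and the formal `j(q^d)`

* `dil d F = fun τ => F (d·τ)`; `qf_dil`, `qExpansion_dil_coeff`, `ofPowerSeries_qExpansion_dil`
  (the `q`-expansion of `F(dτ)` is `qExpand d` of that of `F`).
* `ofPowerSeries_E4_cube` : in `LaurentSeries ℂ`,
  `qexp(E₄(dτ))³ = coeffMap (qExpand ℚ d jq) * qexp(Δ(dτ))`, i.e. the `q`-expansion of
  `j(dτ) = E₄(dτ)³/Δ(dτ)` is the formal `j(q^d)` of the prelude.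
* `qfSubalgebra`, `qExpAlgHom`, `qExpAlgHom_injective` : `q`-functions form a `ℂ`-subalgebra on
  which the `q`-expansion is an injective algebra homomorphism.
-/

set_option autoImplicit false

noncomputable section

namespace Fermat.Agent.GenusLib.QExp

open UpperHalfPlane hiding I
open ModularForm EisensteinSeries Filter Topology Function Complex
open scoped MatrixGroups Real Manifold
open Fermat.Agent.S23Lib Fermat.Agent.S23Lib.Distinct

local notation "𝕢" => Periodic.qParam

/-! ### Dilations -/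

/-- The dilated function `τ ↦ F (d τ)`. -/
def dil (d : ℕ) [NeZero d] (F : ℍ → ℂ) : ℍ → ℂ := fun τ => F (dilPt d τ)

theorem dil_apply (d : ℕ) [NeZero d] (F : ℍ → ℂ) (τ : ℍ) : dil d F τ = F (dilPt d τ) := rfl

theorem dil_mul (d : ℕ) [NeZero d] (F G : ℍ → ℂ) : dil d (F * G) = dil d F * dil d G := rfl

theorem dil_add (d : ℕ) [NeZero d] (F G : ℍ → ℂ) : dil d (F + G) = dil d F + dil d G := rfl

theorem dil_pow (d : ℕ) [NeZero d] (F : ℍ → ℂ) (n : ℕ) : dil d (F ^ n) = dil d F ^ n := rfl

theorem tendsto_dilPt (d : ℕ) [NeZero d] : Tendsto (dilPt d) atImInfty atImInfty := by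
  rw [atImInfty, tendsto_comap_iff]
  refine tendsto_atTop_mono (fun τ => ?_) tendsto_comap
  have h : (dilPt d τ).im = d * τ.im := by
    show ((d : ℂ) * (τ : ℂ)).im = d * τ.im
    simp
  simp only [Function.comp_apply]
  rw [h]
  have h1 : (1 : ℝ) ≤ d := by exact_mod_cast NeZero.one_le
  nlinarith [τ.im_pos]

theorem qf_dil (d : ℕ) [NeZero d] {F : ℍ → ℂ} (hF : QF F) : QF (dil d F) where
  per := by
    intro z
    simp only [Function.comp_apply]
    have hdpos : (0 : ℝ) < d := Nat.cast_pos.mpr (NeZero.pos d)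
    by_cases hz : 0 < z.im
    · have hz1 : 0 < (z + 1).im := by simpa using hz
      have hperN := hF.per.nat_mul d
      have hNz : 0 < ((d : ℂ) * z).im := by
        have h : ((d : ℂ) * z).im = d * z.im := by simp
        rw [h]; exact mul_pos hdpos hz
      have hNz1 : 0 < ((d : ℂ) * (z + 1)).im := by
        have h : ((d : ℂ) * (z + 1)).im = d * z.im := by simp
        rw [h]; exact mul_pos hdpos hz
      rw [ofComplex_apply_of_im_pos hz, ofComplex_apply_of_im_pos hz1]
      show F (dilPt d ⟨z + 1, hz1⟩) = F (dilPt d ⟨z, hz⟩)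
      have e1 : dilPt d ⟨z + 1, hz1⟩ = ⟨(d : ℂ) * (z + 1), hNz1⟩ := UpperHalfPlane.ext rfl
      have e2 : dilPt d ⟨z, hz⟩ = ⟨(d : ℂ) * z, hNz⟩ := UpperHalfPlane.ext rfl
      rw [e1, e2]
      have h2 := hperN ((d : ℂ) * z)
      simp only [Function.comp_apply] at h2
      rw [ofComplex_apply_of_im_pos hNz] at h2
      rw [← h2]
      have e : (d : ℂ) * z + (d : ℂ) * 1 = d * (z + 1) := by ring
      rw [e, ofComplex_apply_of_im_pos hNz1]
    · have hz' : z.im ≤ 0 := not_lt.mp hz
      have hz1 : (z + 1).im ≤ 0 := by simpa using hz'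
      rw [ofComplex_apply_of_im_nonpos hz', ofComplex_apply_of_im_nonpos hz1]
  hol := by
    rw [UpperHalfPlane.mdifferentiable_iff]
    have hΔ : DifferentiableOn ℂ (F ∘ ofComplex) {z | 0 < z.im} :=
      UpperHalfPlane.mdifferentiable_iff.mp hF.hol
    have hdpos : (0 : ℝ) < d := Nat.cast_pos.mpr (NeZero.pos d)
    have hmaps : Set.MapsTo (fun z : ℂ => (d : ℂ) * z) {z | 0 < z.im} {z | 0 < z.im} := by
      intro z hz
      have h : ((d : ℂ) * z).im = d * z.im := by simp
      show 0 < ((d : ℂ) * z).im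
      rw [h]
      exact mul_pos hdpos hz
    have hcomp : DifferentiableOn ℂ ((F ∘ ofComplex) ∘ fun z : ℂ => (d : ℂ) * z)
        {z | 0 < z.im} := hΔ.comp (by fun_prop) hmaps
    refine hcomp.congr fun z hz => ?_
    have hz' : 0 < ((d : ℂ) * z).im := hmaps hz
    simp only [Function.comp_apply]
    rw [ofComplex_apply_of_im_pos hz, ofComplex_apply_of_im_pos hz']
    rfl
  bdd := hF.bdd.comp_tendsto (tendsto_dilPt d)

/-- The `q`-expansion of `F(dτ)` is that of `F` in the variable `q^d`. -/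
theorem qExpansion_dil_coeff (d : ℕ) [NeZero d] {F : ℍ → ℂ} (hF : QF F) (n : ℕ) :
    (qExpansion 1 (dil d F)).coeff n =
      if d ∣ n then (qExpansion 1 F).coeff (n / d) else 0 := by
  have hdpos := NeZero.pos d
  let c : ℕ → ℂ := fun n => if d ∣ n then (qExpansion 1 F).coeff (n / d) else 0
  have hsum : ∀ τ : ℍ, HasSum (fun m => c m • 𝕢 1 τ ^ m) (dil d F τ) := by
    intro τ
    have hΔ := UpperHalfPlane.hasSum_qExpansion one_pos hF.per hF.hol hF.bdd (dilPt d τ)
    rw [qParam_dilPt] at hΔ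
    have hinj : Function.Injective (fun m : ℕ => d * m) :=
      fun x y h => Nat.eq_of_mul_eq_mul_left hdpos h
    refine (Function.Injective.hasSum_iff hinj ?_).mp ?_
    · intro x hx
      have hnd : ¬ d ∣ x := fun ⟨k, hk⟩ => hx ⟨k, hk.symm⟩
      simp [c, hnd]
    · rw [dil_apply]
      convert hΔ using 1
      funext m
      simp [c, Nat.mul_div_cancel_left m hdpos, pow_mul]
  have h := coeff_unique_fun (dil d F) c (qf_dil d hF).analyticAt hsum n
  rw [← h]

/-- The `q`-expansion of `F(dτ)`, as a Laurent series, is `qExpand d` of that of `F`. -/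
theorem ofPowerSeries_qExpansion_dil (d : ℕ) [NeZero d] {F : ℍ → ℂ} (hF : QF F) :
    HahnSeries.ofPowerSeries ℤ ℂ (qExpansion 1 (dil d F)) =
      ModularCurve.qExpand ℂ d (HahnSeries.ofPowerSeries ℤ ℂ (qExpansion 1 F)) := by
  have hdpos : (0 : ℤ) < d := by exact_mod_cast NeZero.pos d
  ext k
  rcases lt_or_ge k 0 with hk | hk
  · rw [ModularCurve.ofPowerSeries_coeff_of_neg _ hk]
    by_cases hdk : (d : ℤ) ∣ k
    · obtain ⟨m, rfl⟩ := hdk
      have hm : m < 0 := by
        by_contra hm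
        rw [not_lt] at hm
        exact absurd hk (not_lt.mpr (mul_nonneg hdpos.le hm))
      rw [ModularCurve.qExpand_coeff_mul, ModularCurve.ofPowerSeries_coeff_of_neg _ hm]
    · rw [ModularCurve.qExpand_coeff_of_not_dvd _ _ hdk]
  · lift k to ℕ using hk
    rw [HahnSeries.ofPowerSeries_apply_coeff, qExpansion_dil_coeff d hF]
    by_cases hdk : d ∣ k
    · obtain ⟨m, rfl⟩ := hdk
      rw [if_pos (dvd_mul_right d m), Nat.mul_div_cancel_left m (NeZero.pos d)]
      push_cast
      rw [ModularCurve.qExpand_coeff_mul, HahnSeries.ofPowerSeries_apply_coeff]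
    · rw [if_neg hdk, ModularCurve.qExpand_coeff_of_not_dvd]
      exact_mod_cast hdk

/-! ### The formal `j` -/

theorem jNum_mul_dedekindEtaUnit :
    ModularCurve.jNum * ModularCurve.dedekindEtaUnit = ModularCurve.eisenstein4 ^ 3 := by
  rw [ModularCurve.jNum, mul_assoc, mul_comm ModularCurve.dedekindEtaUnitInv,
    ModularCurve.dedekindEtaUnit_mul_inv, mul_one]

/-- The formal identity `E₄³ = j · Δ` over any coefficient ring. -/
theorem ofPowerSeries_eisenstein4_cube (R : Type*) [CommRing R] :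
    HahnSeries.ofPowerSeries ℤ R (ModularCurve.eisenstein4.map (Int.castRingHom R)) ^ 3 =
      ModularCurve.jqModC R * HahnSeries.ofPowerSeries ℤ R
        ((PowerSeries.X * ModularCurve.dedekindEtaUnit).map (Int.castRingHom R)) := by
  have h1 : (HahnSeries.single (-1 : ℤ) (1 : R)) * HahnSeries.single (1 : ℤ) (1 : R) = 1 := by
    rw [HahnSeries.single_mul_single]
    simp
  rw [ModularCurve.jqModC, map_mul, PowerSeries.map_X, map_mul, HahnSeries.ofPowerSeries_X]
  calc HahnSeries.ofPowerSeries ℤ R (ModularCurve.eisenstein4.map (Int.castRingHom R)) ^ 3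
      = HahnSeries.ofPowerSeries ℤ R
          ((ModularCurve.jNum * ModularCurve.dedekindEtaUnit).map (Int.castRingHom R)) := by
        rw [jNum_mul_dedekindEtaUnit, map_pow, map_pow]
    _ = (HahnSeries.single (-1 : ℤ) (1 : R) * HahnSeries.single (1 : ℤ) (1 : R)) *
          (HahnSeries.ofPowerSeries ℤ R (ModularCurve.jNum.map (Int.castRingHom R)) *
            HahnSeries.ofPowerSeries ℤ R
              (ModularCurve.dedekindEtaUnit.map (Int.castRingHom R))) := by
        rw [h1, one_mul, map_mul, map_mul]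
    _ = _ := by ring

/-- The `q`-expansion of `j(dτ) = E₄(dτ)³ / Δ(dτ)` is the formal `j(q^d)` of the prelude:
`qexp(E₄(dτ))³ = j(q^d) · qexp(Δ(dτ))` in `ℂ((q))`. -/
theorem ofPowerSeries_E4_cube (d : ℕ) [NeZero d] :
    HahnSeries.ofPowerSeries ℤ ℂ (qExpansion 1 (dil d (E₄ : ℍ → ℂ))) ^ 3 =
      ModularCurve.coeffMap (algebraMap ℚ ℂ) (ModularCurve.qExpand ℚ d ModularCurve.jq) *
        HahnSeries.ofPowerSeries ℤ ℂ
          (qExpansion 1 (dil d (ModularForm.discriminant : ℍ → ℂ))) := by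
  have hE : QF (E₄ : ℍ → ℂ) := qf_levelOne E₄
  have hΔ : QF (ModularForm.discriminant : ℍ → ℂ) := qf_levelOne CuspForm.discriminant
  rw [ofPowerSeries_qExpansion_dil d hE, ofPowerSeries_qExpansion_dil d hΔ, qExpansion_E4,
    qExpansion_discriminant, ← map_pow, ofPowerSeries_eisenstein4_cube ℂ, map_mul]
  congr 1
  exact (ModularCurve.coeffMap_jqNModC (algebraMap ℚ ℂ) d).symm

/-- The same identity for `d = 1`, without dilation. -/
theorem ofPowerSeries_E4_cube_one :
    HahnSeries.ofPowerSeries ℤ ℂ (qExpansion 1 (E₄ : ℍ → ℂ)) ^ 3 =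
      ModularCurve.coeffMap (algebraMap ℚ ℂ) ModularCurve.jq *
        HahnSeries.ofPowerSeries ℤ ℂ (qExpansion 1 (ModularForm.discriminant : ℍ → ℂ)) := by
  rw [qExpansion_E4, qExpansion_discriminant, ofPowerSeries_eisenstein4_cube ℂ]
  congr 1
  exact (ModularCurve.coeffMap_jqModC (algebraMap ℚ ℂ)).symm

/-! ### The `q`-expansion as an injective algebra homomorphism -/

/-- `q`-functions (`1`-periodic, holomorphic, bounded at `i∞`) form a `ℂ`-subalgebra. -/
def qfSubalgebra : Subalgebra ℂ (ℍ → ℂ) where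
  carrier := {F | QF F}
  mul_mem' := fun hf hg => hf.mul hg
  add_mem' := fun hf hg => hf.add hg
  algebraMap_mem' := fun c => QF.const c

theorem mem_qfSubalgebra {F : ℍ → ℂ} : F ∈ qfSubalgebra ↔ QF F := Iff.rfl

/-- The `q`-expansion as an algebra homomorphism on `q`-functions. -/
def qExpAlgHom : qfSubalgebra →ₐ[ℂ] PowerSeries ℂ where
  toFun F := qExpansion 1 (F : ℍ → ℂ)
  map_one' := qExpansion_one 1
  map_mul' F G := QF.qExpansion_mul F.2 G.2
  map_zero' := qExpansion_zero 1
  map_add' F G := QF.qExpansion_add F.2 G.2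
  commutes' c := by
    have h : ((algebraMap ℂ qfSubalgebra c : qfSubalgebra) : ℍ → ℂ) = c • (1 : ℍ → ℂ) := by
      funext τ
      simp
    show qExpansion 1 ((algebraMap ℂ qfSubalgebra c : qfSubalgebra) : ℍ → ℂ) = _
    rw [h, QF.one.qExpansion_smul, qExpansion_one, Algebra.algebraMap_eq_smul_one]

theorem qExpAlgHom_apply (F : qfSubalgebra) : qExpAlgHom F = qExpansion 1 (F : ℍ → ℂ) := rfl

theorem qExpAlgHom_injective : Function.Injective qExpAlgHom :=
  fun F G h => Subtype.ext (QF.eq_of_qExpansion_eq F.2 G.2 h)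

end Fermat.Agent.GenusLib.QExp
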