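import Mathlib
import Fermat.Prelude.Def_ModularCurve_X0ModL
import Fermat.Prelude.Thm_ModularCurve_coeffMap_qExpand
import Fermat.Agent.S23Lib.Distinct
import Fermat.Agent.GenusLib.Defs
import Fermat.Agent.GenusLib.QExp
import Fermat.Agent.GenusLib.QExpJ

/-!
# S24, step (A1), part 1: Laurent `q`-expansions of `q`-meromorphic functions

* `QM f` : `f * Δ ^ m` is a `q`-function (`1`-periodic, holomorphic, bounded at `i∞`) for some
  `m : ℕ` ("holomorphic on `ℍ`, `1`-periodic, meromorphic at `i∞`").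
* `lexp f : LaurentSeries ℂ` : the Laurent `q`-expansion; `lexp_mul_pow`, `lexp_of_qf`,
  `lexp_mul`, `lexp_add`, `lexp_const`, `lexp_eq_zero`.
* `qmSubalgebra`, `lexpAlgHom : qmSubalgebra →ₐ[ℂ] LaurentSeries ℂ`, `lexpAlgHom_injective`.
* `qm_dil`, `lexp_dil` : `lexp (F(d·)) = qExpand ℂ d (lexp F)`.
* `lexp_jFun`, `lexp_dil_jFun` : the Laurent expansion of `j(dτ)` is the formal `j(q^d)` of the
  prelude (with coefficients mapped to `ℂ`).
-/

set_option autoImplicit false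

noncomputable section

namespace Fermat.Agent.GenusLib.QExp

open UpperHalfPlane hiding I
open ModularForm EisensteinSeries Filter Topology Function Complex
open scoped MatrixGroups Real Manifold
open Fermat.Agent.S23Lib Fermat.Agent.S23Lib.Distinct Fermat.Agent.GenusLib.Defs

local notation "𝕢" => Periodic.qParam

local notation "Δ" => ModularForm.discriminant

/-! ### The Laurent expansion of `Δ` -/

theorem qf_discriminant : QF (Δ : ℍ → ℂ) := qf_levelOne CuspForm.discriminant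

/-- The `q`-expansion of `Δ` as a Laurent series. -/
def qΔ : LaurentSeries ℂ := HahnSeries.ofPowerSeries ℤ ℂ (qExpansion 1 (Δ : ℍ → ℂ))

theorem discriminant_fun_ne_zero : (Δ : ℍ → ℂ) ≠ 0 := fun h =>
  discriminant_ne_zero UpperHalfPlane.I (congrFun h UpperHalfPlane.I)

theorem qΔ_ne_zero : qΔ ≠ 0 := by
  intro h
  have h0 : HahnSeries.ofPowerSeries ℤ ℂ (qExpansion 1 (Δ : ℍ → ℂ)) =
      HahnSeries.ofPowerSeries ℤ ℂ 0 := by rw [map_zero]; exact h
  have h1 : qExpansion 1 (Δ : ℍ → ℂ) = 0 := HahnSeries.ofPowerSeries_injective h0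
  exact discriminant_fun_ne_zero (qf_discriminant.eq_zero_of_qExpansion h1)

theorem qΔ_pow_ne_zero (m : ℕ) : qΔ ^ m ≠ 0 := pow_ne_zero m qΔ_ne_zero

theorem mul_discriminant_pow_eq_zero {f : ℍ → ℂ} {m : ℕ} (h : f * (Δ : ℍ → ℂ) ^ m = 0) :
    f = 0 := by
  funext τ
  have h1 := congrFun h τ
  simp only [Pi.mul_apply, Pi.pow_apply, Pi.zero_apply] at h1
  rcases mul_eq_zero.mp h1 with h2 | h2
  · exact h2
  · exact absurd h2 (pow_ne_zero m (discriminant_ne_zero τ))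

/-! ### `q`-meromorphic functions -/

/-- `f` is holomorphic on `ℍ`, `1`-periodic and meromorphic at `i∞`. -/
def QM (f : ℍ → ℂ) : Prop := ∃ m : ℕ, QF (f * (Δ : ℍ → ℂ) ^ m)

theorem QM.of_qf {f : ℍ → ℂ} (hf : QF f) : QM f := ⟨0, by simpa using hf⟩

theorem qf_mul_pow_add {f : ℍ → ℂ} {m : ℕ} (hf : QF (f * (Δ : ℍ → ℂ) ^ m)) (k : ℕ) :
    QF (f * (Δ : ℍ → ℂ) ^ (m + k)) := by
  rw [pow_add, ← mul_assoc]
  exact hf.mul (qf_discriminant.pow k)

theorem qf_mul_pow_of_le {f : ℍ → ℂ} {m n : ℕ} (hf : QF (f * (Δ : ℍ → ℂ) ^ m)) (h : m ≤ n) :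
    QF (f * (Δ : ℍ → ℂ) ^ n) := by
  obtain ⟨k, rfl⟩ := Nat.exists_eq_add_of_le h
  exact qf_mul_pow_add hf k

theorem QM.const (c : ℂ) : QM (fun _ : ℍ => c) := QM.of_qf (QF.const c)

theorem QM.zero : QM (0 : ℍ → ℂ) := QM.const 0

theorem QM.one : QM (1 : ℍ → ℂ) := QM.const 1

theorem QM.mul {f g : ℍ → ℂ} (hf : QM f) (hg : QM g) : QM (f * g) := by
  obtain ⟨m, hm⟩ := hf
  obtain ⟨n, hn⟩ := hg
  refine ⟨m + n, ?_⟩
  have : f * g * (Δ : ℍ → ℂ) ^ (m + n) = (f * (Δ : ℍ → ℂ) ^ m) * (g * (Δ : ℍ → ℂ) ^ n) := by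
    rw [pow_add]; ring
  rw [this]
  exact hm.mul hn

theorem QM.add {f g : ℍ → ℂ} (hf : QM f) (hg : QM g) : QM (f + g) := by
  obtain ⟨m, hm⟩ := hf
  obtain ⟨n, hn⟩ := hg
  refine ⟨max m n, ?_⟩
  rw [add_mul]
  exact (qf_mul_pow_of_le hm (le_max_left m n)).add (qf_mul_pow_of_le hn (le_max_right m n))

theorem QM.smul {f : ℍ → ℂ} (c : ℂ) (hf : QM f) : QM (c • f) := by
  have : c • f = (fun _ : ℍ => c) * f := by funext z; simp
  rw [this]; exact (QM.const c).mul hf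

theorem QM.neg {f : ℍ → ℂ} (hf : QM f) : QM (-f) := by
  have : -f = (-1 : ℂ) • f := by funext z; simp
  rw [this]; exact hf.smul _

theorem QM.sub {f g : ℍ → ℂ} (hf : QM f) (hg : QM g) : QM (f - g) := by
  rw [sub_eq_add_neg]; exact hf.add hg.neg

theorem QM.pow {f : ℍ → ℂ} (hf : QM f) (n : ℕ) : QM (f ^ n) := by
  induction n with
  | zero => simpa using QM.one
  | succ n ih => rw [pow_succ]; exact ih.mul hf

theorem QM.mdiff {f : ℍ → ℂ} (hf : QM f) : MDiff f := by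
  obtain ⟨m, hm⟩ := hf
  have h1 : f = (f * (Δ : ℍ → ℂ) ^ m) * dpow (-(m : ℤ)) := by
    rw [mul_assoc, ← dpow_natCast, dpow_mul_neg, mul_one]
  rw [h1]
  exact hm.hol.mul (dpow_mdiff _)

/-! ### The Laurent expansion -/

open Classical in
/-- The Laurent `q`-expansion at `i∞` of a `q`-meromorphic function (junk value `0`
otherwise). -/
def lexp (f : ℍ → ℂ) : LaurentSeries ℂ :=
  if h : QM f then
    HahnSeries.ofPowerSeries ℤ ℂ (qExpansion 1 (f * (Δ : ℍ → ℂ) ^ h.choose)) * (qΔ ^ h.choose)⁻¹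
  else 0

/-- The defining property of `lexp`, for every admissible exponent. -/
theorem lexp_mul_pow {f : ℍ → ℂ} {m : ℕ} (hm : QF (f * (Δ : ℍ → ℂ) ^ m)) :
    lexp f * qΔ ^ m = HahnSeries.ofPowerSeries ℤ ℂ (qExpansion 1 (f * (Δ : ℍ → ℂ) ^ m)) := by
  have h : QM f := ⟨m, hm⟩
  rw [lexp, dif_pos h]
  have h0 := h.choose_spec
  have hfun : (f * (Δ : ℍ → ℂ) ^ h.choose) * (Δ : ℍ → ℂ) ^ m =
      (f * (Δ : ℍ → ℂ) ^ m) * (Δ : ℍ → ℂ) ^ h.choose := by ring
  have hq := congrArg (qExpansion 1) hfun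
  rw [h0.qExpansion_mul (qf_discriminant.pow m), hm.qExpansion_mul (qf_discriminant.pow _),
    qf_discriminant.qExpansion_pow, qf_discriminant.qExpansion_pow] at hq
  have hq' := congrArg (HahnSeries.ofPowerSeries ℤ ℂ) hq
  rw [map_mul, map_mul, map_pow, map_pow] at hq'
  change _ * qΔ ^ m = _ * qΔ ^ h.choose at hq'
  rw [mul_assoc, mul_comm _ (qΔ ^ m), ← mul_assoc, hq', mul_assoc,
    mul_inv_cancel₀ (qΔ_pow_ne_zero _), mul_one]

theorem lexp_of_qf {f : ℍ → ℂ} (hf : QF f) :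
    lexp f = HahnSeries.ofPowerSeries ℤ ℂ (qExpansion 1 f) := by
  have h : QF (f * (Δ : ℍ → ℂ) ^ 0) := by simpa using hf
  have h1 := lexp_mul_pow h
  simpa using h1

theorem lexp_discriminant : lexp (Δ : ℍ → ℂ) = qΔ := lexp_of_qf qf_discriminant

theorem lexp_mul {f g : ℍ → ℂ} (hf : QM f) (hg : QM g) : lexp (f * g) = lexp f * lexp g := by
  obtain ⟨m, hm⟩ := hf
  obtain ⟨n, hn⟩ := hg
  have hfun : f * g * (Δ : ℍ → ℂ) ^ (m + n) =
      (f * (Δ : ℍ → ℂ) ^ m) * (g * (Δ : ℍ → ℂ) ^ n) := by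
    rw [pow_add]; ring
  have hmn : QF (f * g * (Δ : ℍ → ℂ) ^ (m + n)) := by rw [hfun]; exact hm.mul hn
  have h1 := lexp_mul_pow hmn
  rw [hfun, hm.qExpansion_mul hn, map_mul, ← lexp_mul_pow hm, ← lexp_mul_pow hn] at h1
  have h2 : lexp (f * g) * qΔ ^ (m + n) = (lexp f * lexp g) * qΔ ^ (m + n) := by
    rw [h1, pow_add]; ring
  exact mul_right_cancel₀ (qΔ_pow_ne_zero _) h2

theorem lexp_add {f g : ℍ → ℂ} (hf : QM f) (hg : QM g) : lexp (f + g) = lexp f + lexp g := by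
  obtain ⟨m, hm⟩ := hf
  obtain ⟨n, hn⟩ := hg
  have hm' := qf_mul_pow_of_le hm (le_max_left m n)
  have hn' := qf_mul_pow_of_le hn (le_max_right m n)
  have hfun : (f + g) * (Δ : ℍ → ℂ) ^ (max m n) =
      f * (Δ : ℍ → ℂ) ^ (max m n) + g * (Δ : ℍ → ℂ) ^ (max m n) := add_mul _ _ _
  have hmn : QF ((f + g) * (Δ : ℍ → ℂ) ^ (max m n)) := by rw [hfun]; exact hm'.add hn'
  have h1 := lexp_mul_pow hmn
  rw [hfun, hm'.qExpansion_add hn', map_add, ← lexp_mul_pow hm', ← lexp_mul_pow hn',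
    ← add_mul] at h1
  exact mul_right_cancel₀ (qΔ_pow_ne_zero _) h1

theorem lexp_const (c : ℂ) : lexp (fun _ : ℍ => c) = algebraMap ℂ (LaurentSeries ℂ) c := by
  rw [lexp_of_qf (QF.const c)]
  have h : (fun _ : ℍ => c) = c • (1 : ℍ → ℂ) := by funext τ; simp
  rw [h, QF.one.qExpansion_smul, qExpansion_one, HahnSeries.algebraMap_apply',
    Algebra.algebraMap_eq_smul_one]

theorem lexp_one : lexp (1 : ℍ → ℂ) = 1 := by
  have h := lexp_const 1
  rw [map_one] at h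
  exact h

theorem lexp_zero : lexp (0 : ℍ → ℂ) = 0 := by
  have h := lexp_const 0
  rw [map_zero] at h
  exact h

theorem lexp_eq_zero {f : ℍ → ℂ} (hf : QM f) (h : lexp f = 0) : f = 0 := by
  obtain ⟨m, hm⟩ := hf
  have h1 := lexp_mul_pow hm
  rw [h, zero_mul] at h1
  have h0 : HahnSeries.ofPowerSeries ℤ ℂ (qExpansion 1 (f * (Δ : ℍ → ℂ) ^ m)) =
      HahnSeries.ofPowerSeries ℤ ℂ 0 := by rw [map_zero]; exact h1.symm
  have h2 : qExpansion 1 (f * (Δ : ℍ → ℂ) ^ m) = 0 := HahnSeries.ofPowerSeries_injective h0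
  exact mul_discriminant_pow_eq_zero (hm.eq_zero_of_qExpansion h2)

theorem lexp_pow {f : ℍ → ℂ} (hf : QM f) (n : ℕ) : lexp (f ^ n) = lexp f ^ n := by
  induction n with
  | zero => simpa using lexp_one
  | succ n ih => rw [pow_succ, lexp_mul (hf.pow n) hf, ih, pow_succ]

/-! ### The algebra of `q`-meromorphic functions -/

/-- `q`-meromorphic functions form a `ℂ`-subalgebra of `ℍ → ℂ`. -/
def qmSubalgebra : Subalgebra ℂ (ℍ → ℂ) where
  carrier := {F | QM F}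
  mul_mem' := fun hf hg => hf.mul hg
  add_mem' := fun hf hg => hf.add hg
  algebraMap_mem' := fun c => QM.const c

theorem mem_qmSubalgebra {F : ℍ → ℂ} : F ∈ qmSubalgebra ↔ QM F := Iff.rfl

/-- The Laurent `q`-expansion as an algebra homomorphism. -/
def lexpAlgHom : qmSubalgebra →ₐ[ℂ] LaurentSeries ℂ where
  toFun F := lexp (F : ℍ → ℂ)
  map_one' := lexp_one
  map_mul' F G := lexp_mul F.2 G.2
  map_zero' := lexp_zero
  map_add' F G := lexp_add F.2 G.2
  commutes' c := lexp_const c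

theorem lexpAlgHom_apply (F : qmSubalgebra) : lexpAlgHom F = lexp (F : ℍ → ℂ) := rfl

theorem lexpAlgHom_injective : Function.Injective lexpAlgHom := by
  rw [injective_iff_map_eq_zero]
  intro F hF
  exact Subtype.ext (lexp_eq_zero F.2 hF)

/-! ### Dilations -/

theorem dilPt_im (d : ℕ) [NeZero d] (τ : ℍ) : (dilPt d τ).im = d * τ.im := by
  show ((d : ℂ) * (τ : ℂ)).im = d * τ.im
  simp

theorem mdiff_inv {F : ℍ → ℂ} (hF : MDiff F) (h0 : ∀ τ, F τ ≠ 0) : MDiff (fun τ => (F τ)⁻¹) := by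
  rw [UpperHalfPlane.mdifferentiable_iff]
  have h1 := UpperHalfPlane.mdifferentiable_iff.mp hF
  have h2 : (fun τ => (F τ)⁻¹) ∘ ofComplex = fun z => ((F ∘ ofComplex) z)⁻¹ := rfl
  rw [h2]
  exact h1.inv fun z _ => h0 _

/-- The unit `Δ(τ)^d / Δ(dτ)` comparing the two natural denominators. -/
def dilUnit (d : ℕ) [NeZero d] : ℍ → ℂ := fun τ => Δ τ ^ d * (Δ (dilPt d τ))⁻¹

theorem qf_dilUnit (d : ℕ) [NeZero d] : QF (dilUnit d) where
  per := by
    intro z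
    have h1 := qf_discriminant.per z
    have h2 := (qf_dil d qf_discriminant).per z
    simp only [Function.comp_apply, dil_apply] at h1 h2
    simp only [Function.comp_apply, dilUnit]
    rw [h1, h2]
  hol := by
    have h1 : MDiff (fun τ : ℍ => (Δ (dilPt d τ))⁻¹) :=
      mdiff_inv (qf_dil d qf_discriminant).hol fun τ => discriminant_ne_zero _
    exact (qf_discriminant.hol.pow d).mul h1
  bdd := by
    obtain ⟨Y, hY⟩ := exists_discriminant_bounds
    rw [isBoundedAtImInfty_iff]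
    refine ⟨2 * (3 / 2 : ℝ) ^ d, max Y 0, fun τ hτ => ?_⟩
    have hτY : Y ≤ τ.im := le_trans (le_max_left _ _) hτ
    have hτ0 : 0 ≤ τ.im := le_trans (le_max_right _ _) hτ
    have hd1 : (1 : ℝ) ≤ d := by exact_mod_cast NeZero.one_le
    have hdτ : Y ≤ (dilPt d τ).im := by
      rw [dilPt_im]
      nlinarith
    have hup := (hY τ hτY).2
    have hlow := (hY (dilPt d τ) hdτ).1
    rw [dilPt_im] at hlow
    have hexp : Real.exp (-2 * π * τ.im) ^ d = Real.exp (-2 * π * (d * τ.im)) := by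
      rw [← Real.exp_nat_mul]
      congr 1
      ring
    have hpos : 0 < Real.exp (-2 * π * (d * τ.im)) := Real.exp_pos _
    have hΔpos : 0 < ‖Δ (dilPt d τ)‖ := norm_pos_iff.mpr (discriminant_ne_zero _)
    show ‖Δ τ ^ d * (Δ (dilPt d τ))⁻¹‖ ≤ _
    rw [norm_mul, norm_pow, norm_inv, ← div_eq_mul_inv, div_le_iff₀ hΔpos]
    calc ‖Δ τ‖ ^ d ≤ ((3 / 2 : ℝ) * Real.exp (-2 * π * τ.im)) ^ d :=
          pow_le_pow_left₀ (norm_nonneg _) hup d
      _ = 2 * (3 / 2 : ℝ) ^ d * ((1 / 2 : ℝ) * Real.exp (-2 * π * (d * τ.im))) := by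
          rw [mul_pow, hexp]; ring
      _ ≤ 2 * (3 / 2 : ℝ) ^ d * ‖Δ (dilPt d τ)‖ := by
          apply mul_le_mul_of_nonneg_left hlow
          positivity

theorem qm_dil (d : ℕ) [NeZero d] {f : ℍ → ℂ} (hf : QM f) : QM (dil d f) := by
  obtain ⟨m, hm⟩ := hf
  refine ⟨d * m, ?_⟩
  have h : dil d f * (Δ : ℍ → ℂ) ^ (d * m) = dil d (f * (Δ : ℍ → ℂ) ^ m) * dilUnit d ^ m := by
    funext τ
    have h0 : Δ (dilPt d τ) ≠ 0 := discriminant_ne_zero _
    have h1 : Δ (dilPt d τ) ^ m ≠ 0 := pow_ne_zero m h0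
    simp only [Pi.mul_apply, Pi.pow_apply, dil_apply, dilUnit]
    rw [mul_pow, ← pow_mul, inv_pow, mul_assoc, mul_comm (Δ τ ^ (d * m)),
      ← mul_assoc (Δ (dilPt d τ) ^ m), mul_inv_cancel₀ h1, one_mul]
  rw [h]
  exact (qf_dil d hm).mul ((qf_dilUnit d).pow m)

/-- The Laurent expansion of `F(dτ)` is that of `F` in the variable `q^d`. -/
theorem lexp_dil (d : ℕ) [NeZero d] {f : ℍ → ℂ} (hf : QM f) :
    lexp (dil d f) = ModularCurve.qExpand ℂ d (lexp f) := by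
  have hfd := qm_dil d hf
  obtain ⟨m, hm⟩ := hf
  have hΔd : QF (dil d (Δ : ℍ → ℂ)) := qf_dil d qf_discriminant
  have h1 : lexp (dil d (f * (Δ : ℍ → ℂ) ^ m)) =
      ModularCurve.qExpand ℂ d (lexp f) * ModularCurve.qExpand ℂ d qΔ ^ m := by
    rw [lexp_of_qf (qf_dil d hm), ofPowerSeries_qExpansion_dil d hm, ← lexp_mul_pow hm, map_mul,
      map_pow]
  have h2 : lexp (dil d (f * (Δ : ℍ → ℂ) ^ m)) =
      lexp (dil d f) * ModularCurve.qExpand ℂ d qΔ ^ m := by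
    rw [dil_mul, dil_pow, lexp_mul hfd ((QM.of_qf hΔd).pow m), lexp_pow (QM.of_qf hΔd),
      lexp_of_qf hΔd, ofPowerSeries_qExpansion_dil d qf_discriminant]
    rfl
  have h3 : ModularCurve.qExpand ℂ d qΔ ^ m ≠ 0 :=
    pow_ne_zero m ((map_ne_zero (ModularCurve.qExpand ℂ d)).mpr qΔ_ne_zero)
  exact mul_right_cancel₀ h3 (h2.symm.trans h1)

/-! ### The `j`-function -/

theorem jFun_mul_discriminant : jFun * (Δ : ℍ → ℂ) ^ 1 = (E₄ : ℍ → ℂ) ^ 3 := by
  funext τ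
  simp only [Pi.mul_apply, Pi.pow_apply, jFun, pow_one]
  exact div_mul_cancel₀ _ (discriminant_ne_zero τ)

theorem qm_jFun : QM jFun := ⟨1, by
  rw [jFun_mul_discriminant]
  exact (qf_levelOne E₄).pow 3⟩

/-- The Laurent expansion of the analytic `j = E₄³/Δ` is the formal `j` of the prelude. -/
theorem lexp_jFun : lexp jFun = ModularCurve.coeffMap (algebraMap ℚ ℂ) ModularCurve.jq := by
  have hE : QF ((E₄ : ℍ → ℂ) ^ 3) := (qf_levelOne E₄).pow 3
  have h1 : QF (jFun * (Δ : ℍ → ℂ) ^ 1) := by rw [jFun_mul_discriminant]; exact hE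
  have h2 := lexp_mul_pow h1
  rw [jFun_mul_discriminant, (qf_levelOne E₄).qExpansion_pow, map_pow,
    ofPowerSeries_E4_cube_one] at h2
  exact mul_right_cancel₀ (qΔ_pow_ne_zero 1) (by rw [h2, pow_one]; rfl)

/-- The Laurent expansion of `j(dτ)` is the formal `j(q^d)` of the prelude. -/
theorem lexp_dil_jFun (d : ℕ) [NeZero d] :
    lexp (dil d jFun) =
      ModularCurve.coeffMap (algebraMap ℚ ℂ) (ModularCurve.qExpand ℚ d ModularCurve.jq) := by
  rw [lexp_dil d qm_jFun, lexp_jFun, ModularCurve.coeffMap_qExpand]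

end Fermat.Agent.GenusLib.QExp
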