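import Mathlib
import Fermat.Prelude.Def_ModularCurve_ArithmeticGalois
import Fermat.Agent.GenusLib.BStruct
import Fermat.Agent.GenusLib.QExpL
import Fermat.Agent.GenusLib.FormalLD

/-!
# S24, step (A1), part 2: the bridge from the formal function field to modular functions

* `dil_jFun_mem_WHle` : `j(dτ) ∈ WHle N 0 d` for `d ∣ N`; `jdB N d hd : BAlg N`.
* `qm_of_mem_WH`, `lexpB N : BAlg N →ₐ[ℂ] LaurentSeries ℂ` (injective).
* `MerN N := FractionRing (BAlg N)`, `lexpM N : MerN N →+* LaurentSeries ℂ` (injective).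
* `e N ι : ↥(ModularCurve.modularFunctionFieldBar N) →+* MerN N` for a ring homomorphism
  `ι : AlgebraicClosure ℚ →+* ℂ`, characterised by `lexpM N (e N ι f) = coeffMap ι f`;
  `e_algebraMap`, `e_jd`, `e_j`, `exists_rep`, `e_mul_eq_iff`.
-/

set_option autoImplicit false

noncomputable section

namespace Fermat.Agent.GenusLib.Bridge

open UpperHalfPlane hiding I
open Filter Topology Complex Function
open scoped Real MatrixGroups ModularForm Manifold
open CongruenceSubgroup Matrix.SpecialLinearGroup ModularForm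
open Fermat.Agent.S23Lib Fermat.Agent.S23Lib.Conj Fermat.Agent.S23Lib.Distinct
open Fermat.Agent.GenusLib.Defs Fermat.Agent.GenusLib.WHBasic Fermat.Agent.GenusLib.BStruct
open Fermat.Agent.GenusLib.QExp

local notation "Δ" => ModularForm.discriminant

local notation "Qbar" => AlgebraicClosure ℚ

/-! ### `j(dτ)` is a modular function for `Γ₀(N)` when `d ∣ N` -/

/-- Hermite normal form: `d · γτ = δ · ((gτ + b')/h)` with `δ ∈ SL(2, ℤ)`, `d = g h`,
`g = gcd(c, d)`. -/
theorem exists_dilPt_smul (d : ℕ) [NeZero d] (γ : SL(2, ℤ)) :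
    ∃ (g h : ℕ) (b' : ℤ) (δ : SL(2, ℤ)), g = Int.gcd (γ 1 0) d ∧ d = g * h ∧
      ∀ τ w : ℍ, (w : ℂ) = ((g : ℂ) * τ + b') / h → dilPt d (γ • τ) = δ • w := by
  have hdet : γ 0 0 * γ 1 1 - γ 0 1 * γ 1 0 = 1 := by
    have := γ.det_coe
    rw [Matrix.det_fin_two] at this
    exact this
  obtain ⟨g, h, p, q, r, s, b', hg, hNgh, hδ, e1, e2, e3, e4⟩ :=
    exists_hermite (γ 0 0) (γ 0 1) (γ 1 0) (γ 1 1) hdet d (NeZero.ne d)
  let δ : SL(2, ℤ) := ⟨!![p, q; r, s], by rw [Matrix.det_fin_two_of]; exact hδ⟩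
  refine ⟨g, h, b', δ, hg, hNgh, fun τ w hw => ?_⟩
  have hh0 : (h : ℂ) ≠ 0 := by
    have : h ≠ 0 := by
      rintro rfl
      rw [mul_zero] at hNgh
      exact NeZero.ne d hNgh
    exact_mod_cast this
  have hδ00 : (δ 0 0 : ℤ) = p := rfl
  have hδ01 : (δ 0 1 : ℤ) = q := rfl
  have hδ10 : (δ 1 0 : ℤ) = r := rfl
  have hδ11 : (δ 1 1 : ℤ) = s := rfl
  have c1 : (d : ℂ) * (γ 0 0 : ℂ) = p * g := by exact_mod_cast e1
  have c2 : (d : ℂ) * (γ 0 1 : ℂ) = p * b' + q * h := by exact_mod_cast e2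
  have c3 : (γ 1 0 : ℂ) = r * g := by exact_mod_cast e3
  have c4 : (γ 1 1 : ℂ) = r * b' + s * h := by exact_mod_cast e4
  have hnum : ((p : ℂ) * w + q) * h = (d : ℂ) * ((γ 0 0 : ℂ) * τ + γ 0 1) := by
    rw [hw, add_mul, mul_assoc, div_mul_cancel₀ _ hh0]
    linear_combination (-(τ : ℂ)) * c1 - c2
  have hdenq : ((r : ℂ) * w + s) * h = (γ 1 0 : ℂ) * τ + γ 1 1 := by
    rw [hw, add_mul, mul_assoc, div_mul_cancel₀ _ hh0]
    linear_combination (-(τ : ℂ)) * c3 - c4
  have hpt : ((δ • w : ℍ) : ℂ) = (d : ℂ) * ((γ • τ : ℍ) : ℂ) := by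
    rw [coe_smul_eq, coe_smul_eq, hδ00, hδ01, hδ10, hδ11]
    rw [← mul_div_mul_right _ _ hh0, hnum, hdenq, mul_div_assoc]
  exact UpperHalfPlane.ext (by rw [coe_dilPt]; exact hpt.symm)

/-- `j(d · γτ) = j(dτ)` when `d` divides the lower left entry of `γ`. -/
theorem dil_jFun_smul_of_dvd (d : ℕ) [NeZero d] (γ : SL(2, ℤ)) (hγ : (d : ℤ) ∣ γ 1 0) (τ : ℍ) :
    jFun (dilPt d (γ • τ)) = jFun (dilPt d τ) := by
  obtain ⟨g, h, b', δ, hg, hd, H⟩ := exists_dilPt_smul d γ
  have hgd : g = d := by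
    have h1 : ((Int.gcd (γ 1 0) d : ℕ) : ℤ) = (d : ℤ) :=
      Int.gcd_eq_right (Int.natCast_nonneg d) hγ
    rw [hg]
    exact_mod_cast h1
  have hh : h = 1 := by
    have hd0 : 0 < d := NeZero.pos d
    rw [hgd] at hd
    have : d * h = d * 1 := by rw [mul_one]; exact hd.symm
    exact Nat.eq_of_mul_eq_mul_left hd0 this
  have hw : ((ModularGroup.T ^ b' • dilPt d τ : ℍ) : ℂ) = ((g : ℂ) * τ + b') / h := by
    rw [ModularGroup.coe_T_zpow_smul_eq, coe_dilPt, hgd, hh]
    simp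
  rw [H τ _ hw, jFun_smul, jFun_smul]

theorem dil_jFun_slash {N d : ℕ} [NeZero d] (hd : d ∣ N) (γ : SL(2, ℤ)) (hγ : γ ∈ Gamma0 N) :
    dil d jFun ∣[(0 : ℤ)] γ = dil d jFun := by
  rw [Gamma0_mem, ZMod.intCast_zmod_eq_zero_iff_dvd] at hγ
  have h1 : (d : ℤ) ∣ γ 1 0 := dvd_trans (by exact_mod_cast hd) hγ
  funext τ
  rw [slash_zero_apply, dil_apply, dil_apply]
  exact dil_jFun_smul_of_dvd d γ h1 τ

/-- Exponential bound for `j` near `i∞`. -/
theorem exists_jFun_bound :
    ∃ C Y : ℝ, 0 ≤ C ∧ ∀ z : ℍ, Y ≤ z.im → ‖jFun z‖ ≤ C * Real.exp (2 * π * z.im) := by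
  obtain ⟨Y, hY⟩ := exists_discriminant_bounds
  obtain ⟨M, A, hMA⟩ := isBoundedAtImInfty_iff.mp ((qf_levelOne E₄).pow 3).bdd
  have hM : 0 ≤ max M 0 := le_max_right _ _
  refine ⟨2 * max M 0, max Y A, by positivity, fun z hz => ?_⟩
  have hzY : Y ≤ z.im := le_trans (le_max_left _ _) hz
  have hzA : A ≤ z.im := le_trans (le_max_right _ _) hz
  have h1 := (hY z hzY).1
  have h2 : ‖E₄ z ^ 3‖ ≤ max M 0 := le_trans (hMA z hzA) (le_max_left _ _)
  have hΔ : Δ z ≠ 0 := discriminant_ne_zero z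
  have hΔpos : 0 < ‖Δ z‖ := norm_pos_iff.mpr hΔ
  have hj : jFun z = E₄ z ^ 3 / Δ z := rfl
  have hexp : Real.exp (2 * π * z.im) * Real.exp (-2 * π * z.im) = 1 := by
    rw [← Real.exp_add]
    have : 2 * π * z.im + -2 * π * z.im = 0 := by ring
    rw [this, Real.exp_zero]
  have hpos : 0 < Real.exp (2 * π * z.im) := Real.exp_pos _
  rw [hj, norm_div, div_le_iff₀ hΔpos]
  calc ‖E₄ z ^ 3‖ ≤ max M 0 := h2
    _ = 2 * max M 0 * Real.exp (2 * π * z.im) * ((1 / 2 : ℝ) * Real.exp (-2 * π * z.im)) := by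
        have : 2 * max M 0 * Real.exp (2 * π * z.im) * ((1 / 2 : ℝ) * Real.exp (-2 * π * z.im))
            = max M 0 * (Real.exp (2 * π * z.im) * Real.exp (-2 * π * z.im)) := by ring
        rw [this, hexp, mul_one]
    _ ≤ 2 * max M 0 * Real.exp (2 * π * z.im) * ‖Δ z‖ := by
        apply mul_le_mul_of_nonneg_left h1
        positivity

/-- All `SL(2, ℤ)`-translates of `j(dτ)` have a pole of order at most `d` at `i∞`. -/
theorem dil_jFun_bdd (d : ℕ) [NeZero d] (γ : SL(2, ℤ)) :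
    IsBoundedAtImInfty ((dil d jFun ∣[(0 : ℤ)] γ) * dpow d) := by
  obtain ⟨g, h, b', δ, -, hd, H⟩ := exists_dilPt_smul d γ
  obtain ⟨C, Y₁, hC, hj⟩ := exists_jFun_bound
  obtain ⟨Y, hY⟩ := exists_discriminant_bounds
  have hd0 : d ≠ 0 := NeZero.ne d
  have hg0 : g ≠ 0 := by
    rintro rfl
    rw [zero_mul] at hd
    exact hd0 hd
  have hh0 : h ≠ 0 := by
    rintro rfl
    rw [mul_zero] at hd
    exact hd0 hd
  have hgR : (0 : ℝ) < g := by exact_mod_cast Nat.pos_of_ne_zero hg0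
  have hhR : (0 : ℝ) < h := by exact_mod_cast Nat.pos_of_ne_zero hh0
  have hg1 : (1 : ℝ) ≤ g := by exact_mod_cast Nat.pos_of_ne_zero hg0
  have hh1 : (1 : ℝ) ≤ h := by exact_mod_cast Nat.pos_of_ne_zero hh0
  have hdR : (d : ℝ) = g * h := by exact_mod_cast hd
  rw [isBoundedAtImInfty_iff]
  refine ⟨C * (3 / 2 : ℝ) ^ d, max (max Y 0) (max Y₁ 0 * h / g), fun τ hτ => ?_⟩
  have hτY : Y ≤ τ.im := le_trans (le_trans (le_max_left _ _) (le_max_left _ _)) hτ
  have hτ0 : 0 ≤ τ.im := le_trans (le_trans (le_max_right _ _) (le_max_left _ _)) hτ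
  have hτ1 : max Y₁ 0 * h / g ≤ τ.im := le_trans (le_max_right _ _) hτ
  have him2 : (((g : ℂ) * τ + b') / h).im = g * τ.im / h := by
    rw [Complex.div_natCast_im]
    simp
  let w : ℍ := ⟨((g : ℂ) * τ + b') / h, by
    rw [him2]; exact div_pos (mul_pos hgR τ.im_pos) hhR⟩
  have hwim : w.im = g * τ.im / h := him2
  have hYw : Y₁ ≤ w.im := by
    rw [hwim, le_div_iff₀ hhR]
    rw [div_le_iff₀ hgR] at hτ1
    have := le_max_left Y₁ 0
    nlinarith
  have hwle : w.im ≤ d * τ.im := by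
    rw [hwim, div_le_iff₀ hhR, hdR]
    nlinarith [mul_nonneg (mul_nonneg hgR.le hτ0) (mul_nonneg hhR.le (sub_nonneg.mpr hh1))]
  have h1 := hj w hYw
  have h2 := (hY τ hτY).2
  have hval : (dil d jFun ∣[(0 : ℤ)] γ) τ = jFun w := by
    rw [slash_zero_apply, dil_apply, H τ w rfl, jFun_smul]
  have hexp : Real.exp (-2 * π * τ.im) ^ d = Real.exp (-(2 * π * (d * τ.im))) := by
    rw [← Real.exp_nat_mul]
    congr 1
    ring
  have hexp2 : Real.exp (2 * π * (d * τ.im)) * Real.exp (-(2 * π * (d * τ.im))) = 1 := by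
    rw [← Real.exp_add, add_neg_cancel, Real.exp_zero]
  have hmono : Real.exp (2 * π * w.im) ≤ Real.exp (2 * π * (d * τ.im)) := by
    apply Real.exp_le_exp.mpr
    have : 0 < 2 * π := by positivity
    nlinarith
  rw [Pi.mul_apply, hval, dpow_natCast, Pi.pow_apply, norm_mul, norm_pow]
  calc ‖jFun w‖ * ‖Δ τ‖ ^ d
      ≤ (C * Real.exp (2 * π * (d * τ.im))) * ((3 / 2 : ℝ) * Real.exp (-2 * π * τ.im)) ^ d := by
        apply mul_le_mul (le_trans h1 (mul_le_mul_of_nonneg_left hmono hC))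
          (pow_le_pow_left₀ (norm_nonneg _) h2 d) (by positivity) (by positivity)
    _ = C * (3 / 2 : ℝ) ^ d *
          (Real.exp (2 * π * (d * τ.im)) * Real.exp (-(2 * π * (d * τ.im)))) := by
        rw [mul_pow, hexp]; ring
    _ = C * (3 / 2 : ℝ) ^ d := by rw [hexp2, mul_one]

theorem dil_jFun_mem_WHle {N d : ℕ} [NeZero d] (hd : d ∣ N) : dil d jFun ∈ WHle N 0 d :=
  ⟨(qm_dil d qm_jFun).mdiff, fun γ hγ => dil_jFun_slash hd γ hγ, fun γ => dil_jFun_bdd d γ⟩

/-- `j(dτ)` as an element of `B = WH N 0`, for `d ∣ N`. -/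
def jdB (N d : ℕ) [NeZero d] (hd : d ∣ N) : BAlg N := ⟨dil d jFun, d, dil_jFun_mem_WHle hd⟩

@[simp] theorem coe_jdB (N d : ℕ) [NeZero d] (hd : d ∣ N) :
    ((jdB N d hd : BAlg N) : ℍ → ℂ) = dil d jFun := rfl

/-! ### Modular functions are `q`-meromorphic -/

theorem periodic_of_inv {N : ℕ} {F : ℍ → ℂ} (hF : Inv (Gamma0 N) 0 F) :
    Periodic (F ∘ ofComplex) 1 := by
  have hT : ModularGroup.T ∈ Gamma0 N := by
    rw [Gamma0_mem]
    simp [ModularGroup.T]
  have h1 : ∀ τ : ℍ, F ((1 : ℝ) +ᵥ τ) = F τ := by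
    intro τ
    have h := congrFun (hF _ hT) τ
    rw [slash_zero_apply, UpperHalfPlane.modular_T_smul] at h
    exact h
  intro z
  simp only [Function.comp_apply]
  by_cases hz : 0 < z.im
  · have hz1 : 0 < (z + 1).im := by simpa using hz
    rw [ofComplex_apply_of_im_pos hz, ofComplex_apply_of_im_pos hz1, ← h1 ⟨z, hz⟩]
    congr 1
    apply UpperHalfPlane.ext
    simp [add_comm]
  · have hz' : z.im ≤ 0 := not_lt.mp hz
    have hz1 : (z + 1).im ≤ 0 := by simpa using hz'
    rw [ofComplex_apply_of_im_nonpos hz', ofComplex_apply_of_im_nonpos hz1]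

theorem qm_of_mem_WH {N : ℕ} {F : ℍ → ℂ} (hF : F ∈ WH N 0) : QM F := by
  obtain ⟨m, h1, h2, h3⟩ := hF
  have hb := h3 1
  rw [SlashAction.slash_one] at hb
  obtain ⟨k, hk⟩ : ∃ k : ℕ, (m.toNat : ℤ) = m + k := by
    refine ⟨(m.toNat - m).toNat, ?_⟩
    have := Int.self_le_toNat m
    omega
  refine ⟨m.toNat, ?_⟩
  have hfun : F * (Δ : ℍ → ℂ) ^ m.toNat = (F * dpow m) * (Δ : ℍ → ℂ) ^ k := by
    rw [← dpow_natCast, ← dpow_natCast, hk, dpow_add, mul_assoc]
  have hper : Periodic (F ∘ ofComplex) 1 := periodic_of_inv h2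
  refine ⟨?_, h1.mul (qf_discriminant.pow _).hol, ?_⟩
  · have : (F * (Δ : ℍ → ℂ) ^ m.toNat) ∘ ofComplex =
        F ∘ ofComplex * ((Δ : ℍ → ℂ) ^ m.toNat) ∘ ofComplex := rfl
    rw [this]
    exact hper.mul (qf_discriminant.pow _).per
  · rw [hfun]
    exact hb.mul (qf_discriminant.pow k).bdd

theorem BAlg_le_qmSubalgebra (N : ℕ) : BAlg N ≤ qmSubalgebra := fun _ hF => qm_of_mem_WH hF

theorem qm_coe {N : ℕ} (b : BAlg N) : QM (b : ℍ → ℂ) := qm_of_mem_WH b.2

/-- The Laurent `q`-expansion at `i∞` on `B = WH N 0`. -/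
def lexpB (N : ℕ) : BAlg N →ₐ[ℂ] LaurentSeries ℂ :=
  lexpAlgHom.comp (Subalgebra.inclusion (BAlg_le_qmSubalgebra N))

theorem lexpB_apply {N : ℕ} (b : BAlg N) : lexpB N b = lexp (b : ℍ → ℂ) := rfl

theorem lexpB_injective (N : ℕ) : Function.Injective (lexpB N) :=
  lexpAlgHom_injective.comp (Subalgebra.inclusion_injective (BAlg_le_qmSubalgebra N))

theorem lexpB_jB (N : ℕ) :
    lexpB N (jB N) = ModularCurve.coeffMap (algebraMap ℚ ℂ) ModularCurve.jq := by
  rw [lexpB_apply, coe_jB, lexp_jFun]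

theorem lexpB_jdB (N d : ℕ) [NeZero d] (hd : d ∣ N) :
    lexpB N (jdB N d hd) =
      ModularCurve.coeffMap (algebraMap ℚ ℂ) (ModularCurve.qExpand ℚ d ModularCurve.jq) := by
  rw [lexpB_apply, coe_jdB, lexp_dil_jFun]

/-! ### The field of modular functions and its Laurent expansion -/

/-- The field of (meromorphic) modular functions for `Γ₀(N)`: the fraction field of `WH N 0`. -/
abbrev MerN (N : ℕ) : Type := FractionRing (BAlg N)

/-- The Laurent `q`-expansion at `i∞` on the field of modular functions. -/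
def lexpM (N : ℕ) : MerN N →+* LaurentSeries ℂ :=
  IsFractionRing.lift (g := (lexpB N : BAlg N →+* LaurentSeries ℂ)) (lexpB_injective N)

theorem lexpM_algebraMap {N : ℕ} (b : BAlg N) :
    lexpM N (algebraMap (BAlg N) (MerN N) b) = lexpB N b :=
  IsFractionRing.lift_algebraMap (g := (lexpB N : BAlg N →+* LaurentSeries ℂ))
    (lexpB_injective N) b

theorem lexpM_injective (N : ℕ) : Function.Injective (lexpM N) := (lexpM N).injective

theorem lexpM_algebraMap_complex (N : ℕ) (c : ℂ) :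
    lexpM N (algebraMap ℂ (MerN N) c) = algebraMap ℂ (LaurentSeries ℂ) c := by
  rw [IsScalarTower.algebraMap_apply ℂ (BAlg N) (MerN N), lexpM_algebraMap, AlgHom.commutes]

/-! ### The bridge -/

section bridge

variable (N : ℕ) (ι : Qbar →+* ℂ)

theorem coeffMap_rat_mem_fieldRange {z : LaurentSeries ℚ}
    (hz : z ∈ ModularCurve.modularFunctionFieldFull N) :
    ModularCurve.coeffMap (algebraMap ℚ ℂ) z ∈ (lexpM N).fieldRange := by
  have hle : (ModularCurve.modularFunctionFieldFull N).toSubfield ≤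
      (lexpM N).fieldRange.comap (ModularCurve.coeffMap (algebraMap ℚ ℂ)) := by
    show Subfield.closure _ ≤ _
    rw [Subfield.closure_le]
    rintro x (⟨a, rfl⟩ | ⟨d, hne, hdvd, rfl⟩)
    · show ModularCurve.coeffMap (algebraMap ℚ ℂ) (algebraMap ℚ (LaurentSeries ℚ) a) ∈
        (lexpM N).fieldRange
      rw [FormalLD.coeffMap_algebraMap', ← lexpM_algebraMap_complex N]
      exact RingHom.mem_fieldRange.mpr ⟨_, rfl⟩
    · have := hne
      show ModularCurve.coeffMap (algebraMap ℚ ℂ) (ModularCurve.qExpand ℚ d ModularCurve.jq) ∈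
        (lexpM N).fieldRange
      rw [← lexpB_jdB N d hdvd, ← lexpM_algebraMap]
      exact RingHom.mem_fieldRange.mpr ⟨_, rfl⟩
  exact hle hz

theorem coeffMap_mem_fieldRange {f : LaurentSeries Qbar}
    (hf : f ∈ ModularCurve.modularFunctionFieldBar N) :
    ModularCurve.coeffMap ι f ∈ (lexpM N).fieldRange := by
  have hle : (ModularCurve.modularFunctionFieldBar N).toSubfield ≤
      (lexpM N).fieldRange.comap (ModularCurve.coeffMap ι) := by
    show Subfield.closure _ ≤ _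
    rw [Subfield.closure_le]
    rintro x (⟨a, rfl⟩ | ⟨z, hz, rfl⟩)
    · show ModularCurve.coeffMap ι (algebraMap Qbar (LaurentSeries Qbar) a) ∈
        (lexpM N).fieldRange
      rw [FormalLD.coeffMap_algebraMap', ← lexpM_algebraMap_complex N]
      exact RingHom.mem_fieldRange.mpr ⟨_, rfl⟩
    · show ModularCurve.coeffMap ι (ModularCurve.coeffEmb Qbar z) ∈ (lexpM N).fieldRange
      rw [ModularCurve.coeffEmb, ModularCurve.coeffMap_coeffMap,
        ModularCurve.coeffMap_congr (Subsingleton.elim _ (algebraMap ℚ ℂ))]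
      exact coeffMap_rat_mem_fieldRange N hz
  exact hle hf

/-- The underlying function of the bridge. -/
def eFun (f : ModularCurve.modularFunctionFieldBar N) : MerN N :=
  (RingHom.mem_fieldRange.mp (coeffMap_mem_fieldRange N ι f.2)).choose

theorem lexpM_eFun (f : ModularCurve.modularFunctionFieldBar N) :
    lexpM N (eFun N ι f) = ModularCurve.coeffMap ι (f : LaurentSeries Qbar) :=
  (RingHom.mem_fieldRange.mp (coeffMap_mem_fieldRange N ι f.2)).choose_spec

/-- **The bridge**: the embedding of the formal function field `ℚ̄(j(q^d) : d ∣ N) ⊆ ℚ̄((q))`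
into the field of modular functions for `Γ₀(N)`, inverse to the `q`-expansion. -/
def e : ModularCurve.modularFunctionFieldBar N →+* MerN N where
  toFun := eFun N ι
  map_one' := lexpM_injective N (by
    rw [lexpM_eFun, RingHom.map_one (lexpM N)]
    exact map_one (ModularCurve.coeffMap ι))
  map_mul' x y := lexpM_injective N (by
    rw [lexpM_eFun, RingHom.map_mul (lexpM N), lexpM_eFun, lexpM_eFun]
    exact map_mul (ModularCurve.coeffMap ι) _ _)
  map_zero' := lexpM_injective N (by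
    rw [lexpM_eFun, RingHom.map_zero (lexpM N)]
    exact map_zero (ModularCurve.coeffMap ι))
  map_add' x y := lexpM_injective N (by
    rw [lexpM_eFun, RingHom.map_add (lexpM N), lexpM_eFun, lexpM_eFun]
    exact map_add (ModularCurve.coeffMap ι) _ _)

/-- The characterising property of the bridge: the `q`-expansion of `e f` is `f` (with
coefficients mapped by `ι`). -/
theorem lexpM_e (f : ModularCurve.modularFunctionFieldBar N) :
    lexpM N (e N ι f) = ModularCurve.coeffMap ι (f : LaurentSeries Qbar) :=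
  lexpM_eFun N ι f

theorem e_injective : Function.Injective (e N ι) := (e N ι).injective

theorem e_eq_iff (f : ModularCurve.modularFunctionFieldBar N) (x : MerN N) :
    e N ι f = x ↔ lexpM N x = ModularCurve.coeffMap ι (f : LaurentSeries Qbar) := by
  constructor
  · rintro rfl
    exact lexpM_e N ι f
  · intro h
    exact lexpM_injective N (by rw [lexpM_e, h])

theorem e_algebraMap (c : Qbar) :
    e N ι (algebraMap Qbar (ModularCurve.modularFunctionFieldBar N) c) =
      algebraMap ℂ (MerN N) (ι c) := by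
  rw [e_eq_iff, lexpM_algebraMap_complex]
  exact (FormalLD.coeffMap_algebraMap' ι c).symm

/-- The formal `j(q^d)` as an element of the function field. -/
def jdF (d : ℕ) [NeZero d] (hd : d ∣ N) : ModularCurve.modularFunctionFieldBar N :=
  ⟨ModularCurve.coeffEmb Qbar (ModularCurve.qExpand ℚ d ModularCurve.jq),
    ModularCurve.coeffEmb_mem_laurentBaseChange Qbar (ModularCurve.jqd_mem_full N hd)⟩

theorem coe_jdF (d : ℕ) [NeZero d] (hd : d ∣ N) :
    (jdF N d hd : LaurentSeries Qbar) =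
      ModularCurve.coeffEmb Qbar (ModularCurve.qExpand ℚ d ModularCurve.jq) := rfl

/-- The formal `j` as an element of the function field. -/
def jF : ModularCurve.modularFunctionFieldBar N :=
  ⟨ModularCurve.coeffEmb Qbar ModularCurve.jq,
    ModularCurve.coeffEmb_mem_laurentBaseChange Qbar (by
      have h := ModularCurve.jqd_mem_full N (one_dvd N)
      rwa [ModularCurve.qExpand_one_apply] at h)⟩

theorem coe_jF : (jF N : LaurentSeries Qbar) = ModularCurve.coeffEmb Qbar ModularCurve.jq := rfl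

theorem coeffMap_coeffEmb (z : LaurentSeries ℚ) :
    ModularCurve.coeffMap ι (ModularCurve.coeffEmb Qbar z) =
      ModularCurve.coeffMap (algebraMap ℚ ℂ) z := by
  rw [ModularCurve.coeffEmb, ModularCurve.coeffMap_coeffMap,
    ModularCurve.coeffMap_congr (Subsingleton.elim _ (algebraMap ℚ ℂ))]

/-- `e(j(q^d)) = j(dτ)`. -/
theorem e_jdF (d : ℕ) [NeZero d] (hd : d ∣ N) :
    e N ι (jdF N d hd) = algebraMap (BAlg N) (MerN N) (jdB N d hd) := by
  rw [e_eq_iff, lexpM_algebraMap, lexpB_jdB, coe_jdF, coeffMap_coeffEmb]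

/-- `e(j) = j`. -/
theorem e_jF : e N ι (jF N) = algebraMap (BAlg N) (MerN N) (jB N) := by
  rw [e_eq_iff, lexpM_algebraMap, lexpB_jB, coe_jF, coeffMap_coeffEmb]

/-- Every `e f` is a quotient of two modular functions holomorphic on `ℍ`. -/
theorem exists_rep (f : ModularCurve.modularFunctionFieldBar N) :
    ∃ a b : BAlg N, b ≠ 0 ∧
      e N ι f * algebraMap (BAlg N) (MerN N) b = algebraMap (BAlg N) (MerN N) a := by
  obtain ⟨⟨a, b⟩, h⟩ := IsLocalization.surj (nonZeroDivisors (BAlg N)) (e N ι f)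
  exact ⟨a, b, nonZeroDivisors.ne_zero b.2, h⟩

/-- A representation `e f = a / b` is the same as the identity `f · qexp(b) = qexp(a)` of
Laurent series. -/
theorem e_mul_eq_iff (f : ModularCurve.modularFunctionFieldBar N) (a b : BAlg N) :
    e N ι f * algebraMap (BAlg N) (MerN N) b = algebraMap (BAlg N) (MerN N) a ↔
      ModularCurve.coeffMap ι (f : LaurentSeries Qbar) * lexpB N b = lexpB N a := by
  rw [← lexpM_e N ι f, ← lexpM_algebraMap, ← lexpM_algebraMap, ← map_mul]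
  exact ⟨fun h => by rw [h], fun h => lexpM_injective N h⟩

end bridge

end Fermat.Agent.GenusLib.Bridge
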