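import Mathlib
import Fermat.Agent.GenusLib.Defs

/-!
# PROJECT X (S20), WP-Q, base layer: orders at `i∞` of periodic holomorphic functions

* `QP h G` : `G : ℍ → ℂ` is `h`-periodic, holomorphic and bounded at `i∞`;
* `ord h G` : the order of vanishing at `i∞` in the parameter `q_h = exp (2πiτ/h)`;
* `lc h n G` : the coefficient of `q_h ^ n` when `n ≤ ord h G` (as a limit);
* algebra of `ord`, one-dimensional jets, division by `q_h ^ n`, shifts `τ ↦ τ + t`,
  change of the period, sums over shifts, and the discriminant.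
-/

set_option autoImplicit false

noncomputable section

namespace Fermat.Agent.GenusLib.Cusps

open UpperHalfPlane hiding I
open Filter Topology Complex Function Asymptotics
open scoped Real MatrixGroups ModularForm Manifold
open CongruenceSubgroup Matrix.SpecialLinearGroup ModularForm
open Fermat.Agent.GenusLib.Defs

local notation "Δ" => ModularForm.discriminant
local notation "𝕢" => Periodic.qParam

/-- `G` is `h`-periodic, holomorphic on `ℍ` and bounded at `i∞`. -/
structure QP (h : ℝ) (G : ℍ → ℂ) : Prop where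
  per : Periodic (G ∘ ofComplex) h
  hol : MDiff G
  bdd : IsBoundedAtImInfty G

/-- The order of vanishing at `i∞` in the parameter `q_h`. -/
def ord (h : ℝ) (G : ℍ → ℂ) : ℕ∞ := analyticOrderAt (cuspFunction h G) 0

variable {h : ℝ} {G G' : ℍ → ℂ}

namespace QP

theorem analyticAt (hh : 0 < h) (hG : QP h G) : AnalyticAt ℂ (cuspFunction h G) 0 :=
  analyticAt_cuspFunction_zero hh hG.per hG.hol hG.bdd

theorem eq_cusp (hh : 0 < h) (hG : QP h G) (τ : ℍ) : cuspFunction h G (𝕢 h τ) = G τ :=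
  eq_cuspFunction τ hh.ne' hG.per

theorem tendsto (hh : 0 < h) (hG : QP h G) :
    Tendsto G atImInfty (𝓝 (cuspFunction h G 0)) := by
  have h1 : Tendsto (fun τ : ℍ => cuspFunction h G (𝕢 h τ)) atImInfty
      (𝓝 (cuspFunction h G 0)) :=
    (hG.analyticAt hh).continuousAt.tendsto.comp (qParam_tendsto_atImInfty hh)
  exact h1.congr fun τ => hG.eq_cusp hh τ

theorem const (c : ℂ) : QP h (fun _ : ℍ => c) where
  per := fun _ => rfl
  hol := mdifferentiable_const
  bdd := Filter.const_boundedAtFilter _ c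

theorem zero : QP h (0 : ℍ → ℂ) := const 0

theorem one : QP h (1 : ℍ → ℂ) := const 1

theorem add (hG : QP h G) (hG' : QP h G') : QP h (G + G') where
  per := by
    have : (G + G') ∘ ofComplex = G ∘ ofComplex + G' ∘ ofComplex := rfl
    rw [this]; exact hG.per.add hG'.per
  hol := hG.hol.add hG'.hol
  bdd := hG.bdd.add hG'.bdd

theorem mul (hG : QP h G) (hG' : QP h G') : QP h (G * G') where
  per := by
    have : (G * G') ∘ ofComplex = G ∘ ofComplex * G' ∘ ofComplex := rfl
    rw [this]; exact hG.per.mul hG'.per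
  hol := hG.hol.mul hG'.hol
  bdd := hG.bdd.mul hG'.bdd

theorem smul (c : ℂ) (hG : QP h G) : QP h (c • G) := by
  have : c • G = (fun _ : ℍ => c) * G := by funext z; simp
  rw [this]; exact (const c).mul hG

theorem neg (hG : QP h G) : QP h (-G) := by
  have : -G = (-1 : ℂ) • G := by funext z; simp
  rw [this]; exact hG.smul _

theorem sub (hG : QP h G) (hG' : QP h G') : QP h (G - G') := by
  rw [sub_eq_add_neg]; exact hG.add hG'.neg

theorem pow (hG : QP h G) (n : ℕ) : QP h (G ^ n) := by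
  induction n with
  | zero => simpa using one
  | succ n ih => rw [pow_succ]; exact ih.mul hG

theorem sum {ι : Type*} (s : Finset ι) {F : ι → ℍ → ℂ} (hF : ∀ i ∈ s, QP h (F i)) :
    QP h (∑ i ∈ s, F i) := by
  classical
  induction s using Finset.induction_on with
  | empty => simpa using zero
  | insert i t hi ih =>
    rw [Finset.sum_insert hi]
    exact (hF i (Finset.mem_insert_self i t)).add
      (ih fun j hj => hF j (Finset.mem_insert_of_mem hj))

/-- A periodic holomorphic function converging at `i∞` is a `QP`. -/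
theorem of_tendsto {c : ℂ} (hper : Periodic (G ∘ ofComplex) h) (hhol : MDiff G)
    (hlim : Tendsto G atImInfty (𝓝 c)) : QP h G :=
  ⟨hper, hhol, hlim.isBigO_one ℝ⟩

/-- Uniqueness of the value at `i∞`. -/
theorem cusp_zero_eq (hh : 0 < h) (hG : QP h G) {c : ℂ} (hlim : Tendsto G atImInfty (𝓝 c)) :
    cuspFunction h G 0 = c :=
  tendsto_nhds_unique (hG.tendsto hh) hlim

theorem cusp_mul (hh : 0 < h) (hG : QP h G) (hG' : QP h G') :
    cuspFunction h (G * G') = cuspFunction h G * cuspFunction h G' :=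
  cuspFunction_mul (hG.analyticAt hh).continuousAt (hG'.analyticAt hh).continuousAt

theorem cusp_add (hh : 0 < h) (hG : QP h G) (hG' : QP h G') :
    cuspFunction h (G + G') = cuspFunction h G + cuspFunction h G' :=
  cuspFunction_add (hG.analyticAt hh).continuousAt (hG'.analyticAt hh).continuousAt

theorem cusp_sub (hh : 0 < h) (hG : QP h G) (hG' : QP h G') :
    cuspFunction h (G - G') = cuspFunction h G - cuspFunction h G' :=
  cuspFunction_sub (hG.analyticAt hh).continuousAt (hG'.analyticAt hh).continuousAt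

theorem cusp_smul (hh : 0 < h) (hG : QP h G) (c : ℂ) :
    cuspFunction h (c • G) = c • cuspFunction h G :=
  cuspFunction_smul (hG.analyticAt hh).continuousAt c

/-! ### Algebra of the order -/

theorem ord_mul (hh : 0 < h) (hG : QP h G) (hG' : QP h G') :
    ord h (G * G') = ord h G + ord h G' := by
  unfold ord
  rw [hG.cusp_mul hh hG']
  exact analyticOrderAt_mul (hG.analyticAt hh) (hG'.analyticAt hh)

theorem le_ord_add (hh : 0 < h) (hG : QP h G) (hG' : QP h G') :
    min (ord h G) (ord h G') ≤ ord h (G + G') := by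
  unfold ord
  rw [hG.cusp_add hh hG']
  exact le_analyticOrderAt_add

theorem le_ord_sub (hh : 0 < h) (hG : QP h G) (hG' : QP h G') :
    min (ord h G) (ord h G') ≤ ord h (G - G') := by
  unfold ord
  rw [hG.cusp_sub hh hG']
  exact le_analyticOrderAt_sub

theorem ord_smul (hh : 0 < h) (hG : QP h G) {c : ℂ} (hc : c ≠ 0) :
    ord h (c • G) = ord h G := by
  have h1 : c • G = (fun _ : ℍ => c) * G := by funext z; simp
  have h2 : ord h (fun _ : ℍ => c) = 0 := by
    unfold ord
    rw [((const c : QP h _).analyticAt hh).analyticOrderAt_eq_zero,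
      (const c : QP h _).cusp_zero_eq hh tendsto_const_nhds]
    exact hc
  rw [h1, (const c).ord_mul hh hG, h2, zero_add]

theorem le_ord_smul (hh : 0 < h) (hG : QP h G) (c : ℂ) : ord h G ≤ ord h (c • G) := by
  by_cases hc : c = 0
  · subst hc
    have h1 : ord h ((0 : ℂ) • G) = ⊤ := by
      unfold ord
      rw [hG.cusp_smul hh, analyticOrderAt_eq_top]
      exact Eventually.of_forall fun z => by simp
    rw [h1]; exact le_top
  · exact (hG.ord_smul hh hc).ge

theorem ord_neg (hh : 0 < h) (hG : QP h G) : ord h (-G) = ord h G := by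
  have : -G = (-1 : ℂ) • G := by funext z; simp
  rw [this, hG.ord_smul hh (by norm_num)]

theorem ord_zero (hh : 0 < h) : ord h (0 : ℍ → ℂ) = ⊤ := by
  unfold ord
  rw [analyticOrderAt_eq_top]
  have h3 := (zero : QP h (0 : ℍ → ℂ)).analyticAt hh
  have h4 : ∀ᶠ z in 𝓝[≠] (0 : ℂ), cuspFunction h (0 : ℍ → ℂ) z = 0 := by
    rw [eventually_nhdsWithin_iff]
    exact Eventually.of_forall fun z hz => by
      simp [cuspFunction, Periodic.cuspFunction_eq_of_nonzero h _ hz]
  have h5 : cuspFunction h (0 : ℍ → ℂ) =ᶠ[𝓝 0] fun _ => (0 : ℂ) :=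
    (h3.continuousAt.eventuallyEq_nhds_iff_eventuallyEq_nhdsNE continuousAt_const).mp h4
  exact h5

theorem le_ord_sum (hh : 0 < h) {ι : Type*} (s : Finset ι) {F : ι → ℍ → ℂ}
    (hF : ∀ i ∈ s, QP h (F i)) (n : ℕ∞) (hn : ∀ i ∈ s, n ≤ ord h (F i)) :
    n ≤ ord h (∑ i ∈ s, F i) := by
  classical
  induction s using Finset.induction_on with
  | empty =>
    rw [Finset.sum_empty, ord_zero hh]; exact le_top
  | insert i t hi ih =>
    rw [Finset.sum_insert hi]
    exact le_trans (le_min (hn i (Finset.mem_insert_self i t))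
        (ih (fun j hj => hF j (Finset.mem_insert_of_mem hj))
          (fun j hj => hn j (Finset.mem_insert_of_mem hj))))
      ((hF i (Finset.mem_insert_self i t)).le_ord_add hh
        (sum t fun j hj => hF j (Finset.mem_insert_of_mem hj)))

/-- `1 ≤ ord` iff zero at `i∞`. -/
theorem one_le_ord_iff (hh : 0 < h) (hG : QP h G) : 1 ≤ ord h G ↔ IsZeroAtImInfty G := by
  rw [Order.one_le_iff_ne_zero]
  unfold ord
  rw [(hG.analyticAt hh).analyticOrderAt_ne_zero]
  constructor
  · intro h0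
    have := hG.tendsto hh
    rw [h0] at this
    exact this
  · intro h0
    exact hG.cusp_zero_eq hh h0

theorem ord_eq_zero_iff (hh : 0 < h) (hG : QP h G) : ord h G = 0 ↔ cuspFunction h G 0 ≠ 0 := by
  unfold ord
  exact (hG.analyticAt hh).analyticOrderAt_eq_zero

/-- `ord = 0` as soon as `G` has a non-zero limit at `i∞`. -/
theorem ord_eq_zero_of_tendsto (hh : 0 < h) (hG : QP h G) {c : ℂ} (hc : c ≠ 0)
    (hlim : Tendsto G atImInfty (𝓝 c)) : ord h G = 0 := by
  rw [hG.ord_eq_zero_iff hh, hG.cusp_zero_eq hh hlim]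
  exact hc

/-- Identify the cusp function near `0` from a formula in the parameter. -/
theorem cusp_eventuallyEq (hh : 0 < h) (hG : QP h G) {φ : ℂ → ℂ} (hφ : ContinuousAt φ 0)
    (hGφ : ∀ᶠ τ in atImInfty, G τ = φ (𝕢 h τ)) : cuspFunction h G =ᶠ[𝓝 0] φ := by
  rw [← (hG.analyticAt hh).continuousAt.eventuallyEq_nhds_iff_eventuallyEq_nhdsNE hφ]
  rw [Filter.Eventually, atImInfty_mem] at hGφ
  obtain ⟨A, hA⟩ := hGφ
  -- points with small parameter have large imaginary part
  have h1 : ∀ᶠ z in 𝓝[≠] (0 : ℂ), ‖z‖ < min 1 (Real.exp (-2 * π * A / h)) := by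
    apply eventually_nhdsWithin_of_eventually_nhds
    have : Metric.ball (0 : ℂ) (min 1 (Real.exp (-2 * π * A / h))) ∈ 𝓝 (0 : ℂ) :=
      Metric.ball_mem_nhds _ (lt_min one_pos (Real.exp_pos _))
    filter_upwards [this] with z hz
    simpa using hz
  have h2 : ∀ᶠ z in 𝓝[≠] (0 : ℂ), z ≠ 0 := eventually_mem_nhdsWithin
  filter_upwards [h1, h2] with z hz hz0
  have hz1 : ‖z‖ < 1 := lt_of_lt_of_le hz (min_le_left _ _)
  have him : 0 < (Periodic.invQParam h z).im :=
    Periodic.im_invQParam_pos_of_norm_lt_one hh hz1 hz0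
  set τ : ℍ := ⟨Periodic.invQParam h z, him⟩ with hτ
  have hq : 𝕢 h τ = z := Periodic.qParam_right_inv hh.ne' hz0
  have hA' : A ≤ τ.im := by
    have h3 : ‖𝕢 h (τ : ℂ)‖ < Real.exp (-2 * π * A / h) := by
      rw [hq]; exact lt_of_lt_of_le hz (min_le_right _ _)
    have h4 := (Periodic.norm_qParam_lt_iff hh A (τ : ℂ)).mp h3
    exact h4.le
  have h5 := hA τ hA'
  rw [← hq, hG.eq_cusp hh τ, h5]

end QP

/-- The function `q_h ^ n`. -/
def qpow (h : ℝ) (n : ℕ) : ℍ → ℂ := fun τ => 𝕢 h τ ^ n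

theorem qpow_apply (h : ℝ) (n : ℕ) (τ : ℍ) : qpow h n τ = 𝕢 h τ ^ n := rfl

theorem qpow_ne_zero (h : ℝ) (n : ℕ) (τ : ℍ) : qpow h n τ ≠ 0 :=
  pow_ne_zero n (Periodic.qParam_ne_zero _)

theorem qParam_add_period (hh : h ≠ 0) (z : ℂ) : 𝕢 h (z + h) = 𝕢 h z := by
  simp only [Periodic.qParam]
  have hc : (h : ℂ) ≠ 0 := by exact_mod_cast hh
  have : 2 * ↑π * I * (z + ↑h) / ↑h = 2 * ↑π * I * z / ↑h + 2 * ↑π * I := by
    field_simp
  rw [this, Complex.exp_add, Complex.exp_two_pi_mul_I, mul_one]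

theorem mdiff_qParam (h : ℝ) : MDiff (fun τ : ℍ => 𝕢 h τ) := by
  rw [UpperHalfPlane.mdifferentiable_iff]
  have h1 : DifferentiableOn ℂ (𝕢 h) upperHalfPlaneSet :=
    (Periodic.differentiable_qParam (h := h)).differentiableOn
  refine h1.congr fun z hz => ?_
  simp [ofComplex_apply_of_im_pos hz]

theorem periodic_qParam (hh : h ≠ 0) : Periodic ((fun τ : ℍ => 𝕢 h τ) ∘ ofComplex) h := by
  intro w
  by_cases hw : 0 < w.im
  · have hw' : 0 < (w + h).im := by simpa using hw
    simp only [comp_apply, ofComplex_apply_of_im_pos hw', ofComplex_apply_of_im_pos hw]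
    exact qParam_add_period hh w
  · have hw0 : w.im ≤ 0 := not_lt.mp hw
    have hw' : (w + h).im ≤ 0 := by simpa using hw0
    simp only [comp_apply, ofComplex_apply_of_im_nonpos hw', ofComplex_apply_of_im_nonpos hw0]

theorem qp_qParam (hh : 0 < h) : QP h (fun τ : ℍ => 𝕢 h τ) :=
  QP.of_tendsto (periodic_qParam hh.ne') (mdiff_qParam h) (qParam_tendsto_atImInfty hh)

theorem qp_qpow (hh : 0 < h) (n : ℕ) : QP h (qpow h n) := (qp_qParam hh).pow n

theorem cusp_qpow (hh : 0 < h) (n : ℕ) : cuspFunction h (qpow h n) =ᶠ[𝓝 0] fun z => z ^ n :=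
  (qp_qpow hh n).cusp_eventuallyEq hh (continuous_pow n).continuousAt
    (Eventually.of_forall fun _ => rfl)

theorem ord_qpow (hh : 0 < h) (n : ℕ) : ord h (qpow h n) = n := by
  unfold ord
  rw [analyticOrderAt_congr (cusp_qpow hh n),
    AnalyticAt.analyticOrderAt_eq_natCast (by fun_prop)]
  exact ⟨1, analyticAt_const, one_ne_zero, Eventually.of_forall fun z => by simp⟩

namespace QP

/-- Division by `q_h ^ n`: `n ≤ ord h G` iff `G = q_h ^ n * H` with `H` again a `QP`. -/
theorem natCast_le_ord_iff (hh : 0 < h) (hG : QP h G) (n : ℕ) :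
    (n : ℕ∞) ≤ ord h G ↔ ∃ H, QP h H ∧ G = qpow h n * H := by
  constructor
  · intro hn
    unfold ord at hn
    rw [natCast_le_analyticOrderAt (hG.analyticAt hh)] at hn
    obtain ⟨g, hg, hfg⟩ := hn
    let H : ℍ → ℂ := fun τ => G τ / qpow h n τ
    have hGH : G = qpow h n * H := by
      funext τ
      simp only [H, Pi.mul_apply]
      field_simp [qpow_ne_zero h n τ]
    refine ⟨H, ?_, hGH⟩
    -- `H` tends to `g 0`
    have hlim : Tendsto H atImInfty (𝓝 (g 0)) := by
      have h1 : Tendsto (fun τ : ℍ => g (𝕢 h τ)) atImInfty (𝓝 (g 0)) :=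
        hg.continuousAt.tendsto.comp (qParam_tendsto_atImInfty hh)
      refine h1.congr' ?_
      have h2 : ∀ᶠ τ : ℍ in atImInfty,
          cuspFunction h G (𝕢 h τ) = (𝕢 h τ - 0) ^ n • g (𝕢 h τ) :=
        (qParam_tendsto_atImInfty hh).eventually hfg
      filter_upwards [h2] with τ hτ
      simp only [H]
      rw [← hG.eq_cusp hh τ, hτ, sub_zero, smul_eq_mul, qpow_apply]
      field_simp [Periodic.qParam_ne_zero (h := h) (τ : ℂ)]
    have hper : Periodic (H ∘ ofComplex) h := by
      intro w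
      have e1 := hG.per w
      have e2 := (qp_qpow hh n).per w
      simp only [comp_apply] at e1 e2 ⊢
      simp only [H, e1, e2]
    have hhol : MDiff H := by
      rw [UpperHalfPlane.mdifferentiable_iff]
      have d1 := UpperHalfPlane.mdifferentiable_iff.mp hG.hol
      have d2 := UpperHalfPlane.mdifferentiable_iff.mp (qp_qpow hh n).hol
      have e : H ∘ ofComplex = fun z => (G ∘ ofComplex) z / (qpow h n ∘ ofComplex) z := rfl
      rw [e]
      exact d1.div d2 fun z _ => qpow_ne_zero h n _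
    exact of_tendsto hper hhol hlim
  · rintro ⟨H, hH, rfl⟩
    rw [(qp_qpow hh n).ord_mul hh hH, ord_qpow hh n]
    exact le_self_add

end QP

/-- The coefficient of `q_h ^ n` of a function with `n ≤ ord h G`, as a limit. -/
def lc (h : ℝ) (n : ℕ) (G : ℍ → ℂ) : ℂ := limUnder atImInfty fun τ => G τ / 𝕢 h τ ^ n

theorem lc_eq_of_tendsto {n : ℕ} {c : ℂ}
    (hlim : Tendsto (fun τ => G τ / 𝕢 h τ ^ n) atImInfty (𝓝 c)) : lc h n G = c :=
  hlim.limUnder_eq

namespace QP

theorem tendsto_lc (hh : 0 < h) (hG : QP h G) {n : ℕ} (hn : (n : ℕ∞) ≤ ord h G) :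
    Tendsto (fun τ => G τ / 𝕢 h τ ^ n) atImInfty (𝓝 (lc h n G)) := by
  obtain ⟨H, hH, rfl⟩ := (hG.natCast_le_ord_iff hh n).mp hn
  have h1 : (fun τ => (qpow h n * H) τ / 𝕢 h τ ^ n) = H := by
    funext τ
    simp only [Pi.mul_apply, qpow_apply]
    field_simp [Periodic.qParam_ne_zero (h := h) (τ : ℂ)]
  unfold lc
  rw [h1]
  exact (hH.tendsto hh).limUnder_eq ▸ hH.tendsto hh

/-- The leading coefficient vanishes iff the order is larger. -/
theorem lc_eq_zero_iff (hh : 0 < h) (hG : QP h G) {n : ℕ} (hn : (n : ℕ∞) ≤ ord h G) :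
    lc h n G = 0 ↔ ((n + 1 : ℕ) : ℕ∞) ≤ ord h G := by
  obtain ⟨H, hH, rfl⟩ := (hG.natCast_le_ord_iff hh n).mp hn
  have h1 : (fun τ => (qpow h n * H) τ / 𝕢 h τ ^ n) = H := by
    funext τ
    simp only [Pi.mul_apply, qpow_apply]
    field_simp [Periodic.qParam_ne_zero (h := h) (τ : ℂ)]
  have h2 : lc h n (qpow h n * H) = cuspFunction h H 0 := by
    unfold lc
    rw [h1]
    exact (hH.tendsto hh).limUnder_eq
  rw [h2, (qp_qpow hh n).ord_mul hh hH, ord_qpow hh n]
  have h3 : ((n + 1 : ℕ) : ℕ∞) ≤ (n : ℕ∞) + ord h H ↔ 1 ≤ ord h H := by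
    push_cast
    exact ENat.add_le_add_iff_left (ENat.natCast_ne_top n)
  rw [h3, Order.one_le_iff_ne_zero, Ne, hH.ord_eq_zero_iff hh, not_not]

theorem ord_eq_iff (hh : 0 < h) (hG : QP h G) (n : ℕ) :
    ord h G = n ↔ (n : ℕ∞) ≤ ord h G ∧ lc h n G ≠ 0 := by
  constructor
  · intro hn
    refine ⟨hn.ge, fun h0 => ?_⟩
    have := (hG.lc_eq_zero_iff hh hn.ge).mp h0
    rw [hn] at this
    exact absurd (by exact_mod_cast this : n + 1 ≤ n) (by omega)
  · rintro ⟨h1, h2⟩
    refine le_antisymm ?_ h1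
    by_contra h3
    rw [not_le] at h3
    exact h2 ((hG.lc_eq_zero_iff hh h1).mpr (Order.add_one_le_of_lt h3))

theorem lc_add (hh : 0 < h) (hG : QP h G) (hG' : QP h G') {n : ℕ} (hn : (n : ℕ∞) ≤ ord h G)
    (hn' : (n : ℕ∞) ≤ ord h G') : lc h n (G + G') = lc h n G + lc h n G' := by
  apply lc_eq_of_tendsto
  have := (hG.tendsto_lc hh hn).add (hG'.tendsto_lc hh hn')
  refine this.congr fun τ => ?_
  simp only [Pi.add_apply]; ring

theorem lc_smul (hh : 0 < h) (hG : QP h G) {n : ℕ} (hn : (n : ℕ∞) ≤ ord h G) (c : ℂ) :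
    lc h n (c • G) = c * lc h n G := by
  apply lc_eq_of_tendsto
  have := (hG.tendsto_lc hh hn).const_mul c
  refine this.congr fun τ => ?_
  simp only [Pi.smul_apply, smul_eq_mul]; ring

theorem lc_sub (hh : 0 < h) (hG : QP h G) (hG' : QP h G') {n : ℕ} (hn : (n : ℕ∞) ≤ ord h G)
    (hn' : (n : ℕ∞) ≤ ord h G') : lc h n (G - G') = lc h n G - lc h n G' := by
  apply lc_eq_of_tendsto
  have := (hG.tendsto_lc hh hn).sub (hG'.tendsto_lc hh hn')
  refine this.congr fun τ => ?_
  simp only [Pi.sub_apply]; ring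

theorem lc_mul (hh : 0 < h) (hG : QP h G) (hG' : QP h G') {n n' : ℕ}
    (hn : (n : ℕ∞) ≤ ord h G) (hn' : (n' : ℕ∞) ≤ ord h G') :
    lc h (n + n') (G * G') = lc h n G * lc h n' G' := by
  apply lc_eq_of_tendsto
  have := (hG.tendsto_lc hh hn).mul (hG'.tendsto_lc hh hn')
  refine this.congr fun τ => ?_
  simp only [Pi.mul_apply, pow_add]
  field_simp [Periodic.qParam_ne_zero (h := h) (τ : ℂ)]

/-- **One-dimensional jets** (Q2): two functions of the same finite order differ by a scalar up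
to higher order. -/
theorem exists_lt_ord_sub_smul (hh : 0 < h) (hG : QP h G) (hG' : QP h G') {n : ℕ}
    (h1 : ord h G = n) (h2 : ord h G' = n) : ∃ c : ℂ, (n : ℕ∞) < ord h (G - c • G') := by
  have a1 := ((hG.ord_eq_iff hh n).mp h1).2
  have a2 := ((hG'.ord_eq_iff hh n).mp h2).2
  refine ⟨lc h n G / lc h n G', ?_⟩
  set c := lc h n G / lc h n G' with hc
  have hle : (n : ℕ∞) ≤ ord h (G - c • G') := by
    refine le_trans (le_min h1.ge ?_) (hG.le_ord_sub hh (hG'.smul c))
    exact le_trans h2.ge (hG'.le_ord_smul hh c)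
  have hlc : lc h n (G - c • G') = 0 := by
    rw [hG.lc_sub hh (hG'.smul c) h1.ge (le_trans h2.ge (hG'.le_ord_smul hh c)),
      hG'.lc_smul hh h2.ge, hc]
    field_simp
    ring
  have := ((hG.sub (hG'.smul c)).lc_eq_zero_iff hh hle).mp hlc
  exact lt_of_lt_of_le (by exact_mod_cast Nat.lt_succ_self n) this

/-- `ord = ⊤` iff the function vanishes identically. -/
theorem ord_eq_top_iff (hh : 0 < h) (hG : QP h G) : ord h G = ⊤ ↔ G = 0 := by
  constructor
  · intro htop
    unfold ord at htop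
    rw [analyticOrderAt_eq_top] at htop
    rw [← qExpansion_eq_zero_iff hh hG.per hG.hol hG.bdd]
    ext m
    rw [qExpansion_coeff]
    have : iteratedDeriv m (cuspFunction h G) 0 = 0 := by
      have h1 : cuspFunction h G =ᶠ[𝓝 0] fun _ => (0 : ℂ) := htop
      rw [h1.iteratedDeriv_eq m]
      simp
    simp [this]
  · rintro rfl
    exact ord_zero hh

end QP

/-! ### Shifts `τ ↦ τ + t` -/

/-- The shifted function `τ ↦ G (τ + t)`. -/
def shift (t : ℝ) (G : ℍ → ℂ) : ℍ → ℂ := fun τ => G (t +ᵥ τ)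

theorem shift_apply (t : ℝ) (G : ℍ → ℂ) (τ : ℍ) : shift t G τ = G (t +ᵥ τ) := rfl

theorem shift_zero (G : ℍ → ℂ) : shift 0 G = G := by
  funext τ; simp [shift]

theorem shift_shift (s t : ℝ) (G : ℍ → ℂ) : shift s (shift t G) = shift (t + s) G := by
  funext τ
  simp only [shift]
  congr 1
  ext
  simp only [coe_vadd, ofReal_add]
  ring

theorem tendsto_vadd_atImInfty (t : ℝ) : Tendsto (fun τ : ℍ => t +ᵥ τ) atImInfty atImInfty := by
  rw [atImInfty, tendsto_comap_iff]
  have : (UpperHalfPlane.im ∘ fun τ : ℍ => t +ᵥ τ) = UpperHalfPlane.im := by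
    funext τ; simp
  rw [this]
  exact tendsto_comap

theorem qParam_vadd (h t : ℝ) (τ : ℍ) :
    𝕢 h ((t +ᵥ τ : ℍ) : ℂ) = Complex.exp (2 * π * I * t / h) * 𝕢 h τ := by
  simp only [Periodic.qParam, coe_vadd]
  rw [← Complex.exp_add]
  congr 1
  ring

theorem shift_ofComplex (t : ℝ) (G : ℍ → ℂ) {w : ℂ} (hw : 0 < w.im) :
    (shift t G ∘ ofComplex) w = (G ∘ ofComplex) (w + t) := by
  have hw' : 0 < (w + t).im := by simpa using hw
  simp only [comp_apply, shift, ofComplex_apply_of_im_pos hw', ofComplex_apply_of_im_pos hw]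
  congr 1
  ext
  simp [coe_vadd, add_comm]

namespace QP

theorem shift (t : ℝ) (hG : QP h G) : QP h (shift t G) where
  per := by
    intro w
    by_cases hw : 0 < w.im
    · have hw' : 0 < (w + h).im := by simpa using hw
      rw [shift_ofComplex t G hw', shift_ofComplex t G hw]
      have := hG.per (w + t)
      rw [show w + ↑h + ↑t = w + ↑t + ↑h by ring]
      exact this
    · have hw0 : w.im ≤ 0 := not_lt.mp hw
      have hw' : (w + h).im ≤ 0 := by simpa using hw0
      simp only [comp_apply, ofComplex_apply_of_im_nonpos hw', ofComplex_apply_of_im_nonpos hw0]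
  hol := by
    rw [UpperHalfPlane.mdifferentiable_iff]
    have d1 := UpperHalfPlane.mdifferentiable_iff.mp hG.hol
    have d2 : DifferentiableOn ℂ (fun w : ℂ => (G ∘ ofComplex) (w + t)) upperHalfPlaneSet := by
      apply DifferentiableOn.comp (t := upperHalfPlaneSet) d1
        ((differentiable_id.add_const (t : ℂ)).differentiableOn)
      intro w hw
      show 0 < (w + (t : ℂ)).im
      simpa using hw
    exact d2.congr fun w hw => shift_ofComplex t G hw
  bdd := hG.bdd.comp_tendsto (tendsto_vadd_atImInfty t)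

/-- The cusp function of a shift. -/
theorem cusp_shift (hh : 0 < h) (hG : QP h G) (t : ℝ) :
    cuspFunction h (Cusps.shift t G) =ᶠ[𝓝 0]
      fun z => cuspFunction h G (Complex.exp (2 * π * I * t / h) * z) := by
  apply (hG.shift t).cusp_eventuallyEq hh
  · have h1 : ContinuousAt (cuspFunction h G) (Complex.exp (2 * π * I * t / h) * 0) := by
      rw [mul_zero]; exact (hG.analyticAt hh).continuousAt
    exact ContinuousAt.comp (f := fun z : ℂ => Complex.exp (2 * π * I * t / h) * z) h1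
      (continuous_const.mul continuous_id).continuousAt
  · refine Eventually.of_forall fun τ => ?_
    rw [← qParam_vadd, hG.eq_cusp hh]
    rfl

theorem ord_shift (hh : 0 < h) (hG : QP h G) (t : ℝ) : ord h (Cusps.shift t G) = ord h G := by
  unfold ord
  rw [analyticOrderAt_congr (hG.cusp_shift hh t)]
  have hg : AnalyticAt ℂ (fun z : ℂ => Complex.exp (2 * π * I * t / h) * z) 0 := by fun_prop
  have hd : deriv (fun z : ℂ => Complex.exp (2 * π * I * t / h) * z) 0 ≠ 0 := by
    rw [deriv_const_mul_field]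
    simp [Complex.exp_ne_zero]
  have := analyticOrderAt_comp_of_deriv_ne_zero (f := cuspFunction h G) hg hd
  simpa [Function.comp_def] using this

theorem lc_shift (hh : 0 < h) (hG : QP h G) (t : ℝ) {n : ℕ} (hn : (n : ℕ∞) ≤ ord h G) :
    lc h n (Cusps.shift t G) = Complex.exp (2 * π * I * t / h) ^ n * lc h n G := by
  apply lc_eq_of_tendsto
  have h1 : Tendsto (fun τ : ℍ => G (t +ᵥ τ) / 𝕢 h ((t +ᵥ τ : ℍ) : ℂ) ^ n) atImInfty
      (𝓝 (lc h n G)) := (hG.tendsto_lc hh hn).comp (tendsto_vadd_atImInfty t)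
  have h2 := h1.const_mul (Complex.exp (2 * π * I * t / h) ^ n)
  refine h2.congr fun τ => ?_
  rw [qParam_vadd, mul_pow, shift_apply]
  have e1 : Complex.exp (2 * π * I * t / h) ^ n ≠ 0 := pow_ne_zero _ (Complex.exp_ne_zero _)
  have e2 : 𝕢 h (τ : ℂ) ^ n ≠ 0 := pow_ne_zero _ (Periodic.qParam_ne_zero _)
  field_simp

/-! ### Change of the period -/

theorem mul_period {h' : ℝ} (e : ℕ) (hG : QP h' G) : QP (e * h') G :=
  ⟨by simpa using hG.per.nat_mul e, hG.hol, hG.bdd⟩

theorem qParam_pow_period {h' : ℝ} (hh' : h' ≠ 0) (e : ℕ) (he : e ≠ 0) (z : ℂ) :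
    𝕢 (e * h') z ^ e = 𝕢 h' z := by
  simp only [Periodic.qParam]
  rw [← Complex.exp_nat_mul]
  congr 1
  have h1 : (h' : ℂ) ≠ 0 := by exact_mod_cast hh'
  have h2 : (e : ℂ) ≠ 0 := by exact_mod_cast he
  push_cast
  field_simp

theorem cusp_mul_period {h' : ℝ} (hh' : 0 < h') (e : ℕ) (he : 0 < e) (hG : QP h' G) :
    cuspFunction (e * h') G =ᶠ[𝓝 0] fun z => cuspFunction h' G (z ^ e) := by
  have hpos : (0 : ℝ) < e * h' := mul_pos (by exact_mod_cast he) hh'
  apply (hG.mul_period e).cusp_eventuallyEq hpos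
  · have h1 : ContinuousAt (cuspFunction h' G) ((0 : ℂ) ^ e) := by
      rw [zero_pow he.ne']; exact (hG.analyticAt hh').continuousAt
    exact ContinuousAt.comp (f := fun z : ℂ => z ^ e) h1 (continuous_pow e).continuousAt
  · refine Eventually.of_forall fun τ => ?_
    rw [qParam_pow_period hh'.ne' e he.ne', hG.eq_cusp hh']

theorem ord_mul_period {h' : ℝ} (hh' : 0 < h') (e : ℕ) (he : 0 < e) (hG : QP h' G) :
    ord (e * h') G = e * ord h' G := by
  unfold ord
  rw [analyticOrderAt_congr (hG.cusp_mul_period hh' e he)]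
  have hg : AnalyticAt ℂ (fun z : ℂ => z ^ e) 0 := by fun_prop
  have hf : AnalyticAt ℂ (cuspFunction h' G) ((0 : ℂ) ^ e) := by
    rw [zero_pow he.ne']; exact hG.analyticAt hh'
  have h1 : analyticOrderAt (fun z => cuspFunction h' G (z ^ e)) 0
      = analyticOrderAt (cuspFunction h' G) ((0 : ℂ) ^ e)
        * analyticOrderAt (fun z : ℂ => z ^ e - (0 : ℂ) ^ e) 0 :=
    AnalyticAt.analyticOrderAt_comp (f := cuspFunction h' G) (g := fun z : ℂ => z ^ e) hf hg
  have h2 : analyticOrderAt (fun z : ℂ => z ^ e - (0 : ℂ) ^ e) 0 = e := by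
    rw [AnalyticAt.analyticOrderAt_eq_natCast (by fun_prop)]
    exact ⟨1, analyticAt_const, one_ne_zero,
      Eventually.of_forall fun z => by simp [zero_pow he.ne']⟩
  rw [h1, h2, zero_pow he.ne']
  exact mul_comm _ _

end QP

end Fermat.Agent.GenusLib.Cusps
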