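import Mathlib
import Fermat.Agent.GenusLib.CuspsBase
import Fermat.Agent.S23Lib.Sym

/-!
# PROJECT X (S20), WP-Q: orders and leading coefficients at the cusps

For `F ∈ WHle N w m` and `g : SL(2, ℤ)` the translate `(F ∣[w] g) * Δ^m` is an `N`-periodic
holomorphic function bounded at `i∞`; `ordCusp N m (F ∣[w] g)` is its `q_N`-order.
-/

set_option autoImplicit false

noncomputable section

namespace Fermat.Agent.GenusLib.Cusps

open UpperHalfPlane hiding I
open Filter Topology Complex Function Asymptotics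
open scoped Real MatrixGroups ModularForm Manifold
open CongruenceSubgroup Matrix.SpecialLinearGroup ModularForm
open Fermat.Agent.S23Lib Fermat.Agent.S23Lib.Conj Fermat.Agent.GenusLib.Defs

local notation "Δ" => ModularForm.discriminant
local notation "𝕢" => Periodic.qParam

/-! ### From period `1` to period `N` -/

theorem QP.of_one {G : ℍ → ℂ} (N : ℕ) (hG : QP 1 G) : QP N G := by
  have := hG.mul_period N
  rwa [mul_one] at this

theorem QP.ord_of_one {G : ℍ → ℂ} {N : ℕ} (hN : 0 < N) (hG : QP 1 G) :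
    ord N G = N * ord 1 G := by
  have := hG.ord_mul_period one_pos N hN
  rwa [mul_one] at this

theorem QP.ord_pow {h : ℝ} {G : ℍ → ℂ} (hh : 0 < h) (hG : QP h G) (n : ℕ) :
    ord h (G ^ n) = n * ord h G := by
  induction n with
  | zero =>
    rw [pow_zero, Nat.cast_zero, zero_mul]
    exact (QP.one : QP h (1 : ℍ → ℂ)).ord_eq_zero_of_tendsto hh one_ne_zero tendsto_const_nhds
  | succ n ih =>
    rw [pow_succ, (hG.pow n).ord_mul hh hG, ih]
    push_cast
    ring

theorem qpow_mul_period_one (N : ℕ) (hN : 0 < N) (r : ℕ) (τ : ℍ) :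
    qpow N (r * N) τ = 𝕢 1 τ ^ r := by
  rw [qpow_apply, mul_comm r N, pow_mul]
  have := QP.qParam_pow_period (h' := 1) one_ne_zero N hN.ne' (τ : ℂ)
  rw [mul_one] at this
  rw [this]

/-! ### The discriminant -/

theorem periodic_discriminant : Periodic ((Δ : ℍ → ℂ) ∘ ofComplex) 1 :=
  (qf_levelOne CuspForm.discriminant).per

theorem qp_discriminant_one : QP 1 (Δ : ℍ → ℂ) :=
  ⟨periodic_discriminant, discriminant_mdiff,
    ModularForm.discriminant_isZeroAtImInfty.boundedAtFilter⟩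

theorem tendsto_discriminant_div_q :
    Tendsto (fun τ : ℍ => Δ τ / 𝕢 1 τ ^ 1) atImInfty (𝓝 1) := by
  refine tendsto_atImInfty_tprod_one_sub_eta_q_pow.congr fun τ => ?_
  rw [discriminant_eq_q_prod, pow_one]
  field_simp [Periodic.qParam_ne_zero (h := 1) (τ : ℂ)]

theorem lc_discriminant_one : lc 1 1 (Δ : ℍ → ℂ) = 1 :=
  lc_eq_of_tendsto tendsto_discriminant_div_q

theorem ord_discriminant_one : ord 1 (Δ : ℍ → ℂ) = 1 := by
  have h1 : ((1 : ℕ) : ℕ∞) ≤ ord 1 (Δ : ℍ → ℂ) := by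
    rw [Nat.cast_one, qp_discriminant_one.one_le_ord_iff one_pos]
    exact ModularForm.discriminant_isZeroAtImInfty
  have := (qp_discriminant_one.ord_eq_iff one_pos 1).mpr
    ⟨h1, by rw [lc_discriminant_one]; exact one_ne_zero⟩
  simpa using this

theorem qp_discriminant (N : ℕ) : QP N (Δ : ℍ → ℂ) := qp_discriminant_one.of_one N

theorem ord_discriminant {N : ℕ} (hN : 0 < N) : ord N (Δ : ℍ → ℂ) = N := by
  rw [qp_discriminant_one.ord_of_one hN, ord_discriminant_one, mul_one]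

theorem periodic_dpow (N : ℕ) (m : ℤ) : Periodic (dpow m ∘ ofComplex) ((N : ℝ) : ℂ) := by
  intro w
  have := (qp_discriminant N).per w
  simp only [comp_apply, dpow_apply] at this ⊢
  rw [this]

theorem qp_dpow_nat (N : ℕ) (r : ℕ) : QP N (dpow (r : ℤ)) := by
  rw [dpow_natCast]; exact (qp_discriminant N).pow r

theorem ord_dpow_nat {N : ℕ} (hN : 0 < N) (r : ℕ) : ord N (dpow (r : ℤ)) = (r * N : ℕ) := by
  have hN' : (0 : ℝ) < N := by exact_mod_cast hN
  rw [dpow_natCast, (qp_discriminant N).ord_pow hN', ord_discriminant hN]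
  push_cast; ring

/-- `q_N^{rN} Δ^{-r} → 1`. -/
theorem tendsto_qpow_mul_dpow_neg {N : ℕ} (hN : 0 < N) (r : ℕ) :
    Tendsto (qpow N (r * N) * dpow (-(r : ℤ))) atImInfty (𝓝 1) := by
  have h1 : Tendsto (fun τ : ℍ => (Δ τ / 𝕢 1 τ ^ 1)⁻¹ ^ r) atImInfty (𝓝 ((1 : ℂ)⁻¹ ^ r)) :=
    (tendsto_discriminant_div_q.inv₀ one_ne_zero).pow r
  rw [inv_one, one_pow] at h1
  refine h1.congr fun τ => ?_
  rw [Pi.mul_apply, qpow_mul_period_one N hN, dpow_apply, zpow_neg, zpow_natCast, pow_one,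
    inv_div, div_pow, div_eq_mul_inv]

/-! ### Orders relative to `Δ^m` -/

/-- The `q_N`-order at `i∞` of `G * Δ^m`; apply it to the translates `G = F ∣[w] g` of
`F ∈ WHle N w m`. -/
def ordCusp (N : ℕ) (m : ℤ) (G : ℍ → ℂ) : ℕ∞ := ord N (G * dpow m)

theorem ordCusp_def (N : ℕ) (m : ℤ) (G : ℍ → ℂ) : ordCusp N m G = ord N (G * dpow m) := rfl

section algebra

variable {N : ℕ} {m m' : ℤ} {G G' : ℍ → ℂ}

theorem ordCusp_mul (hN : 0 < N) (hG : QP N (G * dpow m)) (hG' : QP N (G' * dpow m')) :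
    ordCusp N (m + m') (G * G') = ordCusp N m G + ordCusp N m' G' := by
  have hN' : (0 : ℝ) < N := by exact_mod_cast hN
  unfold ordCusp
  rw [← hG.ord_mul hN' hG', dpow_add]
  congr 1
  ring

theorem qp_mul (hG : QP N (G * dpow m)) (hG' : QP N (G' * dpow m')) :
    QP N (G * G' * dpow (m + m')) := by
  have : G * G' * dpow (m + m') = (G * dpow m) * (G' * dpow m') := by
    rw [dpow_add]; ring
  rw [this]; exact hG.mul hG'

theorem le_ordCusp_add (hN : 0 < N) (hG : QP N (G * dpow m)) (hG' : QP N (G' * dpow m)) :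
    min (ordCusp N m G) (ordCusp N m G') ≤ ordCusp N m (G + G') := by
  have hN' : (0 : ℝ) < N := by exact_mod_cast hN
  unfold ordCusp
  rw [add_mul]
  exact hG.le_ord_add hN' hG'

theorem le_ordCusp_sub (hN : 0 < N) (hG : QP N (G * dpow m)) (hG' : QP N (G' * dpow m)) :
    min (ordCusp N m G) (ordCusp N m G') ≤ ordCusp N m (G - G') := by
  have hN' : (0 : ℝ) < N := by exact_mod_cast hN
  unfold ordCusp
  rw [sub_mul]
  exact hG.le_ord_sub hN' hG'

theorem ordCusp_smul (hN : 0 < N) (hG : QP N (G * dpow m)) {c : ℂ} (hc : c ≠ 0) :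
    ordCusp N m (c • G) = ordCusp N m G := by
  have hN' : (0 : ℝ) < N := by exact_mod_cast hN
  unfold ordCusp
  rw [smul_mul_assoc]
  exact hG.ord_smul hN' hc

theorem le_ordCusp_smul (hN : 0 < N) (hG : QP N (G * dpow m)) (c : ℂ) :
    ordCusp N m G ≤ ordCusp N m (c • G) := by
  have hN' : (0 : ℝ) < N := by exact_mod_cast hN
  unfold ordCusp
  rw [smul_mul_assoc]
  exact hG.le_ord_smul hN' c

theorem ordCusp_eq_top_iff (hN : 0 < N) (hG : QP N (G * dpow m)) :
    ordCusp N m G = ⊤ ↔ G = 0 := by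
  have hN' : (0 : ℝ) < N := by exact_mod_cast hN
  unfold ordCusp
  rw [hG.ord_eq_top_iff hN']
  constructor
  · intro h0
    funext z
    have := congrFun h0 z
    simp only [Pi.mul_apply, Pi.zero_apply, mul_eq_zero] at this
    exact this.resolve_right (dpow_ne_zero m z)
  · rintro rfl
    exact zero_mul _

/-- Change of `m`: `Δ` has `q_N`-order `N`. -/
theorem ordCusp_add_nat (hN : 0 < N) (hG : QP N (G * dpow m)) (r : ℕ) :
    ordCusp N (m + r) G = ordCusp N m G + (r * N : ℕ) := by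
  have hN' : (0 : ℝ) < N := by exact_mod_cast hN
  unfold ordCusp
  rw [dpow_add, ← mul_assoc, hG.ord_mul hN' (qp_dpow_nat N r), ord_dpow_nat hN]

theorem qp_add_nat (hG : QP N (G * dpow m)) (r : ℕ) : QP N (G * dpow (m + r)) := by
  rw [dpow_add, ← mul_assoc]; exact hG.mul (qp_dpow_nat N r)

/-- **One-dimensional jets** (Q2). -/
theorem exists_lt_ordCusp_sub_smul (hN : 0 < N) (hG : QP N (G * dpow m))
    (hG' : QP N (G' * dpow m)) {n : ℕ} (h1 : ordCusp N m G = n) (h2 : ordCusp N m G' = n) :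
    ∃ c : ℂ, (n : ℕ∞) < ordCusp N m (G - c • G') := by
  have hN' : (0 : ℝ) < N := by exact_mod_cast hN
  obtain ⟨c, hc⟩ := hG.exists_lt_ord_sub_smul hN' hG' h1 h2
  refine ⟨c, ?_⟩
  unfold ordCusp
  rwa [sub_mul, smul_mul_assoc]

/-- Q3, function level: lowering `m` by `r` keeps boundedness iff the order is at least `r N`. -/
theorem isBoundedAtImInfty_sub_iff (hN : 0 < N) (hG : QP N (G * dpow m)) (r : ℕ) :
    IsBoundedAtImInfty (G * dpow (m - r)) ↔ ((r * N : ℕ) : ℕ∞) ≤ ordCusp N m G := by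
  have hN' : (0 : ℝ) < N := by exact_mod_cast hN
  have e1 : G * dpow (m - r) = (G * dpow m) * dpow (-(r : ℤ)) := by
    rw [sub_eq_add_neg, dpow_add, mul_assoc]
  constructor
  · intro hb
    have hQ : QP N (G * dpow (m - r)) := by
      refine ⟨?_, ?_, hb⟩
      · rw [e1]
        have : (G * dpow m * dpow (-(r : ℤ))) ∘ ofComplex
            = (G * dpow m) ∘ ofComplex * dpow (-(r : ℤ)) ∘ ofComplex := rfl
        rw [this]; exact hG.per.mul (periodic_dpow N _)
      · rw [e1]; exact hG.hol.mul (dpow_mdiff _)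
    have e2 : G * dpow m = (G * dpow (m - r)) * dpow (r : ℤ) := by
      rw [mul_assoc, ← dpow_add, sub_add_cancel]
    unfold ordCusp
    rw [e2, hQ.ord_mul hN' (qp_dpow_nat N r), ord_dpow_nat hN]
    exact le_add_self
  · intro hn
    obtain ⟨H, hH, hGH⟩ := (hG.natCast_le_ord_iff hN' (r * N)).mp hn
    rw [e1, hGH]
    have e3 : qpow N (r * N) * H * dpow (-(r : ℤ)) = H * (qpow N (r * N) * dpow (-(r : ℤ))) := by
      ring
    rw [e3]
    exact hH.bdd.mul ((tendsto_qpow_mul_dpow_neg hN r).isBigO_one ℝ)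

end algebra

/-! ### Translates of weakly holomorphic forms -/

theorem T_zpow_smul (n : ℤ) (τ : ℍ) : ModularGroup.T ^ n • τ = ((n : ℝ) +ᵥ τ : ℍ) := by
  ext
  rw [ModularGroup.coe_T_zpow_smul_eq, coe_vadd]
  push_cast
  ring

theorem denom_T_zpow (n : ℤ) (τ : ℍ) (γ : SL(2, ℤ)) (h : γ = ModularGroup.T ^ n) :
    denom γ τ = 1 := by
  subst h
  rw [ModularGroup.denom_apply]
  simp [ModularGroup.coe_T_zpow]

theorem slash_T_zpow (f : ℍ → ℂ) (w : ℤ) (n : ℤ) :
    f ∣[w] (ModularGroup.T ^ n) = shift (n : ℝ) f := by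
  funext τ
  rw [ModularForm.SL_slash_apply, shift_apply, T_zpow_smul, denom_T_zpow n τ _ rfl, one_zpow,
    mul_one]

theorem shift_mul (t : ℝ) (G G' : ℍ → ℂ) : shift t (G * G') = shift t G * shift t G' := rfl

theorem shift_int_dpow (m : ℤ) (i : ℤ) : shift (i : ℝ) (dpow m) = dpow m := by
  rw [← slash_T_zpow (dpow m) (12 * m) i, dpow_slash]

theorem conj_T_pow_mem_Gamma0 (N : ℕ) (g : SL(2, ℤ)) :
    g * ModularGroup.T ^ (N : ℤ) * g⁻¹ ∈ Gamma0 N := by
  have h1 : ModularGroup.T ^ (N : ℤ) ∈ CongruenceSubgroup.Gamma N := by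
    simpa using ModularGroup_T_pow_mem_Gamma (N : ℤ) (N : ℤ) dvd_rfl
  have h2 : g * ModularGroup.T ^ (N : ℤ) * g⁻¹ ∈ CongruenceSubgroup.Gamma N :=
    (Gamma_normal N).conj_mem _ h1 g
  rw [Gamma_mem] at h2
  rw [Gamma0_mem]
  exact h2.2.2.1

section translates

variable {N : ℕ} {w w' m m' : ℤ} {F F' : ℍ → ℂ}

theorem slash_slash_T_pow (hF : Inv (Gamma0 N) w F) (g : SL(2, ℤ)) :
    (F ∣[w] g) ∣[w] (ModularGroup.T ^ (N : ℤ)) = F ∣[w] g := by
  have h1 : g * ModularGroup.T ^ (N : ℤ) = (g * ModularGroup.T ^ (N : ℤ) * g⁻¹) * g := by group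
  rw [← SlashAction.slash_mul, h1, SlashAction.slash_mul, hF _ (conj_T_pow_mem_Gamma0 N g)]

/-- The translates of a `Γ₀(N)`-invariant function are `N`-periodic. -/
theorem shift_slash (hF : Inv (Gamma0 N) w F) (g : SL(2, ℤ)) :
    shift (N : ℝ) (F ∣[w] g) = F ∣[w] g := by
  have := slash_slash_T_pow hF g
  rw [slash_T_zpow] at this
  simpa using this

theorem periodic_of_shift {G : ℍ → ℂ} {t : ℝ} (hG : shift t G = G) :
    Periodic (G ∘ ofComplex) (t : ℂ) := by
  intro z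
  by_cases hz : 0 < z.im
  · have hz' : 0 < (z + t).im := by simpa using hz
    have h1 := shift_ofComplex t G hz
    rw [hG] at h1
    exact h1.symm
  · have hz0 : z.im ≤ 0 := not_lt.mp hz
    have hz' : (z + t).im ≤ 0 := by simpa using hz0
    simp only [comp_apply, ofComplex_apply_of_im_nonpos hz', ofComplex_apply_of_im_nonpos hz0]

theorem periodic_slash (hF : Inv (Gamma0 N) w F) (g : SL(2, ℤ)) :
    Periodic ((F ∣[w] g) ∘ ofComplex) ((N : ℝ) : ℂ) :=
  periodic_of_shift (shift_slash hF g)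

theorem mdiff_slash (hF : MDiff F) (w : ℤ) (g : SL(2, ℤ)) : MDiff (F ∣[w] g) :=
  hF.slash w (g : GL (Fin 2) ℝ)

/-- The basic fact: for `F ∈ WHle N w m` every translate times `Δ^m` is an `N`-periodic
holomorphic function bounded at `i∞`. -/
theorem qp_of_mem_WHle (hF : F ∈ WHle N w m) (g : SL(2, ℤ)) : QP N ((F ∣[w] g) * dpow m) := by
  obtain ⟨h1, h2, h3⟩ := hF
  refine ⟨?_, (mdiff_slash h1 w g).mul (dpow_mdiff m), h3 g⟩
  have : ((F ∣[w] g) * dpow m) ∘ ofComplex = (F ∣[w] g) ∘ ofComplex * dpow m ∘ ofComplex := rfl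
  rw [this]
  exact (periodic_slash h2 g).mul (periodic_dpow N m)

/-- **Q3** (membership in a smaller `WHle`). -/
theorem mem_WHle_sub_iff (hN : 0 < N) (hF : F ∈ WHle N w m) (r : ℕ) :
    F ∈ WHle N w (m - r) ↔ ∀ g : SL(2, ℤ), ((r * N : ℕ) : ℕ∞) ≤ ordCusp N m (F ∣[w] g) := by
  constructor
  · intro h g
    exact (isBoundedAtImInfty_sub_iff hN (qp_of_mem_WHle hF g) r).mp (h.2.2 g)
  · intro h
    exact ⟨hF.1, hF.2.1, fun g =>
      (isBoundedAtImInfty_sub_iff hN (qp_of_mem_WHle hF g) r).mpr (h g)⟩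

/-- **Q3** (membership in `WHlt`). -/
theorem mem_WHlt_iff (hN : 0 < N) (hF : F ∈ WHle N w m) :
    F ∈ WHlt N w m ↔ ∀ g : SL(2, ℤ), 1 ≤ ordCusp N m (F ∣[w] g) := by
  have hN' : (0 : ℝ) < N := by exact_mod_cast hN
  constructor
  · intro h g
    exact ((qp_of_mem_WHle hF g).one_le_ord_iff hN').mpr (h.2.2 g)
  · intro h
    exact ⟨hF.1, hF.2.1, fun g => ((qp_of_mem_WHle hF g).one_le_ord_iff hN').mp (h g)⟩

/-- Orders of translates add under multiplication. -/
theorem ordCusp_slash_mul (hN : 0 < N) (hF : F ∈ WHle N w m) (hF' : F' ∈ WHle N w' m')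
    (g : SL(2, ℤ)) :
    ordCusp N (m + m') ((F * F') ∣[w + w'] g)
      = ordCusp N m (F ∣[w] g) + ordCusp N m' (F' ∣[w'] g) := by
  rw [ModularForm.mul_slash_SL2]
  exact ordCusp_mul hN (qp_of_mem_WHle hF g) (qp_of_mem_WHle hF' g)

theorem ordCusp_slash_eq_top_iff (hN : 0 < N) (hF : F ∈ WHle N w m) (g : SL(2, ℤ)) :
    ordCusp N m (F ∣[w] g) = ⊤ ↔ F = 0 := by
  rw [ordCusp_eq_top_iff hN (qp_of_mem_WHle hF g)]
  constructor
  · intro h0
    have h1 : (F ∣[w] g) ∣[w] g⁻¹ = F := by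
      rw [← SlashAction.slash_mul, mul_inv_cancel, SlashAction.slash_one]
    rw [← h1, h0, SlashAction.zero_slash]
  · rintro rfl
    exact SlashAction.zero_slash _ _

/-- **Q4**: the order only depends on the `⟨T⟩`-orbit. -/
theorem ordCusp_slash_mul_T_zpow (hN : 0 < N) (hF : F ∈ WHle N w m) (g : SL(2, ℤ)) (i : ℤ) :
    ordCusp N m (F ∣[w] (g * ModularGroup.T ^ i)) = ordCusp N m (F ∣[w] g) := by
  have hN' : (0 : ℝ) < N := by exact_mod_cast hN
  have h1 : (F ∣[w] (g * ModularGroup.T ^ i)) * dpow m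
      = shift (i : ℝ) ((F ∣[w] g) * dpow m) := by
    rw [SlashAction.slash_mul, slash_T_zpow, shift_mul, shift_int_dpow]
  unfold ordCusp
  rw [h1, (qp_of_mem_WHle hF g).ord_shift hN']

end translates

/-! ### Divisibility of the order by `N / h'` for `h'`-periodic functions -/

theorem shift_natCast_dpow (m : ℤ) (i : ℕ) : shift (i : ℝ) (dpow m) = dpow m := by
  have := shift_int_dpow m (i : ℤ)
  simpa using this

/-- **Q4** (divisibility, function level): if `G` is `q_N`-holomorphic at `i∞` and moreover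
`h'`-periodic with `h' ∣ N`, then its `q_N`-order is a multiple of `N / h'`. -/
theorem QP.div_dvd_ord {G : ℍ → ℂ} {N h' : ℕ} (hN : 0 < N) (hh' : h' ∣ N) (hG : QP N G)
    (hs : Cusps.shift (h' : ℝ) G = G) {n : ℕ} (hn : ord N G = n) : N / h' ∣ n := by
  have hh0 : 0 < h' := Nat.pos_of_dvd_of_pos hh' hN
  have hh0' : (0 : ℝ) < h' := by exact_mod_cast hh0
  have he : 0 < N / h' := Nat.div_pos (Nat.le_of_dvd hN hh') hh0
  have hG' : QP h' G := ⟨periodic_of_shift hs, hG.hol, hG.bdd⟩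
  have h1 := hG'.ord_mul_period hh0' (N / h') he
  have h2 : ((N / h' : ℕ) : ℝ) * (h' : ℝ) = (N : ℝ) := by
    rw [← Nat.cast_mul, Nat.div_mul_cancel hh']
  rw [h2, hn] at h1
  generalize ord (h' : ℝ) G = x at h1
  induction x using ENat.recTopCoe with
  | top =>
    exfalso
    rw [ENat.mul_top (by exact_mod_cast he.ne')] at h1
    exact ENat.natCast_ne_top n h1
  | coe k =>
    refine ⟨k, ?_⟩
    exact_mod_cast h1

/-- **Q4** (divisibility): the order relative to `Δ^m` of an `h'`-periodic function. -/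
theorem div_dvd_ordCusp {G : ℍ → ℂ} {N h' : ℕ} {m : ℤ} (hN : 0 < N) (hh' : h' ∣ N)
    (hG : QP N (G * dpow m)) (hs : shift (h' : ℝ) G = G) {n : ℕ} (hn : ordCusp N m G = n) :
    N / h' ∣ n := by
  refine QP.div_dvd_ord hN hh' hG ?_ hn
  rw [shift_mul, hs, shift_natCast_dpow]

/-- a lower bound by a non-multiple of `N / h'` improves to the next multiple -/
theorem succ_mul_le_ordCusp_of_lt {G : ℍ → ℂ} {N h' : ℕ} {m : ℤ} (hN : 0 < N) (hh' : h' ∣ N)
    (hG : QP N (G * dpow m)) (hs : shift (h' : ℝ) G = G) {n : ℕ}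
    (h : ((n * (N / h') : ℕ) : ℕ∞) < ordCusp N m G) :
    (((n + 1) * (N / h') : ℕ) : ℕ∞) ≤ ordCusp N m G := by
  generalize hx : ordCusp N m G = x at h
  induction x using ENat.recTopCoe with
  | top => exact le_top
  | coe k =>
    obtain ⟨c, hc⟩ := div_dvd_ordCusp hN hh' hG hs hx
    have h1 : n * (N / h') < k := by exact_mod_cast h
    rw [hc] at h1 ⊢
    have h2 : n < c := by
      by_contra hcon
      have : c ≤ n := not_lt.mp hcon
      have := Nat.mul_le_mul_right (N / h') this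
      rw [Nat.mul_comm c] at this
      omega
    have h3 : (n + 1) * (N / h') ≤ N / h' * c := by
      rw [Nat.mul_comm (N / h') c]
      exact Nat.mul_le_mul_right _ h2
    exact_mod_cast h3

end Fermat.Agent.GenusLib.Cusps
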