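import Mathlib
import Fermat.Agent.GenusLib.WHBasic

/-!
# PROJECT X (S20), step LS: shared definitions

* `X N = SL(2, ℤ) ⧸ Γ₀(N)` with a fixed `Fintype` instance;
* `trn q b` : the weight `0` translate of `b` attached to the coset `q` (`b ∘ (q.out⁻¹ • ·)`);
* `ediv x e` : floor division on `ℕ∞`;
* `OrbP N τ` : orbits of the stabiliser of `τ` on `X N` (the points of `Γ₀(N) \ SL(2, ℤ) τ`),
  with representative `repP`, ramification `eP` and size `sP`;
* `OrbQ N` : orbits of `⟨T⟩` on `X N` (the cusps), with representative `repQ` and width `hQ`.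
-/

set_option autoImplicit false

noncomputable section

namespace Fermat.Agent.GenusLib.LS

open UpperHalfPlane hiding I
open scoped MatrixGroups ModularForm Manifold
open CongruenceSubgroup

/-- The coset space `SL(2, ℤ) ⧸ Γ₀(N)`. -/
abbrev X (N : ℕ) : Type := SL(2, ℤ) ⧸ Gamma0 N

instance instFiniteX (N : ℕ) [NeZero N] : Finite (X N) := inferInstance

instance instFintypeX (N : ℕ) [NeZero N] : Fintype (X N) := Fintype.ofFinite _

instance instDecEqX (N : ℕ) : DecidableEq (X N) := Classical.decEq _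

/-- The weight `0` translate of `b` attached to the coset `q`. -/
def trn {N : ℕ} (q : X N) (b : ℍ → ℂ) : ℍ → ℂ := b ∣[(0 : ℤ)] (Quotient.out q)⁻¹

/-! ### Floor division on `ℕ∞` -/

/-- Floor division of an extended natural number by a natural number. -/
def ediv (x : ℕ∞) (e : ℕ) : ℕ∞ :=
  match x with
  | ⊤ => ⊤
  | (n : ℕ) => ((n / e : ℕ) : ℕ∞)

@[simp] theorem ediv_top (e : ℕ) : ediv ⊤ e = ⊤ := rfl

@[simp] theorem ediv_coe (n e : ℕ) : ediv (n : ℕ∞) e = ((n / e : ℕ) : ℕ∞) := rfl

theorem le_ediv_iff {e : ℕ} (he : 0 < e) (k : ℕ) (x : ℕ∞) :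
    (k : ℕ∞) ≤ ediv x e ↔ ((k * e : ℕ) : ℕ∞) ≤ x := by
  induction x using ENat.recTopCoe with
  | top => simp
  | coe n => rw [ediv_coe, Nat.cast_le, Nat.cast_le, Nat.le_div_iff_mul_le he]

theorem ediv_mono {x y : ℕ∞} (h : x ≤ y) (e : ℕ) : ediv x e ≤ ediv y e := by
  induction y using ENat.recTopCoe with
  | top => simp
  | coe m =>
    induction x using ENat.recTopCoe with
    | top => exact absurd h (by simp)
    | coe n =>
      rw [ediv_coe, ediv_coe, Nat.cast_le]
      exact Nat.div_le_div_right (Nat.cast_le.mp h)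

theorem ediv_eq_top_iff {e : ℕ} (x : ℕ∞) : ediv x e = ⊤ ↔ x = ⊤ := by
  induction x using ENat.recTopCoe with
  | top => simp
  | coe n => simp

theorem ediv_min (x y : ℕ∞) (e : ℕ) : min (ediv x e) (ediv y e) = ediv (min x y) e := by
  rcases le_total x y with h | h
  · rw [min_eq_left h, min_eq_left (ediv_mono h e)]
  · rw [min_eq_right h, min_eq_right (ediv_mono h e)]

/-- If `x = n * e` exactly then the quotient is `n`. -/
theorem ediv_eq_coe_iff {e : ℕ} (he : 0 < e) (n : ℕ) (x : ℕ∞) :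
    ediv x e = n ↔ ((n * e : ℕ) : ℕ∞) ≤ x ∧ x < (((n + 1) * e : ℕ) : ℕ∞) := by
  induction x using ENat.recTopCoe with
  | top => simp
  | coe m =>
    rw [ediv_coe, Nat.cast_inj, Nat.cast_le, Nat.cast_lt]
    constructor
    · rintro rfl
      refine ⟨Nat.div_mul_le_self m e, ?_⟩
      have := Nat.lt_div_mul_add (a := m) he
      calc m < m / e * e + e := this
        _ = (m / e + 1) * e := by ring
    · rintro ⟨h1, h2⟩
      apply le_antisymm
      · have : m / e < n + 1 := (Nat.div_lt_iff_lt_mul he).mpr h2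
        omega
      · exact (Nat.le_div_iff_mul_le he).mpr h1

/-! ### Points over a fibre of `j` -/

/-- The stabiliser of `τ` in `SL(2, ℤ)`. -/
abbrev StabG (τ : ℍ) : Subgroup SL(2, ℤ) := MulAction.stabilizer SL(2, ℤ) τ

/-- Orbits of the stabiliser of `τ` on `X N`: the points of `Γ₀(N) \ SL(2, ℤ) τ`. -/
abbrev OrbP (N : ℕ) (τ : ℍ) : Type := MulAction.orbitRel.Quotient (StabG τ) (X N)

instance instFintypeOrbP (N : ℕ) [NeZero N] (τ : ℍ) : Fintype (OrbP N τ) := Fintype.ofFinite _

instance instDecEqOrbP (N : ℕ) (τ : ℍ) : DecidableEq (OrbP N τ) := Classical.decEq _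

/-- The chosen coset representing an orbit. -/
def repP {N : ℕ} {τ : ℍ} (ω : OrbP N τ) : X N := Quotient.out ω

/-- The ramification index of the point `ω` (half the order of its stabiliser). -/
def eP {N : ℕ} {τ : ℍ} (ω : OrbP N τ) : ℕ :=
  Nat.card (MulAction.stabilizer (StabG τ) (repP ω)) / 2

/-- The size of the orbit `ω`. -/
def sP {N : ℕ} {τ : ℍ} (ω : OrbP N τ) : ℕ := Nat.card (MulAction.orbit (StabG τ) (repP ω))

/-! ### Cusps -/

/-- The subgroup generated by `T`. -/
abbrev ZT : Subgroup SL(2, ℤ) := Subgroup.zpowers ModularGroup.T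

/-- Orbits of `⟨T⟩` on `X N`: the cusps of `Γ₀(N)`. -/
abbrev OrbQ (N : ℕ) : Type := MulAction.orbitRel.Quotient ZT (X N)

instance instFintypeOrbQ (N : ℕ) [NeZero N] : Fintype (OrbQ N) := Fintype.ofFinite _

instance instDecEqOrbQ (N : ℕ) : DecidableEq (OrbQ N) := Classical.decEq _

/-- The chosen coset representing a cusp. -/
def repQ {N : ℕ} (ω : OrbQ N) : X N := Quotient.out ω

/-- The width of the cusp `ω`. -/
def hQ {N : ℕ} (ω : OrbQ N) : ℕ := Nat.card (MulAction.orbit ZT (repQ ω))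

end Fermat.Agent.GenusLib.LS
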