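import Mathlib
import Fermat.Agent.GenusLib.LSDefs
import Fermat.Agent.GenusLib.LevelOne

/-!
# PROJECT X (S20), duality step, part A: trace to level one and the pairings `beta`, `tau`

* `trw w q F` : the weight `w` translate of `F` attached to the coset `q`;
* `Tr N w F` : the trace to level one;
* `beta N b f` : the polynomial `P` with `P(j) * om1 = Tr (b * f)`;
* `tau N b b'` : the polynomial `P` with `P(j) = Tr (b * b')`.
-/

set_option autoImplicit false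

noncomputable section

namespace Fermat.Agent.GenusLib.Dual

open UpperHalfPlane hiding I
open scoped MatrixGroups ModularForm Manifold
open CongruenceSubgroup Module Polynomial
open Fermat.Agent.S23Lib Fermat.Agent.S23Lib.Conj Fermat.Agent.GenusLib.Defs
open Fermat.Agent.GenusLib Fermat.Agent.GenusLib.LS Fermat.Agent.GenusLib.LevelOne

/-- the weight `w` translate of `F` attached to the coset `q` (`LS.trn q b = trw 0 q b` by `rfl`) -/
def trw {N : ℕ} (w : ℤ) (q : X N) (F : ℍ → ℂ) : ℍ → ℂ := F ∣[w] (Quotient.out q)⁻¹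

/-- the trace to level one -/
def Tr (N : ℕ) [NeZero N] (w : ℤ) (F : ℍ → ℂ) : ℍ → ℂ := ∑ q : X N, trw w q F

section A
variable {N : ℕ} [NeZero N]

omit [NeZero N] in
theorem trw_eq_tr {w : ℤ} {F : ℍ → ℂ} (hF : Inv (Gamma0 N) w F) (q : X N) :
    trw w q F = Sym.tr F w hF q := by
  conv_rhs => rw [← Quotient.out_eq' q]
  rfl

omit [NeZero N] in
theorem trw_mk {w : ℤ} {F : ℍ → ℂ} (hF : Inv (Gamma0 N) w F) (g : SL(2, ℤ)) :
    trw w ((g : SL(2, ℤ)) : X N) F = F ∣[w] g⁻¹ := by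
  rw [trw_eq_tr hF, Sym.tr_mk]

omit [NeZero N] in
theorem trw_slash {w : ℤ} {F : ℍ → ℂ} (hF : Inv (Gamma0 N) w F) (h : SL(2, ℤ)) (q : X N) :
    (trw w q F) ∣[w] h = trw w (h⁻¹ • q) F := by
  rw [trw_eq_tr hF, trw_eq_tr hF, Sym.tr_slash]

omit [NeZero N] in
theorem trw_mul (w w' : ℤ) (q : X N) (F G : ℍ → ℂ) :
    trw (w + w') q (F * G) = trw w q F * trw w' q G :=
  ModularForm.mul_slash_SL2 w w' _ F G

omit [NeZero N] in
theorem trw_levelOne {w : ℤ} (q : X N) {G : ℍ → ℂ} (hG : ∀ γ : SL(2, ℤ), G ∣[w] γ = G) :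
    trw w q G = G := hG _

omit [NeZero N] in
theorem trw_mdiff (w : ℤ) (q : X N) {F : ℍ → ℂ} (hF : MDiff F) : MDiff (trw w q F) :=
  hF.slash w (((Quotient.out q)⁻¹ : SL(2, ℤ)) : GL (Fin 2) ℝ)

omit [NeZero N] in
theorem trw_add (w : ℤ) (q : X N) (F G : ℍ → ℂ) : trw w q (F + G) = trw w q F + trw w q G :=
  SlashAction.add_slash _ _ _ _

omit [NeZero N] in
theorem trw_smul (w : ℤ) (q : X N) (c : ℂ) (F : ℍ → ℂ) : trw w q (c • F) = c • trw w q F :=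
  ModularForm.SL_smul_slash _ _ _ _

theorem Tr_add (w : ℤ) (F G : ℍ → ℂ) : Tr N w (F + G) = Tr N w F + Tr N w G := by
  simp only [Tr, trw_add, Finset.sum_add_distrib]

theorem Tr_smul (w : ℤ) (c : ℂ) (F : ℍ → ℂ) : Tr N w (c • F) = c • Tr N w F := by
  simp only [Tr, trw_smul, Finset.smul_sum]

theorem Tr_slash {w : ℤ} {F : ℍ → ℂ} (hF : Inv (Gamma0 N) w F) (γ : SL(2, ℤ)) :
    (Tr N w F) ∣[w] γ = Tr N w F := by
  unfold Tr
  rw [SlashAction.sum_slash]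
  simp only [trw_slash hF]
  exact Equiv.sum_comp (MulAction.toPerm γ⁻¹) (fun q : X N => trw w q F)

theorem Tr_mdiff {w : ℤ} {F : ℍ → ℂ} (hF : MDiff F) : MDiff (Tr N w F) :=
  Sym.mdiff_sum _ fun q _ => trw_mdiff w q hF

theorem Tr_mul_dpow (w m : ℤ) (F : ℍ → ℂ) :
    Tr N w F * dpow m = ∑ q : X N, trw w q F * dpow m := by
  rw [Tr, Finset.sum_mul]

theorem Tr_mem_WHle {w m : ℤ} {F : ℍ → ℂ} (hF : F ∈ WHle N w m) : Tr N w F ∈ WHle 1 w m := by
  refine ⟨Tr_mdiff hF.1, fun γ _ => Tr_slash hF.2.1 γ, fun γ => ?_⟩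
  rw [Tr_slash hF.2.1, Tr_mul_dpow]
  exact Sym.bdd_sum _ fun q _ => hF.2.2 _

theorem Tr_mem_WHlt {w m : ℤ} {F : ℍ → ℂ} (hF : F ∈ WHlt N w m) : Tr N w F ∈ WHlt 1 w m := by
  refine ⟨Tr_mdiff hF.1, fun γ _ => Tr_slash hF.2.1 γ, fun γ => ?_⟩
  rw [Tr_slash hF.2.1, Tr_mul_dpow]
  exact Sym.zero_sum _ fun q _ => hF.2.2 _

theorem Tr_mem_WH {w : ℤ} {F : ℍ → ℂ} (hF : F ∈ WH N w) : Tr N w F ∈ WH 1 w := by
  obtain ⟨m, hm⟩ := hF
  exact ⟨m, Tr_mem_WHle hm⟩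

/-- level one factors come out of the trace -/
theorem Tr_levelOne_mul {w w' : ℤ} {G : ℍ → ℂ} (hG : ∀ γ : SL(2, ℤ), G ∣[w'] γ = G) (F : ℍ → ℂ) :
    Tr N (w' + w) (G * F) = G * Tr N w F := by
  simp only [Tr, trw_mul, trw_levelOne _ hG, Finset.mul_sum]

open Classical in
/-- `beta N b f` is the polynomial `P` with `P(j) * om1 = Tr (b * f)` (weight `0` times weight `2`) -/
def beta (N : ℕ) [NeZero N] (b f : ℍ → ℂ) : ℂ[X] :=
  if h : ∃ P : ℂ[X], polyJ P * om1 = Tr N 2 (b * f) then h.choose else 0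

open Classical in
/-- `tau N b b'` is the polynomial `P` with `P(j) = Tr (b * b')` (trace form on weight `0`) -/
def tau (N : ℕ) [NeZero N] (b b' : ℍ → ℂ) : ℂ[X] :=
  if h : ∃ P : ℂ[X], polyJ P = Tr N 0 (b * b') then h.choose else 0

omit [NeZero N] in
theorem WH_mul {w w' : ℤ} {F G : ℍ → ℂ} (hF : F ∈ WH N w) (hG : G ∈ WH N w') :
    F * G ∈ WH N (w + w') := by
  obtain ⟨m, hm⟩ := hF
  obtain ⟨m', hm'⟩ := hG
  exact ⟨m + m', WHBasic.WHle_mul hm hm'⟩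

omit [NeZero N] in
theorem polyJ_mem_WH (p : ℂ[X]) : polyJ p ∈ WH N 0 :=
  ⟨p.natDegree, polyJ_mem_WHle N (Or.inr le_rfl)⟩

omit [NeZero N] in
theorem om1_mem_WH : om1 ∈ WH N 2 := ⟨1, WHBasic.om1_mem_WHle N⟩

omit [NeZero N] in
theorem WH_mul_zero_two {b f : ℍ → ℂ} (hb : b ∈ WH N 0) (hf : f ∈ WH N 2) : b * f ∈ WH N 2 := by
  have h := WH_mul hb hf
  rwa [zero_add] at h

omit [NeZero N] in
theorem WH_mul_zero_zero {b b' : ℍ → ℂ} (hb : b ∈ WH N 0) (hb' : b' ∈ WH N 0) :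
    b * b' ∈ WH N 0 := by
  have h := WH_mul hb hb'
  rwa [zero_add] at h

theorem beta_spec {b f : ℍ → ℂ} (hb : b ∈ WH N 0) (hf : f ∈ WH N 2) :
    polyJ (beta N b f) * om1 = Tr N 2 (b * f) := by
  have h : ∃ P : ℂ[X], polyJ P * om1 = Tr N 2 (b * f) := by
    obtain ⟨P, hP⟩ := mem_WH_one_two_iff.mp (Tr_mem_WH (WH_mul_zero_two hb hf))
    exact ⟨P, hP.symm⟩
  rw [beta, dif_pos h]
  exact h.choose_spec

theorem tau_spec {b b' : ℍ → ℂ} (hb : b ∈ WH N 0) (hb' : b' ∈ WH N 0) :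
    polyJ (tau N b b') = Tr N 0 (b * b') := by
  have h : ∃ P : ℂ[X], polyJ P = Tr N 0 (b * b') := by
    obtain ⟨P, hP⟩ := mem_WH_one_zero_iff.mp (Tr_mem_WH (WH_mul_zero_zero hb hb'))
    exact ⟨P, hP.symm⟩
  rw [tau, dif_pos h]
  exact h.choose_spec

/-- characterisation of `beta` -/
theorem beta_eq_of {b f : ℍ → ℂ} (hb : b ∈ WH N 0) (hf : f ∈ WH N 2) {P : ℂ[X]}
    (h : polyJ P * om1 = Tr N 2 (b * f)) : beta N b f = P :=
  polyJ_mul_om1_injective (by simp only; rw [beta_spec hb hf, h])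

/-- characterisation of `tau` -/
theorem tau_eq_of {b b' : ℍ → ℂ} (hb : b ∈ WH N 0) (hb' : b' ∈ WH N 0) {P : ℂ[X]}
    (h : polyJ P = Tr N 0 (b * b')) : tau N b b' = P :=
  polyJ_injective (by rw [tau_spec hb hb', h])

omit [NeZero N] in
theorem WH_add {w : ℤ} {F G : ℍ → ℂ} (hF : F ∈ WH N w) (hG : G ∈ WH N w) : F + G ∈ WH N w :=
  (WH N w).add_mem hF hG

theorem beta_add_left {b b' f : ℍ → ℂ} (hb : b ∈ WH N 0) (hb' : b' ∈ WH N 0) (hf : f ∈ WH N 2) :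
    beta N (b + b') f = beta N b f + beta N b' f := by
  apply beta_eq_of (WH_add hb hb') hf
  rw [polyJ_add, add_mul, beta_spec hb hf, beta_spec hb' hf, add_mul, Tr_add]

theorem beta_add_right {b f f' : ℍ → ℂ} (hb : b ∈ WH N 0) (hf : f ∈ WH N 2) (hf' : f' ∈ WH N 2) :
    beta N b (f + f') = beta N b f + beta N b f' := by
  apply beta_eq_of hb (WH_add hf hf')
  rw [polyJ_add, add_mul, beta_spec hb hf, beta_spec hb hf', mul_add, Tr_add]

theorem beta_smul_right {b f : ℍ → ℂ} (c : ℂ) (hb : b ∈ WH N 0) (hf : f ∈ WH N 2) :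
    beta N b (c • f) = c • beta N b f := by
  apply beta_eq_of hb ((WH N 2).smul_mem c hf)
  rw [polyJ_const_smul, smul_mul_assoc, beta_spec hb hf, mul_smul_comm, Tr_smul]

theorem beta_polyJ_mul_left {b f : ℍ → ℂ} (p : ℂ[X]) (hb : b ∈ WH N 0) (hf : f ∈ WH N 2) :
    beta N (polyJ p * b) f = p * beta N b f := by
  apply beta_eq_of (WH_mul_zero_zero (polyJ_mem_WH p) hb) hf
  have h := Tr_levelOne_mul (N := N) (w := 2) (polyJ_slash p) (b * f)
  rw [zero_add] at h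
  rw [polyJ_mul, mul_assoc, beta_spec hb hf, mul_assoc, h]

theorem beta_zero_left {f : ℍ → ℂ} (hf : f ∈ WH N 2) : beta N 0 f = 0 := by
  apply beta_eq_of (WH N 0).zero_mem hf
  rw [polyJ_zero, zero_mul, zero_mul]
  simp [Tr, trw, SlashAction.zero_slash]

omit [NeZero N] in
theorem sum_polyJ_mul_mem {ι : Type*} (s : Finset ι) (p : ι → ℂ[X]) (b : ι → ℍ → ℂ)
    (hb : ∀ i ∈ s, b i ∈ WH N 0) : ∑ i ∈ s, polyJ (p i) * b i ∈ WH N 0 :=
  (WH N 0).sum_mem fun i hi => WH_mul_zero_zero (polyJ_mem_WH (p i)) (hb i hi)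

theorem beta_sum_left {ι : Type*} (s : Finset ι) (p : ι → ℂ[X]) (b : ι → ℍ → ℂ) {f : ℍ → ℂ}
    (hb : ∀ i ∈ s, b i ∈ WH N 0) (hf : f ∈ WH N 2) :
    beta N (∑ i ∈ s, polyJ (p i) * b i) f = ∑ i ∈ s, p i * beta N (b i) f := by
  classical
  induction s using Finset.induction_on with
  | empty => simp [beta_zero_left hf]
  | insert i t hi ih =>
    have hb' : ∀ i ∈ t, b i ∈ WH N 0 := fun j hj => hb j (Finset.mem_insert_of_mem hj)
    have hbi : b i ∈ WH N 0 := hb i (Finset.mem_insert_self i t)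
    rw [Finset.sum_insert hi, Finset.sum_insert hi,
      beta_add_left (WH_mul_zero_zero (polyJ_mem_WH (p i)) hbi) (sum_polyJ_mul_mem t p b hb') hf,
      beta_polyJ_mul_left (p i) hbi hf, ih hb']

theorem tau_add_left {b b' c : ℍ → ℂ} (hb : b ∈ WH N 0) (hb' : b' ∈ WH N 0) (hc : c ∈ WH N 0) :
    tau N (b + b') c = tau N b c + tau N b' c := by
  apply tau_eq_of (WH_add hb hb') hc
  rw [polyJ_add, tau_spec hb hc, tau_spec hb' hc, add_mul, Tr_add]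

theorem tau_polyJ_mul_left {b c : ℍ → ℂ} (p : ℂ[X]) (hb : b ∈ WH N 0) (hc : c ∈ WH N 0) :
    tau N (polyJ p * b) c = p * tau N b c := by
  apply tau_eq_of (WH_mul_zero_zero (polyJ_mem_WH p) hb) hc
  have h := Tr_levelOne_mul (N := N) (w := 0) (polyJ_slash p) (b * c)
  rw [zero_add] at h
  rw [polyJ_mul, tau_spec hb hc, mul_assoc, h]

theorem tau_comm (b c : ℍ → ℂ) : tau N b c = tau N c b := by
  unfold tau
  rw [mul_comm b c]

theorem tau_zero_left {c : ℍ → ℂ} (hc : c ∈ WH N 0) : tau N 0 c = 0 := by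
  apply tau_eq_of (WH N 0).zero_mem hc
  rw [polyJ_zero, zero_mul]
  simp [Tr, trw, SlashAction.zero_slash]

theorem tau_sum_left {ι : Type*} (s : Finset ι) (p : ι → ℂ[X]) (b : ι → ℍ → ℂ) {c : ℍ → ℂ}
    (hb : ∀ i ∈ s, b i ∈ WH N 0) (hc : c ∈ WH N 0) :
    tau N (∑ i ∈ s, polyJ (p i) * b i) c = ∑ i ∈ s, p i * tau N (b i) c := by
  classical
  induction s using Finset.induction_on with
  | empty => simp [tau_zero_left hc]
  | insert i t hi ih =>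
    have hb' : ∀ i ∈ t, b i ∈ WH N 0 := fun j hj => hb j (Finset.mem_insert_of_mem hj)
    have hbi : b i ∈ WH N 0 := hb i (Finset.mem_insert_self i t)
    rw [Finset.sum_insert hi, Finset.sum_insert hi,
      tau_add_left (WH_mul_zero_zero (polyJ_mem_WH (p i)) hbi) (sum_polyJ_mul_mem t p b hb') hc,
      tau_polyJ_mul_left (p i) hbi hc, ih hb']

theorem tau_sum_right {ι : Type*} (s : Finset ι) (p : ι → ℂ[X]) (b : ι → ℍ → ℂ) {c : ℍ → ℂ}
    (hb : ∀ i ∈ s, b i ∈ WH N 0) (hc : c ∈ WH N 0) :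
    tau N c (∑ i ∈ s, polyJ (p i) * b i) = ∑ i ∈ s, p i * tau N c (b i) := by
  rw [tau_comm, tau_sum_left s p b hb hc]
  exact Finset.sum_congr rfl fun i _ => by rw [tau_comm]

/-- `beta` against `om1 * b₁` is the trace form -/
theorem beta_om1_mul {b b₁ : ℍ → ℂ} (hb : b ∈ WH N 0) (hb₁ : b₁ ∈ WH N 0) :
    beta N b (om1 * b₁) = tau N b b₁ := by
  have hf : om1 * b₁ ∈ WH N 2 := by
    have h := WH_mul (om1_mem_WH (N := N)) hb₁
    rwa [add_zero] at h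
  apply beta_eq_of hb hf
  have h := Tr_levelOne_mul (N := N) (w := 0) WHBasic.om1_slash (b * b₁)
  rw [add_zero] at h
  rw [tau_spec hb hb₁, mul_comm, ← h]
  congr 1
  ring

/-- (D2) degree bound -/
theorem beta_degree {d e : ℤ} {b f : ℍ → ℂ} (hb : b ∈ WHle N 0 d) (hf : f ∈ WHlt N 2 (e + 2)) :
    beta N b f = 0 ∨ ((beta N b f).natDegree : ℤ) ≤ d + e := by
  have h1 : b * f ∈ WHlt N 2 (d + e + 2) :=
    WHBasic.WHle_mul_WHlt' hb hf (zero_add 2) (by ring)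
  obtain ⟨P, hP, hPeq⟩ := mem_WHlt_one_two_iff.mp (Tr_mem_WHlt h1)
  have h2 : beta N b f = P :=
    beta_eq_of ⟨d, hb⟩ ⟨e + 2, WHlt_le_WHle N 2 (e + 2) hf⟩ hPeq.symm
  rw [h2]
  rcases hP with hP | hP
  · exact Or.inl hP
  · right; linarith

end A

end Fermat.Agent.GenusLib.Dual
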