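import Mathlib
import Fermat.Agent.GenusLib.DualDefs
import Fermat.Agent.GenusLib.BStruct

/-!
# PROJECT X (S20), duality step, part B: nondegeneracy of the trace pairings

* `eq_zero_of_Tr_mul_eq_zero` : the trace form on `WH N 0` is nondegenerate;
* `eq_zero_of_beta_eq_zero` : the pairing `beta` is nondegenerate on the right;
* `det_tau_ne_zero` : the Gram determinant of a `ℂ[j]`-basis of `WH N 0` is nonzero.
-/

set_option autoImplicit false

noncomputable section

namespace Fermat.Agent.GenusLib.Dual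

open UpperHalfPlane hiding I
open scoped MatrixGroups ModularForm Manifold
open CongruenceSubgroup Module Polynomial
open Fermat.Agent.S23Lib Fermat.Agent.S23Lib.Conj Fermat.Agent.GenusLib.Defs
open Fermat.Agent.GenusLib Fermat.Agent.GenusLib.LS Fermat.Agent.GenusLib.LevelOne

/-- Transposed Vandermonde: if `∑_q v_q^i c_q = 0` for all `i < card` and `v` is injective then
`c = 0`. -/
theorem vandermonde_dual {ι : Type*} [Fintype ι] (v : ι → ℂ) (hv : Function.Injective v)
    (c : ι → ℂ) (h : ∀ i : ℕ, i < Fintype.card ι → ∑ q, v q ^ i * c q = 0) : c = 0 := by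
  classical
  let e : Fin (Fintype.card ι) ≃ ι := (Fintype.equivFin ι).symm
  have hdet : (Matrix.vandermonde (fun k => v (e k))).det ≠ 0 :=
    Matrix.det_vandermonde_ne_zero_iff.mpr (hv.comp e.injective)
  have h0 : Matrix.vecMul (fun k => c (e k)) (Matrix.vandermonde (fun k => v (e k))) = 0 := by
    funext i
    simp only [Matrix.vecMul, dotProduct, Matrix.vandermonde_apply, Pi.zero_apply]
    have h1 := h i i.2
    rw [← Equiv.sum_comp e] at h1
    rw [← h1]
    exact Finset.sum_congr rfl fun k _ => mul_comm _ _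
  have h1 := Matrix.eq_zero_of_vecMul_eq_zero hdet h0
  funext q
  have h2 := congrFun h1 (e.symm q)
  simpa using h2

section B
variable {N : ℕ} [NeZero N]

omit [NeZero N] in
theorem trw_zero_apply (q : X N) (F : ℍ → ℂ) (z : ℍ) :
    trw 0 q F z = F ((Quotient.out q)⁻¹ • z) :=
  BStruct.slash_zero_apply F _ z

theorem htr_eq_trw (q : X N) : BStruct.htr N q = trw 0 q (BStruct.hfun N) :=
  (trw_eq_tr (BStruct.hfun_mem_WHle N).2.1 q).symm

/-- If all `Tr (h^i * f)` vanish then `f = 0` (`h` the primitive element; any weight). -/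
theorem eq_zero_of_Tr_pow_mul_eq_zero {w : ℤ} {f : ℍ → ℂ} (hf : MDiff f)
    (hinv : Inv (Gamma0 N) w f) (h : ∀ i : ℕ, Tr N w (BStruct.hfun N ^ i * f) = 0) : f = 0 := by
  have h1 : ∀ (i : ℕ) (z : ℍ), ∑ q : X N, BStruct.htr N q z ^ i * trw w q f z = 0 := by
    intro i z
    have h0 := congrFun (h i) z
    rw [Tr, Finset.sum_apply, Pi.zero_apply] at h0
    rw [← h0]
    refine Finset.sum_congr rfl fun q _ => ?_
    have h2 := trw_mul 0 w q (BStruct.hfun N ^ i) f
    rw [zero_add] at h2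
    rw [h2, Pi.mul_apply, htr_eq_trw, trw_zero_apply, trw_zero_apply, Pi.pow_apply]
  have h3 : ∀ z, BStruct.DiscFun N z * f z = 0 := by
    intro z
    by_cases hinj : Function.Injective fun q => BStruct.htr N q z
    · have hc := vandermonde_dual (fun q : X N => BStruct.htr N q z) hinj
        (fun q => trw w q f z) (fun i _ => h1 i z)
      have h4 := congrFun hc ((1 : SL(2, ℤ)) : X N)
      simp only [Pi.zero_apply] at h4
      rw [trw_mk hinv, inv_one, SlashAction.slash_one] at h4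
      rw [h4, mul_zero]
    · rw [BStruct.DiscFun_apply_eq_zero N hinj, zero_mul]
  have h4 : BStruct.DiscFun N * f = 0 := funext h3
  rcases (UpperHalfPlane.mul_eq_zero_iff (BStruct.DiscFun_mdiff N) hf).mp h4 with h5 | h5
  · exact absurd h5 (BStruct.DiscFun_ne_zero N)
  · exact h5

theorem hfun_pow_mem_WH (i : ℕ) : BStruct.hfun N ^ i ∈ WH N 0 := by
  have h := WHBasic.WHle_pow (BStruct.hfun_mem_WHle N) i
  rw [mul_zero] at h
  exact ⟨_, h⟩

/-- power sums: if all `Tr (b * b₀)` vanish then `b₀ = 0` (take `b = b₀ ^ k`) -/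
theorem eq_zero_of_Tr_mul_eq_zero {b₀ : ℍ → ℂ} (hb₀ : b₀ ∈ WH N 0)
    (h : ∀ b ∈ WH N 0, Tr N 0 (b * b₀) = 0) : b₀ = 0 := by
  obtain ⟨m, hm⟩ := hb₀
  exact eq_zero_of_Tr_pow_mul_eq_zero hm.1 hm.2.1 fun i => h _ (hfun_pow_mem_WH i)

/-- (D3) -/
theorem eq_zero_of_beta_eq_zero {f : ℍ → ℂ} (hf : f ∈ WH N 2)
    (h : ∀ b ∈ WH N 0, beta N b f = 0) : f = 0 := by
  have hf' := hf
  obtain ⟨m, hm⟩ := hf'
  refine eq_zero_of_Tr_pow_mul_eq_zero hm.1 hm.2.1 fun i => ?_
  have h1 := beta_spec (hfun_pow_mem_WH (N := N) i) hf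
  rw [h _ (hfun_pow_mem_WH i), polyJ_zero, zero_mul] at h1
  exact h1.symm

/-- the Gram determinant of a `ℂ[j]`-basis of `WH N 0` is nonzero -/
theorem det_tau_ne_zero {ι : Type} [Fintype ι] [DecidableEq ι] (b : ι → ℍ → ℂ)
    (hb : ∀ i, b i ∈ WH N 0)
    (hli : ∀ p : ι → ℂ[X], ∑ i, polyJ (p i) * b i = 0 → p = 0)
    (hspan : ∀ c ∈ WH N 0, ∃ p : ι → ℂ[X], c = ∑ i, polyJ (p i) * b i) :
    (Matrix.of fun i l => tau N (b i) (b l)).det ≠ 0 := by
  intro hdet
  obtain ⟨p, hp0, hp⟩ := Matrix.exists_mulVec_eq_zero_iff.mpr hdet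
  set b₀ : ℍ → ℂ := ∑ l, polyJ (p l) * b l with hb₀
  have hb₀mem : b₀ ∈ WH N 0 := sum_polyJ_mul_mem _ p b fun i _ => hb i
  have h1 : ∀ i, tau N (b i) b₀ = 0 := by
    intro i
    rw [hb₀, tau_sum_right _ p b (fun l _ => hb l) (hb i)]
    have h2 := congrFun hp i
    simp only [Matrix.mulVec, dotProduct, Matrix.of_apply, Pi.zero_apply] at h2
    rw [← h2]
    exact Finset.sum_congr rfl fun l _ => mul_comm _ _
  have h2 : ∀ c ∈ WH N 0, Tr N 0 (c * b₀) = 0 := by
    intro c hc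
    obtain ⟨r, hr⟩ := hspan c hc
    have h3 : tau N c b₀ = 0 := by
      rw [hr, tau_sum_left _ r b (fun l _ => hb l) hb₀mem]
      exact Finset.sum_eq_zero fun i _ => by rw [h1 i, mul_zero]
    rw [← tau_spec hc hb₀mem, h3, polyJ_zero]
  exact hp0 (hli p (eq_zero_of_Tr_mul_eq_zero hb₀mem h2))

end B

end Fermat.Agent.GenusLib.Dual
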