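import Mathlib

set_option autoImplicit false

noncomputable section

namespace Fermat.Agent.GenusLib.Pts

open UpperHalfPlane hiding I
open Filter Topology Complex Function
open scoped Real MatrixGroups ModularForm Manifold
open Matrix.SpecialLinearGroup

/-- The order of vanishing of `F : ℍ → ℂ` at the point `τ`. -/
def ordAt (F : ℍ → ℂ) (τ : ℍ) : ℕ∞ := analyticOrderAt (F ∘ ofComplex) (τ : ℂ)

/-! ### P1: basic algebra of orders -/

theorem differentiableOn_of_mdiff {F : ℍ → ℂ} (hF : MDiff F) :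
    DifferentiableOn ℂ (F ∘ ofComplex) {z : ℂ | 0 < z.im} :=
  UpperHalfPlane.mdifferentiable_iff.mp hF

theorem analyticOnNhd_of_mdiff {F : ℍ → ℂ} (hF : MDiff F) :
    AnalyticOnNhd ℂ (F ∘ ofComplex) {z : ℂ | 0 < z.im} :=
  (differentiableOn_of_mdiff hF).analyticOnNhd isOpen_upperHalfPlaneSet

theorem analyticAt_of_mdiff {F : ℍ → ℂ} (hF : MDiff F) (τ : ℍ) :
    AnalyticAt ℂ (F ∘ ofComplex) (τ : ℂ) :=
  analyticOnNhd_of_mdiff hF _ τ.im_pos

theorem ordAt_mul {F G : ℍ → ℂ} (hF : MDiff F) (hG : MDiff G) (τ : ℍ) :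
    ordAt (F * G) τ = ordAt F τ + ordAt G τ :=
  analyticOrderAt_mul (analyticAt_of_mdiff hF τ) (analyticAt_of_mdiff hG τ)

theorem le_ordAt_add (F G : ℍ → ℂ) (τ : ℍ) :
    min (ordAt F τ) (ordAt G τ) ≤ ordAt (F + G) τ :=
  le_analyticOrderAt_add

theorem le_ordAt_sub (F G : ℍ → ℂ) (τ : ℍ) :
    min (ordAt F τ) (ordAt G τ) ≤ ordAt (F - G) τ :=
  le_analyticOrderAt_sub

theorem ordAt_neg (F : ℍ → ℂ) (τ : ℍ) : ordAt (-F) τ = ordAt F τ :=
  analyticOrderAt_neg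

theorem ordAt_const {c : ℂ} (hc : c ≠ 0) (τ : ℍ) : ordAt (fun _ => c) τ = 0 := by
  unfold ordAt
  rw [analyticOrderAt_eq_zero]
  right
  simpa using hc

theorem ordAt_one (τ : ℍ) : ordAt (1 : ℍ → ℂ) τ = 0 :=
  ordAt_const one_ne_zero τ

theorem ordAt_zero (τ : ℍ) : ordAt (0 : ℍ → ℂ) τ = ⊤ := by
  unfold ordAt
  rw [analyticOrderAt_eq_top]
  exact Eventually.of_forall fun z => rfl

theorem mdiff_const (c : ℂ) : MDiff (fun _ : ℍ => c) := mdifferentiable_const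

theorem ordAt_smul {c : ℂ} (hc : c ≠ 0) {F : ℍ → ℂ} (hF : MDiff F) (τ : ℍ) :
    ordAt (c • F) τ = ordAt F τ := by
  have h : c • F = (fun _ : ℍ => c) * F := by
    funext z; simp
  rw [h, ordAt_mul (mdiff_const c) hF, ordAt_const hc, zero_add]

theorem le_ordAt_smul (c : ℂ) {F : ℍ → ℂ} (hF : MDiff F) (τ : ℍ) :
    ordAt F τ ≤ ordAt (c • F) τ := by
  rcases eq_or_ne c 0 with rfl | hc
  · rw [zero_smul, ordAt_zero]; exact le_top
  · rw [ordAt_smul hc hF]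

theorem ordAt_pow {F : ℍ → ℂ} (hF : MDiff F) (n : ℕ) (τ : ℍ) :
    ordAt (F ^ n) τ = n * ordAt F τ := by
  have h : (F ^ n) ∘ ofComplex = (F ∘ ofComplex) ^ n := rfl
  unfold ordAt
  rw [h, analyticOrderAt_pow (analyticAt_of_mdiff hF τ) n, nsmul_eq_mul]

theorem mdiff_prod {ι : Type*} (s : Finset ι) {F : ι → ℍ → ℂ} (hF : ∀ i ∈ s, MDiff (F i)) :
    MDiff (∏ i ∈ s, F i) := by
  classical
  induction s using Finset.induction_on with
  | empty =>
    rw [Finset.prod_empty]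
    exact mdiff_const 1
  | insert i t hi ih =>
    rw [Finset.prod_insert hi]
    exact (hF i (Finset.mem_insert_self i t)).mul
      (ih fun j hj => hF j (Finset.mem_insert_of_mem hj))

theorem mdiff_sum {ι : Type*} (s : Finset ι) {F : ι → ℍ → ℂ} (hF : ∀ i ∈ s, MDiff (F i)) :
    MDiff (∑ i ∈ s, F i) := by
  classical
  induction s using Finset.induction_on with
  | empty =>
    rw [Finset.sum_empty]
    exact mdiff_const 0
  | insert i t hi ih =>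
    rw [Finset.sum_insert hi]
    exact (hF i (Finset.mem_insert_self i t)).add
      (ih fun j hj => hF j (Finset.mem_insert_of_mem hj))

theorem ordAt_prod {ι : Type*} (s : Finset ι) {F : ι → ℍ → ℂ} (hF : ∀ i ∈ s, MDiff (F i))
    (τ : ℍ) : ordAt (∏ i ∈ s, F i) τ = ∑ i ∈ s, ordAt (F i) τ := by
  classical
  induction s using Finset.induction_on with
  | empty => simpa using ordAt_one τ
  | insert i t hi ih =>
    rw [Finset.prod_insert hi, Finset.sum_insert hi,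
      ordAt_mul (hF i (Finset.mem_insert_self i t))
        (mdiff_prod t fun j hj => hF j (Finset.mem_insert_of_mem hj)),
      ih fun j hj => hF j (Finset.mem_insert_of_mem hj)]

theorem le_ordAt_sum' {ι : Type*} (s : Finset ι) {F : ι → ℍ → ℂ}
    (τ : ℍ) (n : ℕ∞) (h : ∀ i ∈ s, n ≤ ordAt (F i) τ) : n ≤ ordAt (∑ i ∈ s, F i) τ := by
  classical
  induction s using Finset.induction_on with
  | empty => simp [ordAt_zero]
  | insert i t hi ih =>
    rw [Finset.sum_insert hi]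
    exact le_trans (le_min (h i (Finset.mem_insert_self i t))
      (ih fun j hj => h j (Finset.mem_insert_of_mem hj))) (le_ordAt_add _ _ τ)

theorem le_ordAt_sum {ι : Type*} (s : Finset ι) {F : ι → ℍ → ℂ} (_hF : ∀ i ∈ s, MDiff (F i))
    (τ : ℍ) (n : ℕ∞) (h : ∀ i ∈ s, n ≤ ordAt (F i) τ) : n ≤ ordAt (∑ i ∈ s, F i) τ :=
  le_ordAt_sum' s τ n h

theorem ordAt_eq_top_iff {F : ℍ → ℂ} (hF : MDiff F) (τ : ℍ) : ordAt F τ = ⊤ ↔ F = 0 := by
  constructor
  · intro h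
    have hU : IsPreconnected {z : ℂ | 0 < z.im} :=
      (Complex.isConnected_of_upperHalfPlane subset_rfl (by grind)).isPreconnected
    have h1 : ∀ᶠ z in 𝓝 (τ : ℂ), (F ∘ ofComplex) z = 0 := analyticOrderAt_eq_top.mp h
    have h2 := (analyticOnNhd_of_mdiff hF).eqOn_zero_of_preconnected_of_eventuallyEq_zero hU
      τ.im_pos h1
    funext z
    have := h2 z.im_pos
    simpa [ofComplex_apply] using this
  · rintro rfl
    exact ordAt_zero τ

theorem ordAt_eq_zero_iff {F : ℍ → ℂ} (hF : MDiff F) (τ : ℍ) : ordAt F τ = 0 ↔ F τ ≠ 0 := by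
  unfold ordAt
  rw [(analyticAt_of_mdiff hF τ).analyticOrderAt_eq_zero]
  simp [ofComplex_apply]

theorem ordAt_ne_top {F : ℍ → ℂ} (hF : MDiff F) (hF0 : F ≠ 0) (τ : ℍ) : ordAt F τ ≠ ⊤ :=
  fun h => hF0 ((ordAt_eq_top_iff hF τ).mp h)


/-! ### P4: Taylor coefficients -/

/-- `cfAt F τ n` is the `n`-th Taylor coefficient of `F` at `τ` (in the coordinate `z - τ`). -/
def cfAt (F : ℍ → ℂ) (τ : ℍ) (n : ℕ) : ℂ :=
  iteratedDeriv n (F ∘ ofComplex) (τ : ℂ) / (n.factorial : ℂ)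

/-- The leading coefficient of `F` at `τ`. -/
def lcAt (F : ℍ → ℂ) (τ : ℍ) : ℂ := cfAt F τ (ordAt F τ).toNat

theorem iteratedDeriv_of_eventually_eq_pow_mul {f G : ℂ → ℂ} {z₀ : ℂ} {n : ℕ}
    (hG : AnalyticAt ℂ G z₀) (h : ∀ᶠ z in 𝓝 z₀, f z = (z - z₀) ^ n * G z) :
    iteratedDeriv n f z₀ = n.factorial * G z₀ := by
  set f1 : ℂ → ℂ := fun z => (z - z₀) ^ n * (G z - G z₀) with hf1def
  set f2 : ℂ → ℂ := fun z => (z - z₀) ^ n * G z₀ with hf2def
  have hf : f =ᶠ[𝓝 z₀] f1 + f2 := by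
    filter_upwards [h] with z hz
    simp only [hf1def, hf2def, Pi.add_apply, hz]
    ring
  rw [hf.iteratedDeriv_eq n]
  have hf1 : AnalyticAt ℂ f1 z₀ := by
    rw [hf1def]; fun_prop
  have hf2 : AnalyticAt ℂ f2 z₀ := by
    rw [hf2def]; fun_prop
  rw [iteratedDeriv_add hf1.contDiffAt hf2.contDiffAt]
  have h1 : iteratedDeriv n f1 z₀ = 0 := by
    have hle : ((n + 1 : ℕ) : ℕ∞) ≤ analyticOrderAt f1 z₀ := by
      rw [natCast_le_analyticOrderAt hf1]
      have hG0 : AnalyticAt ℂ (fun z => G z - G z₀) z₀ := by fun_prop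
      have h0 : ((1 : ℕ) : ℕ∞) ≤ analyticOrderAt (fun z => G z - G z₀) z₀ := by
        rw [Nat.cast_one, Order.one_le_iff_ne_zero, hG0.analyticOrderAt_ne_zero]
        simp
      obtain ⟨H, hH, hH'⟩ := (natCast_le_analyticOrderAt hG0).mp h0
      refine ⟨H, hH, ?_⟩
      filter_upwards [hH'] with z hz
      simp only [hf1def, hz, smul_eq_mul, pow_one]
      ring
    exact (natCast_le_analyticOrderAt_iff_iteratedDeriv_eq_zero hf1).mp hle n (Nat.lt_succ_self n)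
  have h2 : iteratedDeriv n f2 z₀ = n.factorial * G z₀ := by
    rw [hf2def, iteratedDeriv_mul_const_field]
    have h3 : iteratedDeriv n (fun z : ℂ => (z - z₀) ^ n) z₀ =
        iteratedDeriv n (fun w : ℂ => w ^ n) (z₀ - z₀) :=
      congrFun (iteratedDeriv_comp_sub_const n (fun w : ℂ => w ^ n) z₀) z₀
    rw [h3, sub_self, iteratedDeriv_fun_pow_zero]
    simp
  rw [h1, h2, zero_add]

theorem cfAt_eq_of_eventually {F : ℍ → ℂ} {τ : ℍ} {n : ℕ} {G : ℂ → ℂ} (hG : AnalyticAt ℂ G τ)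
    (h : ∀ᶠ z in 𝓝 (τ : ℂ), (F ∘ ofComplex) z = (z - τ) ^ n * G z) : cfAt F τ n = G τ := by
  unfold cfAt
  rw [iteratedDeriv_of_eventually_eq_pow_mul hG h]
  have : (n.factorial : ℂ) ≠ 0 := by exact_mod_cast n.factorial_ne_zero
  field_simp

/-- Local normal form at a lower bound for the order. -/
theorem exists_normal_form {F : ℍ → ℂ} (hF : MDiff F) {τ : ℍ} {n : ℕ}
    (h : (n : ℕ∞) ≤ ordAt F τ) :
    ∃ G : ℂ → ℂ, AnalyticAt ℂ G τ ∧ G τ = cfAt F τ n ∧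
      ∀ᶠ z in 𝓝 (τ : ℂ), (F ∘ ofComplex) z = (z - τ) ^ n * G z := by
  obtain ⟨G, hG, hG'⟩ := (natCast_le_analyticOrderAt (analyticAt_of_mdiff hF τ)).mp h
  have hG'' : ∀ᶠ z in 𝓝 (τ : ℂ), (F ∘ ofComplex) z = (z - τ) ^ n * G z := by
    filter_upwards [hG'] with z hz
    simpa using hz
  exact ⟨G, hG, (cfAt_eq_of_eventually hG hG'').symm, hG''⟩

theorem cfAt_zero (F : ℍ → ℂ) (τ : ℍ) : cfAt F τ 0 = F τ := by
  simp [cfAt, ofComplex_apply]

theorem cfAt_add {F G : ℍ → ℂ} (hF : MDiff F) (hG : MDiff G) (τ : ℍ) (n : ℕ) :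
    cfAt (F + G) τ n = cfAt F τ n + cfAt G τ n := by
  unfold cfAt
  have h : (F + G) ∘ ofComplex = F ∘ ofComplex + G ∘ ofComplex := rfl
  rw [h, iteratedDeriv_add (analyticAt_of_mdiff hF τ).contDiffAt
    (analyticAt_of_mdiff hG τ).contDiffAt, add_div]

theorem cfAt_smul (c : ℂ) {F : ℍ → ℂ} (_hF : MDiff F) (τ : ℍ) (n : ℕ) :
    cfAt (c • F) τ n = c * cfAt F τ n := by
  unfold cfAt
  have h : (c • F) ∘ ofComplex = fun z => c * (F ∘ ofComplex) z := rfl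
  rw [h, iteratedDeriv_const_mul_field, mul_div_assoc]

theorem cfAt_neg {F : ℍ → ℂ} (hF : MDiff F) (τ : ℍ) (n : ℕ) :
    cfAt (-F) τ n = -cfAt F τ n := by
  have h : -F = (-1 : ℂ) • F := by simp
  rw [h, cfAt_smul _ hF]; ring

theorem cfAt_sub {F G : ℍ → ℂ} (hF : MDiff F) (hG : MDiff G) (τ : ℍ) (n : ℕ) :
    cfAt (F - G) τ n = cfAt F τ n - cfAt G τ n := by
  rw [sub_eq_add_neg, cfAt_add hF hG.neg, cfAt_neg hG, sub_eq_add_neg]

theorem cfAt_zero_fun (τ : ℍ) (n : ℕ) : cfAt (0 : ℍ → ℂ) τ n = 0 := by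
  have h := cfAt_smul (0 : ℂ) (F := (0 : ℍ → ℂ)) (mdiff_const 0) τ n
  simpa using h

theorem cfAt_sum {ι : Type*} (s : Finset ι) {F : ι → ℍ → ℂ} (hF : ∀ i ∈ s, MDiff (F i))
    (τ : ℍ) (n : ℕ) : cfAt (∑ i ∈ s, F i) τ n = ∑ i ∈ s, cfAt (F i) τ n := by
  classical
  induction s using Finset.induction_on with
  | empty => simp [cfAt_zero_fun]
  | insert i t hi ih =>
    rw [Finset.sum_insert hi, Finset.sum_insert hi,
      cfAt_add (hF i (Finset.mem_insert_self i t))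
        (mdiff_sum t fun j hj => hF j (Finset.mem_insert_of_mem hj)),
      ih fun j hj => hF j (Finset.mem_insert_of_mem hj)]

/-- `n ≤ ordAt F τ` iff all lower Taylor coefficients vanish. -/
theorem le_ordAt_iff {F : ℍ → ℂ} (hF : MDiff F) (τ : ℍ) (n : ℕ) :
    (n : ℕ∞) ≤ ordAt F τ ↔ ∀ i < n, cfAt F τ i = 0 := by
  unfold ordAt cfAt
  rw [natCast_le_analyticOrderAt_iff_iteratedDeriv_eq_zero (analyticAt_of_mdiff hF τ)]
  refine forall₂_congr fun i _ => ?_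
  have : (i.factorial : ℂ) ≠ 0 := by exact_mod_cast i.factorial_ne_zero
  simp [this]

theorem ordAt_eq_iff {F : ℍ → ℂ} (hF : MDiff F) (τ : ℍ) (n : ℕ) :
    ordAt F τ = n ↔ (n : ℕ∞) ≤ ordAt F τ ∧ cfAt F τ n ≠ 0 := by
  rw [le_ordAt_iff hF]
  unfold ordAt cfAt
  rw [analyticOrderAt_eq_nat_iff_iteratedDeriv_eq_zero (analyticAt_of_mdiff hF τ)]
  have hn : (n.factorial : ℂ) ≠ 0 := by exact_mod_cast n.factorial_ne_zero
  refine and_congr (forall₂_congr fun i _ => ?_) (by simp [hn])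
  have : (i.factorial : ℂ) ≠ 0 := by exact_mod_cast i.factorial_ne_zero
  simp [this]

theorem lt_ordAt_iff {F : ℍ → ℂ} (hF : MDiff F) (τ : ℍ) (n : ℕ) :
    (n : ℕ∞) < ordAt F τ ↔ (n : ℕ∞) ≤ ordAt F τ ∧ cfAt F τ n = 0 := by
  have h1 : (n : ℕ∞) < ordAt F τ ↔ ((n + 1 : ℕ) : ℕ∞) ≤ ordAt F τ := by
    rw [Nat.cast_add, Nat.cast_one, ENat.add_one_le_iff (ENat.natCast_ne_top n)]
  rw [h1, le_ordAt_iff hF, le_ordAt_iff hF]
  constructor
  · intro h
    exact ⟨fun i hi => h i (by omega), h n (by omega)⟩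
  · rintro ⟨h, h'⟩ i hi
    rcases Nat.lt_succ_iff_lt_or_eq.mp hi with hi | rfl
    · exact h i hi
    · exact h'

theorem cfAt_eq_zero_of_lt {F : ℍ → ℂ} (hF : MDiff F) {τ : ℍ} {n : ℕ}
    (h : (n : ℕ∞) < ordAt F τ) : cfAt F τ n = 0 :=
  ((lt_ordAt_iff hF τ n).mp h).2

theorem lcAt_ne_zero {F : ℍ → ℂ} (hF : MDiff F) (hF0 : F ≠ 0) (τ : ℍ) : lcAt F τ ≠ 0 := by
  have h := ordAt_ne_top hF hF0 τ
  have h' : ordAt F τ = ((ordAt F τ).toNat : ℕ∞) := (ENat.natCast_toNat h).symm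
  exact ((ordAt_eq_iff hF τ _).mp h').2

/-- Coefficient of a product at the sum of two lower bounds for the orders. -/
theorem cfAt_mul {F G : ℍ → ℂ} (hF : MDiff F) (hG : MDiff G) {τ : ℍ} {n m : ℕ}
    (h1 : (n : ℕ∞) ≤ ordAt F τ) (h2 : (m : ℕ∞) ≤ ordAt G τ) :
    cfAt (F * G) τ (n + m) = cfAt F τ n * cfAt G τ m := by
  obtain ⟨A, hA, hA0, hA'⟩ := exists_normal_form hF h1
  obtain ⟨B, hB, hB0, hB'⟩ := exists_normal_form hG h2
  have h : ∀ᶠ z in 𝓝 (τ : ℂ), ((F * G) ∘ ofComplex) z = (z - τ) ^ (n + m) * (A z * B z) := by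
    filter_upwards [hA', hB'] with z hz1 hz2
    have : ((F * G) ∘ ofComplex) z = (F ∘ ofComplex) z * (G ∘ ofComplex) z := rfl
    rw [this, hz1, hz2]; ring
  have hAB : AnalyticAt ℂ (fun z => A z * B z) τ := hA.mul hB
  rw [cfAt_eq_of_eventually hAB h, hA0, hB0]

/-- If all `F i` have order `≥ n` at `τ` and the `n`-th coefficients have nonzero sum, the sum
has order exactly `n`. -/
theorem ordAt_sum_eq {ι : Type*} (s : Finset ι) {F : ι → ℍ → ℂ} (hF : ∀ i ∈ s, MDiff (F i))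
    {τ : ℍ} {n : ℕ} (h : ∀ i ∈ s, (n : ℕ∞) ≤ ordAt (F i) τ)
    (hsum : ∑ i ∈ s, cfAt (F i) τ n ≠ 0) : ordAt (∑ i ∈ s, F i) τ = n := by
  rw [ordAt_eq_iff (mdiff_sum s hF), cfAt_sum s hF]
  exact ⟨le_ordAt_sum s hF τ n h, hsum⟩

/-! ### P3: one-dimensional jets -/

theorem exists_lt_ordAt_sub_smul {F G : ℍ → ℂ} (hF : MDiff F) (hG : MDiff G) {τ : ℍ} {n : ℕ}
    (h1 : ordAt F τ = n) (h2 : ordAt G τ = n) : ∃ c : ℂ, (n : ℕ∞) < ordAt (F - c • G) τ := by
  have hG' := ((ordAt_eq_iff hG τ n).mp h2).2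
  refine ⟨cfAt F τ n / cfAt G τ n, ?_⟩
  have hcG : MDiff ((cfAt F τ n / cfAt G τ n) • G) := hG.const_smul _
  rw [lt_ordAt_iff (hF.sub hcG)]
  constructor
  · refine le_trans (le_min h1.ge ?_) (le_ordAt_sub _ _ τ)
    exact le_trans h2.ge (le_ordAt_smul _ hG τ)
  · rw [cfAt_sub hF hcG, cfAt_smul _ hG]
    field_simp
    ring


/-! ### P2: slash -/

theorem denom_eq (g : SL(2, ℤ)) (z : ℂ) : denom g z = (g 1 0 : ℂ) * z + g 1 1 := by
  simp [denom]

theorem coe_smul_eq (g : SL(2, ℤ)) (τ : ℍ) :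
    ((g • τ : ℍ) : ℂ) = ((g 0 0 : ℂ) * τ + g 0 1) / ((g 1 0 : ℂ) * τ + g 1 1) := by
  have := UpperHalfPlane.coe_specialLinearGroup_apply g τ
  simpa using this

theorem det_eq_one_cast (g : SL(2, ℤ)) :
    (g 0 0 : ℂ) * g 1 1 - (g 0 1 : ℂ) * g 1 0 = 1 := by
  have h := g.det_coe
  rw [Matrix.det_fin_two] at h
  exact_mod_cast h

/-- The local description of a slash translate. -/
theorem slash_comp_ofComplex_eventuallyEq (F : ℍ → ℂ) (k : ℤ) (g : SL(2, ℤ)) (τ : ℍ) :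
    ∀ᶠ z in 𝓝 (τ : ℂ), ((F ∣[k] g) ∘ ofComplex) z =
      (F ∘ ofComplex) (((g 0 0 : ℂ) * z + g 0 1) / ((g 1 0 : ℂ) * z + g 1 1)) *
        ((g 1 0 : ℂ) * z + g 1 1) ^ (-k) := by
  filter_upwards [isOpen_upperHalfPlaneSet.mem_nhds τ.im_pos] with z hz
  have hz' : ((ofComplex z : ℍ) : ℂ) = z := by
    rw [ofComplex_apply_of_im_pos hz]
  have h1 : ofComplex (((g 0 0 : ℂ) * z + g 0 1) / ((g 1 0 : ℂ) * z + g 1 1)) =
      g • ofComplex z := by
    have := coe_smul_eq g (ofComplex z)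
    rw [hz'] at this
    rw [← this, ofComplex_apply]
  simp only [Function.comp_apply]
  rw [ModularForm.SL_slash_apply, h1, denom_eq, hz']

theorem den_ne_zero (g : SL(2, ℤ)) (τ : ℍ) : (g 1 0 : ℂ) * τ + g 1 1 ≠ 0 := by
  have := denom_ne_zero (g : GL (Fin 2) ℝ) τ
  rwa [denom_eq] at this

/-- Transfer of local normal forms under slash. -/
theorem exists_normal_form_slash {F : ℍ → ℂ} (hF : MDiff F) (k : ℤ) (g : SL(2, ℤ)) {τ : ℍ}
    {n : ℕ} (h : (n : ℕ∞) ≤ ordAt F (g • τ)) :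
    ∃ G : ℂ → ℂ, AnalyticAt ℂ G τ ∧
      G τ = cfAt F (g • τ) n * denom g τ ^ (-(2 * (n : ℤ) + k)) ∧
      ∀ᶠ z in 𝓝 (τ : ℂ), ((F ∣[k] g) ∘ ofComplex) z = (z - τ) ^ n * G z := by
  obtain ⟨A, hA, hA0, hA'⟩ := exists_normal_form hF h
  set m : ℂ → ℂ := fun z => ((g 0 0 : ℂ) * z + g 0 1) / ((g 1 0 : ℂ) * z + g 1 1) with hm
  set d : ℂ → ℂ := fun z => (g 1 0 : ℂ) * z + g 1 1 with hd
  have hdτ : d τ ≠ 0 := den_ne_zero g τ
  have hmτ : m τ = ((g • τ : ℍ) : ℂ) := (coe_smul_eq g τ).symm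
  have hd_an : AnalyticAt ℂ d τ := by rw [hd]; fun_prop
  have hm_an : AnalyticAt ℂ m τ := by
    rw [hm]
    exact (by fun_prop : AnalyticAt ℂ (fun z : ℂ => (g 0 0 : ℂ) * z + g 0 1) τ).div hd_an hdτ
  have hd_ev : ∀ᶠ z in 𝓝 (τ : ℂ), d z ≠ 0 := hd_an.continuousAt.eventually_ne hdτ
  have hAm : ∀ᶠ z in 𝓝 (τ : ℂ), (F ∘ ofComplex) (m z) = (m z - (g • τ : ℍ)) ^ n * A (m z) := by
    have := hm_an.continuousAt.tendsto
    rw [hmτ] at this
    exact this.eventually hA'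
  have hdet := det_eq_one_cast g
  refine ⟨fun z => A (m z) * d z ^ (-k) * ((d z * d τ)⁻¹) ^ n, ?_, ?_, ?_⟩
  · have h1 : AnalyticAt ℂ (fun z => A (m z)) τ := by
      have hA2 : AnalyticAt ℂ A (m τ) := by rw [hmτ]; exact hA
      exact hA2.comp hm_an
    have h2 : AnalyticAt ℂ (fun z => d z ^ (-k)) τ := hd_an.zpow hdτ
    have h3 : AnalyticAt ℂ (fun z => (d z * d τ)⁻¹) τ :=
      (hd_an.mul analyticAt_const).inv (mul_ne_zero hdτ hdτ)
    exact (h1.mul h2).mul (h3.pow n)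
  · show A (m τ) * d τ ^ (-k) * ((d τ * d τ)⁻¹) ^ n = _
    rw [hmτ, hA0, denom_eq]
    have e1 : ((d τ * d τ)⁻¹) ^ n = d τ ^ (-(2 * (n : ℤ))) := by
      rw [zpow_neg, zpow_mul, zpow_two, zpow_natCast, inv_pow]
    rw [e1, mul_assoc, ← zpow_add₀ hdτ,
      show (-k + -(2 * (n : ℤ))) = -(2 * (n : ℤ) + k) by ring]
  · filter_upwards [slash_comp_ofComplex_eventuallyEq F k g τ, hAm, hd_ev] with z hz1 hz2 hz3
    rw [hz1]
    show (F ∘ ofComplex) (m z) * d z ^ (-k) = _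
    rw [hz2]
    have e2 : m z - ((g • τ : ℍ) : ℂ) = (z - τ) * (d z * d τ)⁻¹ := by
      rw [← hmτ, hm, hd]
      simp only
      have hdz : (g 1 0 : ℂ) * z + g 1 1 ≠ 0 := hz3
      have hdτ' : (g 1 0 : ℂ) * τ + g 1 1 ≠ 0 := hdτ
      rw [div_sub_div _ _ hdz hdτ', ← div_eq_mul_inv]
      congr 1
      linear_combination (z - (τ : ℂ)) * hdet
    rw [e2, mul_pow]
    ring

theorem le_ordAt_slash {F : ℍ → ℂ} (hF : MDiff F) (k : ℤ) (g : SL(2, ℤ)) (τ : ℍ) :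
    ordAt F (g • τ) ≤ ordAt (F ∣[k] g) τ := by
  refine ENat.forall_natCast_le_iff_le.mp fun n hn => ?_
  obtain ⟨G, hG, -, hG'⟩ := exists_normal_form_slash hF k g hn
  have hFg : MDiff (F ∣[k] g) := hF.slash k (g : GL (Fin 2) ℝ)
  unfold ordAt
  rw [natCast_le_analyticOrderAt (analyticAt_of_mdiff hFg τ)]
  refine ⟨G, hG, ?_⟩
  filter_upwards [hG'] with z hz
  simpa using hz

theorem ordAt_slash {F : ℍ → ℂ} (hF : MDiff F) (k : ℤ) (g : SL(2, ℤ)) (τ : ℍ) :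
    ordAt (F ∣[k] g) τ = ordAt F (g • τ) := by
  refine le_antisymm ?_ (le_ordAt_slash hF k g τ)
  have hFg : MDiff (F ∣[k] g) := hF.slash k (g : GL (Fin 2) ℝ)
  have h := le_ordAt_slash hFg k g⁻¹ (g • τ)
  rw [inv_smul_smul, ← SlashAction.slash_mul, mul_inv_cancel, SlashAction.slash_one] at h
  exact h

/-- Coefficient of a slash translate at a lower bound for the order. -/
theorem cfAt_slash {F : ℍ → ℂ} (hF : MDiff F) (k : ℤ) (g : SL(2, ℤ)) {τ : ℍ} {n : ℕ}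
    (h : (n : ℕ∞) ≤ ordAt F (g • τ)) :
    cfAt (F ∣[k] g) τ n = cfAt F (g • τ) n * denom g τ ^ (-(2 * (n : ℤ) + k)) := by
  obtain ⟨G, hG, hG0, hG'⟩ := exists_normal_form_slash hF k g h
  rw [cfAt_eq_of_eventually hG hG', hG0]

theorem lcAt_slash {F : ℍ → ℂ} (hF : MDiff F) (hF0 : F ≠ 0) (k : ℤ) (g : SL(2, ℤ)) (τ : ℍ) :
    lcAt (F ∣[k] g) τ =
      lcAt F (g • τ) * denom g τ ^ (-(2 * ((ordAt F (g • τ)).toNat : ℤ) + k)) := by
  unfold lcAt
  rw [ordAt_slash hF k g τ]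
  exact cfAt_slash hF k g (ENat.natCast_toNat (ordAt_ne_top hF hF0 (g • τ))).le

/-! ### P5: stabilisers -/

theorem denom_zpow_eq_one {F : ℍ → ℂ} (hF : MDiff F) {k : ℤ} {g : SL(2, ℤ)} {τ : ℍ}
    (hg : g • τ = τ) (hinv : F ∣[k] g = F) {n : ℕ} (hn : ordAt F τ = n) :
    denom g τ ^ (2 * (n : ℤ) + k) = 1 := by
  have h1 : (n : ℕ∞) ≤ ordAt F (g • τ) := by rw [hg, hn]
  have h2 := cfAt_slash hF k g h1
  rw [hinv, hg] at h2
  have h3 := ((ordAt_eq_iff hF τ n).mp hn).2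
  have h4 : denom g τ ^ (-(2 * (n : ℤ) + k)) = 1 := by
    have : cfAt F τ n * 1 = cfAt F τ n * denom g τ ^ (-(2 * (n : ℤ) + k)) := by
      rw [mul_one]; exact h2
    exact (mul_left_cancel₀ h3 this).symm
  rw [zpow_neg, inv_eq_one] at h4
  exact h4

theorem cfAt_slash_of_stabilizer {F : ℍ → ℂ} (hF : MDiff F) {k : ℤ} {g : SL(2, ℤ)} {τ : ℍ}
    (hg : g • τ = τ) {n : ℕ} (h : (n : ℕ∞) ≤ ordAt F τ)
    (hu : denom g τ ^ (2 * (n : ℤ) + k) = 1) : cfAt (F ∣[k] g) τ n = cfAt F τ n := by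
  have h1 : (n : ℕ∞) ≤ ordAt F (g • τ) := by rw [hg]; exact h
  rw [cfAt_slash hF k g h1, hg, zpow_neg, hu, inv_one, mul_one]


theorem smul_eq_iff (g : SL(2, ℤ)) (τ : ℍ) :
    g • τ = τ ↔ (g 0 0 : ℂ) * τ + g 0 1 = τ * ((g 1 0 : ℂ) * τ + g 1 1) := by
  rw [UpperHalfPlane.ext_iff, coe_smul_eq, div_eq_iff (den_ne_zero g τ)]

theorem denom_mul_of_smul_eq (g : SL(2, ℤ)) {h : SL(2, ℤ)} {τ : ℍ} (hh : h • τ = τ) :
    denom (g * h : SL(2, ℤ)) τ = denom g τ * denom h τ := by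
  rw [smul_eq_iff] at hh
  rw [denom_eq, denom_eq, denom_eq]
  have e1 : ((g * h : SL(2, ℤ)) 1 0 : ℂ) = (g 1 0 : ℂ) * h 0 0 + (g 1 1 : ℂ) * h 1 0 := by
    rw [Matrix.SpecialLinearGroup.coe_mul, Matrix.mul_apply, Fin.sum_univ_two]
    push_cast
    ring
  have e2 : ((g * h : SL(2, ℤ)) 1 1 : ℂ) = (g 1 0 : ℂ) * h 0 1 + (g 1 1 : ℂ) * h 1 1 := by
    rw [Matrix.SpecialLinearGroup.coe_mul, Matrix.mul_apply, Fin.sum_univ_two]
    push_cast
    ring
  rw [e1, e2]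
  linear_combination (g 1 0 : ℂ) * hh

/-- The multiplier `g ↦ denom g τ` as a homomorphism on the stabiliser. -/
def stabChar (τ : ℍ) : MulAction.stabilizer SL(2, ℤ) τ →* ℂˣ where
  toFun g := Units.mk0 (denom ((g : SL(2, ℤ)) : GL (Fin 2) ℝ) τ) (denom_ne_zero _ τ)
  map_one' := by
    ext
    simp
  map_mul' g h := by
    ext
    simp only [Units.val_mk0, Units.val_mul, Subgroup.coe_mul]
    exact denom_mul_of_smul_eq (g : SL(2, ℤ)) h.2

theorem stabChar_apply (τ : ℍ) (g : MulAction.stabilizer SL(2, ℤ) τ) :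
    ((stabChar τ g : ℂˣ) : ℂ) = denom (g : SL(2, ℤ)) τ := rfl

theorem eq_one_of_denom_eq_one {g : SL(2, ℤ)} {τ : ℍ} (hg : g • τ = τ)
    (h : denom g τ = 1) : g = 1 := by
  rw [denom_eq] at h
  rw [smul_eq_iff] at hg
  have hc : g 1 0 = 0 := by
    have h1 := congrArg Complex.im h
    simp at h1
    rcases h1 with h1 | h1
    · exact h1
    · exact absurd h1 τ.im_pos.ne'
  have hd : g 1 1 = 1 := by
    rw [hc] at h
    simp at h
    exact_mod_cast h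
  have ha : g 0 0 = 1 := by
    have h2 := g.det_coe
    rw [Matrix.det_fin_two, hc, hd] at h2
    linarith
  have hb : g 0 1 = 0 := by
    rw [hc, hd, ha] at hg
    simp at hg
    exact_mod_cast hg
  ext i j
  fin_cases i <;> fin_cases j <;> simp [ha, hb, hc, hd]

theorem stabChar_injective (τ : ℍ) : Function.Injective (stabChar τ) := by
  rw [injective_iff_map_eq_one]
  intro g hg
  have h1 : denom ((g : SL(2, ℤ)) : GL (Fin 2) ℝ) τ = 1 := by
    rw [← stabChar_apply, hg]; rfl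
  exact Subtype.ext (eq_one_of_denom_eq_one g.2 h1)

theorem normSq_denom_eq_one {g : SL(2, ℤ)} {τ : ℍ} (hg : g • τ = τ) :
    Complex.normSq (denom g τ) = 1 := by
  have h := ModularGroup.im_smul_eq_div_normSq g τ
  rw [hg] at h
  have hpos := τ.im_pos
  have hn : Complex.normSq (denom (g : GL (Fin 2) ℝ) τ) ≠ 0 := by
    rw [Ne, Complex.normSq_eq_zero]
    exact denom_ne_zero (g : GL (Fin 2) ℝ) τ
  rw [eq_div_iff hn] at h
  have : τ.im * (Complex.normSq (denom (g : GL (Fin 2) ℝ) τ) - 1) = 0 := by linarith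
  rcases mul_eq_zero.mp this with h' | h'
  · exact absurd h' hpos.ne'
  · linarith

instance finite_stabilizer (τ : ℍ) : Finite (MulAction.stabilizer SL(2, ℤ) τ) := by
  set C : ℤ := ⌈1 / τ.im⌉ with hC
  set D : ℤ := ⌈1 + |τ.re| / τ.im⌉ with hD
  have hS : (Set.Icc (-C) C ×ˢ Set.Icc (-D) D : Set (ℤ × ℤ)).Finite :=
    (Set.finite_Icc _ _).prod (Set.finite_Icc _ _)
  have := hS.to_subtype
  have hmem : ∀ g : MulAction.stabilizer SL(2, ℤ) τ,
      (((g : SL(2, ℤ)) 1 0, (g : SL(2, ℤ)) 1 1) : ℤ × ℤ) ∈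
        (Set.Icc (-C) C ×ˢ Set.Icc (-D) D : Set (ℤ × ℤ)) := by
    intro g
    have h1 := normSq_denom_eq_one (g := (g : SL(2, ℤ))) (τ := τ) g.2
    rw [denom_eq, Complex.normSq_apply] at h1
    simp at h1
    set c : ℤ := (g : SL(2, ℤ)) 1 0
    set d : ℤ := (g : SL(2, ℤ)) 1 1
    have hy := τ.im_pos
    have hc1 : ((c : ℝ) * τ.im) ^ 2 ≤ 1 := by nlinarith [sq_nonneg ((c : ℝ) * τ.re + d)]
    have hd1 : ((c : ℝ) * τ.re + d) ^ 2 ≤ 1 := by nlinarith [sq_nonneg ((c : ℝ) * τ.im)]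
    rw [sq_le_one_iff_abs_le_one] at hc1 hd1
    have hc2 : |(c : ℝ)| ≤ 1 / τ.im := by
      rw [abs_mul, abs_of_pos hy] at hc1
      rw [le_div_iff₀ hy]
      exact hc1
    have hd2 : |(d : ℝ)| ≤ 1 + |τ.re| / τ.im := by
      have e1 : (d : ℝ) = ((c : ℝ) * τ.re + d) - (c : ℝ) * τ.re := by ring
      have e2 : |(c : ℝ) * τ.re| ≤ |τ.re| / τ.im := by
        rw [abs_mul, div_eq_inv_mul, ← one_div]
        exact mul_le_mul_of_nonneg_right hc2 (abs_nonneg _)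
      calc |(d : ℝ)| = |((c : ℝ) * τ.re + d) - (c : ℝ) * τ.re| := by rw [← e1]
        _ ≤ |(c : ℝ) * τ.re + d| + |(c : ℝ) * τ.re| := abs_sub _ _
        _ ≤ 1 + |τ.re| / τ.im := add_le_add hd1 e2
    have hcC : |(c : ℝ)| ≤ (C : ℝ) := hc2.trans (Int.le_ceil _)
    have hdD : |(d : ℝ)| ≤ (D : ℝ) := hd2.trans (Int.le_ceil _)
    rw [abs_le] at hcC hdD
    refine ⟨⟨?_, ?_⟩, ⟨?_, ?_⟩⟩
    · have := hcC.1; exact_mod_cast this
    · have := hcC.2; exact_mod_cast this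
    · have := hdD.1; exact_mod_cast this
    · have := hdD.2; exact_mod_cast this
  refine Finite.of_injective
    (fun g : MulAction.stabilizer SL(2, ℤ) τ =>
      (⟨_, hmem g⟩ : (Set.Icc (-C) C ×ˢ Set.Icc (-D) D : Set (ℤ × ℤ)))) ?_
  intro g h hgh
  apply stabChar_injective τ
  ext
  rw [stabChar_apply, stabChar_apply, denom_eq, denom_eq]
  have h1 := congrArg Subtype.val hgh
  simp only [Prod.mk.injEq] at h1
  rw [h1.1, h1.2]

/-- General weight: `Nat.card H ∣ 2 n + k`. -/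
theorem card_dvd_two_mul_ordAt_add {F : ℍ → ℂ} (hF : MDiff F) {k : ℤ} {τ : ℍ}
    (H : Subgroup SL(2, ℤ))
    (hH : H ≤ MulAction.stabilizer SL(2, ℤ) τ)
    (hinv : ∀ g ∈ H, F ∣[k] g = F) {n : ℕ} (hn : ordAt F τ = n) :
    (Nat.card H : ℤ) ∣ 2 * (n : ℤ) + k := by
  let χ : H →* ℂˣ := (stabChar τ).comp (Subgroup.inclusion hH)
  have hχ : Function.Injective χ :=
    (stabChar_injective τ).comp (Subgroup.inclusion_injective hH)
  have : Finite H :=
    Finite.of_injective (Subgroup.inclusion hH) (Subgroup.inclusion_injective hH)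
  have : IsCyclic H :=
    isCyclic_of_injective_ringHom ((Units.coeHom ℂ).comp χ)
      (Units.val_injective.comp hχ)
  obtain ⟨g0, hg0⟩ := IsCyclic.exists_generator (α := H)
  have hord : orderOf g0 = Nat.card H := orderOf_eq_card_of_forall_mem_zpowers hg0
  have h1 : χ g0 ^ (2 * (n : ℤ) + k) = 1 := by
    ext
    rw [Units.val_zpow_eq_zpow_val]
    exact denom_zpow_eq_one hF (hH g0.2) (hinv g0 g0.2) hn
  rw [← hord, ← orderOf_injective χ hχ g0]
  exact orderOf_dvd_iff_zpow_eq_one.mpr h1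

theorem neg_one_ne_one : (-1 : SL(2, ℤ)) ≠ 1 := by
  intro h
  have h1 := congrArg (fun g : SL(2, ℤ) => g 0 0) h
  simp at h1

/-- Orders of weight-`0` invariant functions at a point are divisible by half the order of (a
subgroup of) the stabiliser. -/
theorem card_div_two_dvd_ordAt {F : ℍ → ℂ} (hF : MDiff F) {τ : ℍ} (H : Subgroup SL(2, ℤ))
    (hH : H ≤ MulAction.stabilizer SL(2, ℤ) τ) (hneg : (-1 : SL(2, ℤ)) ∈ H)
    (hinv : ∀ g ∈ H, F ∣[(0 : ℤ)] g = F) {n : ℕ} (hn : ordAt F τ = n) :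
    Nat.card H / 2 ∣ n := by
  have h1 := card_dvd_two_mul_ordAt_add hF H hH hinv hn
  rw [add_zero] at h1
  have h2 : Nat.card H ∣ 2 * n := by exact_mod_cast h1
  have : Finite H :=
    Finite.of_injective (Subgroup.inclusion hH) (Subgroup.inclusion_injective hH)
  have h3 : 2 ∣ Nat.card H := by
    have : Fact (Nat.Prime 2) := ⟨Nat.prime_two⟩
    have h4 : orderOf (⟨-1, hneg⟩ : H) = 2 := by
      apply orderOf_eq_prime
      · ext : 1
        simp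
      · intro h5
        exact neg_one_ne_one (congrArg Subtype.val h5)
    have h5 := orderOf_dvd_natCard (⟨-1, hneg⟩ : H)
    rwa [h4] at h5
  obtain ⟨m, hm⟩ := h3
  rw [hm, Nat.mul_div_cancel_left m (by norm_num)]
  rw [hm] at h2
  exact (Nat.mul_dvd_mul_iff_left (by norm_num)).mp h2

/-! ### P6: division -/

theorem exists_eq_mul_of_ordAt_le {F G : ℍ → ℂ} (hF : MDiff F) (hG : MDiff G)
    (h : ∀ τ, ordAt G τ ≤ ordAt F τ) : ∃ Q : ℍ → ℂ, MDiff Q ∧ F = Q * G := by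
  by_cases hG0 : G = 0
  · subst hG0
    refine ⟨0, mdiff_const 0, ?_⟩
    have h1 := h UpperHalfPlane.I
    rw [ordAt_zero, top_le_iff] at h1
    rw [(ordAt_eq_top_iff hF _).mp h1]
    simp
  · set Q : ℍ → ℂ := fun τ => cfAt F τ (ordAt G τ).toNat / cfAt G τ (ordAt G τ).toNat with hQ
    have key : ∀ τ : ℍ, ∃ A B : ℂ → ℂ, AnalyticAt ℂ A τ ∧ AnalyticAt ℂ B τ ∧ B τ ≠ 0 ∧
        (∀ᶠ z in 𝓝 (τ : ℂ), (Q ∘ ofComplex) z = A z / B z) ∧ F τ = A τ / B τ * G τ := by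
      intro τ
      set m : ℕ := (ordAt G τ).toNat with hm
      have hGm : ordAt G τ = m := (ENat.natCast_toNat (ordAt_ne_top hG hG0 τ)).symm
      obtain ⟨B, hB, hB0, hB'⟩ := exists_normal_form hG hGm.ge
      obtain ⟨A, hA, hA0, hA'⟩ := exists_normal_form hF (hGm.ge.trans (h τ))
      have hBne : B τ ≠ 0 := by
        rw [hB0]; exact ((ordAt_eq_iff hG τ m).mp hGm).2
      have hBev : ∀ᶠ z in 𝓝 (τ : ℂ), B z ≠ 0 := hB.continuousAt.eventually_ne hBne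
      refine ⟨A, B, hA, hB, hBne, ?_, ?_⟩
      · filter_upwards [hA', hB', hBev, isOpen_upperHalfPlaneSet.mem_nhds τ.im_pos]
          with z hz1 hz2 hz3 hz4
        rcases eq_or_ne z (τ : ℂ) with rfl | hzτ
        · show Q (ofComplex (τ : ℂ)) = _
          rw [ofComplex_apply, hQ]
          simp only
          rw [← hm, ← hA0, ← hB0]
        · have hpow : (z - (τ : ℂ)) ^ m ≠ 0 := pow_ne_zero _ (sub_ne_zero.mpr hzτ)
          have hGz : G (ofComplex z) ≠ 0 := by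
            have : G (ofComplex z) = (z - τ) ^ m * B z := hz2
            rw [this]; exact mul_ne_zero hpow hz3
          have hord : ordAt G (ofComplex z) = 0 := (ordAt_eq_zero_iff hG _).mpr hGz
          show Q (ofComplex z) = _
          rw [hQ]
          simp only
          rw [hord]
          simp only [ENat.toNat_zero, cfAt_zero]
          have e1 : F (ofComplex z) = (z - τ) ^ m * A z := hz1
          have e2 : G (ofComplex z) = (z - τ) ^ m * B z := hz2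
          rw [e1, e2, mul_div_mul_left _ _ hpow]
      · have e1 : F τ = ((τ : ℂ) - τ) ^ m * A τ := by
          have := hA'.self_of_nhds
          simpa [ofComplex_apply] using this
        have e2 : G τ = ((τ : ℂ) - τ) ^ m * B τ := by
          have := hB'.self_of_nhds
          simpa [ofComplex_apply] using this
        rw [e1, e2]
        field_simp
    refine ⟨Q, fun τ => ?_, ?_⟩
    · obtain ⟨A, B, hA, hB, hBne, hev, -⟩ := key τ
      rw [UpperHalfPlane.mdifferentiableAt_iff]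
      have hAB : AnalyticAt ℂ (fun z => A z / B z) τ := hA.div hB hBne
      exact hAB.differentiableAt.congr_of_eventuallyEq hev
    · funext τ
      obtain ⟨A, B, hA, hB, hBne, hev, hval⟩ := key τ
      have hQτ : Q τ = A τ / B τ := by
        have := hev.self_of_nhds
        simpa [ofComplex_apply] using this
      rw [Pi.mul_apply, hQτ]
      exact hval

/-! ### P7: derivative -/

open scoped Derivative in
theorem ordAt_D_add_one {F : ℍ → ℂ} (hF : MDiff F) (τ : ℍ) :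
    ordAt (D F) τ + 1 = ordAt (fun z => F z - F τ) τ := by
  unfold ordAt
  have hc : (2 * (π : ℂ) * I)⁻¹ ≠ 0 := by
    apply inv_ne_zero
    exact Complex.two_pi_I_ne_zero
  have h1 : (D F) ∘ ofComplex =ᶠ[𝓝 (τ : ℂ)]
      (fun _ => (2 * (π : ℂ) * I)⁻¹) * deriv (F ∘ ofComplex) := by
    filter_upwards [isOpen_upperHalfPlaneSet.mem_nhds τ.im_pos] with z hz
    simp [Derivative.normalizedDerivOfComplex, ofComplex_apply_of_im_pos hz]
  have hFan := analyticAt_of_mdiff hF τ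
  rw [analyticOrderAt_congr h1, analyticOrderAt_mul analyticAt_const hFan.deriv,
    (analyticOrderAt_eq_zero (f := fun _ : ℂ => (2 * (π : ℂ) * I)⁻¹)).mpr (Or.inr hc), zero_add,
    hFan.analyticOrderAt_deriv_add_one]
  congr 1
  funext z
  simp [ofComplex_apply]

end Fermat.Agent.GenusLib.Pts
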