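import Mathlib
import Fermat.Agent.GenusLib.LSDefs
import Fermat.Agent.GenusLib.Pts

/-!
# PROJECT X (S20), step LS: orbit combinatorics and translates

Sections `Orb` (pure group theory on `X N = SL(2, ℤ) ⧸ Γ₀(N)`) and `Trn` (the weight `0`
translates `trn q b`).
-/

set_option autoImplicit false
set_option linter.unusedSectionVars false

noncomputable section

namespace Fermat.Agent.GenusLib.LS

open UpperHalfPlane hiding I
open scoped MatrixGroups ModularForm Manifold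
open CongruenceSubgroup Module
open Fermat.Agent.S23Lib Fermat.Agent.S23Lib.Conj Fermat.Agent.GenusLib.Defs
open Fermat.Agent.GenusLib

/-! ## Orbit combinatorics (pure group theory) -/
section Orb
variable {N : ℕ} [NeZero N]

theorem sum_sP (τ : ℍ) : ∑ ω : OrbP N τ, sP ω = Nat.card (X N) := by
  rw [Nat.card_congr (MulAction.selfEquivSigmaOrbits (StabG τ) (X N)), Nat.card_sigma]
  rfl

theorem sum_hQ : ∑ ω : OrbQ N, hQ ω = Nat.card (X N) := by
  rw [Nat.card_congr (MulAction.selfEquivSigmaOrbits ZT (X N)), Nat.card_sigma]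
  rfl

theorem neg_one_mem_StabG (τ : ℍ) : (-1 : SL(2, ℤ)) ∈ StabG τ := by
  rw [MulAction.mem_stabilizer_iff, ModularGroup.SL_neg_smul, one_smul]

theorem neg_one_mem_Gamma0 (N : ℕ) : (-1 : SL(2, ℤ)) ∈ Gamma0 N := by
  rw [Gamma0_mem]
  simp

theorem neg_one_smul_X (q : X N) : (-1 : SL(2, ℤ)) • q = q := by
  induction q using QuotientGroup.induction_on with
  | H g =>
    rw [MulAction.Quotient.smul_mk, QuotientGroup.eq]
    have : ((-1 : SL(2, ℤ)) • g)⁻¹ * g = -1 := by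
      rw [smul_eq_mul]
      simp
    rw [this]
    exact neg_one_mem_Gamma0 N

theorem two_dvd_card_stabilizer {τ : ℍ} (q : X N) :
    2 ∣ Nat.card (MulAction.stabilizer (StabG τ) q) := by
  have : Fact (Nat.Prime 2) := ⟨Nat.prime_two⟩
  let u : MulAction.stabilizer (StabG τ) q :=
    ⟨⟨-1, neg_one_mem_StabG τ⟩, by
      rw [MulAction.mem_stabilizer_iff]
      exact neg_one_smul_X q⟩
  have h4 : orderOf u = 2 := by
    apply orderOf_eq_prime
    · ext : 2
      simp [u]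
    · intro h5
      have := congrArg (fun x : MulAction.stabilizer (StabG τ) q => ((x : StabG τ) : SL(2, ℤ))) h5
      exact Pts.neg_one_ne_one this
  have h5 := orderOf_dvd_natCard u
  rwa [h4] at h5

theorem sP_mul_eP {τ : ℍ} (ω : OrbP N τ) : sP ω * eP ω = Nat.card (StabG τ) / 2 := by
  unfold sP eP
  have h1 : Nat.card (MulAction.orbit (StabG τ) (repP ω)) *
      Nat.card (MulAction.stabilizer (StabG τ) (repP ω)) = Nat.card (StabG τ) := by
    rw [Nat.card_congr (MulAction.orbitEquivQuotientStabilizer (StabG τ) (repP ω))]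
    exact (Subgroup.card_eq_card_quotient_mul_card_subgroup _).symm
  obtain ⟨m, hm⟩ := two_dvd_card_stabilizer (τ := τ) (repP ω)
  rw [hm] at h1 ⊢
  rw [Nat.mul_div_cancel_left m (by norm_num), ← h1]
  rw [show Nat.card (MulAction.orbit (StabG τ) (repP ω)) * (2 * m) =
    2 * (Nat.card (MulAction.orbit (StabG τ) (repP ω)) * m) by ring,
    Nat.mul_div_cancel_left _ (by norm_num)]

theorem eP_pos {τ : ℍ} (ω : OrbP N τ) : 0 < eP ω := by
  unfold eP
  obtain ⟨m, hm⟩ := two_dvd_card_stabilizer (τ := τ) (repP ω)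
  have hpos : 0 < Nat.card (MulAction.stabilizer (StabG τ) (repP ω)) := Nat.card_pos
  rw [hm] at hpos ⊢
  rw [Nat.mul_div_cancel_left m (by norm_num)]
  omega

theorem sP_pos {τ : ℍ} (ω : OrbP N τ) : 0 < sP ω := by
  unfold sP
  have : Nonempty (MulAction.orbit (StabG τ) (repP ω)) :=
    ⟨⟨repP ω, MulAction.mem_orbit_self _⟩⟩
  exact Nat.card_pos

theorem hQ_pos (ω : OrbQ N) : 0 < hQ ω := by
  unfold hQ
  have : Nonempty (MulAction.orbit ZT (repQ ω)) :=
    ⟨⟨repQ ω, MulAction.mem_orbit_self _⟩⟩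
  exact Nat.card_pos

theorem hQ_eq_minimalPeriod (ω : OrbQ N) :
    hQ ω = Function.minimalPeriod (fun x : X N => ModularGroup.T • x) (repQ ω) := by
  unfold hQ
  have h := @MulAction.minimalPeriod_eq_card _ _ _ ModularGroup.T _ (repQ ω) (Fintype.ofFinite _)
  rw [h]
  exact @Nat.card_eq_fintype_card _ (Fintype.ofFinite _)

/-- `T ^ i` fixes the representative of the cusp `ω` iff the width divides `i` -/
theorem T_zpow_smul_repQ_iff (ω : OrbQ N) (i : ℤ) :
    ModularGroup.T ^ i • repQ ω = repQ ω ↔ (hQ ω : ℤ) ∣ i := by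
  rw [hQ_eq_minimalPeriod]
  exact MulAction.zpow_smul_eq_iff_minimalPeriod_dvd

theorem T_zpow_smul_X (q : X N) : ModularGroup.T ^ (N : ℤ) • q = q := by
  induction q using QuotientGroup.induction_on with
  | H g =>
    rw [MulAction.Quotient.smul_mk, QuotientGroup.eq, smul_eq_mul]
    have h1 : ModularGroup.T ^ (N : ℤ) ∈ Gamma N := by
      rw [Gamma_mem, ModularGroup.coe_T_zpow]
      simp
    have h2 : g⁻¹ * ModularGroup.T ^ (N : ℤ) * g ∈ Gamma N := by
      have := (Gamma_normal N).conj_mem _ h1 g⁻¹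
      simpa using this
    have h3 : (ModularGroup.T ^ (N : ℤ) * g)⁻¹ * g = (g⁻¹ * ModularGroup.T ^ (N : ℤ) * g)⁻¹ := by
      group
    rw [h3]
    refine (Gamma0 N).inv_mem ?_
    rw [Gamma0_mem]
    exact (Gamma_mem.mp h2).2.2.1

theorem hQ_dvd (ω : OrbQ N) : hQ ω ∣ N := by
  have h := (T_zpow_smul_repQ_iff ω (N : ℤ)).mp (T_zpow_smul_X _)
  exact_mod_cast h

/-- every coset lies in the orbit of the chosen representative of its orbit -/
theorem exists_smul_repP (τ : ℍ) (q : X N) :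
    ∃ h : SL(2, ℤ), h ∈ StabG τ ∧ q = h • repP (Quotient.mk'' q : OrbP N τ) := by
  have h1 : (Quotient.mk'' (repP (Quotient.mk'' q : OrbP N τ)) : OrbP N τ) = Quotient.mk'' q :=
    Quotient.out_eq' _
  have h2 := Quotient.eq''.mp h1
  rw [MulAction.orbitRel_apply, MulAction.mem_orbit_iff] at h2
  obtain ⟨g, hg⟩ := h2
  refine ⟨(g : SL(2, ℤ))⁻¹, (StabG τ).inv_mem g.2, ?_⟩
  rw [← hg]
  show q = (g : SL(2, ℤ))⁻¹ • ((g : SL(2, ℤ)) • q)
  rw [inv_smul_smul]

theorem exists_zpow_smul_repQ (q : X N) :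
    ∃ i : ℤ, q = ModularGroup.T ^ i • repQ (Quotient.mk'' q : OrbQ N) := by
  have h1 : (Quotient.mk'' (repQ (Quotient.mk'' q : OrbQ N)) : OrbQ N) = Quotient.mk'' q :=
    Quotient.out_eq' _
  have h2 := Quotient.eq''.mp h1
  rw [MulAction.orbitRel_apply, MulAction.mem_orbit_iff] at h2
  obtain ⟨g, hg⟩ := h2
  obtain ⟨i, hi⟩ := Subgroup.mem_zpowers_iff.mp g.2
  refine ⟨-i, ?_⟩
  rw [← hg, zpow_neg, hi]
  show q = (g : SL(2, ℤ))⁻¹ • ((g : SL(2, ℤ)) • q)
  rw [inv_smul_smul]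

theorem mk_eq_mk_iffP {τ : ℍ} (q q' : X N) :
    (Quotient.mk'' q : OrbP N τ) = Quotient.mk'' q' ↔ ∃ h : SL(2, ℤ), h ∈ StabG τ ∧ q = h • q' := by
  rw [Quotient.eq'', MulAction.orbitRel_apply, MulAction.mem_orbit_iff]
  constructor
  · rintro ⟨g, hg⟩
    exact ⟨g, g.2, hg.symm⟩
  · rintro ⟨h, hh, rfl⟩
    exact ⟨⟨h, hh⟩, rfl⟩

theorem mk_eq_mk_iffQ (q q' : X N) :
    (Quotient.mk'' q : OrbQ N) = Quotient.mk'' q' ↔ ∃ i : ℤ, q = ModularGroup.T ^ i • q' := by
  rw [Quotient.eq'', MulAction.orbitRel_apply, MulAction.mem_orbit_iff]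
  constructor
  · rintro ⟨g, hg⟩
    obtain ⟨i, hi⟩ := Subgroup.mem_zpowers_iff.mp g.2
    refine ⟨i, ?_⟩
    rw [hi]
    exact hg.symm
  · rintro ⟨i, rfl⟩
    exact ⟨⟨ModularGroup.T ^ i, Subgroup.zpow_mem_zpowers _ i⟩, rfl⟩

/-- the subgroup of `SL(2, ℤ)` fixing `τ` and the coset `repP ω`: it has `2 * eP ω` elements -/
def stabP {τ : ℍ} (ω : OrbP N τ) : Subgroup SL(2, ℤ) :=
  StabG τ ⊓ MulAction.stabilizer SL(2, ℤ) (repP ω)

theorem card_stabP {τ : ℍ} (ω : OrbP N τ) : Nat.card (stabP ω) / 2 = eP ω := by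
  unfold eP
  congr 1
  refine Nat.card_congr
    { toFun := fun g => ⟨⟨g.1, g.2.1⟩, g.2.2⟩
      invFun := fun g => ⟨g.1.1, ⟨g.1.2, g.2⟩⟩
      left_inv := fun _ => rfl
      right_inv := fun _ => rfl }

theorem neg_one_mem_stabP {τ : ℍ} (ω : OrbP N τ) : (-1 : SL(2, ℤ)) ∈ stabP ω :=
  ⟨neg_one_mem_StabG τ, neg_one_smul_X _⟩

end Orb

/-! ## Translates -/
section Trn
variable {N : ℕ} [NeZero N]

theorem trn_eq_tr {b : ℍ → ℂ} (hb : Inv (Gamma0 N) 0 b) (q : X N) : trn q b = Sym.tr b 0 hb q := by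
  conv_rhs => rw [← Quotient.out_eq' q]
  rfl

theorem trn_mk {b : ℍ → ℂ} (hb : Inv (Gamma0 N) 0 b) (g : SL(2, ℤ)) :
    trn ((g : SL(2, ℤ)) : X N) b = b ∣[(0 : ℤ)] g⁻¹ := by
  rw [trn_eq_tr hb]
  exact Sym.tr_mk b 0 hb g

theorem trn_slash {b : ℍ → ℂ} (hb : Inv (Gamma0 N) 0 b) (h : SL(2, ℤ)) (q : X N) :
    (trn q b) ∣[(0 : ℤ)] h = trn (h⁻¹ • q) b := by
  rw [trn_eq_tr hb, trn_eq_tr hb]
  exact Sym.tr_slash b 0 hb h q

theorem trn_smul {b : ℍ → ℂ} (hb : Inv (Gamma0 N) 0 b) (h : SL(2, ℤ)) (q : X N) :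
    trn (h • q) b = (trn q b) ∣[(0 : ℤ)] h⁻¹ := by
  rw [trn_slash hb, inv_inv]

theorem trn_apply (q : X N) (b : ℍ → ℂ) (z : ℍ) : trn q b z = b ((Quotient.out q)⁻¹ • z) := by
  unfold trn
  rw [ModularForm.SL_slash_apply]
  simp

theorem trn_add (q : X N) (b c : ℍ → ℂ) : trn q (b + c) = trn q b + trn q c := by
  funext z; simp [trn_apply]

theorem trn_sub (q : X N) (b c : ℍ → ℂ) : trn q (b - c) = trn q b - trn q c := by
  funext z; simp [trn_apply]

theorem trn_const_smul (q : X N) (a : ℂ) (b : ℍ → ℂ) : trn q (a • b) = a • trn q b := by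
  funext z; simp [trn_apply]

theorem trn_mul (q : X N) (b c : ℍ → ℂ) : trn q (b * c) = trn q b * trn q c := by
  funext z; simp [trn_apply]

theorem trn_mdiff (q : X N) {b : ℍ → ℂ} (hb : MDiff b) : MDiff (trn q b) :=
  hb.slash 0 _

theorem trn_levelOne (q : X N) {F : ℍ → ℂ} (hF : ∀ γ : SL(2, ℤ), F ∣[(0 : ℤ)] γ = F) :
    trn q F = F := hF _

end Trn

end Fermat.Agent.GenusLib.LS
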