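import Mathlib

/-!
# The `j`-invariant is injective modulo `SL(2, ℤ)`

`j_injective`: if `E₄(τ₁)³ Δ(τ₂) = E₄(τ₂)³ Δ(τ₁)` then `τ₂ = g • τ₁` for some `g : SL(2, ℤ)`.

Route: the lattices `ℤ τ₁ + ℤ` and `c (ℤ τ₂ + ℤ)` have the same `g₂`, `g₃` for a suitable `c`;
two period pairs with the same `g₂`, `g₃` have the same Weierstrass `℘` near `0` (the difference
`u` of the two `℘` functions is analytic at `0` and satisfies a first order equation
`z u' A = u B` with `A(0) = -4`, `B(0) = 12`, which has no nonzero analytic solution), hence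
everywhere (identity theorem for meromorphic functions), hence the same poles, i.e. the same
lattice.
-/

set_option autoImplicit false

open Filter Topology UpperHalfPlane ModularForm MatrixGroups EisensteinSeries

namespace Fermat.Agent.GenusLib.JInj

/-! ### A first order equation without analytic solutions -/

/-- a first order "Fuchsian" equation `z u' A = u B` with `B(0)/A(0) ∉ ℕ` has no nonzero
analytic solution near `0` -/
theorem eventually_eq_zero_of_ode {u A B : ℂ → ℂ} (hu : AnalyticAt ℂ u 0)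
    (hA : ContinuousAt A 0) (hB : ContinuousAt B 0)
    (hAB : ∀ n : ℕ, (n : ℂ) * A 0 ≠ B 0)
    (h : ∀ᶠ z in 𝓝 (0 : ℂ), z * deriv u z * A z = u z * B z) :
    ∀ᶠ z in 𝓝 (0 : ℂ), u z = 0 := by
  by_contra hne
  obtain ⟨n, v, hv, hv0, huv⟩ := (hu.exists_eventuallyEq_pow_smul_nonzero_iff).2 hne
  simp only [sub_zero, smul_eq_mul] at huv
  have hder : ∀ᶠ z in 𝓝 (0 : ℂ), deriv u z = n * z ^ (n - 1) * v z + z ^ n * deriv v z := by
    have h1 : ∀ᶠ z in 𝓝 (0 : ℂ), deriv u z = deriv (fun w => w ^ n * v w) z := by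
      have h0 : u =ᶠ[𝓝 0] (fun w => w ^ n * v w) := huv
      exact h0.deriv
    have h2 : ∀ᶠ z in 𝓝 (0 : ℂ), AnalyticAt ℂ v z := hv.eventually_analyticAt
    filter_upwards [h1, h2] with z hz1 hz2
    rw [hz1]
    have h3 : HasDerivAt (fun w => w ^ n * v w) (n * z ^ (n - 1) * v z + z ^ n * deriv v z) z :=
      (hasDerivAt_pow n z).mul hz2.differentiableAt.hasDerivAt
    exact h3.deriv
  -- the key function
  set F : ℂ → ℂ := fun z => (n * v z + z * deriv v z) * A z - v z * B z with hF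
  have hFc : ContinuousAt F 0 := by
    have hvc : ContinuousAt v 0 := hv.continuousAt
    have hdvc : ContinuousAt (deriv v) 0 := hv.deriv.continuousAt
    exact (((continuousAt_const.mul hvc).add (continuousAt_id.mul hdvc)).mul hA).sub (hvc.mul hB)
  have hF0 : ∀ᶠ z in 𝓝[≠] (0 : ℂ), F z = 0 := by
    have h4 : ∀ᶠ z in 𝓝 (0 : ℂ), z ≠ 0 → F z = 0 := by
      filter_upwards [h, hder, huv] with z hz1 hz2 hz3 hz0
      rw [hz2, hz3] at hz1
      have hzn : z ^ n ≠ 0 := pow_ne_zero n hz0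
      have e1 : z * (z ^ (n - 1)) * (n : ℂ) = z ^ n * n := by
        rcases Nat.eq_zero_or_pos n with rfl | hn
        · simp
        · rw [← pow_succ', Nat.sub_add_cancel hn]
      have e2 : z ^ n * F z = 0 := by
        simp only [hF]
        linear_combination hz1 - (v z * A z) * e1
      exact (mul_eq_zero.1 e2).resolve_left hzn
    exact eventually_nhdsWithin_iff.2 h4
  have hlim1 : Tendsto F (𝓝[≠] (0 : ℂ)) (𝓝 (F 0)) := hFc.tendsto.mono_left nhdsWithin_le_nhds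
  have hlim2 : Tendsto F (𝓝[≠] (0 : ℂ)) (𝓝 0) :=
    tendsto_const_nhds.congr' (hF0.mono fun z hz => hz.symm)
  have hF00 : F 0 = 0 := tendsto_nhds_unique hlim1 hlim2
  simp only [hF, zero_mul, add_zero] at hF00
  apply hAB n
  have : v 0 * ((n : ℂ) * A 0 - B 0) = 0 := by linear_combination hF00
  have := (mul_eq_zero.1 this).resolve_left hv0
  linear_combination this

/-! ### Two period pairs with the same `g₂`, `g₃` -/

/-- the algebra behind the comparison of two solutions of the Weierstrass equation -/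
theorem ode_algebra (z e₁ e₂ d₁ d₂ g₂ g₃ : ℂ) (hz : z ≠ 0)
    (h1 : (d₁ - 2 / z ^ 3) ^ 2 = 4 * (e₁ + 1 / z ^ 2) ^ 3 - g₂ * (e₁ + 1 / z ^ 2) - g₃)
    (h2 : (d₂ - 2 / z ^ 3) ^ 2 = 4 * (e₂ + 1 / z ^ 2) ^ 3 - g₂ * (e₂ + 1 / z ^ 2) - g₃) :
    z * (d₁ - d₂) * (z ^ 3 * (d₁ + d₂) - 4) =
      (e₁ - e₂) * (12 + 12 * z ^ 2 * (e₁ + e₂) + 4 * z ^ 4 * (e₁ ^ 2 + e₁ * e₂ + e₂ ^ 2)
        - g₂ * z ^ 4) := by
  have h1' : (d₁ * z ^ 3 - 2) ^ 2 = 4 * (e₁ * z ^ 2 + 1) ^ 3 - g₂ * (e₁ * z ^ 2 + 1) * z ^ 4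
      - g₃ * z ^ 6 := by
    field_simp at h1
    linear_combination h1
  have h2' : (d₂ * z ^ 3 - 2) ^ 2 = 4 * (e₂ * z ^ 2 + 1) ^ 3 - g₂ * (e₂ * z ^ 2 + 1) * z ^ 4
      - g₃ * z ^ 6 := by
    field_simp at h2
    linear_combination h2
  have h3 : z ^ 2 * (z * (d₁ - d₂) * (z ^ 3 * (d₁ + d₂) - 4) -
      (e₁ - e₂) * (12 + 12 * z ^ 2 * (e₁ + e₂) + 4 * z ^ 4 * (e₁ ^ 2 + e₁ * e₂ + e₂ ^ 2)
        - g₂ * z ^ 4)) = 0 := by
    linear_combination h1' - h2'
  have h4 := (mul_eq_zero.1 h3).resolve_left (pow_ne_zero 2 hz)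
  linear_combination h4

/-- `℘ = ℘[L - 0] + 1/z²` -/
theorem weierstrassP_eq (L : PeriodPair) (z : ℂ) :
    L.weierstrassP z = L.weierstrassPExcept 0 z + 1 / z ^ 2 := by
  have h := L.weierstrassPExcept_def (0 : L.lattice) z
  simp only [ZeroMemClass.coe_zero, sub_zero] at h
  rw [h]; simp

/-- `℘' = ℘'[L - 0] - 2/z³` -/
theorem derivWeierstrassP_eq (L : PeriodPair) (z : ℂ) :
    L.derivWeierstrassP z = L.derivWeierstrassPExcept 0 z - 2 / z ^ 3 := by
  have h := L.derivWeierstrassPExcept_def (0 : L.lattice) z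
  simp only [ZeroMemClass.coe_zero, sub_zero] at h
  rw [h]; ring

/-- the Weierstrass equation in terms of the regular parts -/
theorem except_ode (L : PeriodPair) (z : ℂ) (hz : z ∉ L.lattice) :
    (L.derivWeierstrassPExcept 0 z - 2 / z ^ 3) ^ 2 =
      4 * (L.weierstrassPExcept 0 z + 1 / z ^ 2) ^ 3
        - L.g₂ * (L.weierstrassPExcept 0 z + 1 / z ^ 2) - L.g₃ := by
  rw [← weierstrassP_eq, ← derivWeierstrassP_eq]
  exact L.derivWeierstrassP_sq z hz

/-- two period pairs with the same `g₂`, `g₃` have the same `℘` near `0` -/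
theorem weierstrassPExcept_eventuallyEq (L₁ L₂ : PeriodPair) (h₂ : L₁.g₂ = L₂.g₂)
    (h₃ : L₁.g₃ = L₂.g₃) :
    ∀ᶠ z in 𝓝 (0 : ℂ), L₁.weierstrassPExcept 0 z = L₂.weierstrassPExcept 0 z := by
  set e₁ := L₁.weierstrassPExcept 0 with he₁
  set e₂ := L₂.weierstrassPExcept 0 with he₂
  set d₁ := L₁.derivWeierstrassPExcept 0 with hd₁
  set d₂ := L₂.derivWeierstrassPExcept 0 with hd₂
  have ha₁ : AnalyticAt ℂ e₁ 0 := L₁.analyticAt_weierstrassPExcept 0
  have ha₂ : AnalyticAt ℂ e₂ 0 := L₂.analyticAt_weierstrassPExcept 0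
  have hb₁ : AnalyticAt ℂ d₁ 0 := L₁.analyticAt_derivWeierstrassPExcept 0
  have hb₂ : AnalyticAt ℂ d₂ 0 := L₂.analyticAt_derivWeierstrassPExcept 0
  have hc₁ : ContinuousAt e₁ 0 := ha₁.continuousAt
  have hc₂ : ContinuousAt e₂ 0 := ha₂.continuousAt
  have hu : AnalyticAt ℂ (fun z => e₁ z - e₂ z) 0 := ha₁.sub ha₂
  have hid : ContinuousAt (fun z : ℂ => z) 0 := continuousAt_id
  have hA : ContinuousAt (fun z : ℂ => z ^ 3 * (d₁ z + d₂ z) - 4) 0 :=
    ((hid.pow 3).mul (hb₁.continuousAt.add hb₂.continuousAt)).sub continuousAt_const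
  have hB : ContinuousAt (fun z : ℂ => 12 + 12 * z ^ 2 * (e₁ z + e₂ z)
      + 4 * z ^ 4 * (e₁ z ^ 2 + e₁ z * e₂ z + e₂ z ^ 2) - L₁.g₂ * z ^ 4) 0 :=
    (((continuousAt_const).add ((continuousAt_const.mul (hid.pow 2)).mul (hc₁.add hc₂))).add
      ((continuousAt_const.mul (hid.pow 4)).mul (((hc₁.pow 2).add (hc₁.mul hc₂)).add
        (hc₂.pow 2)))).sub (continuousAt_const.mul (hid.pow 4))
  have hres := eventually_eq_zero_of_ode hu hA hB (by
    intro n hn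
    have h4 : (n : ℂ) = -3 := by
      simp only [ne_eq, OfNat.ofNat_ne_zero, not_false_eq_true, zero_pow, zero_mul, zero_sub,
        mul_zero, add_zero, sub_zero] at hn
      linear_combination (-1 / 4 : ℂ) * hn
    have h5 := congrArg Complex.re h4
    simp at h5
    have h6 : (0 : ℝ) ≤ n := Nat.cast_nonneg n
    linarith) (by
    have hN₁ := L₁.compl_lattice_sdiff_singleton_mem_nhds 0
    have hN₂ := L₂.compl_lattice_sdiff_singleton_mem_nhds 0
    filter_upwards [hN₁, hN₂] with z hz₁ hz₂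
    by_cases hz : z = 0
    · subst hz
      simp [he₁, he₂]
    · have hz₁' : z ∉ L₁.lattice := fun hmem => hz₁ ⟨hmem, hz⟩
      have hz₂' : z ∉ L₂.lattice := fun hmem => hz₂ ⟨hmem, hz⟩
      have hdiff₁ : DifferentiableAt ℂ e₁ z :=
        (L₁.differentiableOn_weierstrassPExcept 0).differentiableAt
          (L₁.isOpen_compl_lattice_sdiff.mem_nhds hz₁)
      have hdiff₂ : DifferentiableAt ℂ e₂ z :=
        (L₂.differentiableOn_weierstrassPExcept 0).differentiableAt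
          (L₂.isOpen_compl_lattice_sdiff.mem_nhds hz₂)
      have hder : deriv (fun z => e₁ z - e₂ z) z = d₁ z - d₂ z := by
        rw [deriv_fun_sub hdiff₁ hdiff₂,
          L₁.eqOn_deriv_weierstrassPExcept_derivWeierstrassPExcept 0 hz₁,
          L₂.eqOn_deriv_weierstrassPExcept_derivWeierstrassPExcept 0 hz₂]
      rw [hder]
      have o₁ := except_ode L₁ z hz₁'
      have o₂ := except_ode L₂ z hz₂'
      rw [← h₂, ← h₃] at o₂
      exact ode_algebra z (e₁ z) (e₂ z) (d₁ z) (d₂ z) L₁.g₂ L₁.g₃ hz o₁ o₂)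
  filter_upwards [hres] with z hz
  exact sub_eq_zero.1 hz

/-- two period pairs with the same `g₂`, `g₃`: one inclusion of lattices -/
theorem lattice_le_of_g₂_g₃ (L₁ L₂ : PeriodPair) (h₂ : L₁.g₂ = L₂.g₂) (h₃ : L₁.g₃ = L₂.g₃) :
    L₁.lattice ≤ L₂.lattice := by
  intro l hl
  by_contra hl2
  have hD : MeromorphicOn (fun z => L₁.weierstrassP z - L₂.weierstrassP z) Set.univ :=
    fun x _ => (L₁.meromorphic_weierstrassP x).sub (L₂.meromorphic_weierstrassP x)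
  have h0 : meromorphicOrderAt (fun z => L₁.weierstrassP z - L₂.weierstrassP z) 0 = ⊤ := by
    rw [meromorphicOrderAt_eq_top_iff]
    have h1 := weierstrassPExcept_eventuallyEq L₁ L₂ h₂ h₃
    filter_upwards [eventually_nhdsWithin_of_eventually_nhds h1] with z hz
    rw [weierstrassP_eq, weierstrassP_eq, hz]
    ring
  have hl' : meromorphicOrderAt (fun z => L₁.weierstrassP z - L₂.weierstrassP z) l = ⊤ := by
    by_contra hne
    exact (hD.meromorphicOrderAt_ne_top_of_isPreconnected isPreconnected_univ (Set.mem_univ l)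
      (Set.mem_univ 0) hne) h0
  have h3 : L₁.weierstrassP =ᶠ[𝓝[≠] l] L₂.weierstrassP := by
    rw [meromorphicOrderAt_eq_top_iff] at hl'
    filter_upwards [hl'] with z hz
    exact sub_eq_zero.1 hz
  have h4 : meromorphicOrderAt L₁.weierstrassP l = meromorphicOrderAt L₂.weierstrassP l :=
    meromorphicOrderAt_congr h3
  rw [L₁.order_weierstrassP l hl] at h4
  have h5 : 0 ≤ meromorphicOrderAt L₂.weierstrassP l :=
    (L₂.analyticOnNhd_weierstrassP l hl2).meromorphicOrderAt_nonneg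
  rw [← h4] at h5
  exact absurd h5 (by decide)

/-- two period pairs with the same `g₂`, `g₃` span the same lattice -/
theorem lattice_eq_of_g₂_g₃ (L₁ L₂ : PeriodPair) (h₂ : L₁.g₂ = L₂.g₂) (h₃ : L₁.g₃ = L₂.g₃) :
    L₁.lattice = L₂.lattice :=
  le_antisymm (lattice_le_of_g₂_g₃ L₁ L₂ h₂ h₃) (lattice_le_of_g₂_g₃ L₂ L₁ h₂.symm h₃.symm)

/-! ### The period pair `(c τ, c)` and Eisenstein series -/

/-- the period pair `(c τ, c)` -/
noncomputable def pp (c : ℂ) (hc : c ≠ 0) (τ : ℍ) : PeriodPair where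
  ω₁ := c * τ
  ω₂ := c
  indep := by
    rw [LinearIndependent.pair_iff]
    intro s t hst
    have h1 : c * ((s : ℂ) * τ + t) = 0 := by
      simp only [Complex.real_smul] at hst
      linear_combination hst
    have h2 : (s : ℂ) * τ + t = 0 := (mul_eq_zero.1 h1).resolve_left hc
    have h3 := congrArg Complex.im h2
    simp at h3
    have hτ : (τ : ℂ).im ≠ 0 := τ.im_pos.ne'
    have hs : s = 0 := by
      rcases h3 with h3 | h3
      · exact h3
      · exact absurd h3 hτ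
    subst hs
    simp at h2
    exact ⟨rfl, by exact_mod_cast h2⟩

theorem pp_ω₁ (c : ℂ) (hc : c ≠ 0) (τ : ℍ) : (pp c hc τ).ω₁ = c * τ := rfl
theorem pp_ω₂ (c : ℂ) (hc : c ≠ 0) (τ : ℍ) : (pp c hc τ).ω₂ = c := rfl

/-- lattice sums as sums over pairs of integers -/
theorem G_eq_tsum_prod (L : PeriodPair) (n : ℕ) :
    L.G n = ∑' x : ℤ × ℤ, (((x.1 : ℂ) * L.ω₁ + x.2 * L.ω₂) ^ n)⁻¹ := by
  rw [PeriodPair.G]
  rw [← L.latticeEquivProd.symm.toEquiv.tsum_eq]
  refine tsum_congr fun x => ?_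
  simp [PeriodPair.latticeEquiv_symm_apply]

/-- the lattice sum of `(c τ, c)` in terms of the Eisenstein series -/
theorem G_pp (c : ℂ) (hc : c ≠ 0) (τ : ℍ) {k : ℕ} (hk : 3 ≤ k) :
    (pp c hc τ).G k = (c ^ k)⁻¹ * (2 * riemannZeta k * E hk τ) := by
  rw [G_eq_tsum_prod, pp_ω₁, pp_ω₂]
  have h1 : ∀ x : ℤ × ℤ, (((x.1 : ℂ) * (c * τ) + x.2 * c) ^ k)⁻¹ =
      (c ^ k)⁻¹ * eisSummand k ((finTwoArrowEquiv ℤ).symm x) τ := by
    intro x
    simp only [eisSummand, finTwoArrowEquiv_symm_apply, Matrix.cons_val_zero, Matrix.cons_val_one,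
      zpow_neg, zpow_natCast]
    rw [← mul_inv, ← mul_pow]
    congr 2
    ring
  simp_rw [h1]
  rw [tsum_mul_left, (finTwoArrowEquiv ℤ).symm.tsum_eq (fun v => eisSummand k v τ),
    tsum_eisSummand_eq_riemannZeta_mul_eisensteinSeries hk τ]
  have h2 : E hk τ = (1 / 2 : ℂ) * eisensteinSeries (N := 1) 0 k τ := by
    rw [show E hk τ = (1 / 2 : ℂ) • eisensteinSeriesSIF (N := 1) 0 k τ from rfl,
      eisensteinSeriesSIF_apply 0 k τ, smul_eq_mul]
  rw [h2]
  ring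

/-! ### From equal lattices to a modular transformation -/

/-- `τ` and `1` are independent over `ℤ` -/
theorem int_indep (τ : ℍ) (m n : ℤ) (h : (m : ℂ) * τ + n = 0) : m = 0 ∧ n = 0 := by
  have h3 := congrArg Complex.im h
  simp at h3
  have hτ : (τ : ℂ).im ≠ 0 := τ.im_pos.ne'
  have hm : m = 0 := by
    rcases h3 with h3 | h3
    · exact h3
    · exact absurd h3 hτ
  subst hm
  simp at h
  exact ⟨rfl, h⟩

/-- equality of the lattices `ℤ τ₁ + ℤ` and `c (ℤ τ₂ + ℤ)` gives a modular transformation -/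
theorem exists_SL2_of_lattice_eq (c : ℂ) (hc : c ≠ 0) (τ₁ τ₂ : ℍ)
    (h : (pp 1 one_ne_zero τ₁).lattice = (pp c hc τ₂).lattice) :
    ∃ g : SL(2, ℤ), g • τ₁ = τ₂ := by
  have m1 : c * τ₂ ∈ (pp 1 one_ne_zero τ₁).lattice := by
    rw [h]; exact (pp c hc τ₂).ω₁_mem_lattice
  have m2 : c ∈ (pp 1 one_ne_zero τ₁).lattice := by
    rw [h]; exact (pp c hc τ₂).ω₂_mem_lattice
  have m3 : (1 : ℂ) * (τ₁ : ℂ) ∈ (pp c hc τ₂).lattice := by
    rw [← h]; exact (pp 1 one_ne_zero τ₁).ω₁_mem_lattice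
  have m4 : (1 : ℂ) ∈ (pp c hc τ₂).lattice := by
    rw [← h]; exact (pp 1 one_ne_zero τ₁).ω₂_mem_lattice
  obtain ⟨a, b, hab⟩ := PeriodPair.mem_lattice.1 m1
  obtain ⟨c', d, hcd⟩ := PeriodPair.mem_lattice.1 m2
  obtain ⟨a', b', hab'⟩ := PeriodPair.mem_lattice.1 m3
  obtain ⟨c'', d', hcd'⟩ := PeriodPair.mem_lattice.1 m4
  simp only [pp_ω₁, pp_ω₂, one_mul, mul_one] at hab hcd hab' hcd'
  -- the two matrices are inverse to each other
  have i1 := int_indep τ₁ (a' * a + b' * c' - 1) (a' * b + b' * d) (by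
    push_cast
    rw [← hab, ← hcd] at hab'
    linear_combination hab')
  have i2 := int_indep τ₁ (c'' * a + d' * c') (c'' * b + d' * d - 1) (by
    push_cast
    rw [← hab, ← hcd] at hcd'
    linear_combination hcd')
  obtain ⟨i11, i12⟩ := i1
  obtain ⟨i21, i22⟩ := i2
  have hdet : (a' * d' - b' * c'') * (a * d - b * c') = 1 := by
    linear_combination (c'' * b + d' * d) * i11 + i22 - (c'' * a + d' * c') * i12
  -- the denominator
  have hden : (c' : ℂ) * τ₁ + d ≠ 0 := by rw [hcd]; exact hc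
  have hmain : ((c' : ℂ) * τ₁ + d) * τ₂ = a * τ₁ + b := by rw [hcd, hab]
  -- positivity of the determinant
  have hpos : 0 < a * d - b * c' := by
    have hRe := congrArg Complex.re hmain
    have hIm := congrArg Complex.im hmain
    simp at hRe hIm
    have hy₁ : 0 < τ₁.im := τ₁.im_pos
    have hy₂ : 0 < τ₂.im := τ₂.im_pos
    have hN : 0 < ((c' : ℝ) * τ₁.re + d) ^ 2 + ((c' : ℝ) * τ₁.im) ^ 2 := by
      have hne : ¬ (((c' : ℝ) * τ₁.re + d) = 0 ∧ ((c' : ℝ) * τ₁.im) = 0) := by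
        rintro ⟨h1, h2⟩
        apply hden
        apply Complex.ext
        · simpa using h1
        · simpa using h2
      by_contra hle
      apply hne
      constructor <;> nlinarith [sq_nonneg ((c' : ℝ) * τ₁.re + d), sq_nonneg ((c' : ℝ) * τ₁.im)]
    have hkey : τ₂.im * (((c' : ℝ) * τ₁.re + d) ^ 2 + ((c' : ℝ) * τ₁.im) ^ 2) =
        ((a : ℝ) * d - b * c') * τ₁.im := by
      linear_combination ((c' : ℝ) * τ₁.re + d) * hIm - (c' : ℝ) * τ₁.im * hRe
    have hD : (0 : ℝ) < (a : ℝ) * d - b * c' := by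
      have h1 : 0 < τ₂.im * (((c' : ℝ) * τ₁.re + d) ^ 2 + ((c' : ℝ) * τ₁.im) ^ 2) :=
        mul_pos hy₂ hN
      rw [hkey] at h1
      by_contra hle
      have h2 : ((a : ℝ) * d - b * c') * τ₁.im ≤ 0 :=
        mul_nonpos_of_nonpos_of_nonneg (not_lt.1 hle) hy₁.le
      linarith
    exact_mod_cast hD
  have hD1 : a * d - b * c' = 1 := by
    rcases Int.eq_one_or_neg_one_of_mul_eq_one' hdet with ⟨_, h1⟩ | ⟨_, h1⟩
    · exact h1
    · omega
  let g : SL(2, ℤ) := ⟨!![a, b; c', d], by rw [Matrix.det_fin_two_of]; exact hD1⟩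
  refine ⟨g, ?_⟩
  rw [UpperHalfPlane.ext_iff, coe_specialLinearGroup_apply]
  have g00 : g 0 0 = a := rfl
  have g01 : g 0 1 = b := rfl
  have g10 : g 1 0 = c' := rfl
  have g11 : g 1 1 = d := rfl
  rw [g00, g01, g10, g11]
  simp only [algebraMap_int_eq, Int.coe_castRingHom, Complex.ofReal_intCast]
  rw [div_eq_iff hden, ← hmain]
  ring

/-! ### The scaling constant -/

/-- if the `j`-invariants agree, then `(E₄, E₆)` agree up to weighted scaling -/
theorem exists_scale (a₁ b₁ a₂ b₂ : ℂ) (h₁ : a₁ ^ 3 - b₁ ^ 2 ≠ 0) (h₂ : a₂ ^ 3 - b₂ ^ 2 ≠ 0)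
    (h : a₁ ^ 3 * (a₂ ^ 3 - b₂ ^ 2) = a₂ ^ 3 * (a₁ ^ 3 - b₁ ^ 2)) :
    ∃ μ : ℂ, μ ≠ 0 ∧ a₁ = μ ^ 4 * a₂ ∧ b₁ = μ ^ 6 * b₂ := by
  have key : a₁ ^ 3 * b₂ ^ 2 = a₂ ^ 3 * b₁ ^ 2 := by linear_combination -h
  by_cases ha₂ : a₂ = 0
  · subst ha₂
    have hb₂ : b₂ ≠ 0 := by
      rintro rfl
      exact h₂ (by ring)
    have ha₁ : a₁ = 0 := by
      have h3 : a₁ ^ 3 * b₂ ^ 2 = 0 := by rw [key]; ring
      rcases mul_eq_zero.1 h3 with h4 | h4
      · exact (pow_eq_zero_iff (by norm_num)).1 h4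
      · exact absurd ((pow_eq_zero_iff (by norm_num)).1 h4) hb₂
    subst ha₁
    have hb₁ : b₁ ≠ 0 := by
      rintro rfl
      exact h₁ (by ring)
    obtain ⟨μ, hμ⟩ := IsAlgClosed.exists_pow_nat_eq (b₁ / b₂) (by norm_num : 0 < 6)
    refine ⟨μ, ?_, by ring, ?_⟩
    · rintro rfl
      have : b₁ / b₂ = 0 := by rw [← hμ]; ring
      exact div_ne_zero hb₁ hb₂ this
    · rw [hμ]; field_simp
  · by_cases hb₂ : b₂ = 0
    · subst hb₂
      have hb₁ : b₁ = 0 := by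
        have h3 : a₂ ^ 3 * b₁ ^ 2 = 0 := by rw [← key]; ring
        rcases mul_eq_zero.1 h3 with h4 | h4
        · exact absurd ((pow_eq_zero_iff (by norm_num)).1 h4) ha₂
        · exact (pow_eq_zero_iff (by norm_num)).1 h4
      subst hb₁
      have ha₁ : a₁ ≠ 0 := by
        rintro rfl
        exact h₁ (by ring)
      obtain ⟨μ, hμ⟩ := IsAlgClosed.exists_pow_nat_eq (a₁ / a₂) (by norm_num : 0 < 4)
      refine ⟨μ, ?_, ?_, by ring⟩
      · rintro rfl
        have : a₁ / a₂ = 0 := by rw [← hμ]; ring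
        exact div_ne_zero ha₁ ha₂ this
      · rw [hμ]; field_simp
    · have ha₁ : a₁ ≠ 0 := by
        rintro rfl
        have h3 : a₂ ^ 3 * b₁ ^ 2 = 0 := by rw [← key]; ring
        rcases mul_eq_zero.1 h3 with h4 | h4
        · exact ha₂ ((pow_eq_zero_iff (by norm_num)).1 h4)
        · have hb₁ : b₁ = 0 := (pow_eq_zero_iff (by norm_num)).1 h4
          subst hb₁
          exact h₁ (by ring)
      have hb₁ : b₁ ≠ 0 := by
        rintro rfl
        have h3 : a₁ ^ 3 * b₂ ^ 2 = 0 := by rw [key]; ring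
        rcases mul_eq_zero.1 h3 with h4 | h4
        · exact ha₁ ((pow_eq_zero_iff (by norm_num)).1 h4)
        · exact hb₂ ((pow_eq_zero_iff (by norm_num)).1 h4)
      obtain ⟨μ, hμ⟩ := IsAlgClosed.exists_pow_nat_eq (b₁ * a₂ / (b₂ * a₁)) (by norm_num : 0 < 2)
      refine ⟨μ, ?_, ?_, ?_⟩
      · rintro rfl
        have : b₁ * a₂ / (b₂ * a₁) = 0 := by rw [← hμ]; ring
        exact div_ne_zero (mul_ne_zero hb₁ ha₂) (mul_ne_zero hb₂ ha₁) this
      · have e : μ ^ 4 = (b₁ * a₂ / (b₂ * a₁)) ^ 2 := by rw [← hμ]; ring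
        rw [e]
        field_simp
        linear_combination key
      · have e : μ ^ 6 = (b₁ * a₂ / (b₂ * a₁)) ^ 3 := by rw [← hμ]; ring
        rw [e]
        field_simp
        linear_combination key

/-! ### The main theorem -/

/-- **the `j`-invariant is injective modulo `SL(2, ℤ)`** -/
theorem j_injective (τ₁ τ₂ : ℍ)
    (h : E₄ τ₁ ^ 3 * discriminant τ₂ = E₄ τ₂ ^ 3 * discriminant τ₁) :
    ∃ g : SL(2, ℤ), g • τ₁ = τ₂ := by
  have hΔ₁ := discriminant_ne_zero τ₁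
  have hΔ₂ := discriminant_ne_zero τ₂
  rw [discriminant_eq_E₄_cube_sub_E₆_sq] at hΔ₁ hΔ₂
  rw [discriminant_eq_E₄_cube_sub_E₆_sq τ₁, discriminant_eq_E₄_cube_sub_E₆_sq τ₂] at h
  have hΔ₁' : E₄ τ₁ ^ 3 - E₆ τ₁ ^ 2 ≠ 0 := fun h0 => hΔ₁ (by rw [h0]; simp)
  have hΔ₂' : E₄ τ₂ ^ 3 - E₆ τ₂ ^ 2 ≠ 0 := fun h0 => hΔ₂ (by rw [h0]; simp)
  obtain ⟨μ, hμ, ha, hb⟩ := exists_scale (E₄ τ₁) (E₆ τ₁) (E₄ τ₂) (E₆ τ₂) hΔ₁' hΔ₂'
    (by linear_combination (1728 : ℂ) * h)
  have hc : μ⁻¹ ≠ 0 := inv_ne_zero hμ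
  apply exists_SL2_of_lattice_eq μ⁻¹ hc τ₁ τ₂
  have G4 : ∀ (c : ℂ) (hc : c ≠ 0) (τ : ℍ),
      (pp c hc τ).G 4 = (c ^ 4)⁻¹ * (2 * riemannZeta (4 : ℕ) * E₄ τ) :=
    fun c hc τ => G_pp c hc τ (by norm_num)
  have G6 : ∀ (c : ℂ) (hc : c ≠ 0) (τ : ℍ),
      (pp c hc τ).G 6 = (c ^ 6)⁻¹ * (2 * riemannZeta (6 : ℕ) * E₆ τ) :=
    fun c hc τ => G_pp c hc τ (by norm_num)
  apply lattice_eq_of_g₂_g₃
  · simp only [PeriodPair.g₂]
    rw [G4, G4, ha]
    field_simp
  · simp only [PeriodPair.g₃]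
    rw [G6, G6, hb]
    field_simp

end Fermat.Agent.GenusLib.JInj
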