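import Mathlib

/-!
# Step counting for families of "valuations" on a finite-dimensional vector space

A family `v : ι → V → ℕ∞` of order functions (superadditive, monotone under scalars, with the
"leading coefficient" property) cuts out boxes `box hv n = {x | ∀ i, n i ≤ v i x}`.  Each unit
step `n ↦ n + eᵢ` lowers the dimension by at most one; hence if the expected codimension
`∑ i, t i` is attained for a box `t`, it is attained for every smaller box, and elements of exact
order exist.
-/

set_option autoImplicit false

namespace Fermat.Agent.GenusLib.Steps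

open Module

variable (k : Type*) {V ι : Type*} [Field k] [AddCommGroup V] [Module k V]

/-- A family of order functions on a `k`-vector space. -/
structure IsValFamily (v : ι → V → ℕ∞) : Prop where
  add : ∀ i x y, min (v i x) (v i y) ≤ v i (x + y)
  smul : ∀ i (c : k) x, v i x ≤ v i (c • x)
  lead : ∀ i (n : ℕ) x y, v i x = n → v i y = n → ∃ c : k, (n : ℕ∞) < v i (x - c • y)

variable {k}

namespace IsValFamily

variable {v : ι → V → ℕ∞}

/-- The zero vector has infinite order. -/
theorem zero (hv : IsValFamily k v) (i : ι) : v i 0 = ⊤ := by
  by_contra h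
  obtain ⟨m, hm⟩ := ENat.ne_top_iff_exists.mp h
  obtain ⟨c, hc⟩ := hv.lead i m 0 0 hm.symm hm.symm
  rw [smul_zero, sub_zero, ← hm] at hc
  exact lt_irrefl _ hc

/-- Pull back a family of order functions along a linear map. -/
theorem comp (hv : IsValFamily k v) {U : Type*} [AddCommGroup U] [Module k U] (f : U →ₗ[k] V) :
    IsValFamily k (fun i x => v i (f x)) where
  add i x y := by simpa using hv.add i (f x) (f y)
  smul i c x := by simpa using hv.smul i c (f x)
  lead i n x y hx hy := by
    obtain ⟨c, hc⟩ := hv.lead i n (f x) (f y) hx hy
    exact ⟨c, by simpa using hc⟩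

/-- Restrict a family of order functions to a submodule. -/
theorem restrict (hv : IsValFamily k v) (U : Submodule k V) :
    IsValFamily k (fun i (x : U) => v i (x : V)) :=
  hv.comp U.subtype

end IsValFamily

variable {v : ι → V → ℕ∞}

/-- The box `{x | ∀ i, n i ≤ v i x}`. -/
def box (hv : IsValFamily k v) (n : ι → ℕ) : Submodule k V where
  carrier := {x | ∀ i, (n i : ℕ∞) ≤ v i x}
  zero_mem' i := by rw [hv.zero i]; exact le_top
  add_mem' {x y} hx hy i := (le_min (hx i) (hy i)).trans (hv.add i x y)
  smul_mem' c x hx i := (hx i).trans (hv.smul i c x)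

theorem mem_box {hv : IsValFamily k v} {n : ι → ℕ} {x : V} :
    x ∈ box hv n ↔ ∀ i, (n i : ℕ∞) ≤ v i x := Iff.rfl

theorem box_mono (hv : IsValFamily k v) {n m : ι → ℕ} (h : n ≤ m) : box hv m ≤ box hv n :=
  fun _ hx i => (Nat.cast_le.mpr (h i)).trans (hx i)

theorem box_zero (hv : IsValFamily k v) : box hv (0 : ι → ℕ) = ⊤ :=
  eq_top_iff.mpr fun _ _ _ => by simp

variable [DecidableEq ι]

/-- An element of `box n` outside `box (n + eᵢ)` has order exactly `n i` at `i`. -/
theorem eq_of_mem_of_not_mem (hv : IsValFamily k v) {n : ι → ℕ} {i : ι} {x : V}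
    (hx : x ∈ box hv n) (hx' : x ∉ box hv (Function.update n i (n i + 1))) : v i x = n i := by
  rw [mem_box] at hx hx'
  simp only [not_forall, not_le] at hx'
  obtain ⟨j, hj⟩ := hx'
  by_cases hji : j = i
  · subst hji
    rw [Function.update_self] at hj
    refine le_antisymm ?_ (hx j)
    have h1 : v j x < ((n j : ℕ∞) + 1) := by exact_mod_cast hj
    exact (ENat.lt_add_one_iff (ENat.natCast_ne_top _)).mp h1
  · rw [Function.update_of_ne hji] at hj
    exact absurd (hx j) (not_le.mpr hj)

/-- A unit step lowers the dimension by at most one. -/
theorem finrank_box_le_succ [FiniteDimensional k V] (hv : IsValFamily k v) (n : ι → ℕ) (i : ι) :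
    finrank k (box hv n) ≤ finrank k (box hv (Function.update n i (n i + 1))) + 1 := by
  set W' := box hv (Function.update n i (n i + 1)) with hW'
  by_cases hall : ∀ x ∈ box hv n, x ∈ W'
  · exact (Submodule.finrank_mono hall).trans (Nat.le_succ _)
  · simp only [not_forall] at hall
    obtain ⟨y, hy, hy'⟩ := hall
    have hvy : v i y = n i := eq_of_mem_of_not_mem hv hy hy'
    have hle : box hv n ≤ W' ⊔ Submodule.span k {y} := by
      intro x hx
      by_cases hx' : x ∈ W'
      · exact Submodule.mem_sup_left hx'
      · have hvx : v i x = n i := eq_of_mem_of_not_mem hv hx hx'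
        obtain ⟨c, hc⟩ := hv.lead i (n i) x y hvx hvy
        have hmem : x - c • y ∈ W' := by
          rw [hW', mem_box]
          intro j
          by_cases hji : j = i
          · subst hji
            rw [Function.update_self]
            have : ((n j : ℕ∞) + 1) ≤ v j (x - c • y) :=
              (ENat.add_one_le_iff (ENat.natCast_ne_top _)).mpr hc
            exact_mod_cast this
          · rw [Function.update_of_ne hji]
            exact (box hv n).sub_mem hx ((box hv n).smul_mem c hy) j
        have : x = (x - c • y) + c • y := by abel
        rw [this]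
        exact Submodule.add_mem_sup hmem (Submodule.smul_mem _ c (Submodule.mem_span_singleton_self y))
    calc finrank k (box hv n) ≤ finrank k ↥(W' ⊔ Submodule.span k {y}) := Submodule.finrank_mono hle
      _ ≤ finrank k W' + finrank k (Submodule.span k {y}) :=
          Submodule.finrank_add_le_finrank_add_finrank _ _
      _ ≤ finrank k W' + 1 := by
          have := finrank_span_le_card (R := k) ({y} : Set V)
          simp only [Set.toFinset_singleton, Finset.card_singleton] at this
          omega


variable [Fintype ι]

omit [Field k] [AddCommGroup V] [Module k V] in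
theorem sum_update_succ (n : ι → ℕ) (i : ι) :
    ∑ j, Function.update n i (n i + 1) j = ∑ j, n j + 1 := by
  rw [Finset.sum_update_of_mem (Finset.mem_univ i),
    Finset.sum_eq_add_sum_sdiff_singleton i n (fun h => absurd (Finset.mem_univ i) h)]
  ring

/-- Monotonicity of `dim (box n) + ∑ n` in `n`. -/
theorem finrank_box_add_sum_le [FiniteDimensional k V] (hv : IsValFamily k v) :
    ∀ (d : ℕ) (n t : ι → ℕ), n ≤ t → ∑ i, t i - ∑ i, n i = d →
      finrank k (box hv n) + ∑ i, n i ≤ finrank k (box hv t) + ∑ i, t i := by
  intro d
  induction d with
  | zero =>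
    intro n t hnt hd
    have hle : ∑ i, t i ≤ ∑ i, n i := Nat.sub_eq_zero_iff_le.mp hd
    have hnt' : n = t := by
      by_contra hne
      have : ∃ i, n i < t i := by
        by_contra hcon
        simp only [not_exists, not_lt] at hcon
        exact hne (le_antisymm hnt hcon)
      obtain ⟨i, hi⟩ := this
      have := Finset.sum_lt_sum (fun j _ => hnt j) ⟨i, Finset.mem_univ i, hi⟩
      omega
    rw [hnt']
  | succ d ih =>
    intro n t hnt hd
    have : ∃ i, n i < t i := by
      by_contra hcon
      simp only [not_exists, not_lt] at hcon
      have := Finset.sum_le_sum (fun j (_ : j ∈ Finset.univ) => hcon j)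
      omega
    obtain ⟨i, hi⟩ := this
    have hn't : Function.update n i (n i + 1) ≤ t := by
      intro j
      by_cases hji : j = i
      · subst hji; rw [Function.update_self]; exact hi
      · rw [Function.update_of_ne hji]; exact hnt j
    have hsum := sum_update_succ n i
    have h1 := ih (Function.update n i (n i + 1)) t hn't (by omega)
    have h2 := finrank_box_le_succ hv n i
    omega

/-- The codimension of a box is at most the number of steps. -/
theorem finrank_le [FiniteDimensional k V] (hv : IsValFamily k v) (n : ι → ℕ) :
    finrank k V ≤ finrank k (box hv n) + ∑ i, n i := by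
  have h := finrank_box_add_sum_le hv _ (0 : ι → ℕ) n (fun i => Nat.zero_le _) rfl
  rw [box_zero, finrank_top] at h
  simpa using h

/-- If the expected codimension is attained for a box `t`, it is attained for every smaller
box. -/
theorem finrank_eq [FiniteDimensional k V] (hv : IsValFamily k v) (t : ι → ℕ)
    (ht : finrank k V = finrank k (box hv t) + ∑ i, t i) (n : ι → ℕ) (hn : n ≤ t) :
    finrank k V = finrank k (box hv n) + ∑ i, n i :=
  le_antisymm (finrank_le hv n) (ht ▸ finrank_box_add_sum_le hv _ n t hn rfl)

/-- If the expected codimension is attained for a box `t`, then below `t` there are elements of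
exact order in any direction. -/
theorem exists_exact [FiniteDimensional k V] (hv : IsValFamily k v) (t : ι → ℕ)
    (ht : finrank k V = finrank k (box hv t) + ∑ i, t i) (n : ι → ℕ) (hn : n ≤ t) (i₀ : ι)
    (h : n i₀ < t i₀) : ∃ x ∈ box hv n, v i₀ x = n i₀ := by
  have hn't : Function.update n i₀ (n i₀ + 1) ≤ t := by
    intro j
    by_cases hji : j = i₀
    · subst hji; rw [Function.update_self]; exact h
    · rw [Function.update_of_ne hji]; exact hn j
  have h1 := finrank_eq hv t ht n hn
  have h2 := finrank_eq hv t ht _ hn't
  have hsum := sum_update_succ n i₀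
  have hlt : finrank k (box hv (Function.update n i₀ (n i₀ + 1))) < finrank k (box hv n) := by
    omega
  by_contra hcon
  simp only [not_exists, not_and] at hcon
  have hle : box hv n ≤ box hv (Function.update n i₀ (n i₀ + 1)) := by
    intro x hx
    by_contra hx'
    exact hcon x hx (eq_of_mem_of_not_mem hv hx hx')
  exact absurd (Submodule.finrank_mono hle) (not_le.mpr hlt)

end Fermat.Agent.GenusLib.Steps
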