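import Mathlib
import Fermat.Agent.GenusLib.LSDefs
import Fermat.Agent.GenusLib.Orb
import Fermat.Agent.GenusLib.Pts
import Fermat.Agent.GenusLib.Steps
import Fermat.Agent.GenusLib.JInj

/-!
# PROJECT X (S20), step LS: the valuation family at the points over a fibre of `j`
-/

set_option autoImplicit false
set_option linter.unusedSectionVars false

noncomputable section

namespace Fermat.Agent.GenusLib.LS

open UpperHalfPlane hiding I
open scoped MatrixGroups ModularForm Manifold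
open CongruenceSubgroup Module
open Fermat.Agent.S23Lib Fermat.Agent.S23Lib.Conj Fermat.Agent.GenusLib.Defs
open Fermat.Agent.GenusLib Fermat.Agent.GenusLib.WHBasic

section PFam
variable (N : ℕ) [NeZero N]

/-- normalised order of `b` at the point `ω` of the fibre through `τ` -/
def vP (τ : ℍ) (ω : OrbP N τ) (b : ℍ → ℂ) : ℕ∞ := ediv (Pts.ordAt (trn (repP ω) b) τ) (eP ω)

variable {N}

theorem mdiff_of_mem_WH {b : ℍ → ℂ} (hb : b ∈ WH N 0) : MDiff b := by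
  obtain ⟨m, hm⟩ := hb
  exact hm.1

theorem inv_of_mem_WH {b : ℍ → ℂ} (hb : b ∈ WH N 0) : Inv (Gamma0 N) 0 b := by
  obtain ⟨m, hm⟩ := hb
  exact hm.2.1

/-- orders of the translates at `τ` only depend on the orbit -/
theorem ordAt_trn_smul {b : ℍ → ℂ} (hb : b ∈ WH N 0) {τ : ℍ} {h : SL(2, ℤ)} (hh : h ∈ StabG τ)
    (q : X N) : Pts.ordAt (trn (h • q) b) τ = Pts.ordAt (trn q b) τ := by
  rw [trn_smul (inv_of_mem_WH hb), Pts.ordAt_slash (trn_mdiff q (mdiff_of_mem_WH hb))]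
  have h1 : h⁻¹ • τ = τ := (StabG τ).inv_mem hh
  rw [h1]

/-- the order of `b` at `g⁻¹ • τ` is the order of the translate at `τ` -/
theorem ordAt_trn_mk {b : ℍ → ℂ} (hb : b ∈ WH N 0) (τ : ℍ) (g : SL(2, ℤ)) :
    Pts.ordAt (trn ((g : SL(2, ℤ)) : X N) b) τ = Pts.ordAt b (g⁻¹ • τ) := by
  rw [trn_mk (inv_of_mem_WH hb), Pts.ordAt_slash (mdiff_of_mem_WH hb)]

theorem ordAt_trn_eq {b : ℍ → ℂ} (hb : MDiff b) (τ : ℍ) (q : X N) :
    Pts.ordAt (trn q b) τ = Pts.ordAt b ((Quotient.out q)⁻¹ • τ) := by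
  unfold trn
  rw [Pts.ordAt_slash hb]

theorem eP_dvd_ordAt {b : ℍ → ℂ} (hb : b ∈ WH N 0) {τ : ℍ} (ω : OrbP N τ) {n : ℕ}
    (hn : Pts.ordAt (trn (repP ω) b) τ = n) : eP ω ∣ n := by
  rw [← card_stabP ω]
  refine Pts.card_div_two_dvd_ordAt (trn_mdiff _ (mdiff_of_mem_WH hb)) (stabP ω) inf_le_left
    (neg_one_mem_stabP ω) ?_ hn
  intro g hg
  rw [trn_slash (inv_of_mem_WH hb)]
  have h1 : g⁻¹ • repP ω = repP ω :=
    (MulAction.stabilizer SL(2, ℤ) (repP ω)).inv_mem hg.2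
  rw [h1]

theorem le_vP_iff {b : ℍ → ℂ} {τ : ℍ} (ω : OrbP N τ) (n : ℕ) :
    (n : ℕ∞) ≤ vP N τ ω b ↔ ((n * eP ω : ℕ) : ℕ∞) ≤ Pts.ordAt (trn (repP ω) b) τ :=
  le_ediv_iff (eP_pos ω) n _

/-- a lower bound by a non-multiple of `eP ω` improves to the next multiple -/
theorem succ_mul_le_of_lt {b : ℍ → ℂ} (hb : b ∈ WH N 0) {τ : ℍ} (ω : OrbP N τ) {n : ℕ}
    (h : ((n * eP ω : ℕ) : ℕ∞) < Pts.ordAt (trn (repP ω) b) τ) :
    (((n + 1) * eP ω : ℕ) : ℕ∞) ≤ Pts.ordAt (trn (repP ω) b) τ := by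
  generalize hx : Pts.ordAt (trn (repP ω) b) τ = x at h
  induction x using ENat.recTopCoe with
  | top => exact le_top
  | coe m =>
    obtain ⟨c, hc⟩ := eP_dvd_ordAt hb ω hx
    have h1 : n * eP ω < m := by exact_mod_cast h
    have he := eP_pos ω
    rw [hc] at h1 ⊢
    have h2 : n < c := by
      by_contra hcon
      have : c ≤ n := not_lt.mp hcon
      have := Nat.mul_le_mul_right (eP ω) this
      rw [Nat.mul_comm c] at this
      omega
    have h3 : (n + 1) * eP ω ≤ eP ω * c := by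
      rw [Nat.mul_comm (eP ω) c]
      exact Nat.mul_le_mul_right _ h2
    exact_mod_cast h3

theorem vP_eq_iff {b : ℍ → ℂ} (hb : b ∈ WH N 0) {τ : ℍ} (ω : OrbP N τ) (n : ℕ) :
    vP N τ ω b = n ↔ Pts.ordAt (trn (repP ω) b) τ = ((n * eP ω : ℕ) : ℕ∞) := by
  unfold vP
  rw [ediv_eq_coe_iff (eP_pos ω)]
  constructor
  · rintro ⟨h1, h2⟩
    refine le_antisymm ?_ h1
    by_contra hcon
    exact absurd (succ_mul_le_of_lt hb ω (not_le.mp hcon)) (not_le.mpr h2)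
  · intro h
    rw [h]
    refine ⟨le_rfl, ?_⟩
    have he := eP_pos ω
    have : n * eP ω < (n + 1) * eP ω := by nlinarith
    exact_mod_cast this

variable (N)

theorem isValFamily_vP (d : ℤ) (τ : ℍ) :
    Steps.IsValFamily ℂ (fun (ω : OrbP N τ) (b : ↥(WHle N 0 d)) => vP N τ ω b.1) where
  add := by
    intro ω x y
    show min (vP N τ ω x.1) (vP N τ ω y.1) ≤ vP N τ ω (x.1 + y.1)
    unfold vP
    rw [ediv_min, trn_add]
    exact ediv_mono (Pts.le_ordAt_add _ _ τ) _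
  smul := by
    intro ω c x
    show vP N τ ω x.1 ≤ vP N τ ω (c • x.1)
    unfold vP
    rw [trn_const_smul]
    exact ediv_mono (Pts.le_ordAt_smul c (trn_mdiff _ x.2.1) τ) _
  lead := by
    intro ω n x y hx hy
    have hxW : x.1 ∈ WH N 0 := WHle_le_WH N 0 d x.2
    have hyW : y.1 ∈ WH N 0 := WHle_le_WH N 0 d y.2
    have hx' := (vP_eq_iff hxW ω n).mp hx
    have hy' := (vP_eq_iff hyW ω n).mp hy
    obtain ⟨c, hc⟩ := Pts.exists_lt_ordAt_sub_smul (trn_mdiff _ x.2.1) (trn_mdiff _ y.2.1) hx' hy'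
    refine ⟨c, ?_⟩
    show (n : ℕ∞) < vP N τ ω (x.1 - c • y.1)
    have hW : x.1 - c • y.1 ∈ WH N 0 := (WH N 0).sub_mem hxW ((WH N 0).smul_mem c hyW)
    have h1 : ((n * eP ω : ℕ) : ℕ∞) < Pts.ordAt (trn (repP ω) (x.1 - c • y.1)) τ := by
      rw [trn_sub, trn_const_smul]
      exact hc
    have h2 := (le_vP_iff (b := x.1 - c • y.1) ω (n + 1)).mpr (succ_mul_le_of_lt hW ω h1)
    have h3 : ((n + 1 : ℕ) : ℕ∞) = (n : ℕ∞) + 1 := by push_cast; rfl
    rw [h3, ENat.add_one_le_iff (ENat.natCast_ne_top n)] at h2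
    exact h2

variable {N}

theorem exists_smul_eq_of_jFun_eq {τ τ' : ℍ} (h : jFun τ' = jFun τ) :
    ∃ g : SL(2, ℤ), g • τ' = τ := by
  refine JInj.j_injective τ' τ ?_
  unfold jFun at h
  rw [div_eq_div_iff (ModularForm.discriminant_ne_zero τ') (ModularForm.discriminant_ne_zero τ)] at h
  exact h

theorem card_StabG_smul (g : SL(2, ℤ)) (τ : ℍ) : Nat.card (StabG (g • τ)) = Nat.card (StabG τ) := by
  have h : MulAction.orbitRel SL(2, ℤ) ℍ (g • τ) τ := by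
    rw [MulAction.orbitRel_apply]
    exact MulAction.mem_orbit _ _
  exact Nat.card_congr (MulAction.stabilizerEquivStabilizerOfOrbitRel h).toEquiv

theorem mdiff_jFun_sub (c : ℂ) : MDiff (fun z => jFun z - c) :=
  jFun_mdiff.sub mdifferentiable_const

/-- the order of `j - j τ` at a point `τ'` of the fibre through `τ` -/
theorem ordAt_jFun_sub_of_eq
    (hJ : ∀ τ' : ℍ, Pts.ordAt (fun z => jFun z - jFun τ') τ' = ((Nat.card (StabG τ') / 2 : ℕ) : ℕ∞))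
    {τ τ' : ℍ} (h : jFun τ' = jFun τ) :
    Pts.ordAt (fun z => jFun z - jFun τ) τ' = ((Nat.card (StabG τ) / 2 : ℕ) : ℕ∞) := by
  obtain ⟨g, hg⟩ := exists_smul_eq_of_jFun_eq h
  rw [← h, hJ τ', ← hg, card_StabG_smul]

theorem ordAt_jFun_sub_of_ne {τ τ' : ℍ} (h : jFun τ' ≠ jFun τ) :
    Pts.ordAt (fun z => jFun z - jFun τ) τ' = 0 := by
  rw [Pts.ordAt_eq_zero_iff (mdiff_jFun_sub _)]
  exact sub_ne_zero.mpr h

/-- (PF1) threshold box at the fibre through `τ` = divisibility by `(j - j τ)^k`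
(needs `ordAt (j - j τ') τ' = |Stab τ'| / 2` and `j_injective`) -/
theorem forall_le_vP_iff {b : ℍ → ℂ} (hb : b ∈ WH N 0) (τ : ℍ) (k : ℕ)
    (hJ : ∀ τ' : ℍ, Pts.ordAt (fun z => jFun z - jFun τ') τ' = ((Nat.card (StabG τ') / 2 : ℕ) : ℕ∞)) :
    (∀ ω : OrbP N τ, ((k * sP ω : ℕ) : ℕ∞) ≤ vP N τ ω b) ↔
      ∀ τ' : ℍ, (k : ℕ∞) * Pts.ordAt (fun z => jFun z - jFun τ) τ' ≤ Pts.ordAt b τ' := by
  have hkey : ∀ ω : OrbP N τ, (((k * sP ω : ℕ) : ℕ∞) ≤ vP N τ ω b ↔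
      (k : ℕ∞) * ((Nat.card (StabG τ) / 2 : ℕ) : ℕ∞) ≤ Pts.ordAt (trn (repP ω) b) τ) := by
    intro ω
    rw [le_vP_iff, mul_assoc, sP_mul_eP]
    push_cast
    rfl
  constructor
  · intro h τ'
    by_cases hj : jFun τ' = jFun τ
    · rw [ordAt_jFun_sub_of_eq hJ hj]
      obtain ⟨g, hg⟩ := exists_smul_eq_of_jFun_eq hj
      obtain ⟨s, hs, hq⟩ := exists_smul_repP τ ((g : SL(2, ℤ)) : X N)
      have hτ' : g⁻¹ • τ = τ' := by rw [← hg, inv_smul_smul]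
      have h1 := (hkey _).mp (h (Quotient.mk'' ((g : SL(2, ℤ)) : X N)))
      rw [← ordAt_trn_smul hb hs, ← hq, ordAt_trn_mk hb, hτ'] at h1
      exact h1
    · rw [ordAt_jFun_sub_of_ne hj, mul_zero]
      exact zero_le
  · intro h ω
    rw [hkey, ordAt_trn_eq (mdiff_of_mem_WH hb)]
    have hj : jFun ((Quotient.out (repP ω))⁻¹ • τ) = jFun τ := jFun_smul _ _
    have h1 := h ((Quotient.out (repP ω))⁻¹ • τ)
    rw [ordAt_jFun_sub_of_eq hJ hj] at h1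
    exact h1

/-- (PF3) first step at every point of the fibre = vanishing on the fibre -/
theorem forall_one_le_vP_iff {b : ℍ → ℂ} (hb : b ∈ WH N 0) (τ : ℍ) :
    (∀ ω : OrbP N τ, (1 : ℕ∞) ≤ vP N τ ω b) ↔ ∀ τ' : ℍ, jFun τ' = jFun τ → b τ' = 0 := by
  have hbM := mdiff_of_mem_WH hb
  have hkey : ∀ ω : OrbP N τ, ((1 : ℕ∞) ≤ vP N τ ω b ↔ trn (repP ω) b τ = 0) := by
    intro ω
    have h0 : (1 : ℕ∞) = ((1 : ℕ) : ℕ∞) := rfl
    rw [h0, le_vP_iff, one_mul]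
    constructor
    · intro h
      by_contra hne
      rw [← Ne, ← Pts.ordAt_eq_zero_iff (trn_mdiff _ hbM)] at hne
      rw [hne] at h
      have := eP_pos ω
      have h2 : eP ω ≤ 0 := by exact_mod_cast h
      omega
    · intro h
      have h1 : ((0 * eP ω : ℕ) : ℕ∞) < Pts.ordAt (trn (repP ω) b) τ := by
        rw [zero_mul, Nat.cast_zero, pos_iff_ne_zero, Ne,
          Pts.ordAt_eq_zero_iff (trn_mdiff _ hbM)]
        exact not_not.mpr h
      have h2 := succ_mul_le_of_lt hb ω h1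
      rwa [zero_add, one_mul] at h2
  constructor
  · intro h τ' hj
    obtain ⟨g, hg⟩ := exists_smul_eq_of_jFun_eq hj
    obtain ⟨s, hs, hq⟩ := exists_smul_repP τ ((g : SL(2, ℤ)) : X N)
    have h1 := (hkey _).mp (h (Quotient.mk'' ((g : SL(2, ℤ)) : X N)))
    have h2 : Pts.ordAt (trn ((g : SL(2, ℤ)) : X N) b) τ ≠ 0 := by
      rw [hq, ordAt_trn_smul hb hs, Ne, Pts.ordAt_eq_zero_iff (trn_mdiff _ hbM)]
      exact not_not.mpr h1
    have hτ' : g⁻¹ • τ = τ' := by rw [← hg, inv_smul_smul]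
    rw [ordAt_trn_mk hb, hτ', Ne, Pts.ordAt_eq_zero_iff hbM] at h2
    exact not_not.mp h2
  · intro h ω
    rw [hkey, trn_apply]
    exact h _ (jFun_smul _ _)

end PFam

end Fermat.Agent.GenusLib.LS
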