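import Mathlib
import Fermat.Agent.GenusLib.LSDefs
import Fermat.Agent.GenusLib.LevelOne
import Fermat.Agent.GenusLib.Pts
import Fermat.Agent.GenusLib.Orb
import Fermat.Agent.GenusLib.PFam
import Fermat.Agent.GenusLib.DualDefs
import Fermat.Agent.GenusLib.DualPS

/-!
# PROJECT X (S20), step Dual, part C: surjectivity of the pairing

Every family of polynomials `φ i` is `beta (b i) f` for a weakly holomorphic weight `2` form `f`,
where `b` is a `ℂ[j]`-basis of the weight `0` forms: the holomorphy of `om1 * b₁ / a(j)`.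
-/

set_option autoImplicit false
set_option linter.unusedSectionVars false

noncomputable section

namespace Fermat.Agent.GenusLib.Dual

open UpperHalfPlane hiding I
open scoped MatrixGroups ModularForm Manifold
open CongruenceSubgroup Module Polynomial
open Fermat.Agent.S23Lib Fermat.Agent.S23Lib.Conj Fermat.Agent.GenusLib.Defs
open Fermat.Agent.GenusLib Fermat.Agent.GenusLib.LS Fermat.Agent.GenusLib.LevelOne

section C
variable {N : ℕ} [NeZero N]

/-- (OUTPUT 1 of LS, proved in Mixed.lean) -/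
def Out1 (N : ℕ) [NeZero N] : Prop :=
  ∀ (τ : ℍ) (r n₀ : ℕ), n₀ < r * (Nat.card (StabG τ) / 2) →
    eP (Quotient.mk'' (((1 : SL(2, ℤ)) : X N)) : OrbP N τ) ∣ n₀ →
    ∃ b ∈ WH N 0, Pts.ordAt b τ = n₀ ∧ ∀ q : X N,
      (Quotient.mk'' q : OrbP N τ) ≠ Quotient.mk'' (((1 : SL(2, ℤ)) : X N)) →
        ((r * (Nat.card (StabG τ) / 2) : ℕ) : ℕ∞) ≤ Pts.ordAt (trn q b) τ

/-! ### Stabiliser facts -/

theorem two_dvd_card_StabG (τ : ℍ) : 2 ∣ Nat.card (StabG τ) := by
  have : Fact (Nat.Prime 2) := ⟨Nat.prime_two⟩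
  have h4 : orderOf (⟨-1, neg_one_mem_StabG τ⟩ : StabG τ) = 2 := by
    apply orderOf_eq_prime
    · ext : 1
      simp
    · intro h5
      exact Pts.neg_one_ne_one (congrArg Subtype.val h5)
  have h5 := orderOf_dvd_natCard (⟨-1, neg_one_mem_StabG τ⟩ : StabG τ)
  rwa [h4] at h5

theorem two_mul_card_StabG_div_two (τ : ℍ) :
    2 * (Nat.card (StabG τ) / 2) = Nat.card (StabG τ) :=
  Nat.mul_div_cancel' (two_dvd_card_StabG τ)

theorem card_StabG_div_two_pos (τ : ℍ) : 0 < Nat.card (StabG τ) / 2 := by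
  have h1 := two_mul_card_StabG_div_two τ
  have h2 : 0 < Nat.card (StabG τ) := Nat.card_pos
  omega

theorem denom_pow_card_eq_one {τ : ℍ} {h : SL(2, ℤ)} (hh : h ∈ StabG τ) :
    denom h τ ^ Nat.card (StabG τ) = 1 := by
  have h1 : (Pts.stabChar τ ⟨h, hh⟩) ^ Nat.card (StabG τ) = 1 := by
    rw [← map_pow, pow_card_eq_one', map_one]
  have h2 := congrArg (fun u : ℂˣ => (u : ℂ)) h1
  simpa [Pts.stabChar_apply] using h2

/-! ### The order of `a(j)` at a point -/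

theorem polyJ_pow (P : ℂ[X]) (n : ℕ) : polyJ (P ^ n) = polyJ P ^ n := by
  funext z
  simp [polyJ_apply]

theorem ordAt_polyJ
    (hJ : ∀ τ' : ℍ, Pts.ordAt (fun z => jFun z - jFun τ') τ' = ((Nat.card (StabG τ') / 2 : ℕ) : ℕ∞))
    {a : ℂ[X]} (ha : a ≠ 0) (τ : ℍ) :
    Pts.ordAt (polyJ a) τ =
      ((a.rootMultiplicity (jFun τ) * (Nat.card (StabG τ) / 2) : ℕ) : ℕ∞) := by
  obtain ⟨a', ha', hndvd⟩ := exists_eq_pow_rootMultiplicity_mul_and_not_dvd a ha (jFun τ)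
  have hfun : polyJ a = (fun z => jFun z - jFun τ) ^ a.rootMultiplicity (jFun τ) * polyJ a' := by
    conv_lhs => rw [ha']
    rw [polyJ_mul, polyJ_pow]
    congr 2
    funext z
    simp [polyJ_apply]
  have h1 : MDiff (fun z => jFun z - jFun τ) := mdiff_jFun_sub _
  have h2 : Pts.ordAt (polyJ a') τ = 0 := by
    rw [Pts.ordAt_eq_zero_iff (polyJ_mdiff a'), polyJ_apply]
    intro h0
    exact hndvd (dvd_iff_isRoot.mpr h0)
  rw [hfun, Pts.ordAt_mul (h1.pow _) (polyJ_mdiff a'), Pts.ordAt_pow h1, hJ τ, h2, add_zero]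
  push_cast
  rfl

/-! ### Division by `a(j)` inside `WH` -/

theorem mem_WH_of_mul_polyJ {w : ℤ} {a : ℂ[X]} (ha : a ≠ 0) {Q : ℍ → ℂ} (hQ : MDiff Q)
    (h : Q * polyJ a ∈ WH N w) : Q ∈ WH N w := by
  obtain ⟨m, hm⟩ := h
  have hinv : Inv (Gamma0 N) w Q := by
    refine Conj.inv_of_mul (w := 0) (k := w) hQ (polyJ_mdiff a)
      (fun h0 => ha (polyJ_eq_zero_iff.mp h0)) rfl (fun γ _ => polyJ_slash a γ) ?_
    rw [add_zero]
    exact hm.2.1
  refine ⟨m - a.natDegree, hQ, hinv, fun γ => ?_⟩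
  have h1 := hm.2.2 γ
  have h2 : (Q * polyJ a) ∣[w] γ = (Q ∣[w] γ) * polyJ a := by
    have := ModularForm.mul_slash_SL2 w 0 γ Q (polyJ a)
    rw [add_zero] at this
    rw [this, polyJ_slash]
  rw [h2, mul_assoc, polyJ_mul_dpow] at h1
  have hlc : a.leadingCoeff ≠ 0 := leadingCoeff_ne_zero.mpr ha
  set U : ℍ → ℂ := fun z => polyJ a z * ModularForm.discriminant z ^ a.natDegree with hU
  have hUt : Filter.Tendsto (fun z => (a.leadingCoeff)⁻¹ * U z) atImInfty (nhds 1) := by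
    have := (tendsto_polyJ_mul a).const_mul (a.leadingCoeff)⁻¹
    rwa [inv_mul_cancel₀ hlc] at this
  refine WHBasic.bdd_of_mul_bdd hUt ?_
  have h3 : (fun z => (a.leadingCoeff)⁻¹ * U z) * ((Q ∣[w] γ) * dpow (m - a.natDegree)) =
      (a.leadingCoeff)⁻¹ • ((Q ∣[w] γ) * (U * dpow (m - a.natDegree))) := by
    funext z
    simp only [Pi.mul_apply, Pi.smul_apply, smul_eq_mul]
    ring
  rw [h3]
  exact h1.const_smul_left _

/-! ### (D4c) holomorphy of `om1 * b₁ / a(j)` -/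

theorem trn_one_coset {F : ℍ → ℂ} (hF : Inv (Gamma0 N) 0 F) :
    trn (((1 : SL(2, ℤ)) : X N)) F = F := by
  rw [trn_mk hF, inv_one, SlashAction.slash_one]

theorem ordAt_polyJ_le {a : ℂ[X]} (ha : a ≠ 0) {b₁ : ℍ → ℂ} (hb₁ : b₁ ∈ WH N 0)
    (hout : Out1 N)
    (hJ : ∀ τ' : ℍ, Pts.ordAt (fun z => jFun z - jFun τ') τ' = ((Nat.card (StabG τ') / 2 : ℕ) : ℕ∞))
    (hom : ∀ τ' : ℍ, Pts.ordAt om1 τ' + 1 = Pts.ordAt (fun z => jFun z - jFun τ') τ')
    (hdiv : ∀ b ∈ WH N 0, a ∣ tau N b b₁) (τ : ℍ) :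
    Pts.ordAt (polyJ a) τ ≤ Pts.ordAt (om1 * b₁) τ := by
  have hb₁M := mdiff_of_mem_WH hb₁
  have ho_pos : 0 < Nat.card (StabG τ) / 2 := card_StabG_div_two_pos τ
  rw [ordAt_polyJ hJ ha τ, Pts.ordAt_mul om1_mdiff hb₁M]
  generalize ho : Nat.card (StabG τ) / 2 = o at ho_pos
  generalize hr : a.rootMultiplicity (jFun τ) = r
  have hom' := hom τ
  rw [hJ τ, ho] at hom'
  obtain ⟨m, hm⟩ : ∃ m : ℕ, Pts.ordAt om1 τ = m := by
    generalize Pts.ordAt om1 τ = y at hom'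
    induction y using ENat.recTopCoe with
    | top => simp at hom'
    | coe m => exact ⟨m, rfl⟩
  have hmo : m + 1 = o := by
    rw [hm] at hom'
    exact_mod_cast hom'
  rw [hm]
  generalize hx : Pts.ordAt b₁ τ = x
  induction x using ENat.recTopCoe with
  | top => simp
  | coe n₁ =>
    by_contra hcon
    have hlt : m + n₁ < r * o := by
      have := not_le.mp hcon
      exact_mod_cast this
    have hr1 : 1 ≤ r := by
      by_contra h
      have h0 : r = 0 := by omega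
      rw [h0] at hlt
      simp at hlt
    obtain ⟨r', hr'⟩ : ∃ r', r = r' + 1 := ⟨r - 1, by omega⟩
    have hn₁ : n₁ ≤ r' * o := by
      rw [hr'] at hlt
      nlinarith
    -- the orbit of the trivial coset
    have he_o : eP (Quotient.mk'' (((1 : SL(2, ℤ)) : X N)) : OrbP N τ) ∣ o := by
      refine ⟨sP (Quotient.mk'' (((1 : SL(2, ℤ)) : X N)) : OrbP N τ), ?_⟩
      rw [← ho, ← sP_mul_eP (Quotient.mk'' (((1 : SL(2, ℤ)) : X N)) : OrbP N τ)]
      ring
    have he_n : eP (Quotient.mk'' (((1 : SL(2, ℤ)) : X N)) : OrbP N τ) ∣ n₁ := by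
      obtain ⟨s, hs, hq⟩ := exists_smul_repP τ (((1 : SL(2, ℤ)) : X N))
      apply eP_dvd_ordAt hb₁ (Quotient.mk'' (((1 : SL(2, ℤ)) : X N)) : OrbP N τ)
      have h1 := ordAt_trn_smul hb₁ hs
        (repP (Quotient.mk'' (((1 : SL(2, ℤ)) : X N)) : OrbP N τ))
      rw [← h1, ← hq, ordAt_trn_mk hb₁, inv_one, one_smul, hx]
    have hn₀lt : r' * o - n₁ < r * (Nat.card (StabG τ) / 2) := by
      rw [ho, hr']
      have : r' * o < (r' + 1) * o := by nlinarith
      omega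
    have he_n₀ : eP (Quotient.mk'' (((1 : SL(2, ℤ)) : X N)) : OrbP N τ) ∣ r' * o - n₁ :=
      Nat.dvd_sub (Dvd.dvd.mul_left he_o r') he_n
    obtain ⟨b, hbW, hb_ord, hb_far⟩ := hout τ r (r' * o - n₁) hn₀lt he_n₀
    rw [ho] at hb_far
    have hbM := mdiff_of_mem_WH hbW
    have hFW : b * b₁ ∈ WH N 0 := WH_mul_zero_zero hbW hb₁
    have hFM : MDiff (b * b₁) := hbM.mul hb₁M
    have hFinv := inv_of_mem_WH hFW
    have hFord : Pts.ordAt (b * b₁) τ = ((r' * o : ℕ) : ℕ∞) := by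
      rw [Pts.ordAt_mul hbM hb₁M, hb_ord, hx]
      norm_cast
      omega
    have hc : Pts.cfAt (b * b₁) τ (r' * o) ≠ 0 := ((Pts.ordAt_eq_iff hFM τ (r' * o)).mp hFord).2
    -- lower bound from divisibility
    obtain ⟨t, ht⟩ := hdiv b hbW
    have hTr : Tr N 0 (b * b₁) = polyJ a * polyJ t := by
      rw [← polyJ_mul, ← ht, tau_spec hbW hb₁]
    have hge : ((r * o : ℕ) : ℕ∞) ≤ Pts.ordAt (Tr N 0 (b * b₁)) τ := by
      rw [hTr, Pts.ordAt_mul (polyJ_mdiff a) (polyJ_mdiff t), ordAt_polyJ hJ ha τ, hr, ho]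
      exact le_self_add
    -- the translates
    have hnear : ∀ q : X N, (Quotient.mk'' q : OrbP N τ) = Quotient.mk'' (((1 : SL(2, ℤ)) : X N)) →
        ((r' * o : ℕ) : ℕ∞) ≤ Pts.ordAt (trw 0 q (b * b₁)) τ ∧
          Pts.cfAt (trw 0 q (b * b₁)) τ (r' * o) = Pts.cfAt (b * b₁) τ (r' * o) := by
      intro q hq
      obtain ⟨h, hh, rfl⟩ := (mk_eq_mk_iffP q _).mp hq
      have hh' : h⁻¹ • τ = τ := (StabG τ).inv_mem hh
      have e1 : trw 0 (h • (((1 : SL(2, ℤ)) : X N))) (b * b₁) = (b * b₁) ∣[(0 : ℤ)] h⁻¹ := by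
        show trn (h • (((1 : SL(2, ℤ)) : X N))) (b * b₁) = _
        rw [trn_smul hFinv, trn_one_coset hFinv]
      rw [e1]
      constructor
      · rw [Pts.ordAt_slash hFM, hh', hFord]
      · refine Pts.cfAt_slash_of_stabilizer hFM hh' hFord.ge ?_
        have h1 := denom_pow_card_eq_one ((StabG τ).inv_mem hh)
        rw [← two_mul_card_StabG_div_two τ, ho] at h1
        rw [add_zero]
        have h2 : (2 * ((r' * o : ℕ) : ℤ)) = ((2 * o * r' : ℕ) : ℤ) := by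
          push_cast
          ring
        rw [h2, zpow_natCast, pow_mul, h1, one_pow]
    have hfar : ∀ q : X N, (Quotient.mk'' q : OrbP N τ) ≠ Quotient.mk'' (((1 : SL(2, ℤ)) : X N)) →
        ((r' * o : ℕ) : ℕ∞) < Pts.ordAt (trw 0 q (b * b₁)) τ := by
      intro q hq
      have h1 := hb_far q hq
      have e1 : trw 0 q (b * b₁) = trn q b * trn q b₁ := trn_mul q b b₁
      rw [e1, Pts.ordAt_mul (trn_mdiff q hbM) (trn_mdiff q hb₁M)]
      have h2 : ((r' * o : ℕ) : ℕ∞) < ((r * o : ℕ) : ℕ∞) := by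
        have : r' * o < r * o := by rw [hr']; nlinarith
        exact_mod_cast this
      exact lt_of_lt_of_le h2 (le_trans h1 le_self_add)
    have heq : Pts.ordAt (Tr N 0 (b * b₁)) τ = ((r' * o : ℕ) : ℕ∞) := by
      unfold Tr
      refine Pts.ordAt_sum_eq Finset.univ (fun q _ => trw_mdiff 0 q hFM) ?_ ?_
      · intro q _
        by_cases hq : (Quotient.mk'' q : OrbP N τ) = Quotient.mk'' (((1 : SL(2, ℤ)) : X N))
        · exact (hnear q hq).1
        · exact (hfar q hq).le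
      · have hsum : ∑ q : X N, Pts.cfAt (trw 0 q (b * b₁)) τ (r' * o) =
            ∑ q : X N, if (Quotient.mk'' q : OrbP N τ) = Quotient.mk'' (((1 : SL(2, ℤ)) : X N))
              then Pts.cfAt (b * b₁) τ (r' * o) else 0 := by
          refine Finset.sum_congr rfl fun q _ => ?_
          by_cases hq : (Quotient.mk'' q : OrbP N τ) = Quotient.mk'' (((1 : SL(2, ℤ)) : X N))
          · rw [if_pos hq, (hnear q hq).2]
          · rw [if_neg hq]
            exact Pts.cfAt_eq_zero_of_lt (trw_mdiff 0 q hFM) (hfar q hq)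
        rw [hsum, Finset.sum_ite, Finset.sum_const_zero, add_zero, Finset.sum_const, nsmul_eq_mul]
        refine mul_ne_zero ?_ hc
        have hne : (Finset.univ.filter fun q : X N =>
            (Quotient.mk'' q : OrbP N τ) = Quotient.mk'' (((1 : SL(2, ℤ)) : X N))).Nonempty :=
          ⟨((1 : SL(2, ℤ)) : X N), by simp⟩
        exact_mod_cast (Finset.card_pos.mpr hne).ne'
    rw [heq] at hge
    have h5 : r * o ≤ r' * o := by exact_mod_cast hge
    rw [hr'] at h5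
    nlinarith

/-! ### (D4) every functional is `beta · f` -/

theorem exists_beta_eq {ι : Type} [Fintype ι] [DecidableEq ι] (b : ι → ℍ → ℂ)
    (hb : ∀ i, b i ∈ WH N 0)
    (hli : ∀ p : ι → ℂ[X], ∑ i, polyJ (p i) * b i = 0 → p = 0)
    (hspan : ∀ c ∈ WH N 0, ∃ p : ι → ℂ[X], c = ∑ i, polyJ (p i) * b i)
    (hout : Out1 N)
    (hJ : ∀ τ' : ℍ, Pts.ordAt (fun z => jFun z - jFun τ') τ' = ((Nat.card (StabG τ') / 2 : ℕ) : ℕ∞))
    (hom : ∀ τ' : ℍ, Pts.ordAt om1 τ' + 1 = Pts.ordAt (fun z => jFun z - jFun τ') τ')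
    (φ : ι → ℂ[X]) : ∃ f ∈ WH N 2, ∀ i, beta N (b i) f = φ i := by
  set G : Matrix ι ι ℂ[X] := Matrix.of fun i l => tau N (b i) (b l) with hG
  have ha : G.det ≠ 0 := det_tau_ne_zero b hb hli hspan
  set ψ : ι → ℂ[X] := G.adjugate.mulVec φ with hψ
  set b₁ : ℍ → ℂ := ∑ l, polyJ (ψ l) * b l with hb₁def
  have hb₁ : b₁ ∈ WH N 0 := sum_polyJ_mul_mem Finset.univ ψ b fun i _ => hb i
  have htau : ∀ i, tau N (b i) b₁ = G.det * φ i := by
    intro i
    rw [hb₁def, tau_sum_right Finset.univ ψ b (fun l _ => hb l) (hb i)]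
    have h1 : G.mulVec ψ = G.det • φ := by
      rw [hψ, Matrix.mulVec_mulVec, Matrix.mul_adjugate, Matrix.smul_mulVec, Matrix.one_mulVec]
    have h2 := congrFun h1 i
    simp only [Matrix.mulVec, dotProduct, Pi.smul_apply, smul_eq_mul] at h2
    rw [← h2]
    refine Finset.sum_congr rfl fun l _ => ?_
    rw [hG, Matrix.of_apply, mul_comm]
  have hdiv : ∀ c ∈ WH N 0, G.det ∣ tau N c b₁ := by
    intro c hc
    obtain ⟨p, rfl⟩ := hspan c hc
    rw [tau_sum_left Finset.univ p b (fun i _ => hb i) hb₁]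
    refine Finset.dvd_sum fun i _ => ?_
    rw [htau i]
    exact Dvd.dvd.mul_left (Dvd.intro _ rfl) _
  have hb₁M := mdiff_of_mem_WH hb₁
  obtain ⟨Q, hQM, hQ⟩ := Pts.exists_eq_mul_of_ordAt_le (om1_mdiff.mul hb₁M) (polyJ_mdiff G.det)
    (ordAt_polyJ_le ha hb₁ hout hJ hom hdiv)
  have hob : om1 * b₁ ∈ WH N 2 := by
    rw [mul_comm]
    exact WH_mul_zero_two hb₁ om1_mem_WH
  have hQW : Q ∈ WH N 2 := mem_WH_of_mul_polyJ ha hQM (hQ ▸ hob)
  refine ⟨Q, hQW, fun i => ?_⟩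
  have key : polyJ (G.det * beta N (b i) Q) * om1 = polyJ (G.det * φ i) * om1 := by
    have h1 := Tr_levelOne_mul (N := N) (w := 2) (w' := 0) (polyJ_slash G.det) (b i * Q)
    simp only [zero_add] at h1
    have h2 : polyJ G.det * (b i * Q) = b i * (om1 * b₁) := by
      rw [hQ]
      ring
    rw [polyJ_mul, mul_assoc, beta_spec (hb i) hQW, ← h1, h2, ← beta_spec (hb i) hob,
      beta_om1_mul (hb i) hb₁, htau i]
  have h3 := polyJ_mul_om1_injective key
  exact mul_left_cancel₀ ha h3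

end C

end Fermat.Agent.GenusLib.Dual
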