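import Mathlib
import Fermat.Agent.GenusLib.LevelOne

/-!
# PROJECT X (S20), work package J0 (d): the derivative of `j`

`D j = a • ω₁` with `a ≠ 0`, where `D = (2πi)⁻¹ d/dz`, and the consequence for local orders:
`ord_τ ω₁ + 1 = ord_τ (j − j(τ))`.
-/

set_option autoImplicit false

open UpperHalfPlane hiding I
open ModularForm SlashInvariantForm SlashInvariantFormClass ModularFormClass
  CuspFormClass MatrixGroups OnePoint Filter EisensteinSeries Asymptotics Polynomial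
  CongruenceSubgroup Complex Real Function

open scoped Topology Manifold Derivative

open Fermat.Agent.S23Lib Fermat.Agent.S23Lib.Conj Fermat.Agent.GenusLib.Defs
  Fermat.Agent.GenusLib.LevelOne

noncomputable section

namespace Fermat.Agent.GenusLib.LevelOneD

local notation "Δ" => ModularForm.discriminant
local notation "𝕢" => Function.Periodic.qParam

/-- `D f (τ) = q F'(q)` for a `q`-function `f` with cusp function `F`. -/
theorem qf_D_eq {f : ℍ → ℂ} (hf : QF f) (τ : ℍ) :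
    D f τ = 𝕢 1 τ * deriv (cuspFunction 1 f) (𝕢 1 τ) := by
  set F := cuspFunction 1 f with hFdef
  have hτd : DifferentiableAt ℂ F (𝕢 1 τ) :=
    differentiableAt_cuspFunction one_pos hf.per hf.hol hf.bdd
      (Function.Periodic.norm_qParam_lt_one one_pos τ.im_pos)
  have hcomp : (f ∘ ofComplex) =ᶠ[𝓝 (τ : ℂ)] (F ∘ 𝕢 1) := by
    filter_upwards [isOpen_upperHalfPlaneSet.mem_nhds τ.im_pos] with w hw
    have := eq_cuspFunction (⟨w, hw⟩ : ℍ) one_ne_zero hf.per
    simp only [Function.comp_apply, ofComplex_apply_of_im_pos hw]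
    exact this.symm
  have hqd : HasDerivAt (𝕢 1) (𝕢 1 τ * (2 * π * I)) (τ : ℂ) := by
    have h1 : HasDerivAt (fun z : ℂ => 2 * π * I * z / ((1 : ℝ) : ℂ)) (2 * π * I) (τ : ℂ) := by
      simpa using ((hasDerivAt_id (τ : ℂ)).const_mul (2 * π * I))
    exact h1.cexp
  have h1 : deriv (f ∘ ofComplex) τ = deriv F (𝕢 1 τ) * (𝕢 1 τ * (2 * π * I)) := by
    rw [hcomp.deriv_eq]
    exact (hτd.hasDerivAt.comp _ hqd).deriv
  have hpi : (2 * π * I : ℂ) ≠ 0 := by simp [Real.pi_ne_zero]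
  simp only [Derivative.normalizedDerivOfComplex, h1]
  field_simp

/-- The normalized derivative of a `q`-function is `O(|q|)` at `i∞`. -/
theorem qf_D_isBigO {f : ℍ → ℂ} (hf : QF f) :
    (D f) =O[atImInfty] (fun τ : ℍ => Real.exp (-2 * π * τ.im)) := by
  set F := cuspFunction 1 f with hFdef
  have hFan : AnalyticAt ℂ F 0 := hf.analyticAt
  have hbd : ∀ᶠ q in 𝓝 (0 : ℂ), ‖deriv F q‖ < ‖deriv F 0‖ + 1 :=
    hFan.deriv.continuousAt.norm.eventually (gt_mem_nhds (lt_add_one _))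
  have hq : Tendsto (fun τ : ℍ => 𝕢 1 τ) atImInfty (𝓝 0) := qParam_tendsto_atImInfty one_pos
  refine Asymptotics.IsBigO.of_bound (‖deriv F 0‖ + 1) ((hq.eventually hbd).mono fun τ hτb => ?_)
  rw [qf_D_eq hf τ, norm_mul, Function.Periodic.norm_qParam,
    Real.norm_of_nonneg (Real.exp_pos _).le, mul_comm]
  have : Real.exp (-2 * π * (τ : ℂ).im / 1) = Real.exp (-2 * π * τ.im) := by simp
  rw [this]
  exact mul_le_mul_of_nonneg_right hτb.le (Real.exp_pos _).le

theorem isBoundedAtImInfty_D_of_qf {f : ℍ → ℂ} (hf : QF f) : IsBoundedAtImInfty (D f) := by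
  have h1 := qf_D_isBigO hf
  have h2 : (fun τ : ℍ => Real.exp (-2 * π * τ.im)) =O[atImInfty] (fun _ : ℍ => (1 : ℝ)) := by
    refine Asymptotics.IsBigO.of_bound 1 (Filter.Eventually.of_forall fun τ => ?_)
    rw [Real.norm_of_nonneg (Real.exp_pos _).le, norm_one, mul_one, Real.exp_le_one_iff]
    have := τ.im_pos
    have := Real.pi_pos
    nlinarith
  exact h1.trans h2

/-- `D Δ / Δ` is bounded at `i∞`. -/
theorem isBoundedAtImInfty_D_discriminant_div :
    IsBoundedAtImInfty (fun τ : ℍ => D (Δ : ℍ → ℂ) τ / Δ τ) := by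
  have h1 : (D (Δ : ℍ → ℂ)) =O[atImInfty] (Δ : ℍ → ℂ) :=
    (qf_D_isBigO (qf_levelOne CuspForm.discriminant)).trans exp_isBigO_discriminant
  obtain ⟨C, hC⟩ := h1.bound
  refine Asymptotics.IsBigO.of_bound C (hC.mono fun τ hτ => ?_)
  have h0 : (0 : ℝ) < ‖Δ τ‖ := norm_pos_iff.mpr (discriminant_ne_zero τ)
  simp only [Pi.one_apply, norm_one, mul_one, norm_div]
  exact (div_le_iff₀ h0).mpr hτ

theorem E₄_cube_eq : ((E₄ : ℍ → ℂ) ^ 3) = jFun * (Δ : ℍ → ℂ) := by
  funext z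
  simp only [Pi.pow_apply, Pi.mul_apply]
  exact (jFun_mul_discriminant z).symm

theorem D_jFun_mul_discriminant (τ : ℍ) :
    D jFun τ * Δ τ = D ((E₄ : ℍ → ℂ) ^ 3) τ - E₄ τ ^ 3 * (D (Δ : ℍ → ℂ) τ / Δ τ) := by
  have h := congrFun (Derivative.normalizedDerivOfComplex_mul jFun (Δ : ℍ → ℂ) jFun_mdiff
    discriminant_mdiff) τ
  rw [← E₄_cube_eq] at h
  simp only [Pi.add_apply, Pi.mul_apply] at h
  have hΔ := discriminant_ne_zero τ
  have h2 : E₄ τ ^ 3 * (D (Δ : ℍ → ℂ) τ / Δ τ) = jFun τ * D (Δ : ℍ → ℂ) τ := by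
    rw [← jFun_mul_discriminant τ]
    field_simp
  rw [h2, h]
  ring

/-- `D j · Δ` is bounded at `i∞`. -/
theorem isBoundedAtImInfty_D_jFun_mul : IsBoundedAtImInfty (D jFun * dpow 1) := by
  have hE : QF ((E₄ : ℍ → ℂ) ^ 3) := (qf_levelOne E₄).pow 3
  have h1 : IsBoundedAtImInfty (D ((E₄ : ℍ → ℂ) ^ 3)) := isBoundedAtImInfty_D_of_qf hE
  have h2 : IsBoundedAtImInfty (((E₄ : ℍ → ℂ) ^ 3) * fun τ : ℍ => D (Δ : ℍ → ℂ) τ / Δ τ) :=
    hE.bdd.mul isBoundedAtImInfty_D_discriminant_div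
  have h3 : D jFun * dpow 1
      = D ((E₄ : ℍ → ℂ) ^ 3) - ((E₄ : ℍ → ℂ) ^ 3) * fun τ : ℍ => D (Δ : ℍ → ℂ) τ / Δ τ := by
    funext τ
    simp only [Pi.mul_apply, Pi.sub_apply, Pi.pow_apply, dpow_apply, zpow_one]
    exact D_jFun_mul_discriminant τ
  rw [h3]
  exact Asymptotics.IsBigO.sub h1 h2

/-- `D j` is invariant of weight two. -/
theorem D_jFun_slash (γ : SL(2, ℤ)) : (D jFun) ∣[(2 : ℤ)] γ = D jFun := by
  have h := Derivative.normalizedDerivOfComplex_SL_slash (k := 0) jFun_mdiff (γ := γ)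
  rw [jFun_slash] at h
  funext z
  have hz := congrFun h z
  simp only [Pi.sub_apply, Int.cast_zero, zero_mul, sub_zero, zero_add] at hz
  exact hz.symm

theorem D_jFun_mdiff : MDiff (D jFun) :=
  Derivative.normalizedDerivOfComplex_mdifferentiable jFun_mdiff

/-- (d) `D j = a • ω₁` with `a ≠ 0`. -/
theorem exists_D_jFun_eq : ∃ a : ℂ, a ≠ 0 ∧ D jFun = a • om1 := by
  obtain ⟨P, hP, hFP⟩ := exists_polyJ_mul_om1_of_bounded D_jFun_mdiff D_jFun_slash 1
    isBoundedAtImInfty_D_jFun_mul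
  have hdeg : P.natDegree = 0 := by
    rcases hP with rfl | h
    · simp
    · omega
  obtain ⟨a, rfl⟩ := natDegree_eq_zero.mp hdeg
  have hD : D jFun = a • om1 := by
    rw [hFP, polyJ_C]
    funext z
    simp
  refine ⟨a, ?_, hD⟩
  rintro rfl
  rw [zero_smul] at hD
  have hpi : (2 * π * I : ℂ) ≠ 0 := by simp [Real.pi_ne_zero]
  have hderiv : Set.EqOn (deriv (jFun ∘ ofComplex)) 0 upperHalfPlaneSet := by
    intro w hw
    have := congrFun hD ⟨w, hw⟩
    simp only [Derivative.normalizedDerivOfComplex, Pi.zero_apply] at this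
    rcases mul_eq_zero.mp this with h | h
    · exact absurd (inv_eq_zero.mp h) hpi
    · exact h
  have hdiff : DifferentiableOn ℂ (jFun ∘ ofComplex) upperHalfPlaneSet :=
    UpperHalfPlane.mdifferentiable_iff.mp jFun_mdiff
  have hconn : IsPreconnected upperHalfPlaneSet :=
    (convex_halfSpace_im_gt 0).isPreconnected
  have hconst : ∀ z : ℍ, jFun z = jFun UpperHalfPlane.I := by
    intro z
    have := isOpen_upperHalfPlaneSet.is_const_of_deriv_eq_zero hconn hdiff hderiv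
      z.im_pos UpperHalfPlane.I.im_pos
    simp only [Function.comp_apply, ofComplex_apply] at this
    exact this
  have h1 := tendsto_jFun_mul
  have h2 : Tendsto (fun z : ℍ => jFun z * Δ z) atImInfty (𝓝 (jFun UpperHalfPlane.I * 0)) := by
    simp_rw [hconst]
    exact tendsto_const_nhds.mul tendsto_discriminant
  rw [mul_zero] at h2
  exact one_ne_zero (tendsto_nhds_unique h1 h2)

/-- Consequence of (d): `ord_τ ω₁ + 1 = ord_τ (j − j(τ))`. -/
theorem analyticOrderAt_om1_add_one (τ : ℍ) :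
    analyticOrderAt (om1 ∘ ofComplex) (τ : ℂ) + 1
      = analyticOrderAt ((fun z : ℍ => jFun z - jFun τ) ∘ ofComplex) (τ : ℂ) := by
  obtain ⟨a, ha, hD⟩ := exists_D_jFun_eq
  have hpi : (2 * π * I : ℂ) ≠ 0 := by simp [Real.pi_ne_zero]
  have hnhds : upperHalfPlaneSet ∈ 𝓝 (τ : ℂ) := isOpen_upperHalfPlaneSet.mem_nhds τ.im_pos
  have hj : AnalyticAt ℂ (jFun ∘ ofComplex) (τ : ℂ) :=
    (UpperHalfPlane.mdifferentiable_iff.mp jFun_mdiff).analyticAt hnhds
  have ho : AnalyticAt ℂ (om1 ∘ ofComplex) (τ : ℂ) :=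
    (UpperHalfPlane.mdifferentiable_iff.mp om1_mdiff).analyticAt hnhds
  have h1 := hj.analyticOrderAt_deriv_add_one
  have h2 : deriv (jFun ∘ ofComplex) =ᶠ[𝓝 (τ : ℂ)]
      fun w => (fun _ : ℂ => 2 * π * I * a) w * (om1 ∘ ofComplex) w := by
    filter_upwards [hnhds] with w hw
    have := congrFun hD ⟨w, hw⟩
    simp only [Derivative.normalizedDerivOfComplex, Pi.smul_apply, smul_eq_mul] at this
    simp only [Function.comp_apply, ofComplex_apply_of_im_pos hw]
    have h5 : deriv (jFun ∘ ofComplex) w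
        = (2 * π * I) * ((2 * π * I)⁻¹ * deriv (jFun ∘ ofComplex) w) := by
      field_simp
    rw [h5, this]
    ring
  have h3 : analyticOrderAt (fun w => (fun _ : ℂ => 2 * π * I * a) w * (om1 ∘ ofComplex) w)
      (τ : ℂ) = analyticOrderAt (om1 ∘ ofComplex) (τ : ℂ) := by
    have h4 := analyticOrderAt_mul (f := fun _ : ℂ => 2 * π * I * a) (g := om1 ∘ ofComplex)
      (z₀ := (τ : ℂ)) analyticAt_const ho
    rw [(analyticAt_const (𝕜 := ℂ)).analyticOrderAt_eq_zero.mpr (mul_ne_zero hpi ha),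
      zero_add] at h4
    exact h4
  rw [analyticOrderAt_congr h2, h3] at h1
  rw [h1]
  congr 1
  funext x
  simp only [Function.comp_apply, ofComplex_apply]

end Fermat.Agent.GenusLib.LevelOneD
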