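import Mathlib
import Fermat.Agent.GenusLib.LevelOneD
import Fermat.Agent.GenusLib.Pts
import Fermat.Agent.GenusLib.JInj

/-!
# PROJECT X (S20), work package J0 (e), (f), (g): elliptic points

* (e) `E₆(i) = 0`, `E₄(ρ) = 0`, `j(i) = 1728`, `j(ρ) = 0`;
* (f) stabilisers in `SL(2, ℤ)`: orders `2`, `4` (orbit of `i`), `6` (orbit of `ρ`);
* (g) local orders: `E₄`, `E₆` have simple zeros and
  `ord_τ (j − j(τ)) = |Stab(τ)| / 2`.
-/

set_option autoImplicit false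

open UpperHalfPlane hiding I
open ModularForm MatrixGroups Filter EisensteinSeries Complex ModularGroup

open scoped Topology Manifold

open Fermat.Agent.GenusLib.Defs Fermat.Agent.GenusLib.LevelOne Fermat.Agent.GenusLib.LevelOneD
  Fermat.Agent.GenusLib.Pts

noncomputable section

namespace Fermat.Agent.GenusLib.JOrd

local notation "Δ" => ModularForm.discriminant

/-! ### (e) special values -/

theorem discriminant_eq (z : ℍ) : 1728 * Δ z = E₄ z ^ 3 - E₆ z ^ 2 := by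
  rw [discriminant_eq_E₄_cube_sub_E₆_sq]
  ring

theorem not_E₄_and_E₆ (τ : ℍ) : ¬ (E₄ τ = 0 ∧ E₆ τ = 0) := by
  rintro ⟨h4, h6⟩
  have h := discriminant_eq τ
  rw [h4, h6] at h
  exact discriminant_ne_zero τ (by simpa using h)

theorem E₄_eq_zero_iff (τ : ℍ) : E₄ τ = 0 ↔ jFun τ = 0 := by
  unfold jFun
  rw [div_eq_zero_iff]
  simp [discriminant_ne_zero τ]

theorem E₆_eq_zero_iff (τ : ℍ) : E₆ τ = 0 ↔ jFun τ = 1728 := by
  unfold jFun
  rw [div_eq_iff (discriminant_ne_zero τ)]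
  have h := discriminant_eq τ
  constructor
  · intro h6
    rw [h6] at h
    linear_combination -h
  · intro h3
    have : E₆ τ ^ 2 = 0 := by linear_combination h3 + h
    exact pow_eq_zero_iff (two_ne_zero) |>.mp this

/-- `j − 1728 = E₆² / Δ`. -/
theorem jFun_sub_eq (z : ℍ) : jFun z - 1728 = E₆ z ^ 2 / Δ z := by
  unfold jFun
  have hΔ := discriminant_ne_zero z
  have h := discriminant_eq z
  field_simp
  linear_combination -h

theorem S_smul_I : S • UpperHalfPlane.I = UpperHalfPlane.I := by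
  rw [Pts.smul_eq_iff]
  have h00 : (S : SL(2, ℤ)) 0 0 = 0 := by decide
  have h01 : (S : SL(2, ℤ)) 0 1 = -1 := by decide
  have h10 : (S : SL(2, ℤ)) 1 0 = 1 := by decide
  have h11 : (S : SL(2, ℤ)) 1 1 = 0 := by decide
  rw [h00, h01, h10, h11, UpperHalfPlane.coe_I]
  push_cast
  linear_combination -Complex.I_sq

theorem E₆_I : E₆ UpperHalfPlane.I = 0 := by
  have h := levelOne_smul E₆ S UpperHalfPlane.I
  rw [S_smul_I, ModularGroup.denom_S, UpperHalfPlane.coe_I] at h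
  have hI : (Complex.I : ℂ) ^ (6 : ℤ) = -1 := by
    have : (Complex.I : ℂ) ^ (6 : ℕ) = -1 := by
      rw [show (6 : ℕ) = 2 * 3 by norm_num, pow_mul, Complex.I_sq]
      norm_num
    exact_mod_cast this
  rw [hI] at h
  have h2 : 2 * E₆ UpperHalfPlane.I = 0 := by linear_combination h
  simpa using h2

/-- The point `ρ = e^{2πi/3}`, fixed by `S * T`. -/
def rho : ℍ := ⟨⟨-1 / 2, Real.sqrt 3 / 2⟩, by
  show (0 : ℝ) < Real.sqrt 3 / 2
  positivity⟩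

theorem rho_coe : (rho : ℂ) = ⟨-1 / 2, Real.sqrt 3 / 2⟩ := rfl

theorem rho_sq : (rho : ℂ) ^ 2 + rho + 1 = 0 := by
  have h3 : Real.sqrt 3 * Real.sqrt 3 = 3 := Real.mul_self_sqrt (by norm_num)
  rw [rho_coe]
  apply Complex.ext
  · simp [pow_two]
    nlinarith
  · simp [pow_two]
    ring

theorem ST_smul_rho : (S * T) • rho = rho := by
  rw [Pts.smul_eq_iff]
  have h00 : (S * T : SL(2, ℤ)) 0 0 = 0 := by decide
  have h01 : (S * T : SL(2, ℤ)) 0 1 = -1 := by decide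
  have h10 : (S * T : SL(2, ℤ)) 1 0 = 1 := by decide
  have h11 : (S * T : SL(2, ℤ)) 1 1 = 1 := by decide
  rw [h00, h01, h10, h11]
  push_cast
  linear_combination -rho_sq

theorem denom_ST_rho : denom (S * T : SL(2, ℤ)) rho = (rho : ℂ) + 1 := by
  rw [Pts.denom_eq]
  have h10 : (S * T : SL(2, ℤ)) 1 0 = 1 := by decide
  have h11 : (S * T : SL(2, ℤ)) 1 1 = 1 := by decide
  rw [h10, h11]
  push_cast
  ring

theorem E₄_rho : E₄ rho = 0 := by
  have h := levelOne_smul E₄ (S * T) rho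
  rw [ST_smul_rho, denom_ST_rho] at h
  have h4 : ((rho : ℂ) + 1) ^ (4 : ℤ) = -(rho : ℂ) - 1 := by
    have : ((rho : ℂ) + 1) ^ (4 : ℕ) = -(rho : ℂ) - 1 := by
      linear_combination ((rho : ℂ) ^ 2 + 3 * rho + 2) * rho_sq
    exact_mod_cast this
  rw [h4] at h
  have h2 : ((rho : ℂ) + 2) * E₄ rho = 0 := by linear_combination h
  rcases mul_eq_zero.mp h2 with h3 | h3
  · exfalso
    have him := congrArg Complex.im h3
    rw [rho_coe] at him
    simp at him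
  · exact h3

theorem jFun_I : jFun UpperHalfPlane.I = 1728 := (E₆_eq_zero_iff _).mp E₆_I

theorem jFun_rho : jFun rho = 0 := (E₄_eq_zero_iff _).mp E₄_rho

theorem E₄_I_ne : E₄ UpperHalfPlane.I ≠ 0 := fun h => not_E₄_and_E₆ _ ⟨h, E₆_I⟩

theorem E₆_rho_ne : E₆ rho ≠ 0 := fun h => not_E₄_and_E₆ _ ⟨E₄_rho, h⟩

theorem E₄_ne_zero : (E₄ : ℍ → ℂ) ≠ 0 := fun h => E₄_I_ne (by rw [h]; rfl)

theorem E₆_ne_zero : (E₆ : ℍ → ℂ) ≠ 0 := fun h => E₆_rho_ne (by rw [h]; rfl)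

/-- `j` separates `SL(2, ℤ)`-orbits (helper3's `j_injective`, restated for `jFun`). -/
theorem exists_smul_eq_of_jFun_eq {τ₁ τ₂ : ℍ} (h : jFun τ₁ = jFun τ₂) :
    ∃ g : SL(2, ℤ), g • τ₁ = τ₂ := by
  apply JInj.j_injective
  unfold jFun at h
  rw [div_eq_div_iff (discriminant_ne_zero _) (discriminant_ne_zero _)] at h
  exact h

theorem jFun_eq_iff {τ₁ τ₂ : ℍ} : jFun τ₁ = jFun τ₂ ↔ ∃ g : SL(2, ℤ), g • τ₁ = τ₂ := by
  constructor
  · exact exists_smul_eq_of_jFun_eq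
  · rintro ⟨g, rfl⟩
    exact (jFun_smul g τ₁).symm

theorem exists_smul_I_of_E₆ {τ : ℍ} (h : E₆ τ = 0) : ∃ g : SL(2, ℤ), g • UpperHalfPlane.I = τ :=
  exists_smul_eq_of_jFun_eq (by rw [jFun_I, (E₆_eq_zero_iff τ).mp h])

theorem exists_smul_rho_of_E₄ {τ : ℍ} (h : E₄ τ = 0) : ∃ g : SL(2, ℤ), g • rho = τ :=
  exists_smul_eq_of_jFun_eq (by rw [jFun_rho, (E₄_eq_zero_iff τ).mp h])

/-! ### (f) stabilisers -/

theorem neg_one_mem_stabilizer (τ : ℍ) : (-1 : SL(2, ℤ)) ∈ MulAction.stabilizer SL(2, ℤ) τ := by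
  rw [MulAction.mem_stabilizer_iff, ModularGroup.SL_neg_smul, one_smul]

/-- If a level one form does not vanish at `τ`, the multiplier of the stabiliser is killed by the
weight. -/
theorem stabChar_zpow_of_ne {k : ℤ} (f : ModularForm 𝒮ℒ k) {τ : ℍ} (h : f τ ≠ 0)
    (g : MulAction.stabilizer SL(2, ℤ) τ) : ((stabChar τ g : ℂˣ) : ℂ) ^ k = 1 := by
  have h1 := levelOne_smul f (g : SL(2, ℤ)) τ
  rw [MulAction.mem_stabilizer_iff.mp g.2] at h1
  rw [stabChar_apply]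
  exact mul_right_cancel₀ h (by rw [one_mul]; exact h1.symm)

theorem stabChar_pow_four {τ : ℍ} (h : E₄ τ ≠ 0) (g : MulAction.stabilizer SL(2, ℤ) τ) :
    stabChar τ g ^ 4 = 1 := by
  apply Units.ext
  have := stabChar_zpow_of_ne E₄ h g
  rw [Units.val_pow_eq_pow_val, Units.val_one]
  exact_mod_cast this

theorem stabChar_pow_six {τ : ℍ} (h : E₆ τ ≠ 0) (g : MulAction.stabilizer SL(2, ℤ) τ) :
    stabChar τ g ^ 6 = 1 := by
  apply Units.ext
  have := stabChar_zpow_of_ne E₆ h g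
  rw [Units.val_pow_eq_pow_val, Units.val_one]
  exact_mod_cast this

instance isCyclic_stabilizer (τ : ℍ) : IsCyclic (MulAction.stabilizer SL(2, ℤ) τ) :=
  isCyclic_of_injective_ringHom ((Units.coeHom ℂ).comp (stabChar τ))
    (Units.val_injective.comp (stabChar_injective τ))

/-- Criterion for the order of the stabiliser. -/
theorem card_stabilizer_eq {τ : ℍ} {n : ℕ}
    (hn : ∀ g : MulAction.stabilizer SL(2, ℤ) τ, stabChar τ g ^ n = 1)
    (g₀ : MulAction.stabilizer SL(2, ℤ) τ) (h₀ : orderOf g₀ = n) :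
    Nat.card (MulAction.stabilizer SL(2, ℤ) τ) = n := by
  have hexp : ∀ g : MulAction.stabilizer SL(2, ℤ) τ, g ^ n = 1 := fun g =>
    stabChar_injective τ (by rw [map_pow, hn, map_one])
  have h1 : Nat.card (MulAction.stabilizer SL(2, ℤ) τ) ∣ n := by
    rw [← IsCyclic.exponent_eq_card]
    exact Monoid.exponent_dvd_of_forall_pow_eq_one hexp
  have h2 : n ∣ Nat.card (MulAction.stabilizer SL(2, ℤ) τ) := h₀ ▸ orderOf_dvd_natCard g₀
  exact Nat.dvd_antisymm h1 h2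

theorem orderOf_neg_one : orderOf (-1 : SL(2, ℤ)) = 2 := by
  have : Fact (Nat.Prime 2) := ⟨Nat.prime_two⟩
  exact orderOf_eq_prime (by decide) (by decide)

theorem orderOf_S : orderOf (S : SL(2, ℤ)) = 4 :=
  orderOf_eq_prime_pow (x := S) (p := 2) (n := 1) (by decide) (by decide)

theorem orderOf_ST : orderOf (S * T : SL(2, ℤ)) = 6 := by
  rw [orderOf_eq_iff (by norm_num)]
  refine ⟨by decide, fun m hm hpos => ?_⟩
  interval_cases m <;> decide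

/-- Generic points have stabiliser `{±1}`. -/
theorem card_stabilizer_of_ne {τ : ℍ} (h4 : E₄ τ ≠ 0) (h6 : E₆ τ ≠ 0) :
    Nat.card (MulAction.stabilizer SL(2, ℤ) τ) = 2 := by
  refine card_stabilizer_eq (fun g => ?_) ⟨-1, neg_one_mem_stabilizer τ⟩ ?_
  · have e4 := stabChar_pow_four h4 g
    have e6 := stabChar_pow_six h6 g
    have : stabChar τ g ^ 6 = stabChar τ g ^ 4 * stabChar τ g ^ 2 := by rw [← pow_add]
    rw [e6, e4, one_mul] at this
    exact this.symm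
  · rw [Subgroup.orderOf_mk]
    exact orderOf_neg_one

theorem card_stabilizer_I : Nat.card (MulAction.stabilizer SL(2, ℤ) UpperHalfPlane.I) = 4 := by
  refine card_stabilizer_eq (stabChar_pow_four E₄_I_ne)
    ⟨S, MulAction.mem_stabilizer_iff.mpr S_smul_I⟩ ?_
  rw [Subgroup.orderOf_mk]
  exact orderOf_S

theorem card_stabilizer_rho : Nat.card (MulAction.stabilizer SL(2, ℤ) rho) = 6 := by
  refine card_stabilizer_eq (stabChar_pow_six E₆_rho_ne)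
    ⟨S * T, MulAction.mem_stabilizer_iff.mpr ST_smul_rho⟩ ?_
  rw [Subgroup.orderOf_mk]
  exact orderOf_ST

theorem card_stabilizer_smul (g : SL(2, ℤ)) (τ : ℍ) :
    Nat.card (MulAction.stabilizer SL(2, ℤ) (g • τ))
      = Nat.card (MulAction.stabilizer SL(2, ℤ) τ) := by
  rw [MulAction.stabilizer_smul_eq_stabilizer_map_conj]
  exact Subgroup.card_map_of_injective (MulAut.conj g).injective

theorem card_stabilizer_of_E₆ {τ : ℍ} (h : E₆ τ = 0) :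
    Nat.card (MulAction.stabilizer SL(2, ℤ) τ) = 4 := by
  obtain ⟨g, rfl⟩ := exists_smul_I_of_E₆ h
  rw [card_stabilizer_smul, card_stabilizer_I]

theorem card_stabilizer_of_E₄ {τ : ℍ} (h : E₄ τ = 0) :
    Nat.card (MulAction.stabilizer SL(2, ℤ) τ) = 6 := by
  obtain ⟨g, rfl⟩ := exists_smul_rho_of_E₄ h
  rw [card_stabilizer_smul, card_stabilizer_rho]

theorem card_stabilizer_cases (τ : ℍ) :
    Nat.card (MulAction.stabilizer SL(2, ℤ) τ) = 2 ∨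
    Nat.card (MulAction.stabilizer SL(2, ℤ) τ) = 4 ∨
    Nat.card (MulAction.stabilizer SL(2, ℤ) τ) = 6 := by
  by_cases h4 : E₄ τ = 0
  · exact Or.inr (Or.inr (card_stabilizer_of_E₄ h4))
  · by_cases h6 : E₆ τ = 0
    · exact Or.inr (Or.inl (card_stabilizer_of_E₆ h6))
    · exact Or.inl (card_stabilizer_of_ne h4 h6)

theorem stabilizer_I :
    MulAction.stabilizer SL(2, ℤ) UpperHalfPlane.I = Subgroup.zpowers (S : SL(2, ℤ)) := by
  symm
  apply Subgroup.eq_of_le_of_card_ge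
  · rw [Subgroup.zpowers_le]
    exact MulAction.mem_stabilizer_iff.mpr S_smul_I
  · rw [card_stabilizer_I, Nat.card_zpowers, orderOf_S]

theorem stabilizer_rho :
    MulAction.stabilizer SL(2, ℤ) rho = Subgroup.zpowers (S * T : SL(2, ℤ)) := by
  symm
  apply Subgroup.eq_of_le_of_card_ge
  · rw [Subgroup.zpowers_le]
    exact MulAction.mem_stabilizer_iff.mpr ST_smul_rho
  · rw [card_stabilizer_rho, Nat.card_zpowers, orderOf_ST]

theorem stabilizer_of_ne {τ : ℍ} (h4 : E₄ τ ≠ 0) (h6 : E₆ τ ≠ 0) :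
    MulAction.stabilizer SL(2, ℤ) τ = Subgroup.zpowers (-1 : SL(2, ℤ)) := by
  symm
  apply Subgroup.eq_of_le_of_card_ge
  · rw [Subgroup.zpowers_le]
    exact neg_one_mem_stabilizer τ
  · rw [card_stabilizer_of_ne h4 h6, Nat.card_zpowers, orderOf_neg_one]

/-! ### (g) local orders -/

theorem E₄_mdiff : MDiff (E₄ : ℍ → ℂ) := E₄.holo'

theorem E₆_mdiff : MDiff (E₆ : ℍ → ℂ) := E₆.holo'

theorem ordAt_dpow (m : ℤ) (τ : ℍ) : ordAt (dpow m) τ = 0 :=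
  (ordAt_eq_zero_iff (dpow_mdiff m) τ).mpr (dpow_ne_zero m τ)

theorem ordAt_om1 (τ : ℍ) :
    ordAt om1 τ = 2 * ordAt (E₄ : ℍ → ℂ) τ + ordAt (E₆ : ℍ → ℂ) τ := by
  rw [om1_eq, ordAt_mul ((E₄_mdiff.pow 2).mul E₆_mdiff) (dpow_mdiff (-1)),
    ordAt_mul (E₄_mdiff.pow 2) E₆_mdiff, ordAt_pow E₄_mdiff, ordAt_dpow, add_zero]
  norm_cast

theorem ordAt_jFun (τ : ℍ) : ordAt jFun τ = 3 * ordAt (E₄ : ℍ → ℂ) τ := by
  rw [jFun_eq, ordAt_mul (E₄_mdiff.pow 3) (dpow_mdiff (-1)), ordAt_pow E₄_mdiff, ordAt_dpow,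
    add_zero]
  norm_cast

theorem jFun_sub_fun_eq : (fun z : ℍ => jFun z - 1728) = (E₆ : ℍ → ℂ) ^ 2 * dpow (-1) := by
  funext z
  rw [jFun_sub_eq]
  simp [dpow, div_eq_mul_inv]

theorem ordAt_jFun_sub_1728 (τ : ℍ) :
    ordAt (fun z : ℍ => jFun z - 1728) τ = 2 * ordAt (E₆ : ℍ → ℂ) τ := by
  rw [jFun_sub_fun_eq, ordAt_mul (E₆_mdiff.pow 2) (dpow_mdiff (-1)), ordAt_pow E₆_mdiff,
    ordAt_dpow, add_zero]
  norm_cast

/-- Consequence of `D j = a ω₁`. -/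
theorem ordAt_om1_add_one (τ : ℍ) :
    ordAt om1 τ + 1 = ordAt (fun z : ℍ => jFun z - jFun τ) τ :=
  analyticOrderAt_om1_add_one τ

/-- `E₄` has only simple zeros. -/
theorem ordAt_E₄ {τ : ℍ} (h : E₄ τ = 0) : ordAt (E₄ : ℍ → ℂ) τ = 1 := by
  have h6 : E₆ τ ≠ 0 := fun h6 => not_E₄_and_E₆ τ ⟨h, h6⟩
  have hne : ordAt (E₄ : ℍ → ℂ) τ ≠ ⊤ := ordAt_ne_top E₄_mdiff E₄_ne_zero τ
  have h1 := ordAt_om1_add_one τ
  have hj : (fun z : ℍ => jFun z - jFun τ) = jFun := by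
    funext z
    rw [(E₄_eq_zero_iff τ).mp h, sub_zero]
  rw [hj, ordAt_jFun, ordAt_om1, (ordAt_eq_zero_iff E₆_mdiff τ).mpr h6, add_zero] at h1
  obtain ⟨n, hn⟩ := ENat.ne_top_iff_exists.mp hne
  rw [← hn] at h1 ⊢
  have h2 : 2 * n + 1 = 3 * n := by exact_mod_cast h1
  have h3 : n = 1 := by omega
  rw [h3]
  rfl

/-- `E₆` has only simple zeros. -/
theorem ordAt_E₆ {τ : ℍ} (h : E₆ τ = 0) : ordAt (E₆ : ℍ → ℂ) τ = 1 := by
  have h4 : E₄ τ ≠ 0 := fun h4 => not_E₄_and_E₆ τ ⟨h4, h⟩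
  have hne : ordAt (E₆ : ℍ → ℂ) τ ≠ ⊤ := ordAt_ne_top E₆_mdiff E₆_ne_zero τ
  have h1 := ordAt_om1_add_one τ
  rw [(E₆_eq_zero_iff τ).mp h, ordAt_jFun_sub_1728, ordAt_om1,
    (ordAt_eq_zero_iff E₄_mdiff τ).mpr h4, mul_zero, zero_add] at h1
  obtain ⟨n, hn⟩ := ENat.ne_top_iff_exists.mp hne
  rw [← hn] at h1 ⊢
  have h2 : n + 1 = 2 * n := by exact_mod_cast h1
  have h3 : n = 1 := by omega
  rw [h3]
  rfl

theorem ordAt_jFun_sub_of_E₄ {τ : ℍ} (h : E₄ τ = 0) :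
    ordAt (fun z : ℍ => jFun z - jFun τ) τ = 3 := by
  rw [← ordAt_om1_add_one, ordAt_om1, ordAt_E₄ h,
    (ordAt_eq_zero_iff E₆_mdiff τ).mpr (fun h6 => not_E₄_and_E₆ τ ⟨h, h6⟩)]
  rfl

theorem ordAt_jFun_sub_of_E₆ {τ : ℍ} (h : E₆ τ = 0) :
    ordAt (fun z : ℍ => jFun z - jFun τ) τ = 2 := by
  rw [← ordAt_om1_add_one, ordAt_om1, ordAt_E₆ h,
    (ordAt_eq_zero_iff E₄_mdiff τ).mpr (fun h4 => not_E₄_and_E₆ τ ⟨h4, h⟩)]
  rfl

theorem ordAt_jFun_sub_of_ne {τ : ℍ} (h4 : E₄ τ ≠ 0) (h6 : E₆ τ ≠ 0) :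
    ordAt (fun z : ℍ => jFun z - jFun τ) τ = 1 := by
  rw [← ordAt_om1_add_one, ordAt_om1, (ordAt_eq_zero_iff E₄_mdiff τ).mpr h4,
    (ordAt_eq_zero_iff E₆_mdiff τ).mpr h6]
  rfl

/-- (g), final form: `ord_τ (j − j(τ)) = |Stab(τ)| / 2`. -/
theorem ordAt_jFun_sub (τ : ℍ) :
    ordAt (fun z : ℍ => jFun z - jFun τ) τ
      = ((Nat.card (MulAction.stabilizer SL(2, ℤ) τ) / 2 : ℕ) : ℕ∞) := by
  by_cases h4 : E₄ τ = 0
  · rw [ordAt_jFun_sub_of_E₄ h4, card_stabilizer_of_E₄ h4]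
    rfl
  · by_cases h6 : E₆ τ = 0
    · rw [ordAt_jFun_sub_of_E₆ h6, card_stabilizer_of_E₆ h6]
      rfl
    · rw [ordAt_jFun_sub_of_ne h4 h6, card_stabilizer_of_ne h4 h6]
      rfl

/-- The order of `ω₁` at `τ` is `|Stab(τ)| / 2 − 1`. -/
theorem ordAt_om1_eq (τ : ℍ) :
    ordAt om1 τ + 1 = ((Nat.card (MulAction.stabilizer SL(2, ℤ) τ) / 2 : ℕ) : ℕ∞) := by
  rw [ordAt_om1_add_one, ordAt_jFun_sub]

/-- The order of `j − c` at a point `τ` of the fibre `j = c`. -/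
theorem ordAt_jFun_sub_const {τ : ℍ} {c : ℂ} (h : jFun τ = c) :
    ordAt (fun z : ℍ => jFun z - c) τ
      = ((Nat.card (MulAction.stabilizer SL(2, ℤ) τ) / 2 : ℕ) : ℕ∞) := by
  rw [← h]
  exact ordAt_jFun_sub τ

/-- Off the fibre, `j − c` does not vanish. -/
theorem ordAt_jFun_sub_const_of_ne {τ : ℍ} {c : ℂ} (h : jFun τ ≠ c) :
    ordAt (fun z : ℍ => jFun z - c) τ = 0 := by
  have hmd : MDiff (fun z : ℍ => jFun z - c) := jFun_mdiff.sub mdifferentiable_const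
  rw [ordAt_eq_zero_iff hmd]
  exact sub_ne_zero.mpr h

end Fermat.Agent.GenusLib.JOrd
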