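import Mathlib
import Fermat.Agent.GenusLib.LSDefs
import Fermat.Agent.GenusLib.Orb
import Fermat.Agent.GenusLib.Steps
import Fermat.Agent.GenusLib.Cusps

/-!
# PROJECT X (S20), step LS: the valuation family at the cusps

For a cusp `ω : OrbQ N` (a `⟨T⟩`-orbit on `X N = SL(2, ℤ) ⧸ Γ₀(N)`) of width `hQ ω` the
normalised order of `b ∈ WHle N 0 d` is

`vQ N d ω b = ordCusp N d (trn (repQ ω) b) / (N / hQ ω)`,

the order of `b · Δ^d` in the local parameter `q_{hQ ω}` at that cusp.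

* `isValFamily_vQ` : the `vQ N d ω` form a family of order functions on `WHle N 0 d`;
* `forall_le_vQ_iff` : `(∀ ω, r * hQ ω ≤ vQ N d ω b) ↔ b ∈ WHle N 0 (d - r)`;
* `forall_succ_le_vQ_iff` : `(∀ ω, hQ ω + 1 ≤ vQ N d ω b) ↔ b ∈ WHlt N 0 (d - 1)`.
-/

set_option autoImplicit false
set_option linter.unusedSectionVars false

noncomputable section

namespace Fermat.Agent.GenusLib.LS

open UpperHalfPlane hiding I
open scoped MatrixGroups ModularForm Manifold
open CongruenceSubgroup Module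
open Fermat.Agent.S23Lib Fermat.Agent.S23Lib.Conj Fermat.Agent.GenusLib.Defs
open Fermat.Agent.GenusLib

section QFam
variable (N : ℕ) [NeZero N]

/-- normalised order of `b · Δ^d` at the cusp `ω` -/
def vQ (d : ℤ) (ω : OrbQ N) (b : ℍ → ℂ) : ℕ∞ :=
  ediv (Cusps.ordCusp N d (trn (repQ ω) b)) (N / hQ ω)

variable {N}

theorem level_pos : 0 < N := Nat.pos_of_ne_zero (NeZero.ne N)

theorem div_hQ_pos (ω : OrbQ N) : 0 < N / hQ ω :=
  Nat.div_pos (Nat.le_of_dvd level_pos (hQ_dvd ω)) (hQ_pos ω)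

theorem hQ_mul_div (ω : OrbQ N) : hQ ω * (N / hQ ω) = N := Nat.mul_div_cancel' (hQ_dvd ω)

variable {d : ℤ} {b : ℍ → ℂ}

/-- the translates of `b ∈ WHle N 0 d`, multiplied by `Δ^d`, are holomorphic in `q_N` -/
theorem qp_trn (hb : b ∈ WHle N 0 d) (q : X N) : Cusps.QP N (trn q b * dpow d) :=
  Cusps.qp_of_mem_WHle hb _

/-- `T^i`-translates have the same order -/
theorem ordCusp_trn_smul (hb : b ∈ WHle N 0 d) (i : ℤ) (q : X N) :
    Cusps.ordCusp N d (trn (ModularGroup.T ^ i • q) b) = Cusps.ordCusp N d (trn q b) := by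
  rw [trn_smul hb.2.1]
  unfold trn
  rw [← SlashAction.slash_mul, ← zpow_neg]
  exact Cusps.ordCusp_slash_mul_T_zpow level_pos hb _ _

theorem ordCusp_trn_mk (hb : b ∈ WHle N 0 d) (g : SL(2, ℤ)) :
    Cusps.ordCusp N d (trn ((g : SL(2, ℤ)) : X N) b) = Cusps.ordCusp N d (b ∣[(0 : ℤ)] g⁻¹) := by
  rw [trn_mk hb.2.1]

/-- the order of any translate is the order at the representative of its cusp -/
theorem ordCusp_slash_eq (hb : b ∈ WHle N 0 d) (g : SL(2, ℤ)) :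
    Cusps.ordCusp N d (b ∣[(0 : ℤ)] g)
      = Cusps.ordCusp N d (trn (repQ (Quotient.mk'' ((g⁻¹ : SL(2, ℤ)) : X N) : OrbQ N)) b) := by
  obtain ⟨i, hi⟩ := exists_zpow_smul_repQ ((g⁻¹ : SL(2, ℤ)) : X N)
  have h1 := ordCusp_trn_mk hb g⁻¹
  rw [inv_inv] at h1
  rw [← h1]
  conv_lhs => rw [hi]
  exact ordCusp_trn_smul hb i _

/-- the translate at the representative of a cusp is periodic with the width of the cusp -/
theorem shift_trn_repQ (hb : b ∈ WHle N 0 d) (ω : OrbQ N) :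
    Cusps.shift (hQ ω : ℝ) (trn (repQ ω) b) = trn (repQ ω) b := by
  have h1 := Cusps.slash_T_zpow (trn (repQ ω) b) 0 (hQ ω : ℤ)
  rw [trn_slash hb.2.1, ← zpow_neg] at h1
  have h2 : ModularGroup.T ^ (-(hQ ω : ℤ)) • repQ ω = repQ ω :=
    (T_zpow_smul_repQ_iff ω _).mpr (dvd_neg.mpr dvd_rfl)
  rw [h2] at h1
  have h3 : Cusps.shift (((hQ ω : ℕ) : ℤ) : ℝ) (trn (repQ ω) b) = trn (repQ ω) b := h1.symm
  simpa using h3

/-- the order at a cusp is divisible by `N / hQ ω` -/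
theorem div_hQ_dvd_ordCusp (hb : b ∈ WHle N 0 d) (ω : OrbQ N) {n : ℕ}
    (hn : Cusps.ordCusp N d (trn (repQ ω) b) = n) : N / hQ ω ∣ n :=
  Cusps.div_dvd_ordCusp level_pos (hQ_dvd ω) (qp_trn hb _) (shift_trn_repQ hb ω) hn

theorem le_vQ_iff (ω : OrbQ N) (n : ℕ) :
    (n : ℕ∞) ≤ vQ N d ω b ↔ ((n * (N / hQ ω) : ℕ) : ℕ∞) ≤ Cusps.ordCusp N d (trn (repQ ω) b) :=
  le_ediv_iff (div_hQ_pos ω) n _

theorem vQ_eq_iff (hb : b ∈ WHle N 0 d) (ω : OrbQ N) (n : ℕ) :
    vQ N d ω b = n ↔ Cusps.ordCusp N d (trn (repQ ω) b) = ((n * (N / hQ ω) : ℕ) : ℕ∞) := by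
  unfold vQ
  rw [ediv_eq_coe_iff (div_hQ_pos ω)]
  constructor
  · rintro ⟨h1, h2⟩
    refine le_antisymm ?_ h1
    by_contra hcon
    exact absurd (Cusps.succ_mul_le_ordCusp_of_lt level_pos (hQ_dvd ω) (qp_trn hb _)
      (shift_trn_repQ hb ω) (not_le.mp hcon)) (not_le.mpr h2)
  · intro h
    rw [h]
    refine ⟨le_rfl, ?_⟩
    have he := div_hQ_pos ω
    have : n * (N / hQ ω) < (n + 1) * (N / hQ ω) := by nlinarith
    exact_mod_cast this

variable (N)

theorem isValFamily_vQ (d : ℤ) :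
    Steps.IsValFamily ℂ (fun (ω : OrbQ N) (b : ↥(WHle N 0 d)) => vQ N d ω b.1) where
  add := by
    intro ω x y
    show min (vQ N d ω x.1) (vQ N d ω y.1) ≤ vQ N d ω (x.1 + y.1)
    unfold vQ
    rw [ediv_min, trn_add]
    exact ediv_mono (Cusps.le_ordCusp_add level_pos (qp_trn x.2 _) (qp_trn y.2 _)) _
  smul := by
    intro ω c x
    show vQ N d ω x.1 ≤ vQ N d ω (c • x.1)
    unfold vQ
    rw [trn_const_smul]
    exact ediv_mono (Cusps.le_ordCusp_smul level_pos (qp_trn x.2 _) c) _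
  lead := by
    intro ω n x y hx hy
    have hx' := (vQ_eq_iff x.2 ω n).mp hx
    have hy' := (vQ_eq_iff y.2 ω n).mp hy
    obtain ⟨c, hc⟩ := Cusps.exists_lt_ordCusp_sub_smul level_pos (qp_trn x.2 _) (qp_trn y.2 _) hx' hy'
    refine ⟨c, ?_⟩
    show (n : ℕ∞) < vQ N d ω (x.1 - c • y.1)
    have hW : x.1 - c • y.1 ∈ WHle N 0 d := (WHle N 0 d).sub_mem x.2 ((WHle N 0 d).smul_mem c y.2)
    have h1 : ((n * (N / hQ ω) : ℕ) : ℕ∞)
        < Cusps.ordCusp N d (trn (repQ ω) (x.1 - c • y.1)) := by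
      rw [trn_sub, trn_const_smul]
      exact hc
    have h2 := (le_vQ_iff (b := x.1 - c • y.1) (d := d) ω (n + 1)).mpr
      (Cusps.succ_mul_le_ordCusp_of_lt level_pos (hQ_dvd ω) (qp_trn hW _) (shift_trn_repQ hW ω) h1)
    have h3 : ((n + 1 : ℕ) : ℕ∞) = (n : ℕ∞) + 1 := by push_cast; rfl
    rw [h3, ENat.add_one_le_iff (ENat.natCast_ne_top n)] at h2
    exact h2

variable {N}

/-- all cusps at once: a bound on all translates is a bound at the representatives -/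
theorem forall_le_ordCusp_iff (hb : b ∈ WHle N 0 d) (k : ℕ) :
    (∀ g : SL(2, ℤ), (k : ℕ∞) ≤ Cusps.ordCusp N d (b ∣[(0 : ℤ)] g)) ↔
      ∀ ω : OrbQ N, (k : ℕ∞) ≤ Cusps.ordCusp N d (trn (repQ ω) b) := by
  constructor
  · intro h ω
    exact h _
  · intro h g
    rw [ordCusp_slash_eq hb g]
    exact h _

/-- (QF1) threshold box at the cusps = lowering the pole order by `r` -/
theorem forall_le_vQ_iff (hb : b ∈ WHle N 0 d) (r : ℕ) :
    (∀ ω : OrbQ N, ((r * hQ ω : ℕ) : ℕ∞) ≤ vQ N d ω b) ↔ b ∈ WHle N 0 (d - r) := by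
  rw [Cusps.mem_WHle_sub_iff level_pos hb r, forall_le_ordCusp_iff hb]
  refine forall_congr' fun ω => ?_
  rw [le_vQ_iff, Nat.mul_assoc, hQ_mul_div]

/-- (QF3) one more step at every cusp = vanishing at all cusps after lowering by one -/
theorem forall_succ_le_vQ_iff (hb : b ∈ WHle N 0 d) :
    (∀ ω : OrbQ N, ((hQ ω + 1 : ℕ) : ℕ∞) ≤ vQ N d ω b) ↔ b ∈ WHlt N 0 (d - 1) := by
  have hN : 0 < N := level_pos
  have key : ∀ ω : OrbQ N, b ∈ WHle N 0 (d - 1) →
      (((hQ ω + 1 : ℕ) : ℕ∞) ≤ vQ N d ω b ↔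
        (1 : ℕ∞) ≤ Cusps.ordCusp N (d - 1) (trn (repQ ω) b)) := by
    intro ω hb1
    have h1 := Cusps.ordCusp_add_nat hN (qp_trn hb1 (repQ ω)) 1
    have e1 : d - 1 + ((1 : ℕ) : ℤ) = d := by push_cast; ring
    rw [e1, one_mul] at h1
    rw [le_vQ_iff]
    have he := div_hQ_pos ω
    have hmul := hQ_mul_div ω
    constructor
    · intro h
      rw [h1] at h
      generalize Cusps.ordCusp N (d - 1) (trn (repQ ω) b) = x at h ⊢
      induction x using ENat.recTopCoe with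
      | top => exact le_top
      | coe k =>
        have h2 : (hQ ω + 1) * (N / hQ ω) ≤ k + N := by exact_mod_cast h
        have h3 : (hQ ω + 1) * (N / hQ ω) = N + N / hQ ω := by rw [Nat.add_mul, hmul, one_mul]
        have : 1 ≤ k := by omega
        exact_mod_cast this
    · intro h
      have h2 : ((hQ ω * (N / hQ ω) : ℕ) : ℕ∞) < Cusps.ordCusp N d (trn (repQ ω) b) := by
        rw [h1, hmul]
        generalize Cusps.ordCusp N (d - 1) (trn (repQ ω) b) = x at h ⊢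
        induction x using ENat.recTopCoe with
        | top => exact ENat.natCast_lt_top N
        | coe k =>
          have : 1 ≤ k := by exact_mod_cast h
          have : N < k + N := by omega
          exact_mod_cast this
      exact Cusps.succ_mul_le_ordCusp_of_lt hN (hQ_dvd ω) (qp_trn hb _) (shift_trn_repQ hb ω) h2
  have hle : b ∈ WHle N 0 (d - 1) ↔ ∀ ω : OrbQ N, ((hQ ω : ℕ) : ℕ∞) ≤ vQ N d ω b := by
    have := forall_le_vQ_iff hb 1
    simp only [one_mul, Nat.cast_one] at this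
    exact this.symm
  constructor
  · intro h
    have hb1 : b ∈ WHle N 0 (d - 1) := hle.mpr fun ω =>
      le_trans (by exact_mod_cast Nat.le_succ (hQ ω)) (h ω)
    rw [Cusps.mem_WHlt_iff hN hb1]
    have h2 : ∀ g : SL(2, ℤ), ((1 : ℕ) : ℕ∞) ≤ Cusps.ordCusp N (d - 1) (b ∣[(0 : ℤ)] g) :=
      (forall_le_ordCusp_iff hb1 1).mpr fun ω => by
        have := (key ω hb1).mp (h ω)
        exact_mod_cast this
    intro g
    exact_mod_cast h2 g
  · intro h ω
    have hb1 : b ∈ WHle N 0 (d - 1) := WHlt_le_WHle N 0 (d - 1) h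
    refine (key ω hb1).mpr ?_
    exact (Cusps.mem_WHlt_iff hN hb1).mp h _

end QFam

end Fermat.Agent.GenusLib.LS
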