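import Mathlib
import Fermat.Agent.GenusLib.DualSurj
import Fermat.Agent.GenusLib.JOrd
import Fermat.Agent.GenusLib.Cusps
import Fermat.Agent.GenusLib.BStruct
import Fermat.Agent.GenusLib.QFam

/-!
# PROJECT Y (S24), leaf [Conj]: the characteristic polynomial of a quotient `a / b`

For `a b ∈ WH N 0` the polynomial `∏_{q : X N} (trn q b · Y − trn q a)` has coefficients
`cf N a b k = polyJ (cpoly N a b k)` which are polynomials in `j`; its value at `(a, b)`
(homogenised) vanishes.  If all translates of `a` vanish at `τ` to at least the order of the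
corresponding translate of `b`, every coefficient is divisible by the power of `X - j(τ)` dividing
the leading one; the analogous statement at `i∞` bounds the degrees.
-/

set_option autoImplicit false
set_option linter.unusedSectionVars false

noncomputable section

namespace Fermat.Agent.GenusLib.Conj24

open UpperHalfPlane hiding I
open Filter Topology
open scoped MatrixGroups ModularForm Manifold
open CongruenceSubgroup Polynomial
open Fermat.Agent.S23Lib Fermat.Agent.S23Lib.Conj Fermat.Agent.GenusLib.Defs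
open Fermat.Agent.GenusLib Fermat.Agent.GenusLib.LS Fermat.Agent.GenusLib.LevelOne
open Fermat.Agent.GenusLib.Cusps

/-! ### Products of linear polynomials with function coefficients -/

section Generic

variable {ι : Type*} [DecidableEq ι]

/-- the product `∏_{i ∈ s} (B i z · Y − A i z)` as a polynomial in `Y` -/
def lp (A B : ι → ℍ → ℂ) (s : Finset ι) (z : ℍ) : ℂ[X] :=
  ∏ i ∈ s, (C (B i z) * Polynomial.X - C (A i z))

/-- the coefficients of `lp` as functions on `ℍ` -/
def lcf (A B : ι → ℍ → ℂ) (s : Finset ι) (k : ℕ) : ℍ → ℂ := fun z => (lp A B s z).coeff k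

theorem lcf_empty_zero (A B : ι → ℍ → ℂ) : lcf A B ∅ 0 = 1 := by
  funext z
  simp [lcf, lp]

theorem lcf_empty_succ (A B : ι → ℍ → ℂ) (k : ℕ) : lcf A B ∅ (k + 1) = 0 := by
  funext z
  simp [lcf, lp, Polynomial.coeff_one]

theorem lcf_insert_zero (A B : ι → ℍ → ℂ) {s : Finset ι} {i : ι} (hi : i ∉ s) :
    lcf A B (insert i s) 0 = -(A i * lcf A B s 0) := by
  funext z
  simp only [lcf, lp, Finset.prod_insert hi, Pi.neg_apply, Pi.mul_apply]
  rw [sub_mul, coeff_sub, mul_assoc, coeff_C_mul, coeff_X_mul_zero, coeff_C_mul]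
  ring

theorem lcf_insert_succ (A B : ι → ℍ → ℂ) {s : Finset ι} {i : ι} (hi : i ∉ s) (k : ℕ) :
    lcf A B (insert i s) (k + 1) = B i * lcf A B s k - A i * lcf A B s (k + 1) := by
  funext z
  simp only [lcf, lp, Finset.prod_insert hi, Pi.sub_apply, Pi.mul_apply]
  rw [sub_mul, coeff_sub, mul_assoc, coeff_C_mul, coeff_X_mul, coeff_C_mul]

theorem lcf_mdiff {A B : ι → ℍ → ℂ} {s : Finset ι} (hA : ∀ i ∈ s, MDiff (A i))
    (hB : ∀ i ∈ s, MDiff (B i)) (k : ℕ) : MDiff (lcf A B s k) := by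
  induction s using Finset.induction_on generalizing k with
  | empty =>
    cases k with
    | zero => rw [lcf_empty_zero]; exact Pts.mdiff_const 1
    | succ k => rw [lcf_empty_succ]; exact Pts.mdiff_const 0
  | insert i s hi ih =>
    have hA' : ∀ j ∈ s, MDiff (A j) := fun j hj => hA j (Finset.mem_insert_of_mem hj)
    have hB' : ∀ j ∈ s, MDiff (B j) := fun j hj => hB j (Finset.mem_insert_of_mem hj)
    have hAi := hA i (Finset.mem_insert_self i s)
    have hBi := hB i (Finset.mem_insert_self i s)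
    cases k with
    | zero => rw [lcf_insert_zero A B hi]; exact (hAi.mul (ih hA' hB' 0)).neg
    | succ k =>
      rw [lcf_insert_succ A B hi]
      exact (hBi.mul (ih hA' hB' k)).sub (hAi.mul (ih hA' hB' (k + 1)))

theorem lcf_bdd {A B : ι → ℍ → ℂ} {s : Finset ι} (d : ℤ)
    (hA : ∀ i ∈ s, IsBoundedAtImInfty (A i * dpow d))
    (hB : ∀ i ∈ s, IsBoundedAtImInfty (B i * dpow d)) (k : ℕ) :
    IsBoundedAtImInfty (lcf A B s k * dpow ((s.card : ℤ) * d)) := by
  induction s using Finset.induction_on generalizing k with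
  | empty =>
    cases k with
    | zero =>
      rw [lcf_empty_zero, Finset.card_empty, Nat.cast_zero, zero_mul, dpow_zero, mul_one]
      exact Filter.const_boundedAtFilter atImInfty (1 : ℂ)
    | succ k =>
      rw [lcf_empty_succ, zero_mul]
      exact Filter.const_boundedAtFilter atImInfty (0 : ℂ)
  | insert i s hi ih =>
    have hA' : ∀ j ∈ s, IsBoundedAtImInfty (A j * dpow d) :=
      fun j hj => hA j (Finset.mem_insert_of_mem hj)
    have hB' : ∀ j ∈ s, IsBoundedAtImInfty (B j * dpow d) :=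
      fun j hj => hB j (Finset.mem_insert_of_mem hj)
    have hAi := hA i (Finset.mem_insert_self i s)
    have hBi := hB i (Finset.mem_insert_self i s)
    have hd : dpow (((insert i s).card : ℤ) * d) = dpow d * dpow ((s.card : ℤ) * d) := by
      rw [Finset.card_insert_of_notMem hi, ← dpow_add]
      congr 1
      push_cast
      ring
    cases k with
    | zero =>
      rw [lcf_insert_zero A B hi, hd]
      have e : -(A i * lcf A B s 0) * (dpow d * dpow ((s.card : ℤ) * d))
          = (-1 : ℂ) • ((A i * dpow d) * (lcf A B s 0 * dpow ((s.card : ℤ) * d))) := by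
        funext z
        simp only [Pi.neg_apply, Pi.mul_apply, Pi.smul_apply, smul_eq_mul]
        ring
      rw [e]
      exact (hAi.mul (ih hA' hB' 0)).const_smul_left (-1)
    | succ k =>
      rw [lcf_insert_succ A B hi, hd]
      have e : (B i * lcf A B s k - A i * lcf A B s (k + 1)) * (dpow d * dpow ((s.card : ℤ) * d))
          = (B i * dpow d) * (lcf A B s k * dpow ((s.card : ℤ) * d))
            + (-1 : ℂ) • ((A i * dpow d) * (lcf A B s (k + 1) * dpow ((s.card : ℤ) * d))) := by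
        funext z
        simp only [Pi.sub_apply, Pi.add_apply, Pi.mul_apply, Pi.smul_apply, smul_eq_mul]
        ring
      rw [e]
      exact (hBi.mul (ih hA' hB' k)).add ((hAi.mul (ih hA' hB' (k + 1))).const_smul_left (-1))

theorem lcf_card_and (A B : ι → ℍ → ℂ) (s : Finset ι) :
    lcf A B s s.card = ∏ i ∈ s, B i ∧ ∀ k, s.card < k → lcf A B s k = 0 := by
  induction s using Finset.induction_on with
  | empty =>
    refine ⟨by rw [Finset.card_empty, lcf_empty_zero, Finset.prod_empty], fun k hk => ?_⟩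
    obtain ⟨k, rfl⟩ := Nat.exists_eq_succ_of_ne_zero (Nat.pos_iff_ne_zero.mp hk)
    exact lcf_empty_succ A B k
  | insert i s hi ih =>
    obtain ⟨ih1, ih2⟩ := ih
    rw [Finset.card_insert_of_notMem hi]
    refine ⟨?_, fun k hk => ?_⟩
    · rw [lcf_insert_succ A B hi, ih1, ih2 _ (Nat.lt_succ_self _), mul_zero, sub_zero,
        Finset.prod_insert hi]
    · obtain ⟨k, rfl⟩ := Nat.exists_eq_succ_of_ne_zero (Nat.pos_iff_ne_zero.mp (by omega : 0 < k))
      rw [lcf_insert_succ A B hi, ih2 k (by omega), ih2 (k + 1) (by omega), mul_zero, mul_zero,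
        sub_zero]

theorem lcf_card (A B : ι → ℍ → ℂ) (s : Finset ι) : lcf A B s s.card = ∏ i ∈ s, B i :=
  (lcf_card_and A B s).1

theorem lcf_eq_zero_of_lt (A B : ι → ℍ → ℂ) (s : Finset ι) {k : ℕ} (hk : s.card < k) :
    lcf A B s k = 0 :=
  (lcf_card_and A B s).2 k hk

/-- order bound at a point -/
theorem le_ordAt_lcf {A B : ι → ℍ → ℂ} {s : Finset ι} (hA : ∀ i ∈ s, MDiff (A i))
    (hB : ∀ i ∈ s, MDiff (B i)) (τ : ℍ)
    (h : ∀ i ∈ s, Pts.ordAt (B i) τ ≤ Pts.ordAt (A i) τ) (k : ℕ) :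
    ∑ i ∈ s, Pts.ordAt (B i) τ ≤ Pts.ordAt (lcf A B s k) τ := by
  induction s using Finset.induction_on generalizing k with
  | empty => rw [Finset.sum_empty]; exact zero_le
  | insert i s hi ih =>
    have hA' : ∀ j ∈ s, MDiff (A j) := fun j hj => hA j (Finset.mem_insert_of_mem hj)
    have hB' : ∀ j ∈ s, MDiff (B j) := fun j hj => hB j (Finset.mem_insert_of_mem hj)
    have h' : ∀ j ∈ s, Pts.ordAt (B j) τ ≤ Pts.ordAt (A j) τ :=
      fun j hj => h j (Finset.mem_insert_of_mem hj)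
    have hAi := hA i (Finset.mem_insert_self i s)
    have hBi := hB i (Finset.mem_insert_self i s)
    have hi' := h i (Finset.mem_insert_self i s)
    rw [Finset.sum_insert hi]
    cases k with
    | zero =>
      rw [lcf_insert_zero A B hi, Pts.ordAt_neg, Pts.ordAt_mul hAi (lcf_mdiff hA' hB' 0)]
      exact add_le_add hi' (ih hA' hB' h' 0)
    | succ k =>
      rw [lcf_insert_succ A B hi]
      refine le_trans (le_min ?_ ?_) (Pts.le_ordAt_sub _ _ τ)
      · rw [Pts.ordAt_mul hBi (lcf_mdiff hA' hB' k)]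
        exact add_le_add le_rfl (ih hA' hB' h' k)
      · rw [Pts.ordAt_mul hAi (lcf_mdiff hA' hB' (k + 1))]
        exact add_le_add hi' (ih hA' hB' h' (k + 1))

/-- order bound at `i∞` -/
theorem le_ordCusp_lcf {A B : ι → ℍ → ℂ} {s : Finset ι} {N : ℕ} (hN : 0 < N) (d : ℤ)
    (hA : ∀ i ∈ s, QP N (A i * dpow d)) (hB : ∀ i ∈ s, QP N (B i * dpow d))
    (h : ∀ i ∈ s, ordCusp N d (B i) ≤ ordCusp N d (A i)) (k : ℕ) :
    QP N (lcf A B s k * dpow ((s.card : ℤ) * d)) ∧
      ∑ i ∈ s, ordCusp N d (B i) ≤ ordCusp N ((s.card : ℤ) * d) (lcf A B s k) := by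
  induction s using Finset.induction_on generalizing k with
  | empty =>
    refine ⟨?_, by rw [Finset.sum_empty]; exact zero_le⟩
    cases k with
    | zero =>
      rw [lcf_empty_zero, Finset.card_empty, Nat.cast_zero, zero_mul, dpow_zero, mul_one]
      exact QP.one
    | succ k =>
      rw [lcf_empty_succ, zero_mul]
      exact QP.zero
  | insert i s hi ih =>
    have hA' : ∀ j ∈ s, QP N (A j * dpow d) := fun j hj => hA j (Finset.mem_insert_of_mem hj)
    have hB' : ∀ j ∈ s, QP N (B j * dpow d) := fun j hj => hB j (Finset.mem_insert_of_mem hj)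
    have h' : ∀ j ∈ s, ordCusp N d (B j) ≤ ordCusp N d (A j) :=
      fun j hj => h j (Finset.mem_insert_of_mem hj)
    have hAi := hA i (Finset.mem_insert_self i s)
    have hBi := hB i (Finset.mem_insert_self i s)
    have hi' := h i (Finset.mem_insert_self i s)
    have hd : ((insert i s).card : ℤ) * d = d + (s.card : ℤ) * d := by
      rw [Finset.card_insert_of_notMem hi]
      push_cast
      ring
    rw [Finset.sum_insert hi, hd]
    -- the two products
    have key : ∀ (F : ℍ → ℂ) (k' : ℕ), QP N (F * dpow d) → ordCusp N d (B i) ≤ ordCusp N d F →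
        QP N (F * lcf A B s k' * dpow (d + (s.card : ℤ) * d)) ∧
          ordCusp N d (B i) + ∑ j ∈ s, ordCusp N d (B j)
            ≤ ordCusp N (d + (s.card : ℤ) * d) (F * lcf A B s k') := by
      intro F k' hF hle
      obtain ⟨q1, q2⟩ := ih hA' hB' h' k'
      refine ⟨qp_mul hF q1, ?_⟩
      rw [ordCusp_mul hN hF q1]
      exact add_le_add hle q2
    cases k with
    | zero =>
      rw [lcf_insert_zero A B hi]
      obtain ⟨q1, q2⟩ := key (A i) 0 hAi hi'
      have e : -(A i * lcf A B s 0) = (-1 : ℂ) • (A i * lcf A B s 0) := by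
        funext z; simp
      rw [e]
      refine ⟨?_, ?_⟩
      · rw [smul_mul_assoc]; exact q1.smul _
      · rw [ordCusp_smul hN q1 (by norm_num)]; exact q2
    | succ k =>
      rw [lcf_insert_succ A B hi]
      obtain ⟨q1, q2⟩ := key (B i) k hBi le_rfl
      obtain ⟨q3, q4⟩ := key (A i) (k + 1) hAi hi'
      refine ⟨?_, le_trans (le_min q2 q4) (le_ordCusp_sub hN q1 q3)⟩
      rw [sub_mul]
      exact q1.sub q3

/-- evaluation of `lp` -/
theorem eval_lp (A B : ι → ℍ → ℂ) (s : Finset ι) (z : ℍ) (x : ℂ) :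
    (lp A B s z).eval x = ∏ i ∈ s, (B i z * x - A i z) := by
  simp [lp, Polynomial.eval_prod]

/-- the homogenised value of `lp` at `(x, y)` vanishes if one factor does -/
theorem sum_lcf_eq_zero (A B : ι → ℍ → ℂ) (s : Finset ι) (z : ℍ) (x y : ℂ) {i : ι} (hi : i ∈ s)
    (hx : A i z = x) (hy : B i z = y) :
    ∑ k ∈ Finset.range (s.card + 1), lcf A B s k z * x ^ k * y ^ (s.card - k) = 0 := by
  by_cases hy0 : y = 0
  · -- only the top term survives, and it contains the factor `B i z = 0`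
    rw [Finset.sum_range_succ, Finset.sum_eq_zero, zero_add, lcf_card, Finset.prod_apply,
      Finset.prod_eq_zero hi (by rw [hy, hy0]), zero_mul, zero_mul]
    intro k hk
    have hk' : s.card - k ≠ 0 := by
      have := Finset.mem_range.mp hk
      omega
    rw [hy0, zero_pow hk', mul_zero]
  · have h1 : (lp A B s z).eval (x / y) = 0 := by
      rw [eval_lp]
      refine Finset.prod_eq_zero hi ?_
      rw [hx, hy, mul_div_cancel₀ _ hy0, sub_self]
    have hdeg : (lp A B s z).natDegree < s.card + 1 := by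
      rw [Nat.lt_succ_iff, Polynomial.natDegree_le_iff_coeff_eq_zero]
      intro k hk
      exact congrFun (lcf_eq_zero_of_lt A B s hk) z
    rw [Polynomial.eval_eq_sum_range' hdeg] at h1
    have h2 : ∑ k ∈ Finset.range (s.card + 1), lcf A B s k z * x ^ k * y ^ (s.card - k)
        = y ^ s.card * ∑ k ∈ Finset.range (s.card + 1), (lp A B s z).coeff k * (x / y) ^ k := by
      rw [Finset.mul_sum]
      refine Finset.sum_congr rfl fun k hk => ?_
      have hk' : k ≤ s.card := Nat.lt_succ_iff.mp (Finset.mem_range.mp hk)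
      have e : y ^ s.card = y ^ (s.card - k) * y ^ k := by
        rw [← pow_add]; congr 1; omega
      rw [e, div_pow]
      simp only [lcf]
      field_simp
    rw [h2, h1, mul_zero]

end Generic

/-- `ordCusp` of a product -/
theorem ordCusp_prod {ι : Type*} [DecidableEq ι] {B : ι → ℍ → ℂ} {s : Finset ι} {N : ℕ}
    (hN : 0 < N) (d : ℤ) (hB : ∀ i ∈ s, QP N (B i * dpow d)) :
    QP N ((∏ i ∈ s, B i) * dpow ((s.card : ℤ) * d)) ∧
      ordCusp N ((s.card : ℤ) * d) (∏ i ∈ s, B i) = ∑ i ∈ s, ordCusp N d (B i) := by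
  induction s using Finset.induction_on with
  | empty =>
    rw [Finset.prod_empty, Finset.sum_empty, Finset.card_empty, Nat.cast_zero, zero_mul]
    refine ⟨by rw [dpow_zero, mul_one]; exact QP.one, ?_⟩
    rw [ordCusp_def, dpow_zero, mul_one]
    exact QP.one.ord_eq_zero_of_tendsto (by exact_mod_cast hN) one_ne_zero tendsto_const_nhds
  | insert i s hi ih =>
    have hB' : ∀ j ∈ s, QP N (B j * dpow d) := fun j hj => hB j (Finset.mem_insert_of_mem hj)
    have hBi := hB i (Finset.mem_insert_self i s)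
    obtain ⟨q1, q2⟩ := ih hB'
    have hd : ((insert i s).card : ℤ) * d = d + (s.card : ℤ) * d := by
      rw [Finset.card_insert_of_notMem hi]
      push_cast
      ring
    rw [Finset.prod_insert hi, Finset.sum_insert hi, hd]
    exact ⟨qp_mul hBi q1, by rw [ordCusp_mul hN hBi q1, q2]⟩

/-! ### The characteristic polynomial of `a / b` -/

section Main

variable (N : ℕ) [NeZero N]

/-- the pointwise polynomial `∏_q (trn q b (z) · Y − trn q a (z))` -/
def cp (a b : ℍ → ℂ) (z : ℍ) : ℂ[X] :=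
  lp (fun q : LS.X N => trn q a) (fun q : LS.X N => trn q b) Finset.univ z

/-- its coefficients, as functions on `ℍ` -/
def cf (a b : ℍ → ℂ) (k : ℕ) : ℍ → ℂ :=
  lcf (fun q : LS.X N => trn q a) (fun q : LS.X N => trn q b) Finset.univ k

open Classical in
/-- the coefficient polynomials: `cf N a b k = polyJ (cpoly N a b k)` -/
def cpoly (a b : ℍ → ℂ) (k : ℕ) : ℂ[X] :=
  if h : ∃ P : ℂ[X], cf N a b k = polyJ P then h.choose else 0

variable {N}
variable {a b : ℍ → ℂ}

theorem trn_smul_apply (ha : Inv (Gamma0 N) 0 a) (γ : SL(2, ℤ)) (q : LS.X N) (z : ℍ) :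
    trn q a (γ • z) = trn (γ⁻¹ • q) a z := by
  rw [← BStruct.slash_zero_apply (trn q a) γ z, trn_slash ha]

theorem cp_smul (ha : Inv (Gamma0 N) 0 a) (hb : Inv (Gamma0 N) 0 b) (γ : SL(2, ℤ)) (z : ℍ) :
    cp N a b (γ • z) = cp N a b z := by
  unfold cp lp
  simp only [trn_smul_apply ha, trn_smul_apply hb]
  exact Equiv.prod_comp (MulAction.toPerm (γ⁻¹ : SL(2, ℤ)))
    (fun q : LS.X N => C (trn q b z) * Polynomial.X - C (trn q a z))

theorem cf_slash (ha : Inv (Gamma0 N) 0 a) (hb : Inv (Gamma0 N) 0 b) (k : ℕ) (γ : SL(2, ℤ)) :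
    cf N a b k ∣[(0 : ℤ)] γ = cf N a b k := by
  funext z
  rw [BStruct.slash_zero_apply]
  show (cp N a b (γ • z)).coeff k = (cp N a b z).coeff k
  rw [cp_smul ha hb]

theorem cf_mdiff (ha : MDiff a) (hb : MDiff b) (k : ℕ) : MDiff (cf N a b k) :=
  lcf_mdiff (fun q _ => trn_mdiff q ha) (fun q _ => trn_mdiff q hb) k

theorem cf_mem {d : ℤ} (ha : a ∈ WHle N 0 d) (hb : b ∈ WHle N 0 d) (k : ℕ) :
    cf N a b k ∈ WHle 1 0 ((Fintype.card (LS.X N) : ℤ) * d) := by
  refine ⟨cf_mdiff ha.1 hb.1 k, fun γ _ => cf_slash ha.2.1 hb.2.1 k γ, fun γ => ?_⟩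
  rw [cf_slash ha.2.1 hb.2.1 k γ]
  have h := lcf_bdd (A := fun q : LS.X N => trn q a) (B := fun q : LS.X N => trn q b)
    (s := Finset.univ) d (fun q _ => ha.2.2 _) (fun q _ => hb.2.2 _) k
  rwa [Finset.card_univ] at h

theorem exists_polyJ_cf {d : ℤ} (ha : a ∈ WHle N 0 d) (hb : b ∈ WHle N 0 d) (k : ℕ) :
    ∃ P : ℂ[X], (P = 0 ∨ (P.natDegree : ℤ) ≤ (Fintype.card (LS.X N) : ℤ) * d) ∧
      cf N a b k = polyJ P :=
  mem_WHle_one_zero_iff.mp (cf_mem ha hb k)


theorem polyJ_cpoly (ha : a ∈ WH N 0) (hb : b ∈ WH N 0) (k : ℕ) :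
    polyJ (cpoly N a b k) = cf N a b k := by
  obtain ⟨m, hm⟩ := ha
  obtain ⟨n, hn⟩ := hb
  have ha' := WHle_mono N 0 (le_max_left m n) hm
  have hb' := WHle_mono N 0 (le_max_right m n) hn
  obtain ⟨P, -, hP⟩ := exists_polyJ_cf ha' hb' k
  have h : ∃ P : ℂ[X], cf N a b k = polyJ P := ⟨P, hP⟩
  rw [cpoly, dif_pos h]
  exact h.choose_spec.symm

theorem inv_of_mem_WH {w : ℤ} {F : ℍ → ℂ} (hF : F ∈ WH N w) : Inv (Gamma0 N) w F := by
  obtain ⟨m, hm⟩ := hF
  exact hm.2.1

theorem mdiff_of_mem_WH' {w : ℤ} {F : ℍ → ℂ} (hF : F ∈ WH N w) : MDiff F := by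
  obtain ⟨m, hm⟩ := hF
  exact hm.1

/-- **the relation**: `∑_k A_k(j) a^k b^(μ-k) = 0` -/
theorem cpoly_rel (ha : a ∈ WH N 0) (hb : b ∈ WH N 0) :
    ∑ k ∈ Finset.range (Nat.card (LS.X N) + 1),
      polyJ (cpoly N a b k) * a ^ k * b ^ (Nat.card (LS.X N) - k) = 0 := by
  funext z
  rw [Finset.sum_apply]
  simp only [Pi.mul_apply, Pi.pow_apply, polyJ_cpoly ha hb, Pi.zero_apply]
  rw [Nat.card_eq_fintype_card, ← Finset.card_univ]
  exact sum_lcf_eq_zero _ _ Finset.univ z (a z) (b z)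
    (Finset.mem_univ (((1 : SL(2, ℤ)) : LS.X N)))
    (congrFun (Dual.trn_one_coset (inv_of_mem_WH ha)) z)
    (congrFun (Dual.trn_one_coset (inv_of_mem_WH hb)) z)

/-- the leading coefficient is the norm of `b` -/
theorem polyJ_cpoly_card (ha : a ∈ WH N 0) (hb : b ∈ WH N 0) :
    polyJ (cpoly N a b (Nat.card (LS.X N))) = ∏ q : LS.X N, trn q b := by
  rw [polyJ_cpoly ha hb, Nat.card_eq_fintype_card, ← Finset.card_univ]
  exact lcf_card _ _ _

theorem cpoly_eq_zero_of_lt (ha : a ∈ WH N 0) (hb : b ∈ WH N 0) {k : ℕ}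
    (hk : Nat.card (LS.X N) < k) : cpoly N a b k = 0 := by
  rw [← polyJ_eq_zero_iff, polyJ_cpoly ha hb]
  rw [Nat.card_eq_fintype_card, ← Finset.card_univ] at hk
  exact lcf_eq_zero_of_lt _ _ _ hk

theorem trn_eq_zero_iff (q : LS.X N) (b : ℍ → ℂ) : trn q b = 0 ↔ b = 0 := by
  constructor
  · intro h
    funext z
    have h1 := congrFun h (Quotient.out q • z)
    rw [trn_apply, inv_smul_smul] at h1
    exact h1
  · rintro rfl
    funext z
    rw [trn_apply]
    rfl

theorem cpoly_card_ne_zero (ha : a ∈ WH N 0) (hb : b ∈ WH N 0) (hb0 : b ≠ 0) :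
    cpoly N a b (Nat.card (LS.X N)) ≠ 0 := by
  intro h0
  have h1 := polyJ_cpoly_card ha hb
  rw [h0, polyJ_zero] at h1
  obtain ⟨q, -, hq⟩ := (UpperHalfPlane.prod_eq_zero_iff
    (fun q _ => trn_mdiff q (mdiff_of_mem_WH' hb))).mp h1.symm
  exact hb0 ((trn_eq_zero_iff q b).mp hq)

/-! ### Order bounds at a point -/

theorem ordAt_cpoly_le (ha : a ∈ WH N 0) (hb : b ∈ WH N 0) (τ : ℍ)
    (h : ∀ q : LS.X N, Pts.ordAt (trn q b) τ ≤ Pts.ordAt (trn q a) τ) (k : ℕ) :
    Pts.ordAt (polyJ (cpoly N a b (Nat.card (LS.X N)))) τ ≤ Pts.ordAt (polyJ (cpoly N a b k)) τ := by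
  have haM := mdiff_of_mem_WH' ha
  have hbM := mdiff_of_mem_WH' hb
  rw [polyJ_cpoly_card ha hb, polyJ_cpoly ha hb, Pts.ordAt_prod _ (fun q _ => trn_mdiff q hbM)]
  exact le_ordAt_lcf (fun q _ => trn_mdiff q haM) (fun q _ => trn_mdiff q hbM) τ (fun q _ => h q) k

/-- every coefficient is divisible by the power of `X - j(τ)` dividing the leading one -/
theorem pow_rootMultiplicity_dvd (ha : a ∈ WH N 0) (hb : b ∈ WH N 0) (hb0 : b ≠ 0) (τ : ℍ)
    (h : ∀ q : LS.X N, Pts.ordAt (trn q b) τ ≤ Pts.ordAt (trn q a) τ) (k : ℕ) :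
    (Polynomial.X - C (jFun τ)) ^ (cpoly N a b (Nat.card (LS.X N))).rootMultiplicity (jFun τ)
      ∣ cpoly N a b k := by
  by_cases hk : cpoly N a b k = 0
  · rw [hk]; exact dvd_zero _
  · rw [← Polynomial.le_rootMultiplicity_iff hk]
    have h1 := ordAt_cpoly_le ha hb τ h k
    rw [Dual.ordAt_polyJ JOrd.ordAt_jFun_sub (cpoly_card_ne_zero ha hb hb0) τ,
      Dual.ordAt_polyJ JOrd.ordAt_jFun_sub hk τ] at h1
    have h2 : (cpoly N a b (Nat.card (LS.X N))).rootMultiplicity (jFun τ) * (Nat.card (StabG τ) / 2)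
        ≤ (cpoly N a b k).rootMultiplicity (jFun τ) * (Nat.card (StabG τ) / 2) := by
      exact_mod_cast h1
    exact Nat.le_of_mul_le_mul_right h2 (Dual.card_StabG_div_two_pos τ)

/-- **reduced relation at a point**: after dividing by the common power of `X - j(τ)` the
leading coefficient does not vanish at `j(τ)`. -/
theorem exists_reduced_rel (ha : a ∈ WH N 0) (hb : b ∈ WH N 0) (hb0 : b ≠ 0) (τ : ℍ)
    (h : ∀ q : LS.X N, Pts.ordAt (trn q b) τ ≤ Pts.ordAt (trn q a) τ) :
    ∃ A' : ℕ → ℂ[X], (A' (Nat.card (LS.X N))).eval (jFun τ) ≠ 0 ∧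
      ∑ k ∈ Finset.range (Nat.card (LS.X N) + 1),
        polyJ (A' k) * a ^ k * b ^ (Nat.card (LS.X N) - k) = 0 := by
  have haM := mdiff_of_mem_WH' ha
  have hbM := mdiff_of_mem_WH' hb
  set m := (cpoly N a b (Nat.card (LS.X N))).rootMultiplicity (jFun τ) with hm
  have hdvd := pow_rootMultiplicity_dvd ha hb hb0 τ h
  choose A' hA' using hdvd
  refine ⟨A', ?_, ?_⟩
  · intro h0
    have h1 : (Polynomial.X - C (jFun τ)) ∣ A' (Nat.card (LS.X N)) :=
      Polynomial.dvd_iff_isRoot.mpr h0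
    have h2 : (Polynomial.X - C (jFun τ)) ^ (m + 1) ∣ cpoly N a b (Nat.card (LS.X N)) := by
      rw [hA' (Nat.card (LS.X N)), pow_succ]
      exact mul_dvd_mul_left _ h1
    have h3 := (Polynomial.le_rootMultiplicity_iff (cpoly_card_ne_zero ha hb hb0)).mpr h2
    omega
  · have h1 := cpoly_rel ha hb
    have h2 : ∑ k ∈ Finset.range (Nat.card (LS.X N) + 1),
        polyJ (cpoly N a b k) * a ^ k * b ^ (Nat.card (LS.X N) - k)
        = polyJ ((Polynomial.X - C (jFun τ)) ^ m) *
          ∑ k ∈ Finset.range (Nat.card (LS.X N) + 1),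
            polyJ (A' k) * a ^ k * b ^ (Nat.card (LS.X N) - k) := by
      rw [Finset.mul_sum]
      refine Finset.sum_congr rfl fun k _ => ?_
      rw [hA' k, polyJ_mul]
      ring
    rw [h2] at h1
    have hsum : MDiff (∑ k ∈ Finset.range (Nat.card (LS.X N) + 1),
        polyJ (A' k) * a ^ k * b ^ (Nat.card (LS.X N) - k)) :=
      Pts.mdiff_sum _ fun k _ => ((polyJ_mdiff _).mul (haM.pow k)).mul (hbM.pow _)
    rcases (UpperHalfPlane.mul_eq_zero_iff (polyJ_mdiff _) hsum).mp h1 with h3 | h3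
    · exact absurd (polyJ_eq_zero_iff.mp h3)
        (pow_ne_zero m (Polynomial.X_sub_C_ne_zero (jFun τ)))
    · exact h3

/-! ### Degree bounds at `i∞` -/

/-- if every translate of `a` has at least the order of the translate of `b` at `i∞`, the degrees
of the coefficients are bounded by the degree of the leading one -/
theorem natDegree_cpoly_le {d : ℤ} (ha : a ∈ WHle N 0 d) (hb : b ∈ WHle N 0 d) (hb0 : b ≠ 0)
    (h : ∀ q : LS.X N, ordCusp N d (trn q b) ≤ ordCusp N d (trn q a)) (k : ℕ) :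
    (cpoly N a b k).natDegree ≤ (cpoly N a b (Nat.card (LS.X N))).natDegree := by
  have hN : 0 < N := NeZero.pos N
  have ha' : a ∈ WH N 0 := ⟨d, ha⟩
  have hb' : b ∈ WH N 0 := ⟨d, hb⟩
  by_cases hk : cpoly N a b k = 0
  · rw [hk, Polynomial.natDegree_zero]; exact Nat.zero_le _
  have hB0 := cpoly_card_ne_zero ha' hb' hb0
  have hqA : ∀ q ∈ (Finset.univ : Finset (LS.X N)), QP N (trn q a * dpow d) :=
    fun q _ => qp_of_mem_WHle ha _
  have hqB : ∀ q ∈ (Finset.univ : Finset (LS.X N)), QP N (trn q b * dpow d) :=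
    fun q _ => qp_of_mem_WHle hb _
  obtain ⟨q1, q2⟩ := le_ordCusp_lcf hN d hqA hqB (fun q _ => h q) k
  obtain ⟨q3, q4⟩ := ordCusp_prod hN d hqB
  rw [Finset.card_univ] at q1 q2 q3 q4
  -- the degree of the leading coefficient is at most `μ d`
  obtain ⟨P, hP, hPc⟩ := exists_polyJ_cf ha hb (Fintype.card (LS.X N))
  have hcard : Nat.card (LS.X N) = Fintype.card (LS.X N) := Nat.card_eq_fintype_card
  have hPeq : P = cpoly N a b (Nat.card (LS.X N)) := by
    apply polyJ_injective
    rw [← hPc, polyJ_cpoly ha' hb', hcard]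
  rw [hPeq] at hP
  have hD : ((cpoly N a b (Nat.card (LS.X N))).natDegree : ℤ) ≤ (Fintype.card (LS.X N) : ℤ) * d :=
    hP.resolve_left hB0
  set D := (cpoly N a b (Nat.card (LS.X N))).natDegree with hDdef
  obtain ⟨r, hr⟩ := Int.eq_ofNat_of_zero_le (sub_nonneg.mpr hD)
  have hrD : (Fintype.card (LS.X N) : ℤ) * d - (r : ℤ) = (D : ℤ) := by omega
  -- the norm of `b` has order at least `r N`
  have hnorm : (∏ q : LS.X N, trn q b) = polyJ (cpoly N a b (Nat.card (LS.X N))) :=
    (polyJ_cpoly_card ha' hb').symm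
  have h5 : ((r * N : ℕ) : ℕ∞) ≤ ordCusp N ((Fintype.card (LS.X N) : ℤ) * d)
      (∏ q : LS.X N, trn q b) := by
    rw [← isBoundedAtImInfty_sub_iff hN q3 r, hrD, hnorm]
    exact (isBoundedAtImInfty_polyJ_iff hB0 D).mpr le_rfl
  rw [q4] at h5
  have h6 : ((r * N : ℕ) : ℕ∞) ≤ ordCusp N ((Fintype.card (LS.X N) : ℤ) * d)
      (lcf (fun q : LS.X N => trn q a) (fun q : LS.X N => trn q b) Finset.univ k) :=
    le_trans h5 q2
  rw [← isBoundedAtImInfty_sub_iff hN q1 r, hrD] at h6
  have h7 : IsBoundedAtImInfty (polyJ (cpoly N a b k) * dpow (D : ℤ)) := by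
    rw [polyJ_cpoly ha' hb']
    exact h6
  have h8 := (isBoundedAtImInfty_polyJ_iff hk D).mp h7
  exact_mod_cast h8

/-! ### Reduction of the hypotheses to orbit representatives -/

/-- at a point it suffices to compare the orders on the orbit representatives -/
theorem forall_ordAt_le_of_repP (ha : a ∈ WH N 0) (hb : b ∈ WH N 0) (τ : ℍ)
    (h : ∀ ω : OrbP N τ, Pts.ordAt (trn (repP ω) b) τ ≤ Pts.ordAt (trn (repP ω) a) τ)
    (q : LS.X N) : Pts.ordAt (trn q b) τ ≤ Pts.ordAt (trn q a) τ := by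
  obtain ⟨g, hg, hq⟩ := exists_smul_repP τ q
  have h1 := h (Quotient.mk'' q : OrbP N τ)
  rw [← ordAt_trn_smul hb hg, ← ordAt_trn_smul ha hg, ← hq] at h1
  exact h1

/-- at `i∞` it suffices to compare the orders on the cusp representatives -/
theorem forall_ordCusp_le_of_repQ {d : ℤ} (ha : a ∈ WHle N 0 d) (hb : b ∈ WHle N 0 d)
    (h : ∀ ω : OrbQ N, ordCusp N d (trn (repQ ω) b) ≤ ordCusp N d (trn (repQ ω) a))
    (q : LS.X N) : ordCusp N d (trn q b) ≤ ordCusp N d (trn q a) := by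
  obtain ⟨i, hq⟩ := exists_zpow_smul_repQ q
  have h1 := h (Quotient.mk'' q : OrbQ N)
  rw [← ordCusp_trn_smul hb i, ← ordCusp_trn_smul ha i, ← hq] at h1
  exact h1

end Main

end Fermat.Agent.GenusLib.Conj24
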