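import Fermat.Agent.GenusLib.Cosets

/-!
# Counting on the coset space `SL(2, ℤ) ⧸ Γ₀(N) ≃ P¹(ℤ/N)`

* `card_fixed_S`  : the number of fixed points of `S` is `nuTwo N`;
* `card_fixed_ST` : the number of fixed points of `S * T` is `nuThree N`;
* `card_quot`     : the index is `dedekindPsi N`.
-/

set_option autoImplicit false

namespace Fermat.Agent.GenusLib.Cosets

open scoped MatrixGroups
open CongruenceSubgroup

section Fixed

variable (N : ℕ)

theorem isUni_self_one (u : ZMod N) : IsUni u 1 := ⟨0, 1, by ring⟩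

/-- Fixed points of `S` on `P¹(ℤ/N)` are the `(u : 1)` with `u² + 1 = 0`. -/
noncomputable def fixedSEquiv :
    {u : ZMod N // u ^ 2 + 1 = 0} ≃ {p : P1 (ZMod N) // ModularGroup.S • p = p} :=
  Equiv.ofBijective
    (fun u => ⟨P1.mk u.1 1 (isUni_self_one N u.1), by
      rw [S_smul_mk]
      exact (P1.mk_eq_mk_iff _ _).mpr (by linear_combination -u.2)⟩)
    (by
      constructor
      · rintro ⟨u, hu⟩ ⟨u', hu'⟩ h
        have h1 := (P1.mk_eq_mk_iff _ _).mp (congrArg Subtype.val h)
        exact Subtype.ext (by simpa using h1)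
      · rintro ⟨p, hp⟩
        obtain ⟨x, y, h, rfl⟩ := P1.exists_rep p
        rw [S_smul_mk] at hp
        have hxy : -y * y = x * x := (P1.mk_eq_mk_iff _ _).mp hp
        obtain ⟨a, b, hab⟩ := h
        set w : ZMod N := -a ^ 2 * y + 2 * a * b * x + b ^ 2 * y with hw
        have hyw : y * w = 1 := by
          rw [hw]
          linear_combination (a * x + b * y + 1) * hab + a ^ 2 * hxy
        refine ⟨⟨x * w, ?_⟩, ?_⟩
        · linear_combination (-w ^ 2) * hxy - (y * w + 1) * hyw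
        · apply Subtype.ext
          exact (P1.mk_eq_mk_iff _ _).mpr (by linear_combination x * hyw))

/-- Fixed points of `S * T` on `P¹(ℤ/N)` are the `(u : 1)` with `u² + u + 1 = 0`. -/
noncomputable def fixedSTEquiv :
    {u : ZMod N // u ^ 2 + u + 1 = 0} ≃
      {p : P1 (ZMod N) // (ModularGroup.S * ModularGroup.T) • p = p} :=
  Equiv.ofBijective
    (fun u => ⟨P1.mk u.1 1 (isUni_self_one N u.1), by
      rw [ST_smul_mk]
      exact (P1.mk_eq_mk_iff _ _).mpr (by linear_combination -u.2)⟩)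
    (by
      constructor
      · rintro ⟨u, hu⟩ ⟨u', hu'⟩ h
        have h1 := (P1.mk_eq_mk_iff _ _).mp (congrArg Subtype.val h)
        exact Subtype.ext (by simpa using h1)
      · rintro ⟨p, hp⟩
        obtain ⟨x, y, h, rfl⟩ := P1.exists_rep p
        rw [ST_smul_mk] at hp
        have hxy : -y * y = (x + y) * x := (P1.mk_eq_mk_iff _ _).mp hp
        obtain ⟨a, b, hab⟩ := h
        set w : ZMod N := -a ^ 2 * x - a ^ 2 * y + 2 * a * b * x + b ^ 2 * y with hw
        have hyw : y * w = 1 := by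
          rw [hw]
          linear_combination (a * x + b * y + 1) * hab + a ^ 2 * hxy
        refine ⟨⟨x * w, ?_⟩, ?_⟩
        · linear_combination (-w ^ 2) * hxy - (x * w + y * w + 1) * hyw
        · apply Subtype.ext
          exact (P1.mk_eq_mk_iff _ _).mpr (by linear_combination x * hyw))

/-- Transport of fixed points along the equivariant bijection `cosetEquiv`. -/
noncomputable def fixedEquiv [NeZero N] (g : SL(2, ℤ)) :
    {q : SL(2, ℤ) ⧸ Gamma0 N // g • q = q} ≃ {p : P1 (ZMod N) // g • p = p} :=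
  (cosetEquiv N).subtypeEquiv (fun q => by
    rw [← cosetEquiv_smul, (cosetEquiv N).injective.eq_iff])

theorem card_fixed_S [NeZero N] :
    Nat.card {q : SL(2, ℤ) ⧸ Gamma0 N // ModularGroup.S • q = q} = ModularCurve.nuTwo N := by
  rw [ModularCurve.nuTwo]
  exact Nat.card_congr ((fixedEquiv N ModularGroup.S).trans (fixedSEquiv N).symm)

theorem card_fixed_ST [NeZero N] :
    Nat.card {q : SL(2, ℤ) ⧸ Gamma0 N // (ModularGroup.S * ModularGroup.T) • q = q} =
      ModularCurve.nuThree N := by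
  rw [ModularCurve.nuThree]
  exact Nat.card_congr
    ((fixedEquiv N (ModularGroup.S * ModularGroup.T)).trans (fixedSTEquiv N).symm)

end Fixed

section Functorial

variable {R S : Type*} [CommRing R] [CommRing S]

theorem IsUni.map {F : Type*} [FunLike F R S] [RingHomClass F R S] (f : F) {x y : R}
    (h : IsUni x y) : IsUni (f x) (f y) := by
  obtain ⟨a, b, hab⟩ := h
  exact ⟨f a, f b, by rw [← map_mul, ← map_mul, ← map_add, hab, map_one]⟩

/-- Functoriality of the projective line for ring isomorphisms. -/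
def P1.mapFun (e : R ≃+* S) : P1 R → P1 S :=
  Quotient.map (sa := uniSetoid R) (sb := uniSetoid S)
    (fun v => ⟨(e v.1.1, e v.1.2), IsUni.map e v.2⟩)
    (fun v w h => by
      change e v.1.1 * e w.1.2 = e v.1.2 * e w.1.1
      rw [← map_mul, ← map_mul]
      exact congrArg e h)

theorem P1.mapFun_mk (e : R ≃+* S) (x y : R) (h : IsUni x y) :
    P1.mapFun e (P1.mk x y h) = P1.mk (e x) (e y) (IsUni.map e h) := rfl

theorem P1.mapFun_bijective (e : R ≃+* S) : Function.Bijective (P1.mapFun e) := by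
  constructor
  · intro q q' h
    obtain ⟨x, y, hxy, rfl⟩ := P1.exists_rep q
    obtain ⟨x', y', hxy', rfl⟩ := P1.exists_rep q'
    have h1 : e x * e y' = e y * e x' := (P1.mk_eq_mk_iff _ _).mp h
    rw [← map_mul, ← map_mul] at h1
    exact (P1.mk_eq_mk_iff _ _).mpr (e.injective h1)
  · intro q
    obtain ⟨x, y, hxy, rfl⟩ := P1.exists_rep q
    refine ⟨P1.mk (e.symm x) (e.symm y) (IsUni.map e.symm hxy), ?_⟩
    exact (P1.mk_eq_mk_iff (IsUni.map e (IsUni.map e.symm hxy)) hxy).mpr (by simp [mul_comm])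

theorem P1.card_congr (e : R ≃+* S) : Nat.card (P1 R) = Nat.card (P1 S) :=
  Nat.card_congr (Equiv.ofBijective _ (P1.mapFun_bijective e))

/-- The projective line of a product ring. -/
def P1.prodFun : P1 (R × S) → P1 R × P1 S :=
  Quotient.lift (s := uniSetoid (R × S))
    (fun v => (P1.mk v.1.1.1 v.1.2.1 (IsUni.map (RingHom.fst R S) v.2),
      P1.mk v.1.1.2 v.1.2.2 (IsUni.map (RingHom.snd R S) v.2)))
    (fun v w h => by
      have h1 : v.1.1.1 * w.1.2.1 = v.1.2.1 * w.1.1.1 := congrArg Prod.fst h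
      have h2 : v.1.1.2 * w.1.2.2 = v.1.2.2 * w.1.1.2 := congrArg Prod.snd h
      exact Prod.ext ((P1.mk_eq_mk_iff _ _).mpr h1) ((P1.mk_eq_mk_iff _ _).mpr h2))

theorem P1.prodFun_mk (x y : R × S) (h : IsUni x y) :
    P1.prodFun (P1.mk x y h) = (P1.mk x.1 y.1 (IsUni.map (RingHom.fst R S) h),
      P1.mk x.2 y.2 (IsUni.map (RingHom.snd R S) h)) := rfl

theorem P1.prodFun_bijective : Function.Bijective (P1.prodFun (R := R) (S := S)) := by
  constructor
  · intro q q' h
    obtain ⟨x, y, hxy, rfl⟩ := P1.exists_rep q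
    obtain ⟨x', y', hxy', rfl⟩ := P1.exists_rep q'
    have h1 : x.1 * y'.1 = y.1 * x'.1 := (P1.mk_eq_mk_iff _ _).mp (congrArg Prod.fst h)
    have h2 : x.2 * y'.2 = y.2 * x'.2 := (P1.mk_eq_mk_iff _ _).mp (congrArg Prod.snd h)
    exact (P1.mk_eq_mk_iff _ _).mpr (Prod.ext h1 h2)
  · rintro ⟨q₁, q₂⟩
    obtain ⟨x₁, y₁, ⟨a₁, b₁, h₁⟩, rfl⟩ := P1.exists_rep q₁
    obtain ⟨x₂, y₂, ⟨a₂, b₂, h₂⟩, rfl⟩ := P1.exists_rep q₂
    exact ⟨P1.mk (x₁, x₂) (y₁, y₂) ⟨(a₁, a₂), (b₁, b₂), Prod.ext h₁ h₂⟩, rfl⟩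

theorem P1.card_prod : Nat.card (P1 (R × S)) = Nat.card (P1 R) * Nat.card (P1 S) := by
  rw [Nat.card_congr (Equiv.ofBijective _ (P1.prodFun_bijective (R := R) (S := S))),
    Nat.card_prod]

end Functorial

section PrimePow

variable {p k : ℕ}

/-- In `ℤ/p^k` (`k ≥ 1`) an element is a unit iff it is nonzero mod `p`. -/
theorem isUnit_zmod_prime_pow_iff (hp : p.Prime) (hk : 0 < k) (a : ZMod (p ^ k)) :
    IsUnit a ↔ ZMod.castHom (dvd_pow_self p hk.ne') (ZMod p) a ≠ 0 := by
  have : Fact p.Prime := ⟨hp⟩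
  constructor
  · intro ha
    exact (ha.map (ZMod.castHom (dvd_pow_self p hk.ne') (ZMod p))).ne_zero
  · intro ha
    have : NeZero (p ^ k) := ⟨pow_ne_zero k hp.ne_zero⟩
    rw [← ZMod.natCast_zmod_val a, ZMod.isUnit_iff_coprime]
    apply Nat.Coprime.pow_right
    rw [Nat.coprime_comm, hp.coprime_iff_not_dvd]
    intro hdvd
    apply ha
    rw [← ZMod.natCast_zmod_val a, map_natCast, ZMod.natCast_eq_zero_iff]
    exact hdvd

/-- The map `R ⊕ {non-units} → P¹(R)`, `y ↦ (1 : y)`, `x ↦ (x : 1)`. -/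
def localFun (R : Type*) [CommRing R] : R ⊕ {x : R // ¬ IsUnit x} → P1 R
  | Sum.inl y => P1.mk 1 y ⟨1, 0, by ring⟩
  | Sum.inr x => P1.mk x.1 1 ⟨0, 1, by ring⟩

theorem localFun_bijective (hp : p.Prime) (hk : 0 < k) :
    Function.Bijective (localFun (ZMod (p ^ k))) := by
  constructor
  · rintro (y | ⟨x, hx⟩) (y' | ⟨x', hx'⟩) h
    · have h1 : (1 : ZMod (p ^ k)) * y' = y * 1 := (P1.mk_eq_mk_iff _ _).mp h
      rw [one_mul, mul_one] at h1
      rw [h1]
    · have h1 : (1 : ZMod (p ^ k)) * 1 = y * x' := (P1.mk_eq_mk_iff _ _).mp h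
      exact absurd (IsUnit.of_mul_eq_one y (by rw [mul_comm, ← h1, one_mul])) hx'
    · have h1 : x * y' = 1 * 1 := (P1.mk_eq_mk_iff _ _).mp h
      exact absurd (IsUnit.of_mul_eq_one y' (by rw [h1, one_mul])) hx
    · have h1 : x * 1 = 1 * x' := (P1.mk_eq_mk_iff _ _).mp h
      rw [one_mul, mul_one] at h1
      subst h1
      rfl
  · intro q
    obtain ⟨x, y, hxy, rfl⟩ := P1.exists_rep q
    by_cases hx : IsUnit x
    · obtain ⟨u, rfl⟩ := hx
      refine ⟨Sum.inl (y * ↑u⁻¹), ?_⟩
      exact (P1.mk_eq_mk_iff _ _).mpr (by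
        rw [one_mul, mul_assoc, Units.inv_mul, mul_one])
    · have hy : IsUnit y := by
        have : Fact p.Prime := ⟨hp⟩
        rw [isUnit_zmod_prime_pow_iff hp hk] at hx ⊢
        rw [not_not] at hx
        obtain ⟨a, b, hab⟩ := hxy
        have h1 := congrArg (ZMod.castHom (dvd_pow_self p hk.ne') (ZMod p)) hab
        rw [map_add, map_mul, map_mul, hx, mul_zero, zero_add, map_one] at h1
        exact right_ne_zero_of_mul_eq_one h1
      obtain ⟨u, rfl⟩ := hy
      refine ⟨Sum.inr ⟨x * ↑u⁻¹, ?_⟩, ?_⟩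
      · intro hxu
        apply hx
        have := hxu.mul u.isUnit
        rwa [mul_assoc, Units.inv_mul, mul_one] at this
      · exact (P1.mk_eq_mk_iff _ _).mpr (by
          show x * ↑u⁻¹ * ↑u = 1 * x
          rw [mul_assoc, Units.inv_mul, mul_one, one_mul])

theorem card_nonunits_zmod_prime_pow (hp : p.Prime) (hk : 0 < k) :
    Nat.card {x : ZMod (p ^ k) // ¬ IsUnit x} = p ^ (k - 1) := by
  classical
  have : NeZero (p ^ k) := ⟨pow_ne_zero k hp.ne_zero⟩
  have e : (ZMod (p ^ k))ˣ ≃ {x : ZMod (p ^ k) // IsUnit x} :=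
    Equiv.ofBijective (fun u => ⟨u, u.isUnit⟩)
      ⟨fun u v h => Units.ext (congrArg Subtype.val h), fun ⟨x, u, hu⟩ => ⟨u, Subtype.ext hu⟩⟩
  rw [Nat.card_eq_fintype_card, Fintype.card_subtype_compl, ← Fintype.card_congr e,
    ZMod.card_units_eq_totient, ZMod.card, Nat.totient_prime_pow hp hk]
  obtain ⟨k', rfl⟩ : ∃ k', k = k' + 1 := ⟨k - 1, by omega⟩
  obtain ⟨p', rfl⟩ : ∃ p', p = p' + 1 := ⟨p - 1, by have := hp.pos; omega⟩
  simp only [Nat.add_sub_cancel]
  rw [pow_succ]
  exact Nat.sub_eq_of_eq_add (by ring)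

theorem card_P1_prime_pow (hp : p.Prime) (hk : 0 < k) :
    Nat.card (P1 (ZMod (p ^ k))) = p ^ k + p ^ (k - 1) := by
  have : NeZero (p ^ k) := ⟨pow_ne_zero k hp.ne_zero⟩
  rw [← Nat.card_congr (Equiv.ofBijective _ (localFun_bijective hp hk)), Nat.card_sum,
    card_nonunits_zmod_prime_pow hp hk, Nat.card_eq_fintype_card, ZMod.card]

end PrimePow

section Psi

open ModularCurve

/-- The indicator of squarefree numbers as an arithmetic function. -/
def sqfAF : ArithmeticFunction ℕ := ⟨fun d => if Squarefree d then 1 else 0, by simp⟩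

theorem sqfAF_apply (d : ℕ) : sqfAF d = if Squarefree d then 1 else 0 := rfl

theorem isMultiplicative_sqfAF : sqfAF.IsMultiplicative := by
  refine ⟨by simp [sqfAF_apply], ?_⟩
  intro m n hmn
  simp only [sqfAF_apply, Nat.squarefree_mul hmn]
  split_ifs <;> simp_all

theorem dedekindPsi_eq (N : ℕ) : dedekindPsi N = (sqfAF * ArithmeticFunction.id) N := by
  rw [ArithmeticFunction.mul_apply,
    Nat.sum_divisorsAntidiagonal (f := fun d e => sqfAF d * ArithmeticFunction.id e),
    dedekindPsi, Finset.sum_filter]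
  refine Finset.sum_congr rfl fun d _ => ?_
  simp only [sqfAF_apply, ArithmeticFunction.id_apply]
  split_ifs <;> simp

theorem dedekindPsi_mul {m n : ℕ} (h : m.Coprime n) :
    dedekindPsi (m * n) = dedekindPsi m * dedekindPsi n := by
  simp only [dedekindPsi_eq]
  exact (isMultiplicative_sqfAF.mul ArithmeticFunction.isMultiplicative_id).map_mul_of_coprime h

theorem dedekindPsi_prime_pow {p k : ℕ} (hp : p.Prime) (hk : 0 < k) :
    dedekindPsi (p ^ k) = p ^ k + p ^ (k - 1) := by
  rw [dedekindPsi, Nat.divisors_prime_pow hp, Finset.sum_filter, Finset.sum_map]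
  simp only [Function.Embedding.coeFn_mk]
  have hsub : ({0, 1} : Finset ℕ) ⊆ Finset.range (k + 1) := by
    intro i hi
    simp only [Finset.mem_insert, Finset.mem_singleton] at hi
    rw [Finset.mem_range]
    omega
  rw [← Finset.sum_subset hsub]
  · rw [Finset.sum_pair (by norm_num)]
    simp only [pow_zero, squarefree_one, if_true, Nat.div_one, pow_one, hp.squarefree]
    congr 1
    exact Nat.div_eq_of_eq_mul_left hp.pos (by rw [← pow_succ]; congr 1; omega)
  · intro i _ hi
    simp only [Finset.mem_insert, Finset.mem_singleton, not_or] at hi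
    rw [if_neg]
    intro hsq
    have h2 : p * p ∣ p ^ i := by
      rw [← pow_two]
      exact pow_dvd_pow p (by omega)
    exact hp.one_lt.ne' (Nat.isUnit_iff.mp (hsq p h2))

end Psi

section Index

open ModularCurve

theorem card_P1_zmod (N : ℕ) (hN : N ≠ 0) : Nat.card (P1 (ZMod N)) = dedekindPsi N := by
  induction N using Nat.recOnPosPrimePosCoprime with
  | prime_pow p n hp hn =>
    rw [card_P1_prime_pow hp hn, dedekindPsi_prime_pow hp hn]
  | zero => exact absurd rfl hN
  | one =>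
    rw [dedekindPsi_one]
    have : Subsingleton (P1 (ZMod 1)) := by
      constructor
      intro q q'
      obtain ⟨x, y, h, rfl⟩ := P1.exists_rep q
      obtain ⟨x', y', h', rfl⟩ := P1.exists_rep q'
      exact (P1.mk_eq_mk_iff _ _).mpr (Subsingleton.elim _ _)
    have : Nonempty (P1 (ZMod 1)) := ⟨infty 1⟩
    exact Nat.card_unique
  | coprime a b ha hb hab iha ihb =>
    have ha0 : a ≠ 0 := by omega
    have hb0 : b ≠ 0 := by omega
    rw [P1.card_congr (ZMod.chineseRemainder hab), P1.card_prod, iha ha0, ihb hb0,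
      dedekindPsi_mul hab]

/-- The index of `Γ₀(N)` in `SL(2, ℤ)`. -/
theorem card_quot (N : ℕ) [NeZero N] :
    Nat.card (SL(2, ℤ) ⧸ Gamma0 N) = ModularCurve.dedekindPsi N := by
  rw [Nat.card_congr (cosetEquiv N), card_P1_zmod N (NeZero.ne N)]

instance instFiniteP1 (N : ℕ) [NeZero N] : Finite (P1 (ZMod N)) := by
  have : Finite (UniPair (ZMod N)) := by unfold UniPair; infer_instance
  exact Quotient.finite _

theorem index_Gamma0 (N : ℕ) [NeZero N] : (Gamma0 N).index = ModularCurve.dedekindPsi N := by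
  rw [Subgroup.index, card_quot]

end Index

end Fermat.Agent.GenusLib.Cosets
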