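import Mathlib
import Fermat.Prelude.Def_ModularCurve_GenusNumerics

/-!
# The coset space `SL(2, ℤ) ⧸ Γ₀(N)` as the projective line over `ℤ/N`

* `P1 R` : the projective line over a commutative ring `R` (unimodular pairs up to proportionality).
* the left action of `SL(2, ℤ)` on `P1 (ZMod N)` (matrices acting on column vectors).
* `cosetEquiv N : SL(2, ℤ) ⧸ Gamma0 N ≃ P1 (ZMod N)`, `gΓ ↦ (g 0 0 : g 1 0)`, equivariant.
-/

set_option autoImplicit false

namespace Fermat.Agent.GenusLib.Cosets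

open scoped MatrixGroups
open CongruenceSubgroup

section P1

variable {R : Type*} [CommRing R]

/-- A pair `(x, y)` is unimodular if it generates the unit ideal. -/
def IsUni (x y : R) : Prop := ∃ a b : R, a * x + b * y = 1

variable (R) in
/-- The type of unimodular pairs. -/
def UniPair : Type _ := {v : R × R // IsUni v.1 v.2}

/-- Cross-multiplication relation on unimodular pairs (equivalent to proportionality by a unit,
see `P1.mk_eq_mk_iff_units`). -/
def uniRel (v w : UniPair R) : Prop := v.1.1 * w.1.2 = v.1.2 * w.1.1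

theorem uniRel_refl (v : UniPair R) : uniRel v v := mul_comm _ _

theorem uniRel_symm {v w : UniPair R} (h : uniRel v w) : uniRel w v := by
  unfold uniRel at *
  linear_combination -h

theorem uniRel_trans {u v w : UniPair R} (h₁ : uniRel u v) (h₂ : uniRel v w) : uniRel u w := by
  obtain ⟨a, b, hab⟩ := v.2
  unfold uniRel at *
  linear_combination (u.1.1 * w.1.2 - u.1.2 * w.1.1) * (-hab) + (a * w.1.1 + b * w.1.2) * h₁ +
    (a * u.1.1 + b * u.1.2) * h₂

variable (R) in
/-- The setoid of proportional unimodular pairs. -/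
def uniSetoid : Setoid (UniPair R) where
  r := uniRel
  iseqv := ⟨uniRel_refl, uniRel_symm, uniRel_trans⟩

variable (R) in
/-- The projective line over `R`. -/
def P1 : Type _ := Quotient (uniSetoid R)

/-- The point `(x : y)` of the projective line. -/
def P1.mk (x y : R) (h : IsUni x y) : P1 R := Quotient.mk (uniSetoid R) ⟨(x, y), h⟩

theorem P1.mk_eq_mk_iff {x y x' y' : R} (h : IsUni x y) (h' : IsUni x' y') :
    P1.mk x y h = P1.mk x' y' h' ↔ x * y' = y * x' :=
  Quotient.eq (r := uniSetoid R)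

theorem P1.exists_rep (q : P1 R) : ∃ (x y : R) (h : IsUni x y), q = P1.mk x y h := by
  induction q using Quotient.inductionOn with
  | _ v => exact ⟨v.1.1, v.1.2, v.2, rfl⟩

/-- Proportionality by a unit: the classical description of the projective line. -/
theorem P1.mk_eq_mk_iff_units {x y x' y' : R} (h : IsUni x y) (h' : IsUni x' y') :
    P1.mk x y h = P1.mk x' y' h' ↔ ∃ u : Rˣ, x' = u * x ∧ y' = u * y := by
  rw [P1.mk_eq_mk_iff]
  constructor
  · intro hc
    obtain ⟨a, b, hab⟩ := h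
    obtain ⟨a', b', hab'⟩ := h'
    refine ⟨⟨a * x' + b * y', a' * x + b' * y, ?_, ?_⟩, ?_, ?_⟩
    · linear_combination hab + (a * x + b * y) * hab' + (a' * b - a * b') * hc
    · linear_combination hab + (a * x + b * y) * hab' + (a' * b - a * b') * hc
    · simp only
      linear_combination (-x') * hab - b * hc
    · simp only
      linear_combination (-y') * hab + a * hc
  · rintro ⟨u, rfl, rfl⟩
    ring

/-! ### The action of `SL(2, R)` on the projective line -/

theorem isUni_smul (g : SL(2, R)) {x y : R} (h : IsUni x y) :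
    IsUni (g 0 0 * x + g 0 1 * y) (g 1 0 * x + g 1 1 * y) := by
  obtain ⟨a, b, hab⟩ := h
  have hdet : g 0 0 * g 1 1 - g 0 1 * g 1 0 = 1 := by
    have := g.det_coe
    rwa [Matrix.det_fin_two] at this
  refine ⟨a * g 1 1 - b * g 1 0, -a * g 0 1 + b * g 0 0, ?_⟩
  linear_combination (a * x + b * y) * hdet + hab

/-- The action on unimodular pairs (column vectors). -/
def smulPair (g : SL(2, R)) (v : UniPair R) : UniPair R :=
  ⟨(g 0 0 * v.1.1 + g 0 1 * v.1.2, g 1 0 * v.1.1 + g 1 1 * v.1.2), isUni_smul g v.2⟩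

theorem uniRel_smulPair (g : SL(2, R)) {v w : UniPair R} (h : uniRel v w) :
    uniRel (smulPair g v) (smulPair g w) := by
  have hdet : g 0 0 * g 1 1 - g 0 1 * g 1 0 = 1 := by
    have := g.det_coe
    rwa [Matrix.det_fin_two] at this
  unfold uniRel at *
  simp only [smulPair]
  linear_combination (g 0 0 * g 1 1 - g 0 1 * g 1 0) * h

instance instSMulP1 : SMul (SL(2, R)) (P1 R) where
  smul g := Quotient.map (sa := uniSetoid R) (sb := uniSetoid R) (smulPair g)
    (fun _ _ h => uniRel_smulPair g h)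

theorem smul_mk (g : SL(2, R)) (x y : R) (h : IsUni x y) :
    g • P1.mk x y h = P1.mk (g 0 0 * x + g 0 1 * y) (g 1 0 * x + g 1 1 * y) (isUni_smul g h) :=
  rfl

instance instMulActionP1 : MulAction (SL(2, R)) (P1 R) where
  one_smul q := by
    obtain ⟨x, y, h, rfl⟩ := P1.exists_rep q
    rw [smul_mk, P1.mk_eq_mk_iff]
    simp [mul_comm]
  mul_smul g g' q := by
    obtain ⟨x, y, h, rfl⟩ := P1.exists_rep q
    rw [smul_mk, smul_mk, smul_mk, P1.mk_eq_mk_iff]
    simp only [Matrix.SpecialLinearGroup.coe_mul, Matrix.mul_apply, Fin.sum_univ_two]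
    ring

end P1

section ZModN

variable (N : ℕ)

/-- `SL(2, ℤ)` acts on `P1 (ZMod N)` through reduction mod `N`. -/
instance instMulActionSLZ : MulAction SL(2, ℤ) (P1 (ZMod N)) :=
  MulAction.compHom (P1 (ZMod N)) (Matrix.SpecialLinearGroup.map (Int.castRingHom (ZMod N)))

theorem smulZ_mk (g : SL(2, ℤ)) (x y : ZMod N) (h : IsUni x y) :
    g • P1.mk x y h = P1.mk ((g 0 0 : ZMod N) * x + (g 0 1 : ZMod N) * y)
      ((g 1 0 : ZMod N) * x + (g 1 1 : ZMod N) * y)
      (isUni_smul (Matrix.SpecialLinearGroup.map (Int.castRingHom (ZMod N)) g) h) :=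
  rfl

theorem isUni_one_zero : IsUni (1 : ZMod N) 0 := ⟨1, 0, by ring⟩

/-- The base point `∞ = (1 : 0)`. -/
def infty : P1 (ZMod N) := P1.mk 1 0 (isUni_one_zero N)

theorem isUni_col (g : SL(2, ℤ)) : IsUni ((g 0 0 : ℤ) : ZMod N) ((g 1 0 : ℤ) : ZMod N) := by
  have hdet : g 0 0 * g 1 1 - g 0 1 * g 1 0 = 1 := by
    have := g.det_coe
    rwa [Matrix.det_fin_two] at this
  refine ⟨((g 1 1 : ℤ) : ZMod N), -((g 0 1 : ℤ) : ZMod N), ?_⟩
  have := congrArg (Int.cast : ℤ → ZMod N) hdet
  push_cast at this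
  linear_combination this

theorem smul_infty (g : SL(2, ℤ)) :
    g • infty N = P1.mk ((g 0 0 : ℤ) : ZMod N) ((g 1 0 : ℤ) : ZMod N) (isUni_col N g) := by
  rw [infty, smulZ_mk]
  exact (P1.mk_eq_mk_iff _ _).mpr (by ring)

theorem smul_infty_eq_iff (g g' : SL(2, ℤ)) :
    g • infty N = g' • infty N ↔ g⁻¹ * g' ∈ Gamma0 N := by
  rw [smul_infty, smul_infty, P1.mk_eq_mk_iff, Gamma0_mem]
  simp only [Matrix.SpecialLinearGroup.coe_mul, Matrix.SpecialLinearGroup.coe_inv,
    Matrix.adjugate_fin_two, Matrix.mul_apply, Fin.sum_univ_two, Matrix.of_apply,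
    Matrix.cons_val_zero, Matrix.cons_val_one, Matrix.cons_val', Matrix.empty_val',
    Matrix.cons_val_fin_one]
  push_cast
  constructor
  · intro h
    linear_combination h
  · intro h
    linear_combination h

/-- A unimodular pair mod `N` lifts to a pair of coprime integers. -/
theorem exists_coprime_lift [NeZero N] {x y : ZMod N} (h : IsUni x y) :
    ∃ a c : ℤ, IsCoprime a c ∧ (a : ZMod N) = x ∧ (c : ZMod N) = y := by
  obtain ⟨r, s, hrs⟩ := h
  have hN : N ≠ 0 := NeZero.ne N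
  set a₀ : ℕ := x.val with ha₀
  set c : ℕ := if y.val = 0 then N else y.val with hc
  have hc0 : c ≠ 0 := by
    rw [hc]; split_ifs with h0
    · exact hN
    · exact h0
  have hcy : (c : ZMod N) = y := by
    rw [hc]; split_ifs with h0
    · rw [ZMod.natCast_self]
      exact ((ZMod.val_eq_zero y).mp h0).symm
    · exact ZMod.natCast_zmod_val y
  have hax : (a₀ : ZMod N) = x := ZMod.natCast_zmod_val x
  have key : ∀ p : ℕ, p.Prime → p ∣ a₀ → p ∣ c → p ∣ N → False := by
    intro p pp hpa hpc hpN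
    have : Fact p.Prime := ⟨pp⟩
    have h1 := congrArg (ZMod.castHom hpN (ZMod p)) hrs
    rw [← hax, ← hcy] at h1
    simp only [map_add, map_mul, map_natCast, map_one] at h1
    rw [(ZMod.natCast_eq_zero_iff a₀ p).mpr hpa, (ZMod.natCast_eq_zero_iff c p).mpr hpc] at h1
    simp at h1
  let ps : Finset ℕ := {p ∈ c.primeFactors | ¬p ∣ a₀}
  refine ⟨((a₀ + ps.prod id * N : ℕ) : ℤ), (c : ℤ), ?_, ?_, ?_⟩
  · rw [Nat.isCoprime_iff_coprime]
    apply Nat.coprime_of_dvd
    intro p pp hp hpc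
    by_cases hpa : p ∣ a₀
    · have h2 : p ∣ ps.prod id * N := (Nat.dvd_add_right hpa).mp hp
      rcases pp.dvd_mul.mp h2 with h3 | h3
      · obtain ⟨q, hq, hq'⟩ := (pp.prime.dvd_finsetProd_iff id).mp h3
        rw [Finset.mem_filter, Nat.mem_primeFactors] at hq
        have : p = q := (Nat.prime_dvd_prime_iff_eq pp hq.1.1).mp hq'
        exact hq.2 (this ▸ hpa)
      · exact key p pp hpa hpc h3
    · have pps : p ∈ ps := Finset.mem_filter.mpr ⟨Nat.mem_primeFactors.mpr ⟨pp, hpc, hc0⟩, hpa⟩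
      have h2 : p ∣ ps.prod id * N := (Finset.dvd_prod_of_mem id pps).mul_right N
      exact hpa ((Nat.dvd_add_left h2).mp hp)
  · push_cast
    rw [ZMod.natCast_self, mul_zero, add_zero]
    exact hax
  · exact_mod_cast hcy

theorem exists_smul_infty_eq [NeZero N] (q : P1 (ZMod N)) : ∃ g : SL(2, ℤ), g • infty N = q := by
  obtain ⟨x, y, h, rfl⟩ := P1.exists_rep q
  obtain ⟨a, c, hac, rfl, rfl⟩ := exists_coprime_lift N h
  obtain ⟨g, hg0, hg1⟩ := hac.exists_SL2_col 0
  refine ⟨g, ?_⟩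
  rw [smul_infty, P1.mk_eq_mk_iff, hg0, hg1]
  ring

/-- The orbit map of `∞`, on the coset space. -/
def cosetMap : SL(2, ℤ) ⧸ Gamma0 N → P1 (ZMod N) :=
  Quotient.lift (fun g : SL(2, ℤ) => g • infty N) (by
    intro g g' h
    exact (smul_infty_eq_iff N g g').mpr (QuotientGroup.leftRel_apply.mp h))

theorem cosetMap_mk (g : SL(2, ℤ)) : cosetMap N (g : SL(2, ℤ) ⧸ Gamma0 N) = g • infty N := rfl

theorem cosetMap_smul (g : SL(2, ℤ)) (q : SL(2, ℤ) ⧸ Gamma0 N) :
    cosetMap N (g • q) = g • cosetMap N q := by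
  induction q using QuotientGroup.induction_on with
  | _ g' =>
    rw [MulAction.Quotient.smul_mk, cosetMap_mk, cosetMap_mk, smul_eq_mul, mul_smul]

theorem cosetMap_bijective [NeZero N] : Function.Bijective (cosetMap N) := by
  constructor
  · intro q q' h
    induction q using QuotientGroup.induction_on with
    | _ g =>
      induction q' using QuotientGroup.induction_on with
      | _ g' =>
        rw [cosetMap_mk, cosetMap_mk, smul_infty_eq_iff] at h
        exact QuotientGroup.eq.mpr h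
  · intro q
    obtain ⟨g, hg⟩ := exists_smul_infty_eq N q
    exact ⟨(g : SL(2, ℤ) ⧸ Gamma0 N), hg⟩

/-- `SL(2, ℤ) ⧸ Γ₀(N) ≃ P¹(ℤ/N)`, `gΓ₀(N) ↦ g • ∞ = (g 0 0 : g 1 0)`. -/
noncomputable def cosetEquiv [NeZero N] : SL(2, ℤ) ⧸ Gamma0 N ≃ P1 (ZMod N) :=
  Equiv.ofBijective (cosetMap N) (cosetMap_bijective N)

theorem cosetEquiv_mk [NeZero N] (g : SL(2, ℤ)) :
    cosetEquiv N (g : SL(2, ℤ) ⧸ Gamma0 N) = g • infty N := rfl

theorem cosetEquiv_mk' [NeZero N] (g : SL(2, ℤ)) :
    cosetEquiv N (g : SL(2, ℤ) ⧸ Gamma0 N) =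
      P1.mk ((g 0 0 : ℤ) : ZMod N) ((g 1 0 : ℤ) : ZMod N) (isUni_col N g) :=
  smul_infty N g

/-- Equivariance for the left actions. -/
theorem cosetEquiv_smul [NeZero N] (g : SL(2, ℤ)) (q : SL(2, ℤ) ⧸ Gamma0 N) :
    cosetEquiv N (g • q) = g • cosetEquiv N q :=
  cosetMap_smul N g q

theorem IsUni.S {R : Type*} [CommRing R] {x y : R} (h : IsUni x y) : IsUni (-y) x := by
  obtain ⟨a, b, hab⟩ := h
  exact ⟨-b, a, by linear_combination hab⟩

theorem IsUni.T {R : Type*} [CommRing R] {x y : R} (h : IsUni x y) : IsUni (x + y) y := by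
  obtain ⟨a, b, hab⟩ := h
  exact ⟨a, b - a, by linear_combination hab⟩

theorem IsUni.ST {R : Type*} [CommRing R] {x y : R} (h : IsUni x y) : IsUni (-y) (x + y) := by
  obtain ⟨a, b, hab⟩ := h
  exact ⟨a - b, a, by linear_combination hab⟩

theorem S_smul_mk (x y : ZMod N) (h : IsUni x y) :
    ModularGroup.S • P1.mk x y h = P1.mk (-y) x h.S := by
  rw [smulZ_mk]
  exact (P1.mk_eq_mk_iff _ _).mpr (by simp [ModularGroup.S]; ring)

theorem T_smul_mk (x y : ZMod N) (h : IsUni x y) :
    ModularGroup.T • P1.mk x y h = P1.mk (x + y) y h.T := by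
  rw [smulZ_mk]
  exact (P1.mk_eq_mk_iff _ _).mpr (by simp [ModularGroup.T]; ring)

theorem ST_smul_mk (x y : ZMod N) (h : IsUni x y) :
    (ModularGroup.S * ModularGroup.T) • P1.mk x y h = P1.mk (-y) (x + y) h.ST := by
  rw [smulZ_mk]
  have hST : ModularGroup.S * ModularGroup.T = ⟨!![0, -1; 1, 1], by decide⟩ := by
    apply Subtype.ext
    rw [Matrix.SpecialLinearGroup.coe_mul]
    simp [ModularGroup.S, ModularGroup.T]
  rw [hST]
  exact (P1.mk_eq_mk_iff _ _).mpr (by simp; ring)

end ZModN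

end Fermat.Agent.GenusLib.Cosets
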