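import Mathlib
import Fermat.Agent.GenusLib.Cusps

/-!
# PROJECT X (S20), WP-Q, part 3: leading coefficients of sums and of shifts

* `QP.lc_sum`, `QP.ord_sum_eq` : the order of a finite sum whose leading coefficients do not
  cancel;
* `QP.lc_shift_int` : an integer shift does not change the `q_N^n`-coefficient when `N ∣ n`;
* `isZeroAtImInfty_sub_iff`, `mem_WHlt_sub_iff` : vanishing after lowering the pole order.
-/

set_option autoImplicit false

noncomputable section

namespace Fermat.Agent.GenusLib.Cusps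

open UpperHalfPlane hiding I
open Filter Topology Complex Function Asymptotics
open scoped Real MatrixGroups ModularForm Manifold
open CongruenceSubgroup Matrix.SpecialLinearGroup ModularForm
open Fermat.Agent.S23Lib Fermat.Agent.S23Lib.Conj Fermat.Agent.GenusLib.Defs

theorem lc_zero (h : ℝ) (n : ℕ) : lc h n (0 : ℍ → ℂ) = 0 := by
  apply lc_eq_of_tendsto
  simp only [Pi.zero_apply, zero_div]
  exact tendsto_const_nhds

theorem QP.lc_sum {h : ℝ} (hh : 0 < h) {ι : Type*} (s : Finset ι) {F : ι → ℍ → ℂ}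
    (hF : ∀ i ∈ s, QP h (F i)) {n : ℕ} (hn : ∀ i ∈ s, (n : ℕ∞) ≤ ord h (F i)) :
    lc h n (∑ i ∈ s, F i) = ∑ i ∈ s, lc h n (F i) := by
  classical
  induction s using Finset.induction_on with
  | empty => simp [lc_zero]
  | insert i t hi ih =>
    have hF' : ∀ j ∈ t, QP h (F j) := fun j hj => hF j (Finset.mem_insert_of_mem hj)
    have hn' : ∀ j ∈ t, (n : ℕ∞) ≤ ord h (F j) := fun j hj => hn j (Finset.mem_insert_of_mem hj)
    rw [Finset.sum_insert hi, Finset.sum_insert hi,
      (hF i (Finset.mem_insert_self i t)).lc_add hh (QP.sum t hF')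
        (hn i (Finset.mem_insert_self i t)) (QP.le_ord_sum hh t hF' n hn'), ih hF' hn']

/-- **Q6** (abstract form): if all summands have order at least `n` and the `q^n`-coefficients
do not cancel, the sum has order exactly `n`. -/
theorem QP.ord_sum_eq {h : ℝ} (hh : 0 < h) {ι : Type*} (s : Finset ι) {F : ι → ℍ → ℂ}
    (hF : ∀ i ∈ s, QP h (F i)) {n : ℕ} (hn : ∀ i ∈ s, (n : ℕ∞) ≤ ord h (F i))
    (hlc : ∑ i ∈ s, lc h n (F i) ≠ 0) : ord h (∑ i ∈ s, F i) = n := by
  rw [(QP.sum s hF).ord_eq_iff hh n]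
  refine ⟨QP.le_ord_sum hh s hF n hn, ?_⟩
  rw [QP.lc_sum hh s hF hn]
  exact hlc

/-- **Q6**: an integer shift does not change the coefficient of `q_N^n` when `N ∣ n`. -/
theorem QP.lc_shift_int {N : ℕ} (hN : 0 < N) {G : ℍ → ℂ} (hG : QP N G) (i : ℤ) {n : ℕ}
    (hdvd : N ∣ n) (hn : (n : ℕ∞) ≤ ord N G) :
    lc N n (Cusps.shift (i : ℝ) G) = lc N n G := by
  have hN' : (0 : ℝ) < N := by exact_mod_cast hN
  rw [hG.lc_shift hN' (i : ℝ) hn]
  obtain ⟨k, rfl⟩ := hdvd
  have hNc : (N : ℂ) ≠ 0 := by exact_mod_cast hN.ne'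
  have h1 : Complex.exp (2 * π * I * ((i : ℝ) : ℂ) / ((N : ℝ) : ℂ)) ^ (N * k) = 1 := by
    rw [← Complex.exp_nat_mul]
    have h2 : ((N * k : ℕ) : ℂ) * (2 * π * I * ((i : ℝ) : ℂ) / ((N : ℝ) : ℂ))
        = ((i * k : ℤ) : ℂ) * (2 * π * I) := by
      push_cast
      field_simp
    rw [h2]
    exact Complex.exp_int_mul_two_pi_mul_I _
  rw [h1, one_mul]

section sub

variable {N : ℕ} {m : ℤ} {G : ℍ → ℂ}

theorem qp_sub_of_bdd (hG : QP N (G * dpow m)) (r : ℕ)
    (hb : IsBoundedAtImInfty (G * dpow (m - r))) : QP N (G * dpow (m - r)) := by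
  have e1 : G * dpow (m - r) = (G * dpow m) * dpow (-(r : ℤ)) := by
    rw [sub_eq_add_neg, dpow_add, mul_assoc]
  refine ⟨?_, ?_, hb⟩
  · rw [e1]
    have : (G * dpow m * dpow (-(r : ℤ))) ∘ ofComplex
        = (G * dpow m) ∘ ofComplex * dpow (-(r : ℤ)) ∘ ofComplex := rfl
    rw [this]; exact hG.per.mul (periodic_dpow N _)
  · rw [e1]; exact hG.hol.mul (dpow_mdiff _)

/-- Q3, function level: lowering `m` by `r` makes the function vanish at `i∞` iff the order is
at least `r N + 1`. -/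
theorem isZeroAtImInfty_sub_iff (hN : 0 < N) (hG : QP N (G * dpow m)) (r : ℕ) :
    IsZeroAtImInfty (G * dpow (m - r)) ↔ ((r * N + 1 : ℕ) : ℕ∞) ≤ ordCusp N m G := by
  have hN' : (0 : ℝ) < N := by exact_mod_cast hN
  have key : ∀ hQ : QP N (G * dpow (m - r)),
      (IsZeroAtImInfty (G * dpow (m - r)) ↔ ((r * N + 1 : ℕ) : ℕ∞) ≤ ordCusp N m G) := by
    intro hQ
    have h1 := ordCusp_add_nat hN hQ r
    rw [sub_add_cancel] at h1
    rw [h1, ← hQ.one_le_ord_iff hN']
    show 1 ≤ ordCusp N (m - r) G ↔ _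
    generalize ordCusp N (m - r) G = x
    induction x using ENat.recTopCoe with
    | top => simp
    | coe k =>
      constructor
      · intro h
        have h' : 1 ≤ k := by exact_mod_cast h
        have : r * N + 1 ≤ k + r * N := by omega
        exact_mod_cast this
      · intro h
        have h' : r * N + 1 ≤ k + r * N := by exact_mod_cast h
        have : 1 ≤ k := by omega
        exact_mod_cast this
  constructor
  · intro hz
    exact (key (qp_sub_of_bdd hG r hz.boundedAtFilter)).mp hz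
  · intro h
    have hb : IsBoundedAtImInfty (G * dpow (m - r)) :=
      (isBoundedAtImInfty_sub_iff hN hG r).mpr
        (le_trans (by exact_mod_cast Nat.le_succ (r * N)) h)
    exact (key (qp_sub_of_bdd hG r hb)).mpr h

/-- **Q3** (membership in a smaller `WHlt`). -/
theorem mem_WHlt_sub_iff {w : ℤ} {F : ℍ → ℂ} (hN : 0 < N) (hF : F ∈ WHle N w m) (r : ℕ) :
    F ∈ WHlt N w (m - r) ↔
      ∀ g : SL(2, ℤ), ((r * N + 1 : ℕ) : ℕ∞) ≤ ordCusp N m (F ∣[w] g) := by
  constructor
  · intro h g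
    exact (isZeroAtImInfty_sub_iff hN (qp_of_mem_WHle hF g) r).mp (h.2.2 g)
  · intro h
    exact ⟨hF.1, hF.2.1, fun g =>
      (isZeroAtImInfty_sub_iff hN (qp_of_mem_WHle hF g) r).mpr (h g)⟩

end sub

end Fermat.Agent.GenusLib.Cusps
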