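import Mathlib
import Fermat.Agent.GenusLib.DualPS

/-!
# PROJECT X (S20), duality step, glue: `W_lt(e + 2) ≃ L^∨(e)` and Riemann–Roch for `Γ₀(N)`

Conditional on the two analytic inputs of the duality step (stated as `Prop`s):

* `BetaSurj N` : every family of values on a `ℂ[j]`-basis of `WH N 0` is realised by `beta · f`
  (this is `exists_beta_eq` with its hypotheses discharged);
* `CuspConv N` : the cusp converse of the degree bound `beta_degree`.

Results: `PhiEquiv`, `finrank_dualFilt`, `rr_modular`, `step5`.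
-/

set_option autoImplicit false

noncomputable section

namespace Fermat.Agent.GenusLib.Dual

open UpperHalfPlane hiding I
open scoped MatrixGroups ModularForm Manifold
open CongruenceSubgroup Module Polynomial
open Fermat.Agent.S23Lib Fermat.Agent.S23Lib.Conj Fermat.Agent.GenusLib.Defs
open Fermat.Agent.GenusLib Fermat.Agent.GenusLib.LS Fermat.Agent.GenusLib.LevelOne

/-- [Dual-C], discharged form: every family of values on a `ℂ[j]`-basis is a `beta · f`. -/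
def BetaSurj (N : ℕ) [NeZero N] : Prop :=
  ∀ (ι : Type) [Fintype ι] [DecidableEq ι] (b : ι → ℍ → ℂ), (∀ i, b i ∈ WH N 0) →
    (∀ p : ι → ℂ[X], ∑ i, polyJ (p i) * b i = 0 → p = 0) →
    (∀ c ∈ WH N 0, ∃ p : ι → ℂ[X], c = ∑ i, polyJ (p i) * b i) →
    ∀ φ : ι → ℂ[X], ∃ f ∈ WH N 2, ∀ i, beta N (b i) f = φ i

/-- [Dual-D]: the cusp converse of `beta_degree`. -/
def CuspConv (N : ℕ) [NeZero N] : Prop :=
  ∀ (e : ℤ) (f : ℍ → ℂ), f ∈ WH N 2 →
    (∀ (d : ℤ) (b : ℍ → ℂ), b ∈ WHle N 0 d →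
      beta N b f = 0 ∨ ((beta N b f).natDegree : ℤ) ≤ d + e) →
    f ∈ WHlt N 2 (e + 2)

section E
variable {N : ℕ} [NeZero N]

omit [NeZero N] in
theorem coe_smul_BAlg (p : ℂ[X]) (b : BStruct.BAlg N) :
    ((p • b : BStruct.BAlg N) : ℍ → ℂ) = polyJ p * (b : ℍ → ℂ) :=
  funext fun z => BStruct.coe_smul_apply p b z

omit [NeZero N] in
theorem coe_sum_smul_BAlg {ι : Type*} (s : Finset ι) (p : ι → ℂ[X]) (v : ι → BStruct.BAlg N) :
    ((∑ i ∈ s, p i • v i : BStruct.BAlg N) : ℍ → ℂ) =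
      ∑ i ∈ s, polyJ (p i) * (v i : ℍ → ℂ) := by
  funext z
  rw [BStruct.coe_sum_apply, Finset.sum_apply]
  exact Finset.sum_congr rfl fun i _ => BStruct.coe_smul_apply (p i) (v i) z

/-! ### A basis of `B` gives the data of the skeleton -/

omit [NeZero N] in
theorem basis_mem {ι : Type*} (bas : Basis ι ℂ[X] (BStruct.BAlg N)) (i : ι) :
    ((bas i : BStruct.BAlg N) : ℍ → ℂ) ∈ WH N 0 := (bas i).2

omit [NeZero N] in
theorem basis_li {ι : Type*} [Fintype ι] (bas : Basis ι ℂ[X] (BStruct.BAlg N))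
    (p : ι → ℂ[X]) (h : ∑ i, polyJ (p i) * ((bas i : BStruct.BAlg N) : ℍ → ℂ) = 0) : p = 0 := by
  have h1 : (∑ i, p i • bas i : BStruct.BAlg N) = 0 := by
    apply Subtype.ext
    rw [coe_sum_smul_BAlg, h]
    rfl
  funext i
  exact Fintype.linearIndependent_iff.mp bas.linearIndependent p h1 i

omit [NeZero N] in
theorem basis_span {ι : Type*} [Fintype ι] (bas : Basis ι ℂ[X] (BStruct.BAlg N))
    (c : ℍ → ℂ) (hc : c ∈ WH N 0) :
    ∃ p : ι → ℂ[X], c = ∑ i, polyJ (p i) * ((bas i : BStruct.BAlg N) : ℍ → ℂ) := by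
  refine ⟨fun i => bas.repr ⟨c, hc⟩ i, ?_⟩
  rw [← coe_sum_smul_BAlg, bas.sum_repr]

/-! ### The map `Φ` -/

/-- `b ↦ beta N b f` as a `ℂ[j]`-linear functional on `B`. -/
def betaHom (N : ℕ) [NeZero N] (f : ℍ → ℂ) (hf : f ∈ WH N 2) :
    BStruct.BAlg N →ₗ[ℂ[X]] ℂ[X] where
  toFun b := beta N (b : ℍ → ℂ) f
  map_add' b b' := beta_add_left b.2 b'.2 hf
  map_smul' p b := by
    rw [coe_smul_BAlg, beta_polyJ_mul_left p b.2 hf]
    rfl

@[simp] theorem betaHom_apply (f : ℍ → ℂ) (hf : f ∈ WH N 2) (b : BStruct.BAlg N) :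
    betaHom N f hf b = beta N (b : ℍ → ℂ) f := rfl

omit [NeZero N] in
theorem WHlt_mem_WH {w m : ℤ} {f : ℍ → ℂ} (hf : f ∈ WHlt N w m) : f ∈ WH N w :=
  ⟨m, WHlt_le_WHle N w m hf⟩

/-- `Φ : W_lt(e + 2) → L^∨(e)`. -/
def Phi (N : ℕ) [NeZero N] (e : ℤ) :
    WHlt N 2 (e + 2) →ₗ[ℂ] RRP1.dualFilt (BStruct.L N) e where
  toFun f := ⟨betaHom N f.1 (WHlt_mem_WH f.2), fun _ _ hm => beta_degree hm f.2⟩
  map_add' f g := by
    apply Subtype.ext
    apply LinearMap.ext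
    intro b
    exact beta_add_right b.2 (WHlt_mem_WH f.2) (WHlt_mem_WH g.2)
  map_smul' c f := by
    apply Subtype.ext
    apply LinearMap.ext
    intro b
    exact beta_smul_right c b.2 (WHlt_mem_WH f.2)

theorem Phi_apply (e : ℤ) (f : WHlt N 2 (e + 2)) (b : BStruct.BAlg N) :
    (Phi N e f).1 b = beta N (b : ℍ → ℂ) f.1 := rfl

theorem Phi_injective (e : ℤ) : Function.Injective (Phi N e) := by
  refine (injective_iff_map_eq_zero (Phi N e)).mpr fun f hf => ?_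
  apply Subtype.ext
  refine eq_zero_of_beta_eq_zero (WHlt_mem_WH f.2) fun b hb => ?_
  have h := congrArg (fun φ : RRP1.dualFilt (BStruct.L N) e => φ.1 ⟨b, hb⟩) hf
  exact h

theorem Phi_surjective (hC : BetaSurj N) (hD : CuspConv N) (e : ℤ) :
    Function.Surjective (Phi N e) := by
  classical
  intro φ
  set bas := Module.Free.chooseBasis ℂ[X] (BStruct.BAlg N) with hbas
  obtain ⟨f, hf, hfφ⟩ := hC _ (fun i => ((bas i : BStruct.BAlg N) : ℍ → ℂ)) (basis_mem bas)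
    (basis_li bas) (basis_span bas) (fun i => φ.1 (bas i))
  -- `beta · f` agrees with `φ` on all of `B`
  have h1 : ∀ c : BStruct.BAlg N, beta N (c : ℍ → ℂ) f = φ.1 c := by
    intro c
    have hc : (c : ℍ → ℂ) = ∑ i, polyJ (bas.repr c i) * ((bas i : BStruct.BAlg N) : ℍ → ℂ) := by
      rw [← coe_sum_smul_BAlg, bas.sum_repr]
    rw [hc, beta_sum_left _ _ _ (fun i _ => basis_mem bas i) hf]
    conv_rhs => rw [← bas.sum_repr c, map_sum]
    refine Finset.sum_congr rfl fun i _ => ?_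
    rw [hfφ i, map_smul, smul_eq_mul]
  have h2 : f ∈ WHlt N 2 (e + 2) := by
    refine hD e f hf fun d b hb => ?_
    have h3 := h1 ⟨b, d, hb⟩
    simp only at h3
    rw [h3]
    exact φ.2 d ⟨b, d, hb⟩ hb
  refine ⟨⟨f, h2⟩, ?_⟩
  apply Subtype.ext
  apply LinearMap.ext
  intro c
  exact h1 c

/-- `W_lt(e + 2) ≃ L^∨(e)` (given the two analytic inputs). -/
def PhiEquiv (hC : BetaSurj N) (hD : CuspConv N) (e : ℤ) :
    WHlt N 2 (e + 2) ≃ₗ[ℂ] RRP1.dualFilt (BStruct.L N) e :=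
  LinearEquiv.ofBijective (Phi N e) ⟨Phi_injective e, Phi_surjective hC hD e⟩

theorem finrank_dualFilt (hC : BetaSurj N) (hD : CuspConv N) (e : ℤ) :
    Module.finrank ℂ (RRP1.dualFilt (BStruct.L N) e) = Module.finrank ℂ (WHlt N 2 (e + 2)) :=
  (PhiEquiv hC hD e).finrank_eq.symm

/-! ### Riemann–Roch for `Γ₀(N)` -/

/-- Riemann–Roch: `dim L(d) - dim W_lt(-d) = μ d + χ` for all `d`. -/
theorem rr_modular (hC : BetaSurj N) (hD : CuspConv N) : ∃ χ : ℤ, ∀ d : ℤ,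
    (Module.finrank ℂ (WHle N 0 d) : ℤ) - (Module.finrank ℂ (WHlt N 2 (-d)) : ℤ) =
      (Nat.card (X N) : ℤ) * d + χ := by
  obtain ⟨χ, hχ, -, -⟩ := BStruct.rr_BAlg N
  refine ⟨χ, fun d => ?_⟩
  have h := hχ d
  rw [finrank_dualFilt hC hD, (BStruct.LEquiv N d).finrank_eq] at h
  have h2 : (-2 - d) + 2 = -d := by ring
  rw [h2] at h
  exact h

theorem WHle_zero_zero_eq_span : WHle N 0 0 = ℂ ∙ (1 : ℍ → ℂ) := by
  ext F
  rw [WHBasic.mem_WHle_zero_zero, Submodule.mem_span_singleton]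
  constructor
  · rintro ⟨c, rfl⟩
    exact ⟨c, by funext z; simp⟩
  · rintro ⟨c, rfl⟩
    exact ⟨c, by funext z; simp⟩

theorem finrank_WHle_zero_zero : Module.finrank ℂ (WHle N 0 0) = 1 := by
  rw [WHle_zero_zero_eq_span]
  exact finrank_span_singleton one_ne_zero

/-- Step (5) of the blueprint: there is `χ` with `dim S₂ = 1 - χ`, `dim M_{12 d} = μ d + χ`
(`d ≥ 1`) and `dim S_{12 m + 2} = μ m - χ` (`m ≥ 1`). -/
theorem step5 (hC : BetaSurj N) (hD : CuspConv N) : ∃ χ : ℤ,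
    (Module.finrank ℂ (CuspForm (Gamma0 N) 2) : ℤ) = 1 - χ ∧
    (∀ d : ℤ, 1 ≤ d → (Module.finrank ℂ (WHle N 0 d) : ℤ) = (Nat.card (X N) : ℤ) * d + χ) ∧
    (∀ m : ℤ, 1 ≤ m → (Module.finrank ℂ (WHlt N 2 m) : ℤ) = (Nat.card (X N) : ℤ) * m - χ) := by
  obtain ⟨χ, hχ⟩ := rr_modular hC hD
  refine ⟨χ, ?_, ?_, ?_⟩
  · have h := hχ 0
    rw [neg_zero, finrank_WHle_zero_zero, ← WHBasic.finrank_cuspTwo] at h
    push_cast at h
    linarith
  · intro d hd
    have h := hχ d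
    rw [WHBasic.WHlt_eq_bot_of_neg N 2 (-d) (by linarith), finrank_bot] at h
    push_cast at h
    linarith
  · intro m hm
    have h := hχ (-m)
    rw [WHBasic.WHle_eq_bot_of_neg N 0 (-m) (by linarith), finrank_bot, neg_neg] at h
    push_cast at h
    linarith

end E

end Fermat.Agent.GenusLib.Dual
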