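import Mathlib
import Fermat.Agent.GenusLib.DualGlue
import Fermat.Agent.GenusLib.QFam
import Fermat.Agent.GenusLib.Cusps
import Fermat.Agent.GenusLib.CuspsTr

/-!
# PROJECT X (S20), duality step, part D: the cusp converse of the degree bound

`cuspConv : Out2 N → CuspConv N`: if `f ∈ WH N 2` satisfies the degree bound
`deg beta(b, f) ≤ d + e` for all `b ∈ WHle N 0 d` and all `d`, then `f ∈ WHlt N 2 (e + 2)`.

The proof tests `f` against a function `b` with prescribed order at one cusp and high order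
at all other cusps (`Out2`), and computes the order at `i∞` of the trace `Tr (b f)`: the
translates in the `⟨T⟩`-orbit of the chosen cusp all have the same leading coefficient
(`N ∣ r₀ N`), the other translates have higher order.
-/

set_option autoImplicit false
set_option linter.unusedSectionVars false

noncomputable section

namespace Fermat.Agent.GenusLib.Dual

open UpperHalfPlane hiding I
open scoped MatrixGroups ModularForm Manifold
open CongruenceSubgroup Module Polynomial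
open Fermat.Agent.S23Lib Fermat.Agent.S23Lib.Conj Fermat.Agent.GenusLib.Defs
open Fermat.Agent.GenusLib Fermat.Agent.GenusLib.LS Fermat.Agent.GenusLib.LevelOne

/-- OUTPUT 2 of the LS step: functions with prescribed order at one cusp and high order at all
the other cusps. -/
def Out2 (N : ℕ) [NeZero N] : Prop :=
  ∃ d₀ : ℤ, ∀ (ω₀ : OrbQ N) (r k₀ : ℕ), k₀ < r * hQ ω₀ → ∀ d : ℤ, d₀ + r ≤ d →
    ∃ b ∈ WHle N 0 d, vQ N d ω₀ b = k₀ ∧
      ∀ ω : OrbQ N, ω ≠ ω₀ → ((r * hQ ω : ℕ) : ℕ∞) ≤ vQ N d ω b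

section D
variable {N : ℕ} [NeZero N] {w m : ℤ} {F : ℍ → ℂ}

/-- the translates of `F ∈ WHle N w m`, multiplied by `Δ^m`, are holomorphic in `q_N` -/
theorem qp_trw (hF : F ∈ WHle N w m) (q : X N) : Cusps.QP N (trw w q F * dpow m) :=
  Cusps.qp_of_mem_WHle hF _

theorem trw_T_zpow_smul (hF : Inv (Gamma0 N) w F) (i : ℤ) (q : X N) :
    trw w (ModularGroup.T ^ i • q) F = Cusps.shift ((-i : ℤ) : ℝ) (trw w q F) := by
  have h1 := trw_slash hF (ModularGroup.T ^ (-i)) q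
  rw [zpow_neg, inv_inv] at h1
  rw [← h1, ← zpow_neg, Cusps.slash_T_zpow]

theorem trw_T_zpow_smul_mul_dpow (hF : Inv (Gamma0 N) w F) (i : ℤ) (q : X N) :
    trw w (ModularGroup.T ^ i • q) F * dpow m
      = Cusps.shift ((-i : ℤ) : ℝ) (trw w q F * dpow m) := by
  rw [trw_T_zpow_smul hF, Cusps.shift_mul, Cusps.shift_int_dpow]

/-- `T^i`-translates have the same order -/
theorem ordCusp_trw_smul (hF : F ∈ WHle N w m) (i : ℤ) (q : X N) :
    Cusps.ordCusp N m (trw w (ModularGroup.T ^ i • q) F) = Cusps.ordCusp N m (trw w q F) := by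
  have hN' : (0 : ℝ) < N := by exact_mod_cast (level_pos : 0 < N)
  unfold Cusps.ordCusp
  rw [trw_T_zpow_smul_mul_dpow hF.2.1, (qp_trw hF q).ord_shift hN']

/-- `T^i`-translates have the same `q_N^n`-coefficient when `N ∣ n` -/
theorem lc_trw_smul (hF : F ∈ WHle N w m) (i : ℤ) (q : X N) {n : ℕ} (hdvd : N ∣ n)
    (hn : (n : ℕ∞) ≤ Cusps.ordCusp N m (trw w q F)) :
    Cusps.lc N n (trw w (ModularGroup.T ^ i • q) F * dpow m)
      = Cusps.lc N n (trw w q F * dpow m) := by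
  rw [trw_T_zpow_smul_mul_dpow hF.2.1]
  exact (qp_trw hF q).lc_shift_int level_pos _ hdvd hn

/-- the order of any translate is the order at the representative of its cusp -/
theorem ordCusp_trw_eq (hF : F ∈ WHle N w m) (q : X N) :
    Cusps.ordCusp N m (trw w q F)
      = Cusps.ordCusp N m (trw w (repQ (Quotient.mk'' q : OrbQ N)) F) := by
  obtain ⟨i, hi⟩ := exists_zpow_smul_repQ q
  conv_lhs => rw [hi]
  exact ordCusp_trw_smul hF i _

theorem ordCusp_slash_eq_trw (hF : F ∈ WHle N w m) (g : SL(2, ℤ)) :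
    Cusps.ordCusp N m (F ∣[w] g)
      = Cusps.ordCusp N m (trw w (repQ (Quotient.mk'' ((g⁻¹ : SL(2, ℤ)) : X N) : OrbQ N)) F) := by
  have h1 := trw_mk hF.2.1 g⁻¹
  rw [inv_inv] at h1
  rw [← h1]
  exact ordCusp_trw_eq hF _

/-- the translate at the representative of a cusp is periodic with the width of the cusp -/
theorem shift_trw_repQ (hF : Inv (Gamma0 N) w F) (ω : OrbQ N) :
    Cusps.shift (hQ ω : ℝ) (trw w (repQ ω) F) = trw w (repQ ω) F := by
  have h1 := trw_T_zpow_smul hF (-(hQ ω : ℤ)) (repQ ω)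
  have h2 : ModularGroup.T ^ (-(hQ ω : ℤ)) • repQ ω = repQ ω :=
    (T_zpow_smul_repQ_iff ω _).mpr (dvd_neg.mpr dvd_rfl)
  rw [h2] at h1
  have h3 : Cusps.shift ((-(-(hQ ω : ℤ)) : ℤ) : ℝ) (trw w (repQ ω) F) = trw w (repQ ω) F :=
    h1.symm
  simpa using h3

/-- the order at a cusp is divisible by `N / hQ ω` -/
theorem div_hQ_dvd_ordCusp_trw (hF : F ∈ WHle N w m) (ω : OrbQ N) {n : ℕ}
    (hn : Cusps.ordCusp N m (trw w (repQ ω) F) = n) : N / hQ ω ∣ n :=
  Cusps.div_dvd_ordCusp level_pos (hQ_dvd ω) (qp_trw hF _) (shift_trw_repQ hF.2.1 ω) hn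

/-- **Q6** for the trace: if the order is exactly `n` (with `N ∣ n`) at the cusp `ω₀` and
larger at all other cusps, then the trace has order exactly `n` at `i∞`. -/
theorem ordCusp_Tr_eq (hF : F ∈ WHle N w m) (ω₀ : OrbQ N) {n : ℕ} (hdvd : N ∣ n)
    (h0 : Cusps.ordCusp N m (trw w (repQ ω₀) F) = n)
    (h1 : ∀ ω : OrbQ N, ω ≠ ω₀ →
      ((n + 1 : ℕ) : ℕ∞) ≤ Cusps.ordCusp N m (trw w (repQ ω) F)) :
    Cusps.ordCusp N m (Tr N w F) = n := by
  classical
  have hN : 0 < N := level_pos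
  have hN' : (0 : ℝ) < N := by exact_mod_cast hN
  set c := Cusps.lc N n (trw w (repQ ω₀) F * dpow m) with hc
  have hc0 : c ≠ 0 := (((qp_trw hF (repQ ω₀)).ord_eq_iff hN' n).mp h0).2
  -- orders of all translates
  have hord : ∀ q : X N, (n : ℕ∞) ≤ Cusps.ord N (trw w q F * dpow m) := by
    intro q
    show (n : ℕ∞) ≤ Cusps.ordCusp N m (trw w q F)
    rw [ordCusp_trw_eq hF q]
    by_cases hq : (Quotient.mk'' q : OrbQ N) = ω₀
    · rw [hq, h0]
    · exact le_trans (by exact_mod_cast Nat.le_succ n) (h1 _ hq)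
  -- leading coefficients of all translates
  have hlc : ∀ q : X N, Cusps.lc N n (trw w q F * dpow m)
      = if (Quotient.mk'' q : OrbQ N) = ω₀ then c else 0 := by
    intro q
    by_cases hq : (Quotient.mk'' q : OrbQ N) = ω₀
    · rw [if_pos hq]
      obtain ⟨i, hi⟩ := exists_zpow_smul_repQ q
      rw [hq] at hi
      rw [hi, hc]
      exact lc_trw_smul hF i _ hdvd (by rw [h0])
    · rw [if_neg hq, (qp_trw hF q).lc_eq_zero_iff hN' (hord q)]
      show ((n + 1 : ℕ) : ℕ∞) ≤ Cusps.ordCusp N m (trw w q F)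
      rw [ordCusp_trw_eq hF q]
      exact h1 _ hq
  unfold Cusps.ordCusp
  rw [Tr_mul_dpow]
  refine Cusps.QP.ord_sum_eq hN' Finset.univ (fun q _ => qp_trw hF q) (fun q _ => hord q) ?_
  simp only [hlc]
  rw [Finset.sum_ite, Finset.sum_const_zero, add_zero, Finset.sum_const, nsmul_eq_mul]
  refine mul_ne_zero ?_ hc0
  have hne : (Finset.univ.filter fun q : X N => (Quotient.mk'' q : OrbQ N) = ω₀).Nonempty :=
    ⟨repQ ω₀, by
      rw [Finset.mem_filter]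
      exact ⟨Finset.mem_univ _, Quotient.out_eq' ω₀⟩⟩
  exact_mod_cast (Finset.card_pos.mpr hne).ne'

theorem qp_Tr (hF : F ∈ WHle N w m) : Cusps.QP N (Tr N w F * dpow m) := by
  rw [Tr_mul_dpow]
  exact Cusps.QP.sum _ fun q _ => qp_trw hF q

/-- **[Dual-D]** the cusp converse of the degree bound `beta_degree`. -/
theorem cuspConv (hout : Out2 N) : CuspConv N := by
  intro e f hf H
  have hN : 0 < N := level_pos
  have hN' : (0 : ℝ) < N := by exact_mod_cast hN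
  obtain ⟨m₁, hm₁⟩ := hf
  obtain ⟨r₀, hr₀⟩ : ∃ r₀ : ℕ, m₁ ≤ e + 2 + r₀ := ⟨(m₁ - (e + 2)).toNat, by omega⟩
  have hfm : f ∈ WHle N 2 (e + 2 + r₀) := WHle_mono N 2 hr₀ hm₁
  obtain ⟨d₀, hd₀⟩ := hout
  -- the key claim: at every cusp the order of `f Δ^(e + 2 + r₀)` is at least `r₀ N + 1`
  have key : ∀ ω₀ : OrbQ N,
      ((r₀ * N + 1 : ℕ) : ℕ∞) ≤ Cusps.ordCusp N (e + 2 + r₀) (trw 2 (repQ ω₀) f) := by
    intro ω₀
    by_contra hcon
    rw [not_le] at hcon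
    obtain ⟨n₁, hn₁⟩ : ∃ n₁ : ℕ, Cusps.ordCusp N (e + 2 + r₀) (trw 2 (repQ ω₀) f) = n₁ := by
      obtain ⟨n₁, hn₁⟩ := ENat.ne_top_iff_exists.mp (ne_top_of_lt hcon)
      exact ⟨n₁, hn₁.symm⟩
    have hn₁le : n₁ ≤ r₀ * N := by
      rw [hn₁] at hcon
      have : n₁ < r₀ * N + 1 := by exact_mod_cast hcon
      omega
    obtain ⟨k₁, hk₁⟩ := div_hQ_dvd_ordCusp_trw hfm ω₀ hn₁
    have ha : 0 < N / hQ ω₀ := div_hQ_pos ω₀
    have hmul : hQ ω₀ * (N / hQ ω₀) = N := hQ_mul_div ω₀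
    have hk₁le : k₁ ≤ r₀ * hQ ω₀ := by
      have h2 : N / hQ ω₀ * k₁ ≤ N / hQ ω₀ * (r₀ * hQ ω₀) := by
        calc N / hQ ω₀ * k₁ = n₁ := hk₁.symm
          _ ≤ r₀ * N := hn₁le
          _ = r₀ * (hQ ω₀ * (N / hQ ω₀)) := by rw [hmul]
          _ = N / hQ ω₀ * (r₀ * hQ ω₀) := by ring
      exact Nat.le_of_mul_le_mul_left h2 ha
    obtain ⟨k₀, hk₀⟩ : ∃ k₀ : ℕ, r₀ * hQ ω₀ = k₁ + k₀ := Nat.exists_eq_add_of_le hk₁le
    have hk₀lt : k₀ < (r₀ + 1) * hQ ω₀ := by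
      have := hQ_pos ω₀
      have : (r₀ + 1) * hQ ω₀ = r₀ * hQ ω₀ + hQ ω₀ := by ring
      omega
    obtain ⟨b, hb, hbeq, hbne⟩ := hd₀ ω₀ (r₀ + 1) k₀ hk₀lt (d₀ + ((r₀ + 1 : ℕ) : ℤ)) le_rfl
    set d : ℤ := d₀ + ((r₀ + 1 : ℕ) : ℤ) with hd
    have hbf : b * f ∈ WHle N 2 (d + (e + 2 + r₀)) := WHBasic.WHle_mul' hb hfm (zero_add 2) rfl
    -- orders of the translates of `b f`
    have hmulq : ∀ q : X N, Cusps.ordCusp N (d + (e + 2 + r₀)) (trw 2 q (b * f))
        = Cusps.ordCusp N d (trw 0 q b) + Cusps.ordCusp N (e + 2 + r₀) (trw 2 q f) := by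
      intro q
      have h3 := trw_mul 0 2 q b f
      rw [zero_add] at h3
      rw [h3]
      exact Cusps.ordCusp_mul hN (qp_trw hb q) (qp_trw hfm q)
    have hb0 : Cusps.ordCusp N d (trw 0 (repQ ω₀) b) = ((k₀ * (N / hQ ω₀) : ℕ) : ℕ∞) :=
      (vQ_eq_iff hb ω₀ k₀).mp hbeq
    have h0 : Cusps.ordCusp N (d + (e + 2 + r₀)) (trw 2 (repQ ω₀) (b * f)) = ((r₀ * N : ℕ) : ℕ∞) := by
      rw [hmulq, hb0, hn₁, hk₁]
      have : k₀ * (N / hQ ω₀) + N / hQ ω₀ * k₁ = r₀ * N := by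
        calc k₀ * (N / hQ ω₀) + N / hQ ω₀ * k₁ = (k₁ + k₀) * (N / hQ ω₀) := by ring
          _ = r₀ * hQ ω₀ * (N / hQ ω₀) := by rw [hk₀]
          _ = r₀ * N := by rw [Nat.mul_assoc, hmul]
      exact_mod_cast this
    have h1 : ∀ ω : OrbQ N, ω ≠ ω₀ → ((r₀ * N + 1 : ℕ) : ℕ∞)
        ≤ Cusps.ordCusp N (d + (e + 2 + r₀)) (trw 2 (repQ ω) (b * f)) := by
      intro ω hω
      rw [hmulq]
      have h4 : (((r₀ + 1) * hQ ω * (N / hQ ω) : ℕ) : ℕ∞) ≤ Cusps.ordCusp N d (trw 0 (repQ ω) b) :=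
        (le_vQ_iff ω ((r₀ + 1) * hQ ω)).mp (hbne ω hω)
      rw [Nat.mul_assoc, hQ_mul_div] at h4
      refine le_trans ?_ (le_trans h4 le_self_add)
      have : r₀ * N + 1 ≤ (r₀ + 1) * N := by
        have : (r₀ + 1) * N = r₀ * N + N := by ring
        omega
      exact_mod_cast this
    have hTr : Cusps.ordCusp N (d + (e + 2 + r₀)) (Tr N 2 (b * f)) = ((r₀ * N : ℕ) : ℕ∞) :=
      ordCusp_Tr_eq hbf ω₀ (dvd_mul_left N r₀) h0 h1
    -- the other side: the degree bound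
    have hspec : polyJ (beta N b f) * om1 = Tr N 2 (b * f) :=
      beta_spec ⟨d, hb⟩ ⟨e + 2 + r₀, hfm⟩
    have hzero : beta N b f ≠ 0 := by
      intro h0'
      rw [h0', polyJ_zero, zero_mul] at hspec
      rw [← hspec] at hTr
      have h5 : Cusps.ordCusp N (d + (e + 2 + r₀)) (0 : ℍ → ℂ) = ⊤ := by
        unfold Cusps.ordCusp
        rw [zero_mul]
        exact Cusps.QP.ord_zero hN'
      rw [h5] at hTr
      exact ENat.top_ne_natCast _ hTr
    have hdeg : ((beta N b f).natDegree : ℤ) ≤ d + e := (H d b hb).resolve_left hzero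
    have hz : IsZeroAtImInfty (polyJ (beta N b f) * om1 * dpow (d + e + 2)) :=
      (isZeroAtImInfty_polyJ_mul_om1_iff hzero (d + e + 2)).mpr (by omega)
    rw [hspec] at hz
    have e1 : d + e + 2 = d + (e + 2 + r₀) - (r₀ : ℤ) := by ring
    rw [e1] at hz
    have h6 := (Cusps.isZeroAtImInfty_sub_iff hN (qp_Tr hbf) r₀).mp hz
    rw [hTr] at h6
    have : r₀ * N + 1 ≤ r₀ * N := by exact_mod_cast h6
    omega
  -- conclusion
  have hall : ∀ g : SL(2, ℤ),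
      ((r₀ * N + 1 : ℕ) : ℕ∞) ≤ Cusps.ordCusp N (e + 2 + r₀) (f ∣[(2 : ℤ)] g) := by
    intro g
    rw [ordCusp_slash_eq_trw hfm g]
    exact key _
  have hfin := (Cusps.mem_WHlt_sub_iff hN hfm r₀).mpr hall
  have e2 : e + 2 + (r₀ : ℤ) - (r₀ : ℤ) = e + 2 := by ring
  rwa [e2] at hfin

end D

end Fermat.Agent.GenusLib.Dual
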