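import Mathlib
import Fermat.Agent.GenusLib.PFam
import Fermat.Agent.GenusLib.QFam
import Fermat.Agent.GenusLib.LevelOne

/-!
# PROJECT X (S20), step LS: the mixed valuation family and its exactness

On `V = WHle N 0 d` we use the valuations at the points over two fibres of `j` and at the cusps.
The bottom box is `(j - j τa)^ra (j - j τb)^rb · WHle N 0 (d - ra - rb - rc)`; when the dimensions
of the spaces `WHle N 0 d` grow linearly with slope `|X|`, the count of steps is exact.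
-/

set_option autoImplicit false
set_option linter.unusedSectionVars false

noncomputable section

namespace Fermat.Agent.GenusLib.LS

open UpperHalfPlane hiding I
open scoped MatrixGroups ModularForm Manifold
open CongruenceSubgroup Module Polynomial Filter Topology ModularForm
open Fermat.Agent.S23Lib Fermat.Agent.S23Lib.Conj Fermat.Agent.GenusLib.Defs
open Fermat.Agent.GenusLib Fermat.Agent.GenusLib.LevelOne

local notation "Δ" => ModularForm.discriminant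

/-! ### General helpers -/

/-- Holomorphic functions on `ℍ` have no zero divisors. -/
theorem eq_zero_of_mul_eq_zero_right {F G : ℍ → ℂ} (hF : MDiff F) (hG : MDiff G)
    (h : F * G = 0) (hG0 : G ≠ 0) : F = 0 := by
  let τ : ℍ := ⟨Complex.I, by simp⟩
  have h1 := Pts.ordAt_mul hF hG τ
  rw [h, Pts.ordAt_zero] at h1
  by_contra hF0
  have h2 := Pts.ordAt_ne_top hF hF0 τ
  have h3 := Pts.ordAt_ne_top hG hG0 τ
  exact (WithTop.add_ne_top.mpr ⟨h2, h3⟩) h1.symm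

theorem polyJ_ne_zero {P : ℂ[X]} (hP : P ≠ 0) : polyJ P ≠ 0 :=
  fun h => hP (polyJ_eq_zero_iff.mp h)

/-- Cancelling a level one factor in the invariance. -/
theorem inv_of_mul_polyJ {N : ℕ} {Q : ℍ → ℂ} {P : ℂ[X]} (hP : P ≠ 0) (hQ : MDiff Q) {w : ℤ}
    (h : Inv (Gamma0 N) w (Q * polyJ P)) : Inv (Gamma0 N) w Q := by
  intro γ hγ
  have h1 := h γ hγ
  have h2 : (Q * polyJ P) ∣[w] γ = (Q ∣[w] γ) * polyJ P := by
    have := ModularForm.mul_slash_SL2 w 0 γ Q (polyJ P)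
    rw [add_zero] at this
    rw [this, polyJ_slash]
  rw [h2] at h1
  have h3 : (Q ∣[w] γ - Q) * polyJ P = 0 := by rw [sub_mul, h1, sub_self]
  have h4 := eq_zero_of_mul_eq_zero_right ((hQ.slash w (γ : GL (Fin 2) ℝ)).sub hQ)
    (polyJ_mdiff P) h3 (polyJ_ne_zero hP)
  exact sub_eq_zero.mp h4

/-- Cancelling a level one factor in the growth condition. -/
theorem bdd_of_mul_polyJ {P : ℂ[X]} (hP : P ≠ 0) {g : ℍ → ℂ}
    (h : IsBoundedAtImInfty ((polyJ P * dpow P.natDegree) * g)) : IsBoundedAtImInfty g := by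
  have hc : P.leadingCoeff ≠ 0 := leadingCoeff_ne_zero.mpr hP
  have hu : Tendsto (fun z : ℍ => (P.leadingCoeff)⁻¹ * (polyJ P z * Δ z ^ P.natDegree))
      atImInfty (𝓝 1) := by
    have := (tendsto_polyJ_mul P).const_mul (P.leadingCoeff)⁻¹
    rwa [inv_mul_cancel₀ hc] at this
  refine WHBasic.bdd_of_mul_bdd hu ?_
  have h5 : ((fun z : ℍ => (P.leadingCoeff)⁻¹ * (polyJ P z * Δ z ^ P.natDegree)) * g)
      = (P.leadingCoeff)⁻¹ • ((polyJ P * dpow P.natDegree) * g) := by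
    funext z
    simp only [Pi.mul_apply, Pi.smul_apply, smul_eq_mul, dpow_apply, zpow_natCast]
    ring
  rw [h5]
  exact h.const_smul_left _

/-- If `Q * polyJ P` lies in `WHle N 0 (m + deg P)` then `Q ∈ WHle N 0 m`. -/
theorem mem_WHle_of_mul_polyJ {N : ℕ} {Q : ℍ → ℂ} {P : ℂ[X]} (hP : P ≠ 0) (hQ : MDiff Q)
    {m m' : ℤ} (hm : m' = m + P.natDegree) (h : Q * polyJ P ∈ WHle N 0 m') :
    Q ∈ WHle N 0 m := by
  obtain ⟨-, h2, h3⟩ := h
  refine ⟨hQ, inv_of_mul_polyJ hP hQ h2, fun γ => ?_⟩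
  have h4 := h3 γ
  have h5 : (Q * polyJ P) ∣[(0 : ℤ)] γ = (Q ∣[(0 : ℤ)] γ) * polyJ P := by
    have := ModularForm.mul_slash_SL2 0 0 γ Q (polyJ P)
    rw [add_zero] at this
    rw [this, polyJ_slash]
  rw [h5, hm, dpow_add] at h4
  refine bdd_of_mul_polyJ hP ?_
  have h6 : (polyJ P * dpow ↑P.natDegree) * ((Q ∣[(0 : ℤ)] γ) * dpow m)
      = (Q ∣[(0 : ℤ)] γ) * polyJ P * (dpow m * dpow ↑P.natDegree) := by
    funext z; simp only [Pi.mul_apply]; ring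
  rw [h6]
  exact h4

/-! ### The mixed family -/

section Mixed

variable (N : ℕ) [NeZero N]

/-- Index set: points over `j τa`, points over `j τb`, cusps. -/
abbrev Idx (τa τb : ℍ) : Type := (OrbP N τa ⊕ OrbP N τb) ⊕ OrbQ N

/-- The mixed valuation family on `WHle N 0 d`. -/
def vMix (d : ℤ) (τa τb : ℍ) (i : Idx N τa τb) (b : ↥(WHle N 0 d)) : ℕ∞ :=
  match i with
  | .inl (.inl ω) => vP N τa ω b.1
  | .inl (.inr ω) => vP N τb ω b.1
  | .inr ω => vQ N d ω b.1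

/-- The thresholds of the bottom box. -/
def tMix (τa τb : ℍ) (ra rb rc : ℕ) (i : Idx N τa τb) : ℕ :=
  match i with
  | .inl (.inl ω) => ra * sP ω
  | .inl (.inr ω) => rb * sP ω
  | .inr ω => rc * hQ ω

theorem isValFamily_vMix (d : ℤ) (τa τb : ℍ) : Steps.IsValFamily ℂ (vMix N d τa τb) where
  add := by
    rintro ((ω | ω) | ω) x y
    · exact (isValFamily_vP N d τa).add ω x y
    · exact (isValFamily_vP N d τb).add ω x y
    · exact (isValFamily_vQ N d).add ω x y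
  smul := by
    rintro ((ω | ω) | ω) c x
    · exact (isValFamily_vP N d τa).smul ω c x
    · exact (isValFamily_vP N d τb).smul ω c x
    · exact (isValFamily_vQ N d).smul ω c x
  lead := by
    rintro ((ω | ω) | ω) n x y hx hy
    · exact (isValFamily_vP N d τa).lead ω n x y hx hy
    · exact (isValFamily_vP N d τb).lead ω n x y hx hy
    · exact (isValFamily_vQ N d).lead ω n x y hx hy

theorem sum_tMix (τa τb : ℍ) (ra rb rc : ℕ) :
    ∑ i, tMix N τa τb ra rb rc i = (ra + rb + rc) * Nat.card (X N) := by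
  simp only [Fintype.sum_sum_type, tMix]
  rw [← Finset.mul_sum, ← Finset.mul_sum, ← Finset.mul_sum, sum_sP, sum_sP, sum_hQ]
  ring

variable {N}

/-- The hypothesis on the local orders of `j` (proved in `JOrd.lean`). -/
def HJ : Prop :=
  ∀ τ' : ℍ, Pts.ordAt (fun z => jFun z - jFun τ') τ' = ((Nat.card (StabG τ') / 2 : ℕ) : ℕ∞)

theorem mem_box_tMix_iff (hJ : HJ) {d : ℤ} (τa τb : ℍ) (ra rb rc : ℕ) (b : ↥(WHle N 0 d)) :
    b ∈ Steps.box (isValFamily_vMix N d τa τb) (tMix N τa τb ra rb rc) ↔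
      (∀ τ' : ℍ, (ra : ℕ∞) * Pts.ordAt (fun z => jFun z - jFun τa) τ' ≤ Pts.ordAt b.1 τ') ∧
      (∀ τ' : ℍ, (rb : ℕ∞) * Pts.ordAt (fun z => jFun z - jFun τb) τ' ≤ Pts.ordAt b.1 τ') ∧
      b.1 ∈ WHle N 0 (d - rc) := by
  have hb : b.1 ∈ WH N 0 := WHle_le_WH N 0 d b.2
  rw [Steps.mem_box, Sum.forall, Sum.forall]
  rw [← forall_le_vP_iff hb τa ra hJ, ← forall_le_vP_iff hb τb rb hJ, ← forall_le_vQ_iff b.2 rc]
  exact and_assoc

/-- The polynomial cutting out the bottom box. -/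
def Pab (τa τb : ℍ) (ra rb : ℕ) : ℂ[X] :=
  (Polynomial.X - C (jFun τa)) ^ ra * (Polynomial.X - C (jFun τb)) ^ rb

theorem Pab_ne_zero (τa τb : ℍ) (ra rb : ℕ) : Pab τa τb ra rb ≠ 0 :=
  mul_ne_zero (pow_ne_zero _ (X_sub_C_ne_zero _)) (pow_ne_zero _ (X_sub_C_ne_zero _))

theorem natDegree_Pab (τa τb : ℍ) (ra rb : ℕ) : (Pab τa τb ra rb).natDegree = ra + rb := by
  unfold Pab
  rw [natDegree_mul (pow_ne_zero _ (X_sub_C_ne_zero _)) (pow_ne_zero _ (X_sub_C_ne_zero _)),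
    natDegree_pow, natDegree_pow, natDegree_X_sub_C, natDegree_X_sub_C, mul_one, mul_one]

theorem polyJ_X_sub_C (c : ℂ) : polyJ (Polynomial.X - C c) = fun z => jFun z - c := by
  funext z; simp [polyJ]

theorem mdiff_jsub (c : ℂ) : MDiff (fun z : ℍ => jFun z - c) := by
  rw [← polyJ_X_sub_C]; exact polyJ_mdiff _

theorem polyJ_Pab (τa τb : ℍ) (ra rb : ℕ) :
    polyJ (Pab τa τb ra rb) = (fun z => jFun z - jFun τa) ^ ra * (fun z => jFun z - jFun τb) ^ rb := by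
  funext z; simp [polyJ, Pab]

theorem ordAt_polyJ_Pab (τa τb : ℍ) (ra rb : ℕ) (τ' : ℍ) :
    Pts.ordAt (polyJ (Pab τa τb ra rb)) τ' =
      ra * Pts.ordAt (fun z => jFun z - jFun τa) τ' + rb * Pts.ordAt (fun z => jFun z - jFun τb) τ' := by
  rw [polyJ_Pab, Pts.ordAt_mul ((mdiff_jsub _).pow ra) ((mdiff_jsub _).pow rb),
    Pts.ordAt_pow (mdiff_jsub _), Pts.ordAt_pow (mdiff_jsub _)]

theorem ordAt_jsub_eq_zero {c : ℂ} {τ' : ℍ} (h : jFun τ' ≠ c) :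
    Pts.ordAt (fun z => jFun z - c) τ' = 0 :=
  (Pts.ordAt_eq_zero_iff (mdiff_jsub c) τ').mpr (sub_ne_zero.mpr h)

/-- The bottom box consists of the multiples of `polyJ (Pab …)`. -/
theorem mem_box_tMix_iff_exists (hJ : HJ) {d : ℤ} (τa τb : ℍ) (ra rb rc : ℕ)
    (hab : jFun τa ≠ jFun τb ∨ rb = 0) (b : ↥(WHle N 0 d)) :
    b ∈ Steps.box (isValFamily_vMix N d τa τb) (tMix N τa τb ra rb rc) ↔
      ∃ b' ∈ WHle N 0 (d - ra - rb - rc), b.1 = b' * polyJ (Pab τa τb ra rb) := by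
  rw [mem_box_tMix_iff hJ]
  constructor
  · rintro ⟨h1, h2, h3⟩
    have h4 : ∀ τ', Pts.ordAt (polyJ (Pab τa τb ra rb)) τ' ≤ Pts.ordAt b.1 τ' := by
      intro τ'
      rw [ordAt_polyJ_Pab]
      rcases hab with hab | rfl
      · by_cases hc : jFun τ' = jFun τa
        · rw [ordAt_jsub_eq_zero (c := jFun τb) (by rw [hc]; exact hab), mul_zero, add_zero]
          exact h1 τ'
        · rw [ordAt_jsub_eq_zero hc, mul_zero, zero_add]
          exact h2 τ'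
      · simpa using h1 τ'
    obtain ⟨Q, hQ, hQb⟩ := Pts.exists_eq_mul_of_ordAt_le b.2.1 (polyJ_mdiff _) h4
    refine ⟨Q, ?_, hQb⟩
    refine mem_WHle_of_mul_polyJ (Pab_ne_zero τa τb ra rb) hQ (m' := d - rc) ?_ (hQb ▸ h3)
    rw [natDegree_Pab]; push_cast; ring
  · rintro ⟨b', hb', hbb'⟩
    have hP : polyJ (Pab τa τb ra rb) ∈ WHle N 0 ((ra + rb : ℕ) : ℤ) :=
      polyJ_mem_WHle N (Or.inr (by rw [natDegree_Pab]))
    have h5 : ∀ τ', Pts.ordAt (polyJ (Pab τa τb ra rb)) τ' ≤ Pts.ordAt b.1 τ' := by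
      intro τ'
      rw [hbb', Pts.ordAt_mul hb'.1 (polyJ_mdiff _)]
      exact le_add_self
    refine ⟨fun τ' => ?_, fun τ' => ?_, ?_⟩
    · refine le_trans ?_ (h5 τ')
      rw [ordAt_polyJ_Pab]; exact le_self_add
    · refine le_trans ?_ (h5 τ')
      rw [ordAt_polyJ_Pab]; exact le_add_self
    · rw [hbb']
      exact WHBasic.WHle_mul' hb' hP (by ring) (by push_cast; ring)

/-- Multiplication by `polyJ (Pab …)` as a linear map onto the bottom box. -/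
def mulPab (d : ℤ) (τa τb : ℍ) (ra rb rc : ℕ) :
    ↥(WHle N 0 (d - ra - rb - rc)) →ₗ[ℂ] ↥(WHle N 0 d) where
  toFun b' := ⟨b'.1 * polyJ (Pab τa τb ra rb), by
    have hP : polyJ (Pab τa τb ra rb) ∈ WHle N 0 ((ra + rb : ℕ) : ℤ) :=
      polyJ_mem_WHle N (Or.inr (by rw [natDegree_Pab]))
    have h1 : b'.1 * polyJ (Pab τa τb ra rb) ∈ WHle N 0 (d - rc) :=
      WHBasic.WHle_mul' b'.2 hP (by ring) (by push_cast; ring)
    exact WHle_mono N 0 (by omega) h1⟩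
  map_add' x y := by
    apply Subtype.ext
    simp only [Submodule.coe_add, add_mul]
  map_smul' c x := by
    apply Subtype.ext
    simp only [Submodule.coe_smul, RingHom.id_apply, smul_mul_assoc]

theorem mulPab_injective (d : ℤ) (τa τb : ℍ) (ra rb rc : ℕ) :
    Function.Injective (mulPab (N := N) d τa τb ra rb rc) := by
  rw [← LinearMap.ker_eq_bot, LinearMap.ker_eq_bot']
  intro x hx
  have h1 : x.1 * polyJ (Pab τa τb ra rb) = 0 := congrArg Subtype.val hx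
  apply Subtype.ext
  exact eq_zero_of_mul_eq_zero_right x.2.1 (polyJ_mdiff _) h1 (polyJ_ne_zero (Pab_ne_zero _ _ _ _))

theorem range_mulPab (hJ : HJ) (d : ℤ) (τa τb : ℍ) (ra rb rc : ℕ)
    (hab : jFun τa ≠ jFun τb ∨ rb = 0) :
    LinearMap.range (mulPab (N := N) d τa τb ra rb rc) =
      Steps.box (isValFamily_vMix N d τa τb) (tMix N τa τb ra rb rc) := by
  ext b
  rw [mem_box_tMix_iff_exists hJ τa τb ra rb rc hab, LinearMap.mem_range]
  constructor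
  · rintro ⟨b', rfl⟩
    exact ⟨b'.1, b'.2, rfl⟩
  · rintro ⟨b', hb', hbb'⟩
    exact ⟨⟨b', hb'⟩, Subtype.ext hbb'.symm⟩

theorem finrank_box_tMix (hJ : HJ) (d : ℤ) (τa τb : ℍ) (ra rb rc : ℕ)
    (hab : jFun τa ≠ jFun τb ∨ rb = 0) :
    finrank ℂ (Steps.box (isValFamily_vMix N d τa τb) (tMix N τa τb ra rb rc)) =
      finrank ℂ (WHle N 0 (d - ra - rb - rc)) := by
  rw [← range_mulPab hJ d τa τb ra rb rc hab]
  exact LinearMap.finrank_range_of_inj (mulPab_injective d τa τb ra rb rc)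

/-- The hypothesis that the dimensions grow linearly from `d₀` on. -/
def HDim (N : ℕ) [NeZero N] (d₀ χ₀ : ℤ) : Prop :=
  ∀ d : ℤ, d₀ ≤ d → (finrank ℂ (WHle N 0 d) : ℤ) = Nat.card (X N) * d + χ₀

/-- Exactness: the bottom box has the expected codimension. -/
theorem finrank_eq_box_tMix (hJ : HJ) {d₀ χ₀ : ℤ} (hdim : HDim N d₀ χ₀) (d : ℤ) (τa τb : ℍ)
    (ra rb rc : ℕ) (hab : jFun τa ≠ jFun τb ∨ rb = 0) (hd : d₀ ≤ d - ra - rb - rc) :
    finrank ℂ (WHle N 0 d) =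
      finrank ℂ (Steps.box (isValFamily_vMix N d τa τb) (tMix N τa τb ra rb rc)) +
        ∑ i, tMix N τa τb ra rb rc i := by
  rw [finrank_box_tMix hJ d τa τb ra rb rc hab, sum_tMix]
  have h1 := hdim d (by omega)
  have h2 := hdim (d - ra - rb - rc) hd
  have h3 : (finrank ℂ (WHle N 0 d) : ℤ) =
      ((finrank ℂ (WHle N 0 (d - ra - rb - rc)) + (ra + rb + rc) * Nat.card (X N) : ℕ) : ℤ) := by
    push_cast
    rw [h1, h2]; ring
  exact_mod_cast h3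

/-! ### OUTPUT 1: prescribed order at one point of a fibre -/

/-- OUTPUT 1: there are functions with a prescribed order at one point of a fibre of `j` and
high order at the other points of the fibre. -/
theorem exists_exact_point (hJ : HJ) {d₀ χ₀ : ℤ} (hdim : HDim N d₀ χ₀) (τ : ℍ) (r n₀ : ℕ)
    (hn₀ : n₀ < r * (Nat.card (StabG τ) / 2))
    (hdvd : eP (Quotient.mk'' ((1 : SL(2, ℤ)) : X N) : OrbP N τ) ∣ n₀) :
    ∃ b ∈ WH N 0, Pts.ordAt b τ = n₀ ∧ ∀ q : X N,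
      (Quotient.mk'' q : OrbP N τ) ≠ Quotient.mk'' ((1 : SL(2, ℤ)) : X N) →
      ((r * (Nat.card (StabG τ) / 2) : ℕ) : ℕ∞) ≤ Pts.ordAt (trn q b) τ := by
  obtain ⟨m, hm⟩ := hdvd
  have hm' : m < r * sP (Quotient.mk'' ((1 : SL(2, ℤ)) : X N) : OrbP N τ) := by
    have h1 := sP_mul_eP (Quotient.mk'' ((1 : SL(2, ℤ)) : X N) : OrbP N τ)
    have h2 := eP_pos (Quotient.mk'' ((1 : SL(2, ℤ)) : X N) : OrbP N τ)
    rw [← h1, hm] at hn₀
    by_contra hcon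
    have h3 := Nat.mul_le_mul_left (eP (Quotient.mk'' ((1 : SL(2, ℤ)) : X N) : OrbP N τ))
      (not_lt.mp hcon)
    nlinarith
  have ht := finrank_eq_box_tMix hJ hdim (d₀ + r) τ τ r 0 0 (Or.inr rfl) (by simp)
  have hn : Function.update (tMix N τ τ r 0 0)
      (Sum.inl (Sum.inl (Quotient.mk'' ((1 : SL(2, ℤ)) : X N) : OrbP N τ))) m ≤
      tMix N τ τ r 0 0 := by
    intro j
    by_cases hj : j = Sum.inl (Sum.inl (Quotient.mk'' ((1 : SL(2, ℤ)) : X N) : OrbP N τ))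
    · subst hj
      rw [Function.update_self]
      exact hm'.le
    · rw [Function.update_of_ne hj]
  obtain ⟨x, hx, hx0⟩ := Steps.exists_exact (isValFamily_vMix N (d₀ + r) τ τ) _ ht _ hn
    (Sum.inl (Sum.inl (Quotient.mk'' ((1 : SL(2, ℤ)) : X N) : OrbP N τ)))
    (by rw [Function.update_self]; exact hm')
  have hb : x.1 ∈ WH N 0 := WHle_le_WH N 0 _ x.2
  rw [Function.update_self] at hx0
  refine ⟨x.1, hb, ?_, fun q hq => ?_⟩
  · have h1 : Pts.ordAt (trn (repP (Quotient.mk'' ((1 : SL(2, ℤ)) : X N) : OrbP N τ)) x.1) τ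
        = ((m * eP (Quotient.mk'' ((1 : SL(2, ℤ)) : X N) : OrbP N τ) : ℕ) : ℕ∞) :=
      (vP_eq_iff hb _ m).mp hx0
    obtain ⟨h, hh, hq1⟩ := exists_smul_repP τ ((1 : SL(2, ℤ)) : X N)
    have h2 := ordAt_trn_smul hb hh (repP (Quotient.mk'' ((1 : SL(2, ℤ)) : X N) : OrbP N τ))
    rw [← hq1, ordAt_trn_mk hb τ 1, inv_one, one_smul] at h2
    rw [h2, h1, hm, mul_comm]
  · have h1 := (Steps.mem_box.mp hx) (Sum.inl (Sum.inl (Quotient.mk'' q : OrbP N τ)))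
    rw [Function.update_of_ne (by
      intro h
      exact hq (Sum.inl.inj (Sum.inl.inj h)))] at h1
    have h2 : ((r * sP (Quotient.mk'' q : OrbP N τ) : ℕ) : ℕ∞) ≤
        vP N τ (Quotient.mk'' q : OrbP N τ) x.1 := h1
    rw [le_vP_iff, mul_assoc, sP_mul_eP] at h2
    obtain ⟨h, hh, hq1⟩ := exists_smul_repP τ q
    have h3 := ordAt_trn_smul hb hh (repP (Quotient.mk'' q : OrbP N τ))
    rw [← hq1] at h3
    rw [h3]
    exact h2

/-! ### OUTPUT 2: prescribed order at one cusp -/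

/-- OUTPUT 2: there are functions with a prescribed order at one cusp and high order at the
other cusps. -/
theorem exists_exact_cusp (hJ : HJ) {d₀ χ₀ : ℤ} (hdim : HDim N d₀ χ₀) (ω₀ : OrbQ N) (r k₀ : ℕ)
    (hk₀ : k₀ < r * hQ ω₀) (d : ℤ) (hd : d₀ + r ≤ d) :
    ∃ b ∈ WHle N 0 d, vQ N d ω₀ b = k₀ ∧
      ∀ ω : OrbQ N, ω ≠ ω₀ → ((r * hQ ω : ℕ) : ℕ∞) ≤ vQ N d ω b := by
  obtain ⟨τ⟩ : Nonempty ℍ := inferInstance
  have ht := finrank_eq_box_tMix hJ hdim d τ τ 0 0 r (Or.inr rfl)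
    (by push_cast; linarith)
  have hn : Function.update (tMix N τ τ 0 0 r) (Sum.inr ω₀) k₀ ≤ tMix N τ τ 0 0 r := by
    intro j
    by_cases hj : j = Sum.inr ω₀
    · subst hj
      rw [Function.update_self]
      exact hk₀.le
    · rw [Function.update_of_ne hj]
  obtain ⟨x, hx, hx0⟩ := Steps.exists_exact (isValFamily_vMix N d τ τ) _ ht _ hn
    (Sum.inr ω₀) (by rw [Function.update_self]; exact hk₀)
  rw [Function.update_self] at hx0
  refine ⟨x.1, x.2, hx0, fun ω hω => ?_⟩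
  have h1 := (Steps.mem_box.mp hx) (Sum.inr ω)
  rw [Function.update_of_ne (by
    intro h
    exact hω (Sum.inr.inj h))] at h1
  exact h1

/-! ### OUTPUT 3: the count at the elliptic points and the cusps -/

/-- Cancelling a level one factor of weight `k` in the invariance. -/
theorem inv_of_mul_levelOne {N : ℕ} {Q G : ℍ → ℂ} {w k w' : ℤ} (hw : w + k = w')
    (hG : ∀ γ : SL(2, ℤ), G ∣[k] γ = G) (hGM : MDiff G) (hG0 : G ≠ 0) (hQ : MDiff Q)
    (h : Inv (Gamma0 N) w' (Q * G)) : Inv (Gamma0 N) w Q := by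
  subst hw
  intro γ hγ
  have h1 := h γ hγ
  rw [ModularForm.mul_slash_SL2, hG] at h1
  have h3 : (Q ∣[w] γ - Q) * G = 0 := by rw [sub_mul, h1, sub_self]
  have h4 := eq_zero_of_mul_eq_zero_right ((hQ.slash w (γ : GL (Fin 2) ℝ)).sub hQ) hGM h3 hG0
  exact sub_eq_zero.mp h4

theorem E4_slash (γ : SL(2, ℤ)) : (⇑E₄ : ℍ → ℂ) ∣[(4 : ℤ)] γ = ⇑E₄ :=
  SlashInvariantFormClass.slash_action_eq E₄ _ ⟨γ, rfl⟩

theorem E6_slash (γ : SL(2, ℤ)) : (⇑E₆ : ℍ → ℂ) ∣[(6 : ℤ)] γ = ⇑E₆ :=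
  SlashInvariantFormClass.slash_action_eq E₆ _ ⟨γ, rfl⟩

theorem E4E6_slash (γ : SL(2, ℤ)) : ((⇑E₄ : ℍ → ℂ) * ⇑E₆) ∣[(10 : ℤ)] γ = ⇑E₄ * ⇑E₆ := by
  have := ModularForm.mul_slash_SL2 4 6 γ (⇑E₄ : ℍ → ℂ) ⇑E₆
  rw [E4_slash, E6_slash] at this
  exact this

theorem E4_mdiff : MDiff (⇑E₄ : ℍ → ℂ) := E₄.holo'

theorem E6_mdiff : MDiff (⇑E₆ : ℍ → ℂ) := E₆.holo'

theorem E4E6_tendsto : Tendsto ((⇑E₄ : ℍ → ℂ) * ⇑E₆) atImInfty (𝓝 1) := by
  have := WHBasic.E4_tendsto.mul WHBasic.E6_tendsto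
  rwa [one_mul] at this

theorem E4_E6_not_both_zero (τ : ℍ) (h4 : E₄ τ = 0) (h6 : E₆ τ = 0) : False := by
  have h := ModularForm.discriminant_eq_E₄_cube_sub_E₆_sq τ
  rw [h4, h6] at h
  exact ModularForm.discriminant_ne_zero τ (by rw [h]; norm_num)

theorem E4E6_ne_zero : ((⇑E₄ : ℍ → ℂ) * ⇑E₆) ≠ 0 := by
  intro h
  have h1 : ∀ᶠ z in atImInfty, ((⇑E₄ : ℍ → ℂ) * ⇑E₆) z ≠ 0 :=
    E4E6_tendsto.eventually_ne one_ne_zero
  obtain ⟨z, hz⟩ := h1.exists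
  exact hz (by rw [h]; rfl)

theorem jFun_eq_zero_iff (τ : ℍ) : jFun τ = 0 ↔ E₄ τ = 0 := by
  unfold jFun
  rw [div_eq_zero_iff]
  constructor
  · rintro (h | h)
    · exact pow_eq_zero_iff (by norm_num) |>.mp h
    · exact absurd h (ModularForm.discriminant_ne_zero τ)
  · intro h
    left
    rw [h]; norm_num

theorem jFun_eq_1728_iff (τ : ℍ) : jFun τ = 1728 ↔ E₆ τ = 0 := by
  unfold jFun
  rw [div_eq_iff (ModularForm.discriminant_ne_zero τ),
    ModularForm.discriminant_eq_E₄_cube_sub_E₆_sq τ]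
  constructor
  · intro h
    have h1 : E₆ τ ^ 2 = 0 := by linear_combination h
    exact pow_eq_zero_iff (by norm_num) |>.mp h1
  · intro h
    rw [h]; ring

/-- The level one multiplier `E₄ E₆ / Δ` of weight `-2`. -/
def mE : ℍ → ℂ := (⇑E₄ * ⇑E₆) * dpow (-1)

theorem mE_mem_WHle (N : ℕ) : mE ∈ WHle N (-2) 1 :=
  WHBasic.WHle_mul' (WHBasic.WHle_mul (WHBasic.levelOne_mem_WHle N E₄)
    (WHBasic.levelOne_mem_WHle N E₆)) (WHBasic.dpow_mem_WHle N (-1)) (by norm_num) (by norm_num)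

variable (N) in
/-- The thresholds of the box of OUTPUT 3. -/
def nMix (τa τb : ℍ) (i : Idx N τa τb) : ℕ :=
  match i with
  | .inl (.inl _) => 1
  | .inl (.inr _) => 1
  | .inr ω => hQ ω + 1

theorem nMix_le (τa τb : ℍ) : nMix N τa τb ≤ tMix N τa τb 1 1 2 := by
  rintro ((ω | ω) | ω)
  · show 1 ≤ 1 * sP ω
    have := sP_pos ω; omega
  · show 1 ≤ 1 * sP ω
    have := sP_pos ω; omega
  · show hQ ω + 1 ≤ 2 * hQ ω
    have := hQ_pos ω; omega

theorem sum_nMix (τa τb : ℍ) : ∑ i, nMix N τa τb i =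
    Nat.card (OrbP N τa) + Nat.card (OrbP N τb) + (Nat.card (X N) + Nat.card (OrbQ N)) := by
  simp only [Fintype.sum_sum_type, nMix]
  rw [Finset.sum_add_distrib, sum_hQ]
  simp [Nat.card_eq_fintype_card]

theorem one_le_ordAt_of_eq_zero {F : ℍ → ℂ} (hF : MDiff F) {τ : ℍ} (h : F τ = 0) :
    1 ≤ Pts.ordAt F τ := by
  rw [Order.one_le_iff_ne_zero]
  intro h0
  exact (Pts.ordAt_eq_zero_iff hF τ).mp h0 h

/-- The box of OUTPUT 3 consists of the multiples `f * mE`, `f ∈ WHlt N 2 (D - 2)`. -/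
theorem mem_box_nMix_iff {D : ℤ} (τa τb : ℍ) (ha : E₄ τa = 0) (hb : E₆ τb = 0)
    (hE4 : ∀ τ : ℍ, E₄ τ = 0 → Pts.ordAt (⇑E₄ : ℍ → ℂ) τ = 1)
    (hE6 : ∀ τ : ℍ, E₆ τ = 0 → Pts.ordAt (⇑E₆ : ℍ → ℂ) τ = 1) (b : ↥(WHle N 0 D)) :
    b ∈ Steps.box (isValFamily_vMix N D τa τb) (nMix N τa τb) ↔
      ∃ f ∈ WHlt N 2 (D - 2), b.1 = f * mE := by
  have hbW : b.1 ∈ WH N 0 := WHle_le_WH N 0 D b.2
  have hja : jFun τa = 0 := (jFun_eq_zero_iff τa).mpr ha
  have hjb : jFun τb = 1728 := (jFun_eq_1728_iff τb).mpr hb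
  have hbox : b ∈ Steps.box (isValFamily_vMix N D τa τb) (nMix N τa τb) ↔
      (∀ τ' : ℍ, E₄ τ' = 0 → b.1 τ' = 0) ∧ (∀ τ' : ℍ, E₆ τ' = 0 → b.1 τ' = 0) ∧
        b.1 ∈ WHlt N 0 (D - 1) := by
    rw [Steps.mem_box, Sum.forall, Sum.forall]
    have h1 : (∀ ω : OrbP N τa, ((nMix N τa τb (Sum.inl (Sum.inl ω)) : ℕ) : ℕ∞) ≤
        vMix N D τa τb (Sum.inl (Sum.inl ω)) b) ↔ ∀ τ' : ℍ, E₄ τ' = 0 → b.1 τ' = 0 := by
      have := forall_one_le_vP_iff hbW τa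
      simp only [hja, jFun_eq_zero_iff] at this
      rw [← this]
      exact forall_congr' fun ω => by simp [nMix, vMix]
    have h2 : (∀ ω : OrbP N τb, ((nMix N τa τb (Sum.inl (Sum.inr ω)) : ℕ) : ℕ∞) ≤
        vMix N D τa τb (Sum.inl (Sum.inr ω)) b) ↔ ∀ τ' : ℍ, E₆ τ' = 0 → b.1 τ' = 0 := by
      have := forall_one_le_vP_iff hbW τb
      simp only [hjb, jFun_eq_1728_iff] at this
      rw [← this]
      exact forall_congr' fun ω => by simp [nMix, vMix]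
    have h3 : (∀ ω : OrbQ N, ((nMix N τa τb (Sum.inr ω) : ℕ) : ℕ∞) ≤
        vMix N D τa τb (Sum.inr ω) b) ↔ b.1 ∈ WHlt N 0 (D - 1) := by
      rw [← forall_succ_le_vQ_iff b.2]
      rfl
    rw [h1, h2, h3]
    exact and_assoc
  rw [hbox]
  constructor
  · rintro ⟨h1, h2, h3⟩
    have h4 : ∀ τ', Pts.ordAt ((⇑E₄ : ℍ → ℂ) * ⇑E₆) τ' ≤ Pts.ordAt b.1 τ' := by
      intro τ'
      rw [Pts.ordAt_mul E4_mdiff E6_mdiff]
      by_cases h4 : E₄ τ' = 0
      · have h6 : E₆ τ' ≠ 0 := fun h6 => E4_E6_not_both_zero τ' h4 h6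
        rw [hE4 τ' h4, (Pts.ordAt_eq_zero_iff E6_mdiff τ').mpr h6, add_zero]
        exact one_le_ordAt_of_eq_zero b.2.1 (h1 τ' h4)
      · rw [(Pts.ordAt_eq_zero_iff E4_mdiff τ').mpr h4, zero_add]
        by_cases h6 : E₆ τ' = 0
        · rw [hE6 τ' h6]
          exact one_le_ordAt_of_eq_zero b.2.1 (h2 τ' h6)
        · rw [(Pts.ordAt_eq_zero_iff E6_mdiff τ').mpr h6]
          exact bot_le
    obtain ⟨Q, hQ, hQb⟩ := Pts.exists_eq_mul_of_ordAt_le b.2.1 (E4_mdiff.mul E6_mdiff) h4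
    have hQinv : Inv (Gamma0 N) (-10) Q :=
      inv_of_mul_levelOne (k := 10) (w' := 0) (by norm_num) E4E6_slash (E4_mdiff.mul E6_mdiff)
        E4E6_ne_zero hQ (hQb ▸ b.2.2.1)
    refine ⟨Q * dpow 1, ⟨hQ.mul (dpow_mdiff 1), ?_, fun γ => ?_⟩, ?_⟩
    · exact Inv.mul hQinv (fun γ _ => dpow_slash 1 γ) (by norm_num)
    · have h5 := h3.2.2 γ
      have h6 : b.1 ∣[(0 : ℤ)] γ = (Q ∣[(-10 : ℤ)] γ) * ((⇑E₄ : ℍ → ℂ) * ⇑E₆) := by
        have := ModularForm.mul_slash_SL2 (-10) 10 γ Q ((⇑E₄ : ℍ → ℂ) * ⇑E₆)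
        rw [E4E6_slash] at this
        rw [hQb]
        exact this
      have h7 : (Q * dpow 1) ∣[(2 : ℤ)] γ = (Q ∣[(-10 : ℤ)] γ) * dpow 1 := by
        have := ModularForm.mul_slash_SL2 (-10) (12 * 1) γ Q (dpow 1)
        rw [dpow_slash] at this
        exact this
      rw [h7]
      refine WHBasic.zero_of_mul_zero E4E6_tendsto ?_
      have h8 : ((⇑E₄ : ℍ → ℂ) * ⇑E₆) * ((Q ∣[(-10 : ℤ)] γ) * dpow 1 * dpow (D - 2)) =
          (b.1 ∣[(0 : ℤ)] γ) * dpow (D - 1) := by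
        rw [h6, mul_assoc (Q ∣[(-10 : ℤ)] γ) (dpow 1), ← dpow_add,
          show (1 : ℤ) + (D - 2) = D - 1 by ring]
        ring
      rw [h8]
      exact h5
    · rw [hQb, mE]
      have h9 : dpow 1 * dpow (-1) = 1 := dpow_mul_neg 1
      calc Q * ((⇑E₄ : ℍ → ℂ) * ⇑E₆) = Q * ((⇑E₄ : ℍ → ℂ) * ⇑E₆) * (dpow 1 * dpow (-1)) := by
            rw [h9, mul_one]
        _ = Q * dpow 1 * ((⇑E₄ : ℍ → ℂ) * ⇑E₆ * dpow (-1)) := by ring
  · rintro ⟨f, hf, hbf⟩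
    refine ⟨fun τ' h4 => ?_, fun τ' h6 => ?_, ?_⟩
    · rw [hbf]
      simp [mE, h4]
    · rw [hbf]
      simp [mE, h6]
    · rw [hbf]
      exact WHBasic.WHlt_mul_WHle' hf (mE_mem_WHle N) (by norm_num) (by ring)

theorem mE_ne_zero : mE ≠ 0 := by
  intro h
  apply E4E6_ne_zero
  have h1 : ((⇑E₄ : ℍ → ℂ) * ⇑E₆) = mE * dpow 1 := by
    rw [mE, mul_assoc, dpow_neg_mul, mul_one]
  rw [h1, h, zero_mul]

theorem mE_mdiff : MDiff mE := (mE_mem_WHle 1).1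

/-- Multiplication by `mE` as a linear map onto the box of OUTPUT 3. -/
def mulE (D : ℤ) : ↥(WHlt N 2 (D - 2)) →ₗ[ℂ] ↥(WHle N 0 D) where
  toFun f := ⟨f.1 * mE, by
    have h1 : f.1 * mE ∈ WHlt N 0 (D - 1) :=
      WHBasic.WHlt_mul_WHle' f.2 (mE_mem_WHle N) (by norm_num) (by ring)
    exact WHle_mono N 0 (by omega) (WHlt_le_WHle N 0 _ h1)⟩
  map_add' x y := by
    apply Subtype.ext
    simp only [Submodule.coe_add, add_mul]
  map_smul' c x := by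
    apply Subtype.ext
    simp only [Submodule.coe_smul, RingHom.id_apply, smul_mul_assoc]

theorem mulE_injective (D : ℤ) : Function.Injective (mulE (N := N) D) := by
  rw [← LinearMap.ker_eq_bot, LinearMap.ker_eq_bot']
  intro x hx
  have h1 : x.1 * mE = 0 := congrArg Subtype.val hx
  apply Subtype.ext
  exact eq_zero_of_mul_eq_zero_right x.2.1 mE_mdiff h1 mE_ne_zero

/-- OUTPUT 3: the count of steps at the points over `j = 0`, `j = 1728` and the cusps. -/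
theorem finrank_WHle_eq_add (hJ : HJ) {d₀ χ₀ : ℤ} (hdim : HDim N d₀ χ₀) (τa τb : ℍ)
    (ha : E₄ τa = 0) (hb : E₆ τb = 0)
    (hE4 : ∀ τ : ℍ, E₄ τ = 0 → Pts.ordAt (⇑E₄ : ℍ → ℂ) τ = 1)
    (hE6 : ∀ τ : ℍ, E₆ τ = 0 → Pts.ordAt (⇑E₆ : ℍ → ℂ) τ = 1) (D : ℤ) (hD : d₀ + 4 ≤ D) :
    finrank ℂ (WHle N 0 D) = finrank ℂ (WHlt N 2 (D - 2)) +
      (Nat.card (OrbP N τa) + Nat.card (OrbP N τb) + (Nat.card (X N) + Nat.card (OrbQ N))) := by
  have hab : jFun τa ≠ jFun τb := by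
    rw [(jFun_eq_zero_iff τa).mpr ha, (jFun_eq_1728_iff τb).mpr hb]
    norm_num
  have ht := finrank_eq_box_tMix hJ hdim D τa τb 1 1 2 (Or.inl hab) (by push_cast; linarith)
  have h1 := Steps.finrank_eq (isValFamily_vMix N D τa τb) _ ht _ (nMix_le τa τb)
  rw [sum_nMix] at h1
  rw [h1]
  congr 1
  have hrange : LinearMap.range (mulE (N := N) D) =
      Steps.box (isValFamily_vMix N D τa τb) (nMix N τa τb) := by
    ext b
    rw [mem_box_nMix_iff τa τb ha hb hE4 hE6, LinearMap.mem_range]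
    constructor
    · rintro ⟨f, rfl⟩
      exact ⟨f.1, f.2, rfl⟩
    · rintro ⟨f, hf, hbf⟩
      exact ⟨⟨f, hf⟩, Subtype.ext hbf.symm⟩
  rw [← hrange]
  exact LinearMap.finrank_range_of_inj (mulE_injective D)

end Mixed

end Fermat.Agent.GenusLib.LS
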