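import Mathlib
import Fermat.Prelude.Def_ModularCurve_GenusNumerics
import Fermat.Agent.GenusLib.Cosets

/-!
# The number of orbits of `T` on `SL(2, ℤ) ⧸ Γ₀(N)` is `cuspCount N`

Every point of `P¹(ℤ/N)` has the normal form `(x : d)` with `d ∣ N`; the orbit of `(x : d)` under
`T : (x : y) ↦ (x + y : y)` is classified by `d` and the class of `x` modulo `gcd d (N / d)`, which
is a unit there.  Hence the number of orbits is `∑ d ∣ N, φ (gcd d (N / d))`.
-/

set_option autoImplicit false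

namespace Fermat.Agent.GenusLib.CuspCount

open scoped MatrixGroups
open CongruenceSubgroup Fermat.Agent.GenusLib.Cosets

theorem isUni_add_mul {R : Type*} [CommRing R] {x y : R} (h : IsUni x y) (c : R) :
    IsUni (x + c * y) y := by
  obtain ⟨a, b, hab⟩ := h
  exact ⟨a, b - a * c, by linear_combination hab⟩

section

variable (N : ℕ)

/-- `T ^ k` acts by `(x : y) ↦ (x + k y : y)`. -/
theorem T_zpow_smul_mk (k : ℤ) (x y : ZMod N) (h : IsUni x y) :
    (ModularGroup.T ^ k) • P1.mk x y h = P1.mk (x + (k : ZMod N) * y) y (isUni_add_mul h _) := by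
  rw [smulZ_mk]
  exact (P1.mk_eq_mk_iff _ _).mpr (by simp [ModularGroup.coe_T_zpow]; ring)

variable {N} [NeZero N]

/-- The kernel of the reduction `ℤ/N → ℤ/m`. -/
theorem castHom_eq_zero_iff {m : ℕ} (hm : m ∣ N) (z : ZMod N) :
    ZMod.castHom hm (ZMod m) z = 0 ↔ m ∣ z.val := by
  conv_lhs => rw [← ZMod.natCast_zmod_val z]
  rw [map_natCast, ZMod.natCast_eq_zero_iff]

theorem natCast_mul_eq_zero_iff {d e : ℕ} (hde : d * e = N) (z : ZMod N) :
    (d : ZMod N) * z = 0 ↔ e ∣ z.val := by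
  have hd : 0 < d := by
    rcases Nat.eq_zero_or_pos d with h | h
    · subst h
      rw [zero_mul] at hde
      exact absurd hde.symm (NeZero.ne N)
    · exact h
  conv_lhs => rw [← ZMod.natCast_zmod_val z]
  rw [← Nat.cast_mul, ZMod.natCast_eq_zero_iff]
  have h1 : N ∣ d * z.val ↔ d * e ∣ d * z.val := by rw [hde]
  rw [h1]
  exact Nat.mul_dvd_mul_iff_left hd

/-- If `d z = 0` in `ℤ/N`, then `z` vanishes modulo every divisor of `N / d`. -/
theorem castHom_eq_zero_of_mul {d e m : ℕ} (hde : d * e = N) (hm : m ∣ e) (z : ZMod N)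
    (hz : (d : ZMod N) * z = 0) :
    ZMod.castHom (hm.trans (Dvd.intro_left d hde)) (ZMod m) z = 0 := by
  rw [castHom_eq_zero_iff]
  exact hm.trans ((natCast_mul_eq_zero_iff hde z).mp hz)

theorem exists_eq_mul_of_castHom_eq_zero {m : ℕ} (hm : m ∣ N) (z : ZMod N)
    (hz : ZMod.castHom hm (ZMod m) z = 0) : ∃ t : ZMod N, z = (m : ZMod N) * t := by
  rw [castHom_eq_zero_iff] at hz
  obtain ⟨t, ht⟩ := hz
  refine ⟨(t : ZMod N), ?_⟩
  rw [← Nat.cast_mul, ← ht, ZMod.natCast_zmod_val]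

omit [NeZero N] in
/-- A unimodular pair whose second entry dies modulo `m` has first entry a unit modulo `m`. -/
theorem isUnit_castHom_of_isUni {m : ℕ} (hm : m ∣ N) {x y : ZMod N} (h : IsUni x y)
    (hy : ZMod.castHom hm (ZMod m) y = 0) : IsUnit (ZMod.castHom hm (ZMod m) x) := by
  obtain ⟨a, b, hab⟩ := h
  have h1 := congrArg (ZMod.castHom hm (ZMod m)) hab
  rw [map_add, map_mul, map_mul, hy, mul_zero, add_zero, map_one] at h1
  exact IsUnit.of_mul_eq_one _ (by rw [mul_comm]; exact h1)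

/-- Every element of `ℤ/N` is a unit times a divisor of `N`. -/
theorem exists_unit_mul_divisor (y : ZMod N) :
    ∃ d : ℕ, d ∣ N ∧ ∃ u : (ZMod N)ˣ, y = (u : ZMod N) * (d : ZMod N) := by
  have hN : 0 < N := Nat.pos_of_ne_zero (NeZero.ne N)
  have hd0 : 0 < Nat.gcd y.val N := Nat.gcd_pos_of_pos_right _ hN
  have hdN : Nat.gcd y.val N ∣ N := Nat.gcd_dvd_right _ _
  have hde : Nat.gcd y.val N * (N / Nat.gcd y.val N) = N := Nat.mul_div_cancel' hdN
  have hcop : Nat.Coprime (y.val / Nat.gcd y.val N) (N / Nat.gcd y.val N) :=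
    Nat.coprime_div_gcd_div_gcd hd0
  have heN : N / Nat.gcd y.val N ∣ N := Dvd.intro_left _ hde
  obtain ⟨u, hu⟩ := ZMod.unitsMap_surjective heN (ZMod.unitOfCoprime _ hcop)
  refine ⟨Nat.gcd y.val N, hdN, u, ?_⟩
  have h1 : ZMod.castHom heN (ZMod (N / Nat.gcd y.val N))
      ((u : ZMod N) - ((y.val / Nat.gcd y.val N : ℕ) : ZMod N)) = 0 := by
    have h2 := congrArg Units.val hu
    rw [ZMod.unitsMap_def, Units.coe_map, ZMod.coe_unitOfCoprime] at h2
    rw [map_sub, map_natCast]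
    exact sub_eq_zero.mpr h2
  rw [castHom_eq_zero_iff, ← natCast_mul_eq_zero_iff hde, mul_sub, sub_eq_zero] at h1
  rw [mul_comm, h1, ← Nat.cast_mul, Nat.mul_div_cancel' (Nat.gcd_dvd_left _ _),
    ZMod.natCast_zmod_val]

/-- Normal form of the points of `P¹(ℤ/N)`. -/
theorem exists_normal_form (q : P1 (ZMod N)) :
    ∃ d : ℕ, d ∣ N ∧ ∃ (x : ZMod N) (h : IsUni x (d : ZMod N)), q = P1.mk x d h := by
  obtain ⟨x₀, y₀, h₀, rfl⟩ := P1.exists_rep q
  obtain ⟨d, hd, u, hu⟩ := exists_unit_mul_divisor y₀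
  obtain ⟨a, b, hab⟩ := h₀
  have hx : IsUni ((u⁻¹ : (ZMod N)ˣ) * x₀) (d : ZMod N) := by
    refine ⟨a * u, b * u, ?_⟩
    have h1 : (u : ZMod N) * (u⁻¹ : (ZMod N)ˣ) = 1 := Units.mul_inv u
    linear_combination hab - b * hu + a * x₀ * h1
  refine ⟨d, hd, (u⁻¹ : (ZMod N)ˣ) * x₀, hx, ?_⟩
  refine (P1.mk_eq_mk_iff _ _).mpr ?_
  have h1 : (u : ZMod N) * (u⁻¹ : (ZMod N)ˣ) = 1 := Units.mul_inv u
  linear_combination (-((u⁻¹ : (ZMod N)ˣ) * x₀)) * hu + (-(x₀ * d)) * h1

omit [NeZero N] in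
/-- The second coordinate `d ∣ N` of a normal form is an invariant of the `T`-orbit. -/
theorem divisor_eq_of_orbit {d d' : ℕ} (hd : d ∣ N) (hd' : d' ∣ N) {x x' : ZMod N}
    (h : IsUni x (d : ZMod N)) (h' : IsUni x' (d' : ZMod N)) (k : ℤ)
    (hk : (ModularGroup.T ^ k) • P1.mk x d h = P1.mk x' d' h') : d = d' := by
  rw [T_zpow_smul_mk] at hk
  have hc := (P1.mk_eq_mk_iff _ _).mp hk
  apply Nat.dvd_antisymm
  · have hu := isUnit_castHom_of_isUni hd (isUni_add_mul h (k : ZMod N))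
      (by rw [map_natCast, ZMod.natCast_self])
    have h1 := congrArg (ZMod.castHom hd (ZMod d)) hc
    rw [map_mul, map_mul, map_natCast, map_natCast, ZMod.natCast_self, zero_mul] at h1
    exact (ZMod.natCast_eq_zero_iff _ _).mp (hu.mul_right_eq_zero.mp h1)
  · have hu := isUnit_castHom_of_isUni hd' h' (by rw [map_natCast, ZMod.natCast_self])
    have h1 := congrArg (ZMod.castHom hd' (ZMod d')) hc
    rw [map_mul, map_mul, map_natCast, map_natCast, ZMod.natCast_self, mul_zero] at h1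
    exact (ZMod.natCast_eq_zero_iff _ _).mp (hu.mul_left_eq_zero.mp h1.symm)

omit [NeZero N] in
theorem gcd_dvd_level {d : ℕ} (hd : d ∣ N) : Nat.gcd d (N / d) ∣ N :=
  (Nat.gcd_dvd_left _ _).trans hd

/-- Two normal forms `(x : d)`, `(x' : d)` are in the same `T`-orbit iff `x ≡ x'` modulo
`gcd d (N / d)`. -/
theorem orbit_iff {d : ℕ} (hd : d ∣ N) {x x' : ZMod N}
    (h : IsUni x (d : ZMod N)) (h' : IsUni x' (d : ZMod N)) :
    (∃ k : ℤ, (ModularGroup.T ^ k) • P1.mk x d h = P1.mk x' d h') ↔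
      ZMod.castHom (gcd_dvd_level hd) (ZMod (Nat.gcd d (N / d))) x =
        ZMod.castHom (gcd_dvd_level hd) (ZMod (Nat.gcd d (N / d))) x' := by
  have hde : d * (N / d) = N := Nat.mul_div_cancel' hd
  constructor
  · rintro ⟨k, hk⟩
    rw [T_zpow_smul_mk] at hk
    have hc := (P1.mk_eq_mk_iff _ _).mp hk
    have hz : (d : ZMod N) * (x + (k : ZMod N) * d - x') = 0 := by linear_combination hc
    have h1 := castHom_eq_zero_of_mul hde (Nat.gcd_dvd_right d (N / d)) _ hz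
    rw [map_sub, map_add, map_mul, map_natCast,
      (ZMod.natCast_eq_zero_iff d _).mpr (Nat.gcd_dvd_left d (N / d)), mul_zero, add_zero,
      sub_eq_zero] at h1
    exact h1
  · intro hcast
    have hz : ZMod.castHom (gcd_dvd_level hd) (ZMod (Nat.gcd d (N / d))) (x' - x) = 0 := by
      rw [map_sub, hcast, sub_self]
    obtain ⟨t, ht⟩ := exists_eq_mul_of_castHom_eq_zero _ _ hz
    have hbez : ((Nat.gcd d (N / d) : ℕ) : ZMod N) =
        (d : ZMod N) * ((Nat.gcdA d (N / d) : ℤ) : ZMod N) +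
          ((N / d : ℕ) : ZMod N) * ((Nat.gcdB d (N / d) : ℤ) : ZMod N) := by
      have h1 := congrArg (Int.cast : ℤ → ZMod N) (Nat.gcd_eq_gcd_ab d (N / d))
      simpa only [Int.cast_add, Int.cast_mul, Int.cast_natCast] using h1
    have hde' : (d : ZMod N) * ((N / d : ℕ) : ZMod N) = 0 := by
      rw [← Nat.cast_mul, hde, ZMod.natCast_self]
    obtain ⟨k, hk⟩ := ZMod.intCast_surjective (((Nat.gcdA d (N / d) : ℤ) : ZMod N) * t)
    refine ⟨k, ?_⟩
    rw [T_zpow_smul_mk]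
    refine (P1.mk_eq_mk_iff _ _).mpr ?_
    linear_combination ((d : ZMod N) ^ 2) * hk + (-(d : ZMod N)) * ht +
      (-(d : ZMod N) * t) * hbez + (-((Nat.gcdB d (N / d) : ℤ) : ZMod N) * t) * hde'

theorem isUni_of_unit {R : Type*} [CommRing R] (u : Rˣ) (y : R) : IsUni (u : R) y :=
  ⟨((u⁻¹ : Rˣ) : R), 0, by rw [zero_mul, add_zero]; exact Units.inv_mul u⟩

/-- The orbit relation of `⟨T⟩` in terms of powers of `T`. -/
theorem orbitRel_iff {α : Type*} [MulAction SL(2, ℤ) α] (a b : α) :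
    MulAction.orbitRel (Subgroup.zpowers ModularGroup.T) α a b ↔
      ∃ k : ℤ, (ModularGroup.T ^ k) • b = a := by
  rw [MulAction.orbitRel_apply, MulAction.mem_orbit_iff]
  constructor
  · rintro ⟨⟨g, hg⟩, rfl⟩
    obtain ⟨k, rfl⟩ := Subgroup.mem_zpowers_iff.mp hg
    exact ⟨k, rfl⟩
  · rintro ⟨k, rfl⟩
    exact ⟨⟨ModularGroup.T ^ k, Subgroup.zpow_mem_zpowers _ k⟩, rfl⟩

/-- The chosen lift of a unit modulo `gcd d (N / d)` to a unit modulo `N`. -/
noncomputable def liftUnit {d : ℕ} (hd : d ∣ N) (r : (ZMod (Nat.gcd d (N / d)))ˣ) : (ZMod N)ˣ :=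
  Classical.choose (ZMod.unitsMap_surjective (gcd_dvd_level hd) r)

theorem castHom_liftUnit {d : ℕ} (hd : d ∣ N) (r : (ZMod (Nat.gcd d (N / d)))ˣ) :
    ZMod.castHom (gcd_dvd_level hd) (ZMod (Nat.gcd d (N / d))) (liftUnit hd r : ZMod N) = r := by
  have h1 := Classical.choose_spec (ZMod.unitsMap_surjective (gcd_dvd_level hd) r)
  exact congrArg Units.val h1

/-- The parametrisation of the `T`-orbits on `P¹(ℤ/N)`. -/
noncomputable def orbitMap (p : Σ a : N.divisors, (ZMod (Nat.gcd (a : ℕ) (N / (a : ℕ))))ˣ) :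
    MulAction.orbitRel.Quotient (Subgroup.zpowers ModularGroup.T) (P1 (ZMod N)) :=
  Quotient.mk _ (P1.mk (liftUnit (Nat.dvd_of_mem_divisors p.1.2) p.2 : ZMod N)
    ((p.1 : ℕ) : ZMod N) (isUni_of_unit _ _))

theorem orbitMap_injective : Function.Injective (orbitMap (N := N)) := by
  rintro ⟨⟨d, hd⟩, r⟩ ⟨⟨d', hd'⟩, r'⟩ h
  have h1 := Quotient.exact h
  obtain ⟨k, hk⟩ := (orbitRel_iff _ _).mp h1
  have hdd : d' = d := divisor_eq_of_orbit (Nat.dvd_of_mem_divisors hd')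
    (Nat.dvd_of_mem_divisors hd) _ _ k hk
  subst hdd
  have h2 := (orbit_iff (Nat.dvd_of_mem_divisors hd) _ _).mp ⟨k, hk⟩
  rw [castHom_liftUnit, castHom_liftUnit] at h2
  have h3 : r = r' := (Units.ext h2).symm
  subst h3
  rfl

theorem orbitMap_surjective : Function.Surjective (orbitMap (N := N)) := by
  intro Q
  induction Q using Quotient.inductionOn with
  | _ q =>
    obtain ⟨d, hd, x, hx, rfl⟩ := exists_normal_form q
    have hmem : d ∈ N.divisors := Nat.mem_divisors.mpr ⟨hd, NeZero.ne N⟩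
    have hu : IsUnit (ZMod.castHom (gcd_dvd_level hd) (ZMod (Nat.gcd d (N / d))) x) :=
      isUnit_castHom_of_isUni _ hx
        (by rw [map_natCast]; exact (ZMod.natCast_eq_zero_iff _ _).mpr (Nat.gcd_dvd_left _ _))
    refine ⟨⟨⟨d, hmem⟩, hu.unit⟩, ?_⟩
    apply Quotient.sound
    refine (orbitRel_iff _ _).mpr ?_
    refine (orbit_iff hd _ _).mpr ?_
    rw [castHom_liftUnit]
    rfl

/-- The number of `T`-orbits on `P¹(ℤ/N)`. -/
theorem card_orbits_P1 :
    Nat.card (MulAction.orbitRel.Quotient (Subgroup.zpowers ModularGroup.T) (P1 (ZMod N))) =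
      ModularCurve.cuspCount N := by
  have hne : ∀ a : N.divisors, NeZero (Nat.gcd (a : ℕ) (N / (a : ℕ))) := fun a =>
    ⟨Nat.gcd_ne_zero_left (Nat.pos_of_mem_divisors a.2).ne'⟩
  rw [← Nat.card_congr (Equiv.ofBijective _
    ⟨orbitMap_injective (N := N), orbitMap_surjective⟩), Nat.card_sigma]
  rw [ModularCurve.cuspCount,
    ← Finset.sum_coe_sort N.divisors (fun d => Nat.totient (Nat.gcd d (N / d)))]
  refine Finset.sum_congr rfl fun a _ => ?_
  rw [Nat.card_eq_fintype_card, ZMod.card_units_eq_totient]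

end

/-- **Cusp count**: the number of orbits of `⟨T⟩` on `SL(2, ℤ) ⧸ Γ₀(N)` is `cuspCount N`. -/
theorem card_orbits_T (N : ℕ) [NeZero N] :
    Nat.card (MulAction.orbitRel.Quotient (Subgroup.zpowers ModularGroup.T)
      (SL(2, ℤ) ⧸ CongruenceSubgroup.Gamma0 N)) = ModularCurve.cuspCount N := by
  rw [← card_orbits_P1 (N := N)]
  refine Nat.card_congr (Quotient.congr (cosetEquiv N) ?_)
  intro a b
  refine Iff.trans (orbitRel_iff a b) (Iff.trans ?_ (orbitRel_iff _ _).symm)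
  constructor
  · rintro ⟨k, rfl⟩
    exact ⟨k, (cosetEquiv_smul N _ b).symm⟩
  · rintro ⟨k, hk⟩
    refine ⟨k, (cosetEquiv N).injective ?_⟩
    rw [cosetEquiv_smul]
    exact hk

end Fermat.Agent.GenusLib.CuspCount
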