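import Mathlib
import Fermat.Agent.GenusLib.LSDefs
import Fermat.Agent.GenusLib.Orb
import Fermat.Agent.GenusLib.CosetCount
import Fermat.Agent.GenusLib.CuspCount

/-!
# PROJECT X (S20), step LS: counting the orbits on `X N = SL(2, ℤ) ⧸ Γ₀(N)`

* `card_OrbQ` : the number of `⟨T⟩`-orbits (cusps) is `cuspCount N`;
* `two_mul_card_OrbP_of_mem` : if the stabiliser of `τ` has `4` elements and contains a conjugate
  of `S`, then `2 * #(orbits of the stabiliser) = |X| + ν₂`;
* `three_mul_card_OrbP_of_mem` : if the stabiliser of `τ` has `6` elements and contains a conjugate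
  of `S * T`, then `3 * #(orbits of the stabiliser) = |X| + 2 ν₃`.

The last two are Burnside's lemma for a cyclic group.
-/

set_option autoImplicit false
set_option linter.unusedSectionVars false

noncomputable section

namespace Fermat.Agent.GenusLib.LS

open UpperHalfPlane hiding I
open scoped MatrixGroups ModularForm
open CongruenceSubgroup

section OrbCount
variable {N : ℕ} [NeZero N]

/-- The number of cusps of `Γ₀(N)`. -/
theorem card_OrbQ : Nat.card (OrbQ N) = ModularCurve.cuspCount N :=
  CuspCount.card_orbits_T N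

/-- `-g` acts on `X N` like `g`. -/
theorem neg_smul_X (g : SL(2, ℤ)) (q : X N) : (-g) • q = g • q := by
  have : -g = (-1 : SL(2, ℤ)) * g := by simp
  rw [this, mul_smul, neg_one_smul_X]

/-- Burnside's lemma for the cyclic group generated by an element of finite order acting on
`X N`. -/
theorem burnside_zpowers (a : SL(2, ℤ)) (n : ℕ) (hn0 : 0 < n) (hn : orderOf a = n) :
    ∑ i ∈ Finset.range n, Nat.card {q : X N // a ^ i • q = q}
      = Nat.card (MulAction.orbitRel.Quotient (Subgroup.zpowers a) (X N)) * n := by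
  classical
  have hfin : IsOfFinOrder a := orderOf_pos_iff.mp (hn ▸ hn0)
  have : Finite (Subgroup.zpowers a) := Finite.of_equiv _ (finEquivZPowers hfin)
  let _ : Fintype (Subgroup.zpowers a) := Fintype.ofFinite _
  let _ : Fintype (MulAction.orbitRel.Quotient (Subgroup.zpowers a) (X N)) := Fintype.ofFinite _
  have hB := MulAction.sum_card_fixedBy_eq_card_orbits_mul_card_group (Subgroup.zpowers a) (X N)
  rw [Fintype.card_eq_nat_card (α := Subgroup.zpowers a), Nat.card_zpowers, hn] at hB
  rw [Nat.card_eq_fintype_card]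
  refine Eq.trans ?_ hB
  subst hn
  rw [← Fin.sum_univ_eq_sum_range (fun i => Nat.card {q : X N // a ^ i • q = q}) (orderOf a)]
  refine Fintype.sum_equiv (finEquivZPowers hfin) _ _ (fun i => ?_)
  rw [Fintype.card_eq_nat_card]
  refine Nat.card_congr (Equiv.subtypeEquivRight (fun q => ?_))
  rw [MulAction.mem_fixedBy, finEquivZPowers_apply]
  rfl

/-- Conjugate elements have the same number of fixed points. -/
theorem card_fixed_conj (γ a : SL(2, ℤ)) :
    Nat.card {q : X N // (γ * a * γ⁻¹) • q = q} = Nat.card {q : X N // a • q = q} := by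
  refine Nat.card_congr (Equiv.subtypeEquiv (MulAction.toPerm γ⁻¹) (fun q => ?_))
  rw [MulAction.toPerm_apply, mul_smul, mul_smul, smul_eq_iff_eq_inv_smul]

theorem card_fixed_one : Nat.card {q : X N // (1 : SL(2, ℤ)) • q = q} = Nat.card (X N) :=
  Nat.card_congr (Equiv.subtypeUnivEquiv (fun q => one_smul _ q))

theorem card_fixed_neg_one : Nat.card {q : X N // (-1 : SL(2, ℤ)) • q = q} = Nat.card (X N) :=
  Nat.card_congr (Equiv.subtypeUnivEquiv (fun q => neg_one_smul_X q))

theorem card_fixed_neg (g : SL(2, ℤ)) :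
    Nat.card {q : X N // (-g) • q = q} = Nat.card {q : X N // g • q = q} :=
  Nat.card_congr (Equiv.subtypeEquivRight (fun q => by rw [neg_smul_X]))

theorem card_orbits_congr {H K : Subgroup SL(2, ℤ)} (h : H = K) :
    Nat.card (MulAction.orbitRel.Quotient H (X N))
      = Nat.card (MulAction.orbitRel.Quotient K (X N)) := by
  subst h; rfl

/-- A subgroup with `n` elements containing an element of order `n` is generated by it. -/
theorem eq_zpowers_of_card {H : Subgroup SL(2, ℤ)} {a : SL(2, ℤ)} {n : ℕ} (hn0 : 0 < n)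
    (ha : a ∈ H) (hord : orderOf a = n) (hcard : Nat.card H = n) : H = Subgroup.zpowers a := by
  have : Finite H := Nat.finite_of_card_ne_zero (by omega)
  refine (Subgroup.eq_of_le_of_card_ge ((Subgroup.zpowers_le).mpr ha) ?_).symm
  rw [Nat.card_zpowers, hord, hcard]

/-! ### The elements `S` and `S * T` -/

theorem S_sq : ModularGroup.S ^ 2 = (-1 : SL(2, ℤ)) := by
  ext i j
  fin_cases i <;> fin_cases j <;> simp [ModularGroup.S, pow_two, Matrix.mul_apply, Fin.sum_univ_two]

theorem ST_sq_coe : ((ModularGroup.S * ModularGroup.T) ^ 2 : SL(2, ℤ)).1 = !![-1, -1; 1, 0] := by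
  ext i j
  fin_cases i <;> fin_cases j <;>
    simp [ModularGroup.S, ModularGroup.T, pow_two, Matrix.mul_apply, Fin.sum_univ_two]

theorem ST_cube : (ModularGroup.S * ModularGroup.T) ^ 3 = (-1 : SL(2, ℤ)) := by
  ext i j
  fin_cases i <;> fin_cases j <;>
    simp [ModularGroup.S, ModularGroup.T, pow_succ, Matrix.mul_apply, Fin.sum_univ_two]

theorem neg_one_ne_one_SL : (-1 : SL(2, ℤ)) ≠ 1 := by
  intro h
  have := congrArg (fun g : SL(2, ℤ) => g.1 0 0) h
  simp at this

theorem orderOf_S : orderOf ModularGroup.S = 4 := by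
  have h4 : ModularGroup.S ^ 4 = 1 := by
    have : ModularGroup.S ^ 4 = (ModularGroup.S ^ 2) ^ 2 := by rw [← pow_mul]
    rw [this, S_sq]; simp
  refine orderOf_eq_of_pow_and_pow_div_prime (by norm_num) h4 (fun p hp hdvd => ?_)
  have hp2 : p = 2 := by
    have : p ∣ 2 ^ 2 := by norm_num; exact hdvd
    exact (Nat.prime_dvd_prime_iff_eq hp Nat.prime_two).mp (hp.dvd_of_dvd_pow this)
  subst hp2
  rw [show (4 / 2 : ℕ) = 2 from rfl, S_sq]
  exact neg_one_ne_one_SL

theorem orderOf_ST : orderOf (ModularGroup.S * ModularGroup.T) = 6 := by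
  have h6 : (ModularGroup.S * ModularGroup.T) ^ 6 = 1 := by
    have : (ModularGroup.S * ModularGroup.T) ^ 6 = ((ModularGroup.S * ModularGroup.T) ^ 3) ^ 2 := by
      rw [← pow_mul]
    rw [this, ST_cube]; simp
  refine orderOf_eq_of_pow_and_pow_div_prime (by norm_num) h6 (fun p hp hdvd => ?_)
  have hp23 : p = 2 ∨ p = 3 := by
    have : p ∣ 2 * 3 := by norm_num; exact hdvd
    rcases (Nat.Prime.dvd_mul hp).mp this with h | h
    · exact Or.inl ((Nat.prime_dvd_prime_iff_eq hp Nat.prime_two).mp h)
    · exact Or.inr ((Nat.prime_dvd_prime_iff_eq hp Nat.prime_three).mp h)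
  rcases hp23 with rfl | rfl
  · rw [show (6 / 2 : ℕ) = 3 from rfl, ST_cube]
    exact neg_one_ne_one_SL
  · rw [show (6 / 3 : ℕ) = 2 from rfl]
    intro h
    have := congrArg (fun g : SL(2, ℤ) => g.1 1 1) h
    rw [ST_sq_coe] at this
    simp at this

theorem orderOf_conj_SL (γ a : SL(2, ℤ)) : orderOf (γ * a * γ⁻¹) = orderOf a := by
  have := MulEquiv.orderOf_eq (MulAut.conj γ) a
  rwa [MulAut.conj_apply] at this

/-- Fixed points of `(S T)²` are the fixed points of `S T`. -/
theorem card_fixed_ST_sq :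
    Nat.card {q : X N // (ModularGroup.S * ModularGroup.T) ^ 2 • q = q}
      = Nat.card {q : X N // (ModularGroup.S * ModularGroup.T) • q = q} := by
  refine Nat.card_congr (Equiv.subtypeEquivRight (fun q => ?_))
  constructor
  · intro h
    have h4 : (ModularGroup.S * ModularGroup.T) ^ 4 • q = q := by
      rw [show (4 : ℕ) = 2 + 2 from rfl, pow_add, mul_smul, h, h]
    rw [show (4 : ℕ) = 1 + 3 from rfl, pow_add, mul_smul, ST_cube, neg_one_smul_X, pow_one] at h4
    exact h4
  · intro h
    rw [pow_two, mul_smul, h, h]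

/-! ### Orbit counts -/

/-- **Burnside at an elliptic point of order 2.** -/
theorem two_mul_card_OrbP_of_mem (τ : ℍ) (γ : SL(2, ℤ))
    (hmem : γ * ModularGroup.S * γ⁻¹ ∈ StabG τ) (hcard : Nat.card (StabG τ) = 4) :
    2 * Nat.card (OrbP N τ) = Nat.card (X N) + ModularCurve.nuTwo N := by
  have hord : orderOf (γ * ModularGroup.S * γ⁻¹) = 4 := by rw [orderOf_conj_SL, orderOf_S]
  have hH := eq_zpowers_of_card (by norm_num) hmem hord hcard
  have hB := burnside_zpowers (N := N) (γ * ModularGroup.S * γ⁻¹) 4 (by norm_num) hord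
  rw [← card_orbits_congr hH] at hB
  simp only [conj_pow, card_fixed_conj] at hB
  rw [Finset.sum_range_succ, Finset.sum_range_succ, Finset.sum_range_succ, Finset.sum_range_one,
    pow_zero, pow_one, S_sq, show ModularGroup.S ^ 3 = -ModularGroup.S by
      rw [show (3 : ℕ) = 2 + 1 from rfl, pow_add, S_sq, pow_one]; simp,
    card_fixed_one, card_fixed_neg_one, card_fixed_neg] at hB
  have hS : Nat.card {q : X N // ModularGroup.S • q = q} = ModularCurve.nuTwo N :=
    Cosets.card_fixed_S N
  rw [hS] at hB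
  change _ = Nat.card (OrbP N τ) * 4 at hB
  omega

/-- **Burnside at an elliptic point of order 3.** -/
theorem three_mul_card_OrbP_of_mem (τ : ℍ) (γ : SL(2, ℤ))
    (hmem : γ * (ModularGroup.S * ModularGroup.T) * γ⁻¹ ∈ StabG τ)
    (hcard : Nat.card (StabG τ) = 6) :
    3 * Nat.card (OrbP N τ) = Nat.card (X N) + 2 * ModularCurve.nuThree N := by
  have hord : orderOf (γ * (ModularGroup.S * ModularGroup.T) * γ⁻¹) = 6 := by
    rw [orderOf_conj_SL, orderOf_ST]
  have hH := eq_zpowers_of_card (by norm_num) hmem hord hcard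
  have hB := burnside_zpowers (N := N) (γ * (ModularGroup.S * ModularGroup.T) * γ⁻¹) 6
    (by norm_num) hord
  rw [← card_orbits_congr hH] at hB
  simp only [conj_pow, card_fixed_conj] at hB
  have h4 : (ModularGroup.S * ModularGroup.T) ^ 4 = -(ModularGroup.S * ModularGroup.T) := by
    rw [show (4 : ℕ) = 3 + 1 from rfl, pow_add, ST_cube, pow_one]; simp
  have h5 : (ModularGroup.S * ModularGroup.T) ^ 5 = -(ModularGroup.S * ModularGroup.T) ^ 2 := by
    rw [show (5 : ℕ) = 3 + 2 from rfl, pow_add, ST_cube]; simp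
  rw [Finset.sum_range_succ, Finset.sum_range_succ, Finset.sum_range_succ, Finset.sum_range_succ,
    Finset.sum_range_succ, Finset.sum_range_one, pow_zero, pow_one, ST_cube, h4, h5,
    card_fixed_one, card_fixed_neg_one, card_fixed_neg, card_fixed_neg, card_fixed_ST_sq] at hB
  have hST : Nat.card {q : X N // (ModularGroup.S * ModularGroup.T) • q = q}
      = ModularCurve.nuThree N := Cosets.card_fixed_ST N
  rw [hST] at hB
  change _ = Nat.card (OrbP N τ) * 6 at hB
  omega

end OrbCount

end Fermat.Agent.GenusLib.LS
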