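import Mathlib
import Fermat.Agent.GenusLib.OrbCount
import Fermat.Agent.GenusLib.JOrd

/-!
# PROJECT X (S20), step LS: orbit counts over `j = 1728` and `j = 0`

Final shapes of the Burnside counts of `OrbCount.lean`:
* `two_mul_card_OrbP` : if `E₆ τ = 0` then `2 * #(OrbP N τ) = |X| + ν₂`;
* `three_mul_card_OrbP` : if `E₄ τ = 0` then `3 * #(OrbP N τ) = |X| + 2 ν₃`;
* `card_OrbP_of_ne` : at a non-elliptic point `#(OrbP N τ) = |X|`.
-/

set_option autoImplicit false
set_option linter.unusedSectionVars false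

noncomputable section

namespace Fermat.Agent.GenusLib.LS

open UpperHalfPlane hiding I
open scoped MatrixGroups ModularForm
open CongruenceSubgroup ModularForm EisensteinSeries

section OrbCount2
variable {N : ℕ} [NeZero N]

/-- Over `j = 1728`: `2 * #(points of the fibre) = |X| + ν₂`. -/
theorem two_mul_card_OrbP (τ : ℍ) (hτ : E₆ τ = 0) :
    2 * Nat.card (OrbP N τ) = Nat.card (X N) + ModularCurve.nuTwo N := by
  obtain ⟨g, hg⟩ := JOrd.exists_smul_I_of_E₆ hτ
  refine two_mul_card_OrbP_of_mem τ g ?_ (JOrd.card_stabilizer_of_E₆ hτ)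
  rw [MulAction.mem_stabilizer_iff, ← hg, mul_smul, mul_smul, inv_smul_smul, JOrd.S_smul_I]

/-- Over `j = 0`: `3 * #(points of the fibre) = |X| + 2 ν₃`. -/
theorem three_mul_card_OrbP (τ : ℍ) (hτ : E₄ τ = 0) :
    3 * Nat.card (OrbP N τ) = Nat.card (X N) + 2 * ModularCurve.nuThree N := by
  obtain ⟨g, hg⟩ := JOrd.exists_smul_rho_of_E₄ hτ
  refine three_mul_card_OrbP_of_mem τ g ?_ (JOrd.card_stabilizer_of_E₄ hτ)
  rw [MulAction.mem_stabilizer_iff, ← hg, mul_smul, mul_smul, inv_smul_smul, JOrd.ST_smul_rho]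

/-- At a point with stabiliser `{±1}` every orbit of the stabiliser on `X N` is a singleton. -/
theorem card_OrbP_of_card_two (τ : ℍ) (hcard : Nat.card (StabG τ) = 2) :
    Nat.card (OrbP N τ) = Nat.card (X N) := by
  have hord : orderOf (-1 : SL(2, ℤ)) = 2 := by
    refine orderOf_eq_prime ?_ neg_one_ne_one_SL
    simp
  have hH := eq_zpowers_of_card (by norm_num) (neg_one_mem_StabG τ) hord hcard
  have hB := burnside_zpowers (N := N) (-1 : SL(2, ℤ)) 2 (by norm_num) hord
  rw [← card_orbits_congr hH] at hB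
  rw [Finset.sum_range_succ, Finset.sum_range_one, pow_zero, pow_one, card_fixed_one,
    card_fixed_neg_one] at hB
  change _ = Nat.card (OrbP N τ) * 2 at hB
  omega

theorem card_OrbP_of_ne (τ : ℍ) (h4 : E₄ τ ≠ 0) (h6 : E₆ τ ≠ 0) :
    Nat.card (OrbP N τ) = Nat.card (X N) :=
  card_OrbP_of_card_two τ (JOrd.card_stabilizer_of_ne h4 h6)

end OrbCount2

end Fermat.Agent.GenusLib.LS
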