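import Mathlib
import Fermat.Agent.GenusLib.Mixed
import Fermat.Agent.GenusLib.DualGlue
import Fermat.Agent.GenusLib.DualSurj
import Fermat.Agent.GenusLib.DualCusp
import Fermat.Agent.GenusLib.JOrd
import Fermat.Agent.GenusLib.OrbCount2
import Fermat.Prelude.Def_ModularCurve_GenusNumerics

/-!
# PROJECT X (S20): the dimension of `S₂(Γ₀(N))`

Assembly of the pieces:

* `BStruct.rr_BAlg` (Riemann–Roch on the `j`-line) gives linear growth of `dim L(d)` for large `d`;
* the count of steps (`Mixed.lean`) then gives functions with prescribed local orders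
  (OUTPUT 1 and 2), which feed the surjectivity (`DualSurj.lean`) and the cusp converse
  (`DualCusp.lean`) of the duality `W_lt(e + 2) ≃ L^∨(e)` (`DualGlue.lean`);
* `DualGlue.step5` produces `χ` with `dim S₂ = 1 - χ`, `dim L(d) = μ d + χ`,
  `dim W_lt(m) = μ m - χ`;
* the exact count at the elliptic points and the cusps (OUTPUT 3) gives
  `2 χ = ε_ρ + ε_i + ε_∞ - μ`, and the orbit counts finish.
-/

set_option autoImplicit false

noncomputable section

namespace Fermat.Agent.GenusLib.Final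

open UpperHalfPlane hiding I
open scoped MatrixGroups ModularForm Manifold
open CongruenceSubgroup Module ModularForm
open Fermat.Agent.GenusLib.Defs Fermat.Agent.GenusLib

variable (N : ℕ) [NeZero N]

theorem hJ : LS.HJ := fun τ => JOrd.ordAt_jFun_sub τ

/-- Linear growth of `dim L(d)` for large `d`. -/
theorem exists_hdim : ∃ d₀ χ₀ : ℤ, LS.HDim N d₀ χ₀ := by
  obtain ⟨χ, hχ, ⟨d₀, hd₀⟩, -⟩ := BStruct.rr_BAlg N
  refine ⟨d₀, χ, fun d hd => ?_⟩
  have h := hχ d
  rw [hd₀ d hd, finrank_bot, (BStruct.LEquiv N d).finrank_eq] at h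
  simpa using h

theorem out1 : Dual.Out1 N := by
  obtain ⟨d₀, χ₀, hdim⟩ := exists_hdim N
  intro τ r n₀ hn₀ hdvd
  exact LS.exists_exact_point hJ hdim τ r n₀ hn₀ hdvd

theorem out2 : Dual.Out2 N := by
  obtain ⟨d₀, χ₀, hdim⟩ := exists_hdim N
  exact ⟨d₀, fun ω₀ r k₀ hk₀ d hd => LS.exists_exact_cusp hJ hdim ω₀ r k₀ hk₀ d hd⟩

theorem betaSurj : Dual.BetaSurj N := by
  intro ι _ _ b hb hli hspan φ
  exact Dual.exists_beta_eq b hb hli hspan (out1 N) (fun τ => JOrd.ordAt_jFun_sub τ)
    (fun τ => JOrd.ordAt_om1_add_one τ) φ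

theorem cuspConv : Dual.CuspConv N := Dual.cuspConv (out2 N)

/-- The dimension formula in integral form. -/
theorem twelve_mul_finrank_cuspTwo :
    12 * Module.finrank ℂ (CuspForm (CongruenceSubgroup.Gamma0 N) 2) + 3 * ModularCurve.nuTwo N
      + 4 * ModularCurve.nuThree N + 6 * ModularCurve.cuspCount N
      = 12 + ModularCurve.dedekindPsi N := by
  obtain ⟨χ, h1, h2, h3⟩ := Dual.step5 (betaSurj N) (cuspConv N)
  have hdim : LS.HDim N 1 χ := h2
  have hcount := LS.finrank_WHle_eq_add hJ hdim JOrd.rho UpperHalfPlane.I JOrd.E₄_rho JOrd.E₆_I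
    (fun τ h => JOrd.ordAt_E₄ h) (fun τ h => JOrd.ordAt_E₆ h) 5 (by norm_num)
  have e5 := h2 5 (by norm_num)
  have e3 := h3 3 (by norm_num)
  rw [show (5 : ℤ) - 2 = 3 by norm_num] at hcount
  have hU := LS.three_mul_card_OrbP (N := N) JOrd.rho JOrd.E₄_rho
  have hS := LS.two_mul_card_OrbP (N := N) UpperHalfPlane.I JOrd.E₆_I
  have hT := LS.card_OrbQ (N := N)
  have hμ : Nat.card (LS.X N) = ModularCurve.dedekindPsi N := Cosets.card_quot N
  rw [hT] at hcount
  rw [hμ] at hcount hU hS e5 e3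
  zify at hcount hU hS ⊢
  rw [e5, e3] at hcount
  linarith

/-- **The dimension of `S₂(Γ₀(N))` is the genus of `X₀(N)`.** -/
theorem finrank_cuspTwo_eq :
    (Module.finrank ℂ (CuspForm (CongruenceSubgroup.Gamma0 N) 2) : ℚ)
      = ModularCurve.genusFormula N := by
  have h := twelve_mul_finrank_cuspTwo N
  have h' : (12 : ℚ) * Module.finrank ℂ (CuspForm (CongruenceSubgroup.Gamma0 N) 2)
      + 3 * ModularCurve.nuTwo N + 4 * ModularCurve.nuThree N + 6 * ModularCurve.cuspCount N
      = 12 + ModularCurve.dedekindPsi N := by exact_mod_cast h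
  unfold ModularCurve.genusFormula
  linarith

end Fermat.Agent.GenusLib.Final
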