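import Mathlib
import Fermat.Agent.GenusLib.Final

/-!
# PROJECT Y (S24), step (A6): the Riemann–Hurwitz count

With `sP ω` the ramification indices over `j = 1728` and `j = 0` and `hQ ω` the cusp widths,
`∑ (e - 1)` over the two finite fibres minus `∑ (h + 1)` over the cusps is `2 g - 2`, where
`g = dim S₂(Γ₀(N))`.
-/

set_option autoImplicit false

noncomputable section

namespace Fermat.Agent.GenusLib.Count24

open UpperHalfPlane hiding I
open scoped MatrixGroups ModularForm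
open CongruenceSubgroup ModularForm EisensteinSeries
open Fermat.Agent.GenusLib.Defs Fermat.Agent.GenusLib.LS

variable (N : ℕ) [NeZero N]

theorem sum_sP_sub_one (τ : ℍ) :
    ∑ ω : OrbP N τ, ((sP ω : ℤ) - 1) = (Nat.card (X N) : ℤ) - Nat.card (OrbP N τ) := by
  rw [Finset.sum_sub_distrib, ← Nat.cast_sum, sum_sP, Finset.sum_const, Finset.card_univ,
    Nat.card_eq_fintype_card]
  simp

theorem sum_hQ_add_one :
    ∑ ω : OrbQ N, ((hQ ω : ℤ) + 1) = (Nat.card (X N) : ℤ) + Nat.card (OrbQ N) := by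
  rw [Finset.sum_add_distrib, ← Nat.cast_sum, sum_hQ, Finset.sum_const, Finset.card_univ,
    Nat.card_eq_fintype_card]
  simp

/-- **Riemann–Hurwitz count**: for points `τ₁`, `τ₀` with `j τ₁ = 1728` and `j τ₀ = 0`. -/
theorem riemann_hurwitz_count (τ₁ τ₀ : ℍ) (h1 : jFun τ₁ = 1728) (h0 : jFun τ₀ = 0) :
    (∑ ω : OrbP N τ₁, ((sP ω : ℤ) - 1)) + (∑ ω : OrbP N τ₀, ((sP ω : ℤ) - 1))
        - ∑ ω : OrbQ N, ((hQ ω : ℤ) + 1)
      = 2 * (Module.finrank ℂ (CuspForm (Gamma0 N) 2) : ℤ) - 2 := by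
  have hS := two_mul_card_OrbP (N := N) τ₁ ((JOrd.E₆_eq_zero_iff τ₁).mpr h1)
  have hU := three_mul_card_OrbP (N := N) τ₀ ((JOrd.E₄_eq_zero_iff τ₀).mpr h0)
  have hT := card_OrbQ (N := N)
  have hμ : Nat.card (X N) = ModularCurve.dedekindPsi N := Cosets.card_quot N
  have hg := Final.twelve_mul_finrank_cuspTwo N
  rw [sum_sP_sub_one, sum_sP_sub_one, sum_hQ_add_one, hT]
  zify at hS hU hμ hg
  linarith

end Fermat.Agent.GenusLib.Count24
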