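import Mathlib
import Fermat.Agent.GenusLib.Cusps
import Fermat.Agent.GenusLib.CuspsTr
import Fermat.Agent.GenusLib.LevelOne
import Fermat.Agent.GenusLib.WHBasic

/-!
# WP-Q, part 4: integer valued orders at `i∞` of `q_N`-meromorphic functions

For S24 (the places of the function field over the cusps).

* `QP.D` : the normalised derivative `D = (2πi)⁻¹ d/dτ` of a `q_h`-holomorphic function is
  `q_h`-holomorphic and vanishes at `i∞`; `QP.lc_D` : its leading coefficient;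
* `HasOrdZ N G k` : `G ∼ c q_N^k` at `i∞` with `c ≠ 0` (`k : ℤ`); `ordZ N G`;
* `QM N G` : `G Δ^m` is `q_N`-holomorphic for some `m`; every nonzero `QM` function has an order.
-/

set_option autoImplicit false

noncomputable section

namespace Fermat.Agent.GenusLib.Cusps

open UpperHalfPlane hiding I
open Filter Topology Complex Function Asymptotics
open scoped Real MatrixGroups ModularForm Manifold Derivative
open CongruenceSubgroup Matrix.SpecialLinearGroup ModularForm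
open Fermat.Agent.S23Lib Fermat.Agent.S23Lib.Conj Fermat.Agent.GenusLib.Defs

local notation "Δ" => ModularForm.discriminant
local notation "𝕢" => Periodic.qParam

/-! ### The derivative of a `q_h`-holomorphic function -/

/-- `D G (τ) = h⁻¹ q F'(q)` for a `q_h`-holomorphic function `G` with cusp function `F`. -/
theorem QP.D_eq {h : ℝ} {G : ℍ → ℂ} (hh : 0 < h) (hG : QP h G) (τ : ℍ) :
    D G τ = (h : ℂ)⁻¹ * (𝕢 h τ * deriv (cuspFunction h G) (𝕢 h τ)) := by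
  set F := cuspFunction h G with hFdef
  have hτd : DifferentiableAt ℂ F (𝕢 h τ) :=
    differentiableAt_cuspFunction hh hG.per hG.hol hG.bdd
      (Function.Periodic.norm_qParam_lt_one hh τ.im_pos)
  have hcomp : (G ∘ ofComplex) =ᶠ[𝓝 (τ : ℂ)] (F ∘ 𝕢 h) := by
    filter_upwards [isOpen_upperHalfPlaneSet.mem_nhds τ.im_pos] with w hw
    have := eq_cuspFunction (⟨w, hw⟩ : ℍ) hh.ne' hG.per
    simp only [Function.comp_apply, ofComplex_apply_of_im_pos hw]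
    exact this.symm
  have hhc : (h : ℂ) ≠ 0 := by exact_mod_cast hh.ne'
  have hqd : HasDerivAt (𝕢 h) (𝕢 h τ * (2 * π * I / h)) (τ : ℂ) := by
    have h1 : HasDerivAt (fun z : ℂ => 2 * π * I * z / (h : ℂ)) (2 * π * I / h) (τ : ℂ) := by
      have := ((hasDerivAt_id (τ : ℂ)).const_mul (2 * π * I)).div_const (h : ℂ)
      simpa using this
    exact h1.cexp
  have h1 : deriv (G ∘ ofComplex) τ = deriv F (𝕢 h τ) * (𝕢 h τ * (2 * π * I / h)) := by
    rw [hcomp.deriv_eq]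
    exact (hτd.hasDerivAt.comp _ hqd).deriv
  have hpi : (2 * π * I : ℂ) ≠ 0 := by simp [Real.pi_ne_zero]
  simp only [Derivative.normalizedDerivOfComplex, h1]
  field_simp

theorem QP.D_tendsto {h : ℝ} {G : ℍ → ℂ} (hh : 0 < h) (hG : QP h G) :
    Tendsto (D G) atImInfty (𝓝 0) := by
  set F := cuspFunction h G with hFdef
  have hFan : AnalyticAt ℂ F 0 := hG.analyticAt hh
  have hq : Tendsto (fun τ : ℍ => 𝕢 h τ) atImInfty (𝓝 0) := qParam_tendsto_atImInfty hh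
  have h1 : Tendsto (fun τ : ℍ => deriv F (𝕢 h τ)) atImInfty (𝓝 (deriv F 0)) :=
    hFan.deriv.continuousAt.tendsto.comp hq
  have h2 := (hq.mul h1).const_mul ((h : ℂ)⁻¹)
  rw [zero_mul, mul_zero] at h2
  refine h2.congr fun τ => ?_
  rw [hG.D_eq hh τ]

theorem QP.D {h : ℝ} {G : ℍ → ℂ} (hh : 0 < h) (hG : QP h G) : QP h (D G) := by
  refine QP.of_tendsto ?_ (Derivative.normalizedDerivOfComplex_mdifferentiable hG.hol)
    (hG.D_tendsto hh)
  intro w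
  by_cases hw : 0 < w.im
  · have hw' : 0 < (w + h).im := by simpa using hw
    simp only [comp_apply, ofComplex_apply_of_im_pos hw', ofComplex_apply_of_im_pos hw]
    rw [hG.D_eq hh, hG.D_eq hh]
    have : 𝕢 h ((⟨w + h, hw'⟩ : ℍ) : ℂ) = 𝕢 h ((⟨w, hw⟩ : ℍ) : ℂ) :=
      qParam_add_period hh.ne' w
    rw [this]
  · have hz0 : w.im ≤ 0 := not_lt.mp hw
    have hz' : (w + h).im ≤ 0 := by simpa using hz0
    simp only [comp_apply, ofComplex_apply_of_im_nonpos hz', ofComplex_apply_of_im_nonpos hz0]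

theorem QP.one_le_ord_D {h : ℝ} {G : ℍ → ℂ} (hh : 0 < h) (hG : QP h G) : 1 ≤ ord h (D G) :=
  ((hG.D hh).one_le_ord_iff hh).mpr (hG.D_tendsto hh)

/-- `D q_h = h⁻¹ q_h`. -/
theorem D_qParam {h : ℝ} (hh : h ≠ 0) : D (fun τ : ℍ => 𝕢 h τ) = (h : ℂ)⁻¹ • fun τ : ℍ => 𝕢 h τ := by
  funext τ
  have hhc : (h : ℂ) ≠ 0 := by exact_mod_cast hh
  have hcomp : ((fun τ : ℍ => 𝕢 h τ) ∘ ofComplex) =ᶠ[𝓝 (τ : ℂ)] 𝕢 h := by
    filter_upwards [isOpen_upperHalfPlaneSet.mem_nhds τ.im_pos] with w hw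
    simp only [Function.comp_apply, ofComplex_apply_of_im_pos hw]
  have hqd : HasDerivAt (𝕢 h) (𝕢 h τ * (2 * π * I / h)) (τ : ℂ) := by
    have h1 : HasDerivAt (fun z : ℂ => 2 * π * I * z / (h : ℂ)) (2 * π * I / h) (τ : ℂ) := by
      have := ((hasDerivAt_id (τ : ℂ)).const_mul (2 * π * I)).div_const (h : ℂ)
      simpa using this
    exact h1.cexp
  have hpi : (2 * π * I : ℂ) ≠ 0 := by simp [Real.pi_ne_zero]
  simp only [Derivative.normalizedDerivOfComplex, Pi.smul_apply, smul_eq_mul]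
  rw [hcomp.deriv_eq, hqd.deriv]
  field_simp

theorem D_qpow {h : ℝ} (hh : h ≠ 0) (n : ℕ) : D (qpow h n) = ((n : ℂ) / h) • qpow h n := by
  have h1 : qpow h n = (fun τ : ℍ => 𝕢 h τ) ^ n := rfl
  rw [h1, Derivative.normalizedDerivOfComplex_pow _ _ (mdiff_qParam h), D_qParam hh]
  funext τ
  simp only [Pi.mul_apply, Pi.pow_apply, Pi.smul_apply, smul_eq_mul, Pi.natCast_apply]
  rcases n with _ | n
  · simp
  · simp only [Nat.add_sub_cancel, pow_succ]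
    ring

/-- The derivative keeps the order and multiplies the coefficient of `q_h^n` by `n / h`. -/
theorem QP.tendsto_D_div {h : ℝ} {G : ℍ → ℂ} (hh : 0 < h) (hG : QP h G) {n : ℕ}
    (hn : (n : ℕ∞) ≤ ord h G) :
    Tendsto (fun τ => D G τ / 𝕢 h τ ^ n) atImInfty (𝓝 ((n : ℂ) / h * lc h n G)) := by
  have hlc := hG.tendsto_lc hh hn
  obtain ⟨H, hH, rfl⟩ := (hG.natCast_le_ord_iff hh n).mp hn
  have h1 : (fun τ => (qpow h n * H) τ / 𝕢 h τ ^ n) = H := by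
    funext τ
    simp only [Pi.mul_apply, qpow_apply]
    rw [mul_div_assoc, mul_comm, div_mul_cancel₀ _ (pow_ne_zero n (Periodic.qParam_ne_zero _))]
  rw [h1] at hlc
  have h2 : (fun τ => D (qpow h n * H) τ / 𝕢 h τ ^ n)
      = fun τ => (n : ℂ) / h * H τ + D H τ := by
    funext τ
    rw [Derivative.normalizedDerivOfComplex_mul _ _ (qp_qpow hh n).hol hH.hol, D_qpow hh.ne']
    simp only [Pi.add_apply, Pi.mul_apply, Pi.smul_apply, smul_eq_mul, qpow_apply]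
    field_simp [pow_ne_zero n (Periodic.qParam_ne_zero (h := h) (τ : ℂ))]
  rw [h2]
  have := (hlc.const_mul ((n : ℂ) / h)).add (hH.D_tendsto hh)
  rwa [add_zero] at this

theorem QP.le_ord_D {h : ℝ} {G : ℍ → ℂ} (hh : 0 < h) (hG : QP h G) {n : ℕ}
    (hn : (n : ℕ∞) ≤ ord h G) : (n : ℕ∞) ≤ ord h (D G) := by
  obtain ⟨H, hH, rfl⟩ := (hG.natCast_le_ord_iff hh n).mp hn
  rw [(hG.D hh).natCast_le_ord_iff hh n]
  refine ⟨((n : ℂ) / h) • H + D H, (hH.smul _).add (hH.D hh), ?_⟩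
  rw [Derivative.normalizedDerivOfComplex_mul _ _ (qp_qpow hh n).hol hH.hol, D_qpow hh.ne']
  funext τ
  simp only [Pi.add_apply, Pi.mul_apply, Pi.smul_apply, smul_eq_mul]
  ring

theorem QP.lc_D {h : ℝ} {G : ℍ → ℂ} (hh : 0 < h) (hG : QP h G) {n : ℕ}
    (hn : (n : ℕ∞) ≤ ord h G) : lc h n (D G) = (n : ℂ) / h * lc h n G :=
  lc_eq_of_tendsto (hG.tendsto_D_div hh hn)

/-! ### Integer powers of `q_N` -/

/-- `q_N^k` for `k : ℤ` as a function on `ℍ`. -/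
def qz (N : ℕ) (k : ℤ) : ℍ → ℂ := fun τ => 𝕢 N τ ^ k

theorem qz_apply (N : ℕ) (k : ℤ) (τ : ℍ) : qz N k τ = 𝕢 N τ ^ k := rfl

theorem qz_ne_zero (N : ℕ) (k : ℤ) (τ : ℍ) : qz N k τ ≠ 0 :=
  zpow_ne_zero _ (Periodic.qParam_ne_zero _)

theorem qz_add (N : ℕ) (k k' : ℤ) : qz N (k + k') = qz N k * qz N k' := by
  funext τ
  simp only [qz, Pi.mul_apply]
  exact zpow_add₀ (Periodic.qParam_ne_zero _) _ _

theorem qz_zero (N : ℕ) : qz N 0 = 1 := by
  funext τ; simp [qz]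

theorem qz_neg_mul (N : ℕ) (k : ℤ) : qz N (-k) * qz N k = 1 := by
  rw [← qz_add, neg_add_cancel, qz_zero]

theorem qz_mul_neg (N : ℕ) (k : ℤ) : qz N k * qz N (-k) = 1 := by
  rw [← qz_add, add_neg_cancel, qz_zero]

theorem qz_natCast (N : ℕ) (n : ℕ) : qz N (n : ℤ) = qpow N n := by
  funext τ; simp [qz, qpow]

theorem qParam_zpow_eq_exp (N : ℕ) (k : ℤ) (w : ℂ) :
    𝕢 N w ^ k = Complex.exp (k * (2 * π * I * w / ((N : ℝ) : ℂ))) := by
  rw [Periodic.qParam, ← Complex.exp_int_mul]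

theorem mdiff_qz (N : ℕ) (k : ℤ) : MDiff (qz N k) := by
  rw [UpperHalfPlane.mdifferentiable_iff]
  have h1 : DifferentiableOn ℂ (fun w : ℂ => Complex.exp (k * (2 * π * I * w / ((N : ℝ) : ℂ))))
      upperHalfPlaneSet := by
    apply Differentiable.differentiableOn
    fun_prop
  refine h1.congr fun w hw => ?_
  simp only [comp_apply, qz, ofComplex_apply_of_im_pos hw]
  exact qParam_zpow_eq_exp N k w

theorem periodic_qz {N : ℕ} (hN : 0 < N) (k : ℤ) :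
    Periodic (qz N k ∘ ofComplex) ((N : ℝ) : ℂ) := by
  have hN' : ((N : ℕ) : ℝ) ≠ 0 := by exact_mod_cast hN.ne'
  intro w
  have := periodic_qParam hN' w
  simp only [comp_apply] at this
  simp only [comp_apply, qz, this]

theorem D_qz {N : ℕ} (hN : 0 < N) (k : ℤ) : D (qz N k) = ((k : ℂ) / N) • qz N k := by
  funext τ
  have hNc : ((N : ℝ) : ℂ) ≠ 0 := by exact_mod_cast hN.ne'
  have hcomp : (qz N k ∘ ofComplex) =ᶠ[𝓝 (τ : ℂ)]
      fun w : ℂ => Complex.exp (k * (2 * π * I * w / ((N : ℝ) : ℂ))) := by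
    filter_upwards [isOpen_upperHalfPlaneSet.mem_nhds τ.im_pos] with w hw
    simp only [Function.comp_apply, qz, ofComplex_apply_of_im_pos hw]
    exact qParam_zpow_eq_exp N k w
  have hqd : HasDerivAt (fun w : ℂ => Complex.exp (k * (2 * π * I * w / ((N : ℝ) : ℂ))))
      (Complex.exp (k * (2 * π * I * τ / ((N : ℝ) : ℂ))) * (k * (2 * π * I / ((N : ℝ) : ℂ))))
      (τ : ℂ) := by
    have h1 : HasDerivAt (fun z : ℂ => (k : ℂ) * (2 * π * I * z / ((N : ℝ) : ℂ)))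
        (k * (2 * π * I / ((N : ℝ) : ℂ))) (τ : ℂ) := by
      have := (((hasDerivAt_id (τ : ℂ)).const_mul (2 * π * I)).div_const
        ((N : ℝ) : ℂ)).const_mul (k : ℂ)
      simpa using this
    exact h1.cexp
  have hpi : (2 * π * I : ℂ) ≠ 0 := by simp [Real.pi_ne_zero]
  simp only [Derivative.normalizedDerivOfComplex, Pi.smul_apply, smul_eq_mul]
  rw [hcomp.deriv_eq, hqd.deriv, qz_apply, qParam_zpow_eq_exp]
  push_cast at hNc ⊢
  field_simp

theorem tendsto_qz_of_pos {N : ℕ} (hN : 0 < N) {k : ℤ} (hk : 0 < k) :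
    Tendsto (qz N k) atImInfty (𝓝 0) := by
  have hN' : (0 : ℝ) < N := by exact_mod_cast hN
  obtain ⟨n, rfl⟩ := Int.eq_ofNat_of_zero_le hk.le
  have hn : n ≠ 0 := by
    rintro rfl
    simp at hk
  have h1 := (qParam_tendsto_atImInfty hN').pow n
  rw [zero_pow hn] at h1
  refine h1.congr fun τ => ?_
  simp [qz]

/-- `q_N^(mN) Δ^(-m) → 1` for all integers `m`. -/
theorem tendsto_qz_mul_dpow {N : ℕ} (hN : 0 < N) (m : ℤ) :
    Tendsto (qz N (m * N) * dpow (-m)) atImInfty (𝓝 1) := by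
  have h0 : Tendsto (fun τ : ℍ => 𝕢 1 τ / Δ τ) atImInfty (𝓝 1) := by
    have h1 := tendsto_discriminant_div_q.inv₀ one_ne_zero
    rw [inv_one] at h1
    refine h1.congr fun τ => ?_
    rw [pow_one, inv_div]
  have h2 := h0.zpow₀ m (Or.inl one_ne_zero)
  rw [one_zpow] at h2
  refine h2.congr fun τ => ?_
  have hq : 𝕢 (N : ℝ) (τ : ℂ) ^ (N : ℤ) = 𝕢 1 τ := by
    have := qpow_mul_period_one N hN 1 τ
    rw [one_mul, pow_one] at this
    rw [zpow_natCast]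
    exact this
  simp only [Pi.mul_apply, qz_apply, dpow_apply]
  rw [mul_comm m (N : ℤ), zpow_mul, hq, zpow_neg, div_zpow, div_eq_mul_inv]

/-! ### Integer valued orders at `i∞` -/

/-- `G ∼ c q_N^k` at `i∞` with `c ≠ 0`. -/
def HasOrdZ (N : ℕ) (G : ℍ → ℂ) (k : ℤ) : Prop :=
  ∃ c : ℂ, c ≠ 0 ∧ Tendsto (fun τ : ℍ => G τ / 𝕢 N τ ^ k) atImInfty (𝓝 c)

section hasOrdZ

variable {N : ℕ} {G G' : ℍ → ℂ} {k k' : ℤ}

theorem div_qParam_zpow_eq (G : ℍ → ℂ) (k k' : ℤ) (τ : ℍ) :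
    G τ / 𝕢 N τ ^ k' = G τ / 𝕢 N τ ^ k * qz N (k - k') τ := by
  have hq : 𝕢 (N : ℝ) (τ : ℂ) ≠ 0 := Periodic.qParam_ne_zero _
  rw [qz_apply, zpow_sub₀ hq]
  field_simp

/-- If `G` has order `k` then `G / q^k'` has a limit for every `k' ≤ k`. -/
theorem HasOrdZ.tendsto_of_le (hN : 0 < N) (h : HasOrdZ N G k) (hk : k' ≤ k) :
    ∃ c : ℂ, Tendsto (fun τ : ℍ => G τ / 𝕢 N τ ^ k') atImInfty (𝓝 c) := by
  obtain ⟨c, -, hc⟩ := h
  rcases hk.eq_or_lt with rfl | hlt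
  · exact ⟨c, hc⟩
  · refine ⟨0, ?_⟩
    have := hc.mul (tendsto_qz_of_pos hN (sub_pos.mpr hlt))
    rw [mul_zero] at this
    refine this.congr fun τ => ?_
    rw [div_qParam_zpow_eq G k k' τ]

/-- If `G / q^k'` has a limit, then `k' ≤` the order of `G`. -/
theorem HasOrdZ.le_of_tendsto (hN : 0 < N) (h : HasOrdZ N G k) {c' : ℂ}
    (h' : Tendsto (fun τ : ℍ => G τ / 𝕢 N τ ^ k') atImInfty (𝓝 c')) : k' ≤ k := by
  by_contra hcon
  rw [not_le] at hcon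
  obtain ⟨c, hc0, hc⟩ := h
  have := h'.mul (tendsto_qz_of_pos hN (sub_pos.mpr hcon))
  rw [mul_zero] at this
  have h2 : Tendsto (fun τ : ℍ => G τ / 𝕢 N τ ^ k) atImInfty (𝓝 0) := by
    refine this.congr fun τ => ?_
    rw [div_qParam_zpow_eq G k' k τ]
  exact hc0 (tendsto_nhds_unique hc h2)

theorem HasOrdZ.unique (hN : 0 < N) (h : HasOrdZ N G k) (h' : HasOrdZ N G k') : k = k' := by
  have h1 := h
  have h1' := h'
  obtain ⟨c, -, hc⟩ := h1
  obtain ⟨c', -, hc'⟩ := h1'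
  exact le_antisymm (h'.le_of_tendsto hN hc) (h.le_of_tendsto hN hc')

theorem HasOrdZ.ne_zero (h : HasOrdZ N G k) : G ≠ 0 := by
  rintro rfl
  obtain ⟨c, hc0, hc⟩ := h
  have h2 : Tendsto (fun τ : ℍ => (0 : ℍ → ℂ) τ / 𝕢 N τ ^ k) atImInfty (𝓝 0) := by
    simp only [Pi.zero_apply, zero_div]
    exact tendsto_const_nhds
  exact hc0 (tendsto_nhds_unique hc h2)

theorem HasOrdZ.mul (h : HasOrdZ N G k) (h' : HasOrdZ N G' k') : HasOrdZ N (G * G') (k + k') := by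
  obtain ⟨c, hc0, hc⟩ := h
  obtain ⟨c', hc0', hc'⟩ := h'
  refine ⟨c * c', mul_ne_zero hc0 hc0', (hc.mul hc').congr fun τ => ?_⟩
  have hq : 𝕢 (N : ℝ) (τ : ℂ) ≠ 0 := Periodic.qParam_ne_zero _
  rw [Pi.mul_apply, zpow_add₀ hq]
  field_simp

theorem HasOrdZ.const (N : ℕ) {c : ℂ} (hc : c ≠ 0) : HasOrdZ N (fun _ : ℍ => c) 0 :=
  ⟨c, hc, by simp⟩

theorem HasOrdZ.one (N : ℕ) : HasOrdZ N (1 : ℍ → ℂ) 0 := HasOrdZ.const N one_ne_zero

theorem HasOrdZ.smul {c : ℂ} (hc : c ≠ 0) (h : HasOrdZ N G k) : HasOrdZ N (c • G) k := by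
  have h1 : c • G = (fun _ : ℍ => c) * G := by funext z; simp
  have := (HasOrdZ.const N hc).mul h
  rwa [zero_add, ← h1] at this

theorem HasOrdZ.neg (h : HasOrdZ N G k) : HasOrdZ N (-G) k := by
  have : -G = (-1 : ℂ) • G := by funext z; simp
  rw [this]; exact h.smul (by norm_num)

theorem HasOrdZ.pow (h : HasOrdZ N G k) (n : ℕ) : HasOrdZ N (G ^ n) (n * k) := by
  induction n with
  | zero => simpa using HasOrdZ.one N
  | succ n ih =>
    have := ih.mul h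
    rw [pow_succ]
    convert this using 1
    push_cast; ring

theorem HasOrdZ.prod {ι : Type*} (s : Finset ι) (F : ι → ℍ → ℂ) (κ : ι → ℤ)
    (h : ∀ i ∈ s, HasOrdZ N (F i) (κ i)) : HasOrdZ N (∏ i ∈ s, F i) (∑ i ∈ s, κ i) := by
  classical
  induction s using Finset.induction_on with
  | empty => simpa using HasOrdZ.one N
  | insert i t hi ih =>
    rw [Finset.prod_insert hi, Finset.sum_insert hi]
    exact (h i (Finset.mem_insert_self i t)).mul
      (ih fun j hj => h j (Finset.mem_insert_of_mem hj))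

theorem qz_hasOrdZ (N : ℕ) (k : ℤ) : HasOrdZ N (qz N k) k := by
  refine ⟨1, one_ne_zero, ?_⟩
  have : (fun τ : ℍ => qz N k τ / 𝕢 N τ ^ k) = fun _ => 1 := by
    funext τ
    rw [qz_apply, div_self (zpow_ne_zero _ (Periodic.qParam_ne_zero _))]
  rw [this]
  exact tendsto_const_nhds

theorem HasOrdZ.add_of_lt (hN : 0 < N) (h : HasOrdZ N G k) (h' : HasOrdZ N G' k') (hlt : k < k') :
    HasOrdZ N (G + G') k := by
  obtain ⟨c, hc0, hc⟩ := h
  obtain ⟨c', -, hc'⟩ := h'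
  refine ⟨c, hc0, ?_⟩
  have h2 := hc'.mul (tendsto_qz_of_pos hN (sub_pos.mpr hlt))
  rw [mul_zero] at h2
  have h3 := hc.add h2
  rw [add_zero] at h3
  refine h3.congr fun τ => ?_
  rw [Pi.add_apply, add_div, div_qParam_zpow_eq G' k' k τ]

/-- bounded at `i∞` iff the order is nonnegative -/
theorem HasOrdZ.isBoundedAtImInfty_iff (hN : 0 < N) (h : HasOrdZ N G k) :
    IsBoundedAtImInfty G ↔ 0 ≤ k := by
  constructor
  · intro hb
    by_contra hcon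
    rw [not_le] at hcon
    obtain ⟨c, hc0, hc⟩ := h
    have h1 : Tendsto (qz N (-k)) atImInfty (𝓝 0) := tendsto_qz_of_pos hN (by omega)
    have h2 : Tendsto (G * qz N (-k)) atImInfty (𝓝 0) := by
      have h3 : (fun τ : ℍ => G τ * qz N (-k) τ) =o[atImInfty]
          (fun τ : ℍ => (1 : ℍ → ℝ) τ * (1 : ℝ)) :=
        hb.mul_isLittleO ((Asymptotics.isLittleO_one_iff ℝ).mpr h1)
      simp only [Pi.one_apply, mul_one] at h3
      exact (Asymptotics.isLittleO_one_iff ℝ).mp h3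
    have h4 : Tendsto (fun τ : ℍ => G τ / 𝕢 N τ ^ k) atImInfty (𝓝 0) := by
      refine h2.congr fun τ => ?_
      rw [Pi.mul_apply, qz_apply, zpow_neg, div_eq_mul_inv]
    exact hc0 (tendsto_nhds_unique hc h4)
  · intro hk
    obtain ⟨c, hc⟩ := h.tendsto_of_le hN hk
    have : (fun τ : ℍ => G τ / 𝕢 N τ ^ (0 : ℤ)) = G := by funext τ; simp
    rw [this] at hc
    exact hc.isBigO_one ℝ

/-- zero at `i∞` iff the order is positive -/
theorem HasOrdZ.isZeroAtImInfty_iff (hN : 0 < N) (h : HasOrdZ N G k) :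
    IsZeroAtImInfty G ↔ 0 < k := by
  constructor
  · intro hz
    by_contra hcon
    rw [not_lt] at hcon
    obtain ⟨c, hc0, hc⟩ := h
    -- `G / q^k = G * q^(-k)` with `q^(-k)` bounded
    have h1 : Tendsto (fun τ : ℍ => G τ / 𝕢 N τ ^ k) atImInfty (𝓝 0) := by
      rcases hcon.eq_or_lt with h0 | hlt
      · subst h0
        have : (fun τ : ℍ => G τ / 𝕢 N τ ^ (0 : ℤ)) = G := by funext τ; simp
        rw [this]
        exact hz
      · have h2 := Filter.Tendsto.mul (hz : Tendsto G atImInfty (𝓝 0))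
          (tendsto_qz_of_pos hN (show (0 : ℤ) < -k by omega))
        rw [mul_zero] at h2
        refine h2.congr fun τ => ?_
        rw [qz_apply, zpow_neg, div_eq_mul_inv]
    exact hc0 (tendsto_nhds_unique hc h1)
  · intro hk
    obtain ⟨c, -, hc⟩ := h
    have h2 := hc.mul (tendsto_qz_of_pos hN hk)
    rw [mul_zero] at h2
    refine h2.congr fun τ => ?_
    rw [qz_apply, div_mul_cancel₀ _ (zpow_ne_zero _ (Periodic.qParam_ne_zero _))]

end hasOrdZ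

open Classical in
/-- The `q_N`-order at `i∞` (`0` if there is none, e.g. for the zero function). -/
def ordZ (N : ℕ) (G : ℍ → ℂ) : ℤ := if h : ∃ k : ℤ, HasOrdZ N G k then h.choose else 0

theorem HasOrdZ.ordZ_eq {N : ℕ} {G : ℍ → ℂ} {k : ℤ} (hN : 0 < N) (h : HasOrdZ N G k) :
    ordZ N G = k := by
  have hex : ∃ k : ℤ, HasOrdZ N G k := ⟨k, h⟩
  rw [ordZ, dif_pos hex]
  exact hex.choose_spec.unique hN h

theorem ordZ_zero (N : ℕ) : ordZ N (0 : ℍ → ℂ) = 0 := by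
  rw [ordZ, dif_neg]
  rintro ⟨k, hk⟩
  exact hk.ne_zero rfl

/-! ### `G = O(q_N^k)` -/

/-- `G / q_N^k` has a limit at `i∞` ("order at least `k`"). -/
def GeOrdZ (N : ℕ) (G : ℍ → ℂ) (k : ℤ) : Prop :=
  ∃ c : ℂ, Tendsto (fun τ : ℍ => G τ / 𝕢 N τ ^ k) atImInfty (𝓝 c)

section geOrdZ

variable {N : ℕ} {G G' : ℍ → ℂ} {k k' : ℤ}

theorem HasOrdZ.geOrdZ (h : HasOrdZ N G k) : GeOrdZ N G k := by
  obtain ⟨c, -, hc⟩ := h
  exact ⟨c, hc⟩

theorem GeOrdZ.zero (N : ℕ) (k : ℤ) : GeOrdZ N (0 : ℍ → ℂ) k :=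
  ⟨0, by simp only [Pi.zero_apply, zero_div]; exact tendsto_const_nhds⟩

theorem GeOrdZ.mono (hN : 0 < N) (h : GeOrdZ N G k) (hk : k' ≤ k) : GeOrdZ N G k' := by
  obtain ⟨c, hc⟩ := h
  rcases hk.eq_or_lt with rfl | hlt
  · exact ⟨c, hc⟩
  · refine ⟨0, ?_⟩
    have := hc.mul (tendsto_qz_of_pos hN (sub_pos.mpr hlt))
    rw [mul_zero] at this
    refine this.congr fun τ => ?_
    rw [div_qParam_zpow_eq G k k' τ]

theorem GeOrdZ.add (h : GeOrdZ N G k) (h' : GeOrdZ N G' k) : GeOrdZ N (G + G') k := by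
  obtain ⟨c, hc⟩ := h
  obtain ⟨c', hc'⟩ := h'
  refine ⟨c + c', (hc.add hc').congr fun τ => ?_⟩
  rw [Pi.add_apply, add_div]

theorem GeOrdZ.smul (c : ℂ) (h : GeOrdZ N G k) : GeOrdZ N (c • G) k := by
  obtain ⟨c', hc'⟩ := h
  refine ⟨c * c', (hc'.const_mul c).congr fun τ => ?_⟩
  rw [Pi.smul_apply, smul_eq_mul, mul_div_assoc]

theorem GeOrdZ.neg (h : GeOrdZ N G k) : GeOrdZ N (-G) k := by
  have : -G = (-1 : ℂ) • G := by funext z; simp
  rw [this]; exact h.smul _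

theorem GeOrdZ.sub (h : GeOrdZ N G k) (h' : GeOrdZ N G' k) : GeOrdZ N (G - G') k := by
  rw [sub_eq_add_neg]; exact h.add h'.neg

theorem GeOrdZ.mul (h : GeOrdZ N G k) (h' : GeOrdZ N G' k') : GeOrdZ N (G * G') (k + k') := by
  obtain ⟨c, hc⟩ := h
  obtain ⟨c', hc'⟩ := h'
  refine ⟨c * c', (hc.mul hc').congr fun τ => ?_⟩
  have hq : 𝕢 (N : ℝ) (τ : ℂ) ≠ 0 := Periodic.qParam_ne_zero _
  rw [Pi.mul_apply, zpow_add₀ hq]
  field_simp

theorem GeOrdZ.one (N : ℕ) : GeOrdZ N (1 : ℍ → ℂ) 0 := (HasOrdZ.one N).geOrdZ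

theorem GeOrdZ.sum {ι : Type*} (s : Finset ι) (F : ι → ℍ → ℂ) (h : ∀ i ∈ s, GeOrdZ N (F i) k) :
    GeOrdZ N (∑ i ∈ s, F i) k := by
  classical
  induction s using Finset.induction_on with
  | empty => simpa using GeOrdZ.zero N k
  | insert i t hi ih =>
    rw [Finset.sum_insert hi]
    exact (h i (Finset.mem_insert_self i t)).add (ih fun j hj => h j (Finset.mem_insert_of_mem hj))

theorem GeOrdZ.prod {ι : Type*} (s : Finset ι) (F : ι → ℍ → ℂ) (κ : ι → ℤ)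
    (h : ∀ i ∈ s, GeOrdZ N (F i) (κ i)) : GeOrdZ N (∏ i ∈ s, F i) (∑ i ∈ s, κ i) := by
  classical
  induction s using Finset.induction_on with
  | empty => simpa using GeOrdZ.one N
  | insert i t hi ih =>
    rw [Finset.prod_insert hi, Finset.sum_insert hi]
    exact (h i (Finset.mem_insert_self i t)).mul
      (ih fun j hj => h j (Finset.mem_insert_of_mem hj))

/-- for a function with an order: `G = O(q^k')` iff `k' ≤` the order -/
theorem HasOrdZ.geOrdZ_iff (hN : 0 < N) (h : HasOrdZ N G k) : GeOrdZ N G k' ↔ k' ≤ k :=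
  ⟨fun ⟨_, hc⟩ => h.le_of_tendsto hN hc, fun hk => h.geOrdZ.mono hN hk⟩

theorem GeOrdZ.isBoundedAtImInfty (h : GeOrdZ N G 0) : IsBoundedAtImInfty G := by
  obtain ⟨c, hc⟩ := h
  have : (fun τ : ℍ => G τ / 𝕢 N τ ^ (0 : ℤ)) = G := by funext τ; simp
  rw [this] at hc
  exact hc.isBigO_one ℝ

end geOrdZ

/-! ### Functions meromorphic at `i∞` -/

/-- `G` is holomorphic on `ℍ`, `N`-periodic and meromorphic at `i∞` in `q_N`:
`G q_N^n` is `q_N`-holomorphic for some `n`. -/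
def QM (N : ℕ) (G : ℍ → ℂ) : Prop := ∃ n : ℕ, QP N (G * qpow N n)

section qm

variable {N : ℕ} {G G' : ℍ → ℂ} {k k' : ℤ}

theorem qpow_zero (h : ℝ) : qpow h 0 = 1 := by
  funext τ; simp [qpow]

theorem qpow_add (h : ℝ) (n n' : ℕ) : qpow h (n + n') = qpow h n * qpow h n' := by
  funext τ; simp [qpow, pow_add]

theorem QP.qm (hG : QP N G) : QM N G := ⟨0, by rwa [qpow_zero, mul_one]⟩

theorem mul_qpow_mul_qz (N : ℕ) (G : ℍ → ℂ) (n : ℕ) : G * qpow N n * qz N (-(n : ℤ)) = G := by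
  rw [mul_assoc, ← qz_natCast, qz_mul_neg, mul_one]

theorem QM.hol (hG : QM N G) : MDiff G := by
  obtain ⟨n, hn⟩ := hG
  rw [← mul_qpow_mul_qz N G n]
  exact hn.hol.mul (mdiff_qz N _)

theorem QM.per (hN : 0 < N) (hG : QM N G) : Periodic (G ∘ ofComplex) ((N : ℝ) : ℂ) := by
  obtain ⟨n, hn⟩ := hG
  have h1 : G ∘ ofComplex = (G * qpow N n) ∘ ofComplex * qz N (-(n : ℤ)) ∘ ofComplex := by
    conv_lhs => rw [← mul_qpow_mul_qz N G n]
    rfl
  rw [h1]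
  exact hn.per.mul (periodic_qz hN _)

theorem qp_mul_qpow_add (hN : 0 < N) {n : ℕ} (hn : QP N (G * qpow N n)) (r : ℕ) :
    QP N (G * qpow N (n + r)) := by
  have hN' : (0 : ℝ) < N := by exact_mod_cast hN
  rw [qpow_add, ← mul_assoc]
  exact hn.mul (qp_qpow hN' r)

theorem QM.mul (hG : QM N G) (hG' : QM N G') : QM N (G * G') := by
  obtain ⟨n, hn⟩ := hG
  obtain ⟨n', hn'⟩ := hG'
  refine ⟨n + n', ?_⟩
  have : G * G' * qpow N (n + n') = (G * qpow N n) * (G' * qpow N n') := by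
    rw [qpow_add]; ring
  rw [this]
  exact hn.mul hn'

theorem QM.add (hN : 0 < N) (hG : QM N G) (hG' : QM N G') : QM N (G + G') := by
  obtain ⟨n, hn⟩ := hG
  obtain ⟨n', hn'⟩ := hG'
  refine ⟨n + n', ?_⟩
  rw [add_mul]
  refine (qp_mul_qpow_add hN hn n').add ?_
  rw [add_comm n n']
  exact qp_mul_qpow_add hN hn' n

theorem QM.smul (c : ℂ) (hG : QM N G) : QM N (c • G) := by
  obtain ⟨n, hn⟩ := hG
  exact ⟨n, by rw [smul_mul_assoc]; exact hn.smul c⟩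

theorem QM.neg (hG : QM N G) : QM N (-G) := by
  have : -G = (-1 : ℂ) • G := by funext z; simp
  rw [this]; exact hG.smul _

theorem QM.sub (hN : 0 < N) (hG : QM N G) (hG' : QM N G') : QM N (G - G') := by
  rw [sub_eq_add_neg]; exact hG.add hN hG'.neg

theorem QM.const (N : ℕ) (c : ℂ) : QM N (fun _ : ℍ => c) := (QP.const c).qm

theorem QM.zero (N : ℕ) : QM N (0 : ℍ → ℂ) := QM.const N 0

theorem QM.one (N : ℕ) : QM N (1 : ℍ → ℂ) := QM.const N 1

theorem QM.pow (hG : QM N G) (n : ℕ) : QM N (G ^ n) := by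
  induction n with
  | zero => simpa using QM.one N
  | succ n ih => rw [pow_succ]; exact ih.mul hG

theorem QM.sum (hN : 0 < N) {ι : Type*} (s : Finset ι) {F : ι → ℍ → ℂ}
    (hF : ∀ i ∈ s, QM N (F i)) : QM N (∑ i ∈ s, F i) := by
  classical
  induction s using Finset.induction_on with
  | empty => simpa using QM.zero N
  | insert i t hi ih =>
    rw [Finset.sum_insert hi]
    exact (hF i (Finset.mem_insert_self i t)).add hN
      (ih fun j hj => hF j (Finset.mem_insert_of_mem hj))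

theorem QM.prod {ι : Type*} (s : Finset ι) {F : ι → ℍ → ℂ}
    (hF : ∀ i ∈ s, QM N (F i)) : QM N (∏ i ∈ s, F i) := by
  classical
  induction s using Finset.induction_on with
  | empty => simpa using QM.one N
  | insert i t hi ih =>
    rw [Finset.prod_insert hi]
    exact (hF i (Finset.mem_insert_self i t)).mul
      (ih fun j hj => hF j (Finset.mem_insert_of_mem hj))

/-- every nonzero function meromorphic at `i∞` has an order -/
theorem QM.exists_hasOrdZ (hN : 0 < N) (hG : QM N G) (h0 : G ≠ 0) : ∃ k : ℤ, HasOrdZ N G k := by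
  have hN' : (0 : ℝ) < N := by exact_mod_cast hN
  obtain ⟨n, hn⟩ := hG
  have hH0 : G * qpow N n ≠ 0 := by
    intro h
    apply h0
    funext τ
    have := congrFun h τ
    simp only [Pi.mul_apply, Pi.zero_apply, mul_eq_zero] at this
    exact this.resolve_right (qpow_ne_zero _ _ _)
  have htop : ord N (G * qpow N n) ≠ ⊤ := fun h => hH0 ((hn.ord_eq_top_iff hN').mp h)
  obtain ⟨n', hn'⟩ := ENat.ne_top_iff_exists.mp htop
  have h1 := (hn.ord_eq_iff hN' n').mp hn'.symm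
  refine ⟨(n' : ℤ) - n, lc N n' (G * qpow N n), h1.2, ?_⟩
  refine (hn.tendsto_lc hN' h1.1).congr fun τ => ?_
  have hq : 𝕢 (N : ℝ) (τ : ℂ) ≠ 0 := Periodic.qParam_ne_zero _
  rw [Pi.mul_apply, qpow_apply, zpow_sub₀ hq, zpow_natCast, zpow_natCast]
  field_simp

theorem QM.hasOrdZ (hN : 0 < N) (hG : QM N G) (h0 : G ≠ 0) : HasOrdZ N G (ordZ N G) := by
  obtain ⟨k, hk⟩ := hG.exists_hasOrdZ hN h0
  rwa [hk.ordZ_eq hN]

theorem QM.le_ordZ_iff (hN : 0 < N) (hG : QM N G) (h0 : G ≠ 0) :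
    k ≤ ordZ N G ↔ GeOrdZ N G k :=
  ((hG.hasOrdZ hN h0).geOrdZ_iff hN).symm

theorem ordZ_mul (hN : 0 < N) (hG : QM N G) (hG' : QM N G') (h0 : G ≠ 0) (h0' : G' ≠ 0) :
    ordZ N (G * G') = ordZ N G + ordZ N G' :=
  ((hG.hasOrdZ hN h0).mul (hG'.hasOrdZ hN h0')).ordZ_eq hN

theorem mul_ne_zero_of_qm (hN : 0 < N) (hG : QM N G) (hG' : QM N G') (h0 : G ≠ 0) (h0' : G' ≠ 0) :
    G * G' ≠ 0 :=
  ((hG.hasOrdZ hN h0).mul (hG'.hasOrdZ hN h0')).ne_zero

theorem ordZ_const (hN : 0 < N) {c : ℂ} (hc : c ≠ 0) : ordZ N (fun _ : ℍ => c) = 0 :=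
  (HasOrdZ.const N hc).ordZ_eq hN

theorem ordZ_one (hN : 0 < N) : ordZ N (1 : ℍ → ℂ) = 0 := (HasOrdZ.one N).ordZ_eq hN

theorem ordZ_smul (hN : 0 < N) (hG : QM N G) {c : ℂ} (hc : c ≠ 0) :
    ordZ N (c • G) = ordZ N G := by
  by_cases h0 : G = 0
  · subst h0; rw [smul_zero]
  · exact ((hG.hasOrdZ hN h0).smul hc).ordZ_eq hN

theorem ordZ_neg (hN : 0 < N) (hG : QM N G) : ordZ N (-G) = ordZ N G := by
  have : -G = (-1 : ℂ) • G := by funext z; simp
  rw [this, ordZ_smul hN hG (by norm_num)]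

theorem ordZ_pow (hN : 0 < N) (hG : QM N G) (h0 : G ≠ 0) (n : ℕ) :
    ordZ N (G ^ n) = n * ordZ N G :=
  ((hG.hasOrdZ hN h0).pow n).ordZ_eq hN

theorem ordZ_prod (hN : 0 < N) {ι : Type*} (s : Finset ι) {F : ι → ℍ → ℂ}
    (hF : ∀ i ∈ s, QM N (F i)) (h0 : ∀ i ∈ s, F i ≠ 0) :
    ordZ N (∏ i ∈ s, F i) = ∑ i ∈ s, ordZ N (F i) :=
  (HasOrdZ.prod s F _ fun i hi => (hF i hi).hasOrdZ hN (h0 i hi)).ordZ_eq hN

theorem prod_ne_zero_of_qm (hN : 0 < N) {ι : Type*} (s : Finset ι) {F : ι → ℍ → ℂ}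
    (hF : ∀ i ∈ s, QM N (F i)) (h0 : ∀ i ∈ s, F i ≠ 0) : ∏ i ∈ s, F i ≠ 0 :=
  (HasOrdZ.prod s F _ fun i hi => (hF i hi).hasOrdZ hN (h0 i hi)).ne_zero

/-- the ultrametric inequality -/
theorem le_ordZ_add (hN : 0 < N) (hG : QM N G) (hG' : QM N G') (h0 : G + G' ≠ 0) :
    min (ordZ N G) (ordZ N G') ≤ ordZ N (G + G') := by
  by_cases hG0 : G = 0
  · subst hG0; rw [zero_add]; exact min_le_right _ _
  by_cases hG0' : G' = 0
  · subst hG0'; rw [add_zero]; exact min_le_left _ _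
  rw [(hG.add hN hG').le_ordZ_iff hN h0]
  exact ((hG.hasOrdZ hN hG0).geOrdZ.mono hN (min_le_left _ _)).add
    ((hG'.hasOrdZ hN hG0').geOrdZ.mono hN (min_le_right _ _))

theorem ordZ_add_of_lt (hN : 0 < N) (hG : QM N G) (hG' : QM N G') (hG0 : G ≠ 0) (hG0' : G' ≠ 0)
    (hlt : ordZ N G < ordZ N G') : ordZ N (G + G') = ordZ N G :=
  ((hG.hasOrdZ hN hG0).add_of_lt hN (hG'.hasOrdZ hN hG0') hlt).ordZ_eq hN

theorem QM.isBoundedAtImInfty_iff (hN : 0 < N) (hG : QM N G) (h0 : G ≠ 0) :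
    IsBoundedAtImInfty G ↔ 0 ≤ ordZ N G :=
  (hG.hasOrdZ hN h0).isBoundedAtImInfty_iff hN

theorem QM.isZeroAtImInfty_iff (hN : 0 < N) (hG : QM N G) (h0 : G ≠ 0) :
    IsZeroAtImInfty G ↔ 0 < ordZ N G :=
  (hG.hasOrdZ hN h0).isZeroAtImInfty_iff hN

/-! ### Bridge from the `Δ`-normalisation (`ordCusp`) -/

theorem qm_of_qp_dpow (hN : 0 < N) {m : ℤ} (hG : QP N (G * dpow m)) : QM N G := by
  have hN' : (0 : ℝ) < N := by exact_mod_cast hN
  obtain ⟨r, hr⟩ : ∃ r : ℕ, m + ((-m).toNat : ℤ) = r := ⟨(m + ((-m).toNat : ℤ)).toNat, by omega⟩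
  have h1 : QP N (G * dpow (r : ℤ)) := by
    have := qp_add_nat hG (-m).toNat
    rwa [hr] at this
  refine ⟨r * N, ?_⟩
  have e1 : G * qpow N (r * N) = (G * dpow (r : ℤ)) * (qpow N (r * N) * dpow (-(r : ℤ))) := by
    rw [mul_mul_mul_comm, dpow_mul_neg, mul_one]
  refine ⟨?_, ?_, ?_⟩
  · rw [e1]
    have : ((G * dpow (r : ℤ)) * (qpow N (r * N) * dpow (-(r : ℤ)))) ∘ ofComplex
        = (G * dpow (r : ℤ)) ∘ ofComplex
          * (qpow N (r * N) ∘ ofComplex * dpow (-(r : ℤ)) ∘ ofComplex) := rfl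
    rw [this]
    exact h1.per.mul ((qp_qpow hN' (r * N)).per.mul (periodic_dpow N _))
  · rw [e1]
    exact h1.hol.mul ((qp_qpow hN' (r * N)).hol.mul (dpow_mdiff _))
  · rw [e1]
    exact h1.bdd.mul ((tendsto_qpow_mul_dpow_neg hN r).isBigO_one ℝ)

/-- **Bridge**: the integer order from the `Δ`-normalised order. -/
theorem hasOrdZ_of_ordCusp (hN : 0 < N) {m : ℤ} (hG : QP N (G * dpow m)) {n : ℕ}
    (hn : ordCusp N m G = n) : HasOrdZ N G ((n : ℤ) - m * N) := by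
  have hN' : (0 : ℝ) < N := by exact_mod_cast hN
  have h1 := (hG.ord_eq_iff hN' n).mp hn
  refine ⟨lc N n (G * dpow m), h1.2, ?_⟩
  have h2 := (hG.tendsto_lc hN' h1.1).mul (tendsto_qz_mul_dpow hN m)
  rw [mul_one] at h2
  refine h2.congr fun τ => ?_
  have hq : 𝕢 (N : ℝ) (τ : ℂ) ≠ 0 := Periodic.qParam_ne_zero _
  have hΔ : Δ τ ≠ 0 := ModularForm.discriminant_ne_zero τ
  simp only [Pi.mul_apply, qz_apply, dpow_apply]
  rw [zpow_sub₀ hq, zpow_natCast, zpow_neg]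
  field_simp

theorem ordZ_eq_of_ordCusp (hN : 0 < N) {m : ℤ} (hG : QP N (G * dpow m)) {n : ℕ}
    (hn : ordCusp N m G = n) : ordZ N G = (n : ℤ) - m * N :=
  (hasOrdZ_of_ordCusp hN hG hn).ordZ_eq hN

/-- **Bridge**, converse direction. -/
theorem ordCusp_eq_of_hasOrdZ (hN : 0 < N) {m : ℤ} (hG : QP N (G * dpow m))
    (h : HasOrdZ N G k) : 0 ≤ k + m * N ∧ ordCusp N m G = ((k + m * N).toNat : ℕ∞) := by
  have htop : ordCusp N m G ≠ ⊤ := fun ht => h.ne_zero ((ordCusp_eq_top_iff hN hG).mp ht)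
  obtain ⟨n, hn⟩ := ENat.ne_top_iff_exists.mp htop
  have h1 := (hasOrdZ_of_ordCusp hN hG hn.symm).unique hN h
  have h2 : k + m * N = n := by rw [← h1]; ring
  refine ⟨by rw [h2]; positivity, ?_⟩
  rw [← hn, h2, Int.toNat_natCast]

theorem ordCusp_eq_ordZ (hN : 0 < N) {m : ℤ} (hG : QP N (G * dpow m)) (h0 : G ≠ 0) :
    ordCusp N m G = ((ordZ N G + m * N).toNat : ℕ∞) ∧ 0 ≤ ordZ N G + m * N :=
  have h := ordCusp_eq_of_hasOrdZ hN hG ((qm_of_qp_dpow hN hG).hasOrdZ hN h0)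
  ⟨h.2, h.1⟩

/-- a criterion: `G Δ^m → c ≠ 0` gives order `-(m N)` -/
theorem hasOrdZ_of_tendsto_mul_dpow (hN : 0 < N) {m : ℤ} {c : ℂ} (hc : c ≠ 0)
    (h : Tendsto (G * dpow m) atImInfty (𝓝 c)) : HasOrdZ N G (-(m * N)) := by
  refine ⟨c, hc, ?_⟩
  have h2 := h.mul (tendsto_qz_mul_dpow hN m)
  rw [mul_one] at h2
  refine h2.congr fun τ => ?_
  have hq : 𝕢 (N : ℝ) (τ : ℂ) ≠ 0 := Periodic.qParam_ne_zero _
  have hΔ : Δ τ ≠ 0 := ModularForm.discriminant_ne_zero τ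
  simp only [Pi.mul_apply, qz_apply, dpow_apply]
  rw [zpow_neg, zpow_neg]
  field_simp

end qm

/-! ### Derivatives of functions meromorphic at `i∞` -/

section deriv

variable {N : ℕ} {G A B : ℍ → ℂ} {k a b : ℤ}

theorem QM.D (hN : 0 < N) (hG : QM N G) : QM N (D G) := by
  have hN' : (0 : ℝ) < N := by exact_mod_cast hN
  have hol := hG.hol
  obtain ⟨n, hn⟩ := hG
  refine ⟨n, ?_⟩
  have h1 : D G * qpow N n = D (G * qpow N n) - ((n : ℂ) / (N : ℝ)) • (G * qpow N n) := by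
    rw [Derivative.normalizedDerivOfComplex_mul _ _ hol (qp_qpow hN' n).hol, D_qpow hN'.ne']
    funext τ
    simp only [Pi.add_apply, Pi.sub_apply, Pi.mul_apply, Pi.smul_apply, smul_eq_mul]
    ring
  rw [h1]
  exact (hn.D hN').sub (hn.smul _)

/-- If `G / q^k → c` then `D G / q^k → (k / N) c`. -/
theorem QM.tendsto_D_div (hN : 0 < N) (hG : QM N G) {c : ℂ}
    (hc : Tendsto (fun τ : ℍ => G τ / 𝕢 N τ ^ k) atImInfty (𝓝 c)) :
    Tendsto (fun τ : ℍ => D G τ / 𝕢 N τ ^ k) atImInfty (𝓝 ((k : ℂ) / N * c)) := by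
  have hN' : (0 : ℝ) < N := by exact_mod_cast hN
  set U : ℍ → ℂ := G * qz N (-k) with hU
  have hUlim : Tendsto U atImInfty (𝓝 c) := by
    refine hc.congr fun τ => ?_
    rw [hU, Pi.mul_apply, qz_apply, zpow_neg, div_eq_mul_inv]
  have hUqp : QP N U := by
    refine QP.of_tendsto ?_ (hG.hol.mul (mdiff_qz N _)) hUlim
    have : U ∘ ofComplex = G ∘ ofComplex * qz N (-k) ∘ ofComplex := rfl
    rw [this]
    exact (hG.per hN).mul (periodic_qz hN _)
  have hGU : G = qz N k * U := by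
    rw [hU, mul_comm G, ← mul_assoc, qz_mul_neg, one_mul]
  have h2 : (fun τ : ℍ => D G τ / 𝕢 N τ ^ k) = fun τ => (k : ℂ) / N * U τ + D U τ := by
    funext τ
    have hq : 𝕢 (N : ℝ) (τ : ℂ) ^ k ≠ 0 := zpow_ne_zero _ (Periodic.qParam_ne_zero _)
    conv_lhs => rw [hGU]
    rw [Derivative.normalizedDerivOfComplex_mul _ _ (mdiff_qz N k) hUqp.hol, D_qz hN]
    simp only [Pi.add_apply, Pi.mul_apply, Pi.smul_apply, smul_eq_mul, qz_apply]
    field_simp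
  rw [h2]
  have := (hUlim.const_mul ((k : ℂ) / N)).add (hUqp.D_tendsto hN')
  rwa [add_zero] at this

/-- The derivative of a function of nonzero order has the same order. -/
theorem HasOrdZ.D (hN : 0 < N) (hG : QM N G) (h : HasOrdZ N G k) (hk : k ≠ 0) :
    HasOrdZ N (D G) k := by
  obtain ⟨c, hc0, hc⟩ := h
  have hNc : (N : ℂ) ≠ 0 := by exact_mod_cast hN.ne'
  exact ⟨(k : ℂ) / N * c, mul_ne_zero (div_ne_zero (by exact_mod_cast hk) hNc) hc0,
    hG.tendsto_D_div hN hc⟩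

theorem GeOrdZ.D (hN : 0 < N) (hG : QM N G) (h : GeOrdZ N G k) : GeOrdZ N (D G) k := by
  obtain ⟨c, hc⟩ := h
  exact ⟨_, hG.tendsto_D_div hN hc⟩

theorem ordZ_D (hN : 0 < N) (hG : QM N G) (hk : ordZ N G ≠ 0) : ordZ N (D G) = ordZ N G := by
  have h0 : G ≠ 0 := by
    rintro rfl
    exact hk (ordZ_zero N)
  exact ((hG.hasOrdZ hN h0).D hN hG hk).ordZ_eq hN

/-- The derivative of a function of nonzero order is not zero. -/
theorem D_ne_zero_of_ordZ (hN : 0 < N) (hG : QM N G) (hk : ordZ N G ≠ 0) : D G ≠ 0 := by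
  have h0 : G ≠ 0 := by
    rintro rfl
    exact hk (ordZ_zero N)
  exact ((hG.hasOrdZ hN h0).D hN hG hk).ne_zero

/-- **Wronskian**: for `A`, `B` of different orders `a ≠ b`, `D A * B - A * D B` has order
`a + b` (this is `B² D(A / B)`). -/
theorem HasOrdZ.wronskian (hN : 0 < N) (hA : QM N A) (hB : QM N B) (ha : HasOrdZ N A a)
    (hb : HasOrdZ N B b) (hab : a ≠ b) : HasOrdZ N (D A * B - A * D B) (a + b) := by
  obtain ⟨c, hc0, hc⟩ := ha
  obtain ⟨c', hc0', hc'⟩ := hb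
  have hNc : (N : ℂ) ≠ 0 := by exact_mod_cast hN.ne'
  have h1 := ((hA.tendsto_D_div hN hc).mul hc').sub (hc.mul (hB.tendsto_D_div hN hc'))
  refine ⟨(a : ℂ) / N * c * c' - c * ((b : ℂ) / N * c'), ?_, h1.congr fun τ => ?_⟩
  · have : (a : ℂ) / N * c * c' - c * ((b : ℂ) / N * c') = ((a : ℂ) - b) / N * (c * c') := by
      field_simp
    rw [this]
    refine mul_ne_zero (div_ne_zero ?_ hNc) (mul_ne_zero hc0 hc0')
    rw [sub_ne_zero]
    exact_mod_cast hab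
  · have hq : 𝕢 (N : ℝ) (τ : ℂ) ≠ 0 := Periodic.qParam_ne_zero _
    simp only [Pi.sub_apply, Pi.mul_apply]
    rw [zpow_add₀ hq]
    field_simp

theorem GeOrdZ.wronskian (hN : 0 < N) (hA : QM N A) (hB : QM N B) (ha : GeOrdZ N A a)
    (hb : GeOrdZ N B b) : GeOrdZ N (D A * B - A * D B) (a + b) :=
  ((ha.D hN hA).mul hb).sub (ha.mul (hb.D hN hB))

theorem ordZ_wronskian (hN : 0 < N) (hA : QM N A) (hB : QM N B) (hA0 : A ≠ 0) (hB0 : B ≠ 0)
    (hab : ordZ N A ≠ ordZ N B) : ordZ N (D A * B - A * D B) = ordZ N A + ordZ N B :=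
  ((hA.hasOrdZ hN hA0).wronskian hN hA hB (hB.hasOrdZ hN hB0) hab).ordZ_eq hN

end deriv

/-! ### Translates of weakly holomorphic forms and level one functions -/

section examples

open Fermat.Agent.GenusLib.LevelOne Polynomial

variable {N : ℕ}

theorem qm_slash_of_mem_WHle (hN : 0 < N) {w m : ℤ} {F : ℍ → ℂ} (hF : F ∈ WHle N w m)
    (g : SL(2, ℤ)) : QM N (F ∣[w] g) :=
  qm_of_qp_dpow hN (qp_of_mem_WHle hF g)

theorem qm_slash_of_mem_WH (hN : 0 < N) {w : ℤ} {F : ℍ → ℂ} (hF : F ∈ WH N w) (g : SL(2, ℤ)) :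
    QM N (F ∣[w] g) := by
  obtain ⟨m, hm⟩ := hF
  exact qm_slash_of_mem_WHle hN hm g

theorem qm_of_mem_WH (hN : 0 < N) {w : ℤ} {F : ℍ → ℂ} (hF : F ∈ WH N w) : QM N F := by
  have := qm_slash_of_mem_WH hN hF 1
  rwa [SlashAction.slash_one] at this

theorem hasOrdZ_dpow (hN : 0 < N) (m : ℤ) : HasOrdZ N (dpow m) (m * N) := by
  have h : Tendsto (dpow m * dpow (-m)) atImInfty (𝓝 1) := by
    rw [dpow_mul_neg]
    exact tendsto_const_nhds
  have := hasOrdZ_of_tendsto_mul_dpow hN one_ne_zero h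
  simpa using this

theorem hasOrdZ_discriminant (hN : 0 < N) : HasOrdZ N (Δ : ℍ → ℂ) N := by
  have := hasOrdZ_dpow hN 1
  rwa [dpow_one, one_mul] at this

theorem hasOrdZ_polyJ (hN : 0 < N) {P : ℂ[X]} (hP : P ≠ 0) :
    HasOrdZ N (polyJ P) (-((P.natDegree : ℤ) * N)) := by
  refine hasOrdZ_of_tendsto_mul_dpow hN (leadingCoeff_ne_zero.mpr hP) ?_
  refine (tendsto_polyJ_mul P).congr fun τ => ?_
  simp [dpow_apply]

theorem hasOrdZ_jFun (hN : 0 < N) : HasOrdZ N jFun (-(N : ℤ)) := by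
  have := hasOrdZ_polyJ hN (X_ne_zero (R := ℂ))
  rwa [polyJ_X, natDegree_X, Nat.cast_one, one_mul] at this

theorem hasOrdZ_om1 (hN : 0 < N) : HasOrdZ N om1 (-(N : ℤ)) := by
  have h : Tendsto (om1 * dpow 1) atImInfty (𝓝 1) := by
    refine tendsto_om1_mul.congr fun τ => ?_
    simp [dpow_apply]
  have := hasOrdZ_of_tendsto_mul_dpow hN one_ne_zero h
  rwa [one_mul] at this

theorem ordZ_polyJ (hN : 0 < N) {P : ℂ[X]} (hP : P ≠ 0) :
    ordZ N (polyJ P) = -((P.natDegree : ℤ) * N) := (hasOrdZ_polyJ hN hP).ordZ_eq hN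

theorem ordZ_jFun (hN : 0 < N) : ordZ N jFun = -(N : ℤ) := (hasOrdZ_jFun hN).ordZ_eq hN

theorem ordZ_om1 (hN : 0 < N) : ordZ N om1 = -(N : ℤ) := (hasOrdZ_om1 hN).ordZ_eq hN

theorem ordZ_discriminant (hN : 0 < N) : ordZ N (Δ : ℍ → ℂ) = N :=
  (hasOrdZ_discriminant hN).ordZ_eq hN

theorem ordZ_dpow (hN : 0 < N) (m : ℤ) : ordZ N (dpow m) = m * N := (hasOrdZ_dpow hN m).ordZ_eq hN

theorem qm_polyJ (hN : 0 < N) (P : ℂ[X]) : QM N (polyJ P) :=
  qm_of_mem_WH hN (⟨P.natDegree, polyJ_mem_WHle N (Or.inr le_rfl)⟩ : polyJ P ∈ WH N 0)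

theorem qm_jFun (hN : 0 < N) : QM N jFun :=
  qm_of_mem_WH hN (⟨1, WHBasic.jFun_mem_WHle N⟩ : jFun ∈ WH N 0)

theorem qm_om1 (hN : 0 < N) : QM N om1 :=
  qm_of_mem_WH hN (⟨1, WHBasic.om1_mem_WHle N⟩ : om1 ∈ WH N 2)

/-- `D j` has order `-N` at `i∞`. -/
theorem hasOrdZ_D_jFun (hN : 0 < N) : HasOrdZ N (D jFun) (-(N : ℤ)) :=
  (hasOrdZ_jFun hN).D hN (qm_jFun hN) (by
    have : (0 : ℤ) < N := by exact_mod_cast hN
    omega)

theorem ordZ_D_jFun (hN : 0 < N) : ordZ N (D jFun) = -(N : ℤ) := (hasOrdZ_D_jFun hN).ordZ_eq hN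

/-- `D` commutes with weight `0` translates (the translate of the derivative has weight `2`). -/
theorem D_slash_zero {F : ℍ → ℂ} (hF : MDiff F) (γ : SL(2, ℤ)) :
    D (F ∣[(0 : ℤ)] γ) = (D F) ∣[(2 : ℤ)] γ := by
  have h := Derivative.normalizedDerivOfComplex_SL_slash (k := 0) hF (γ := γ)
  rw [h]
  funext z
  simp

end examples

section more

variable {N : ℕ} {G A B : ℍ → ℂ} {k : ℤ}

theorem QM.geOrdZ_of_le (hN : 0 < N) (hG : QM N G) (h : G = 0 ∨ k ≤ ordZ N G) : GeOrdZ N G k := by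
  by_cases h0 : G = 0
  · subst h0; exact GeOrdZ.zero N k
  · exact (hG.le_ordZ_iff hN h0).mp (h.resolve_left h0)

/-- lower bound for the order of a finite sum -/
theorem le_ordZ_sum (hN : 0 < N) {ι : Type*} (s : Finset ι) {F : ι → ℍ → ℂ}
    (hF : ∀ i ∈ s, QM N (F i)) (hk : ∀ i ∈ s, F i = 0 ∨ k ≤ ordZ N (F i))
    (h0 : ∑ i ∈ s, F i ≠ 0) : k ≤ ordZ N (∑ i ∈ s, F i) := by
  rw [(QM.sum hN s hF).le_ordZ_iff hN h0]
  exact GeOrdZ.sum s F fun i hi => (hF i hi).geOrdZ_of_le hN (hk i hi)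

/-- the Wronskian of two functions of different orders at `i∞` is not zero -/
theorem wronskian_ne_zero (hN : 0 < N) (hA : QM N A) (hB : QM N B) (hA0 : A ≠ 0) (hB0 : B ≠ 0)
    (hab : ordZ N A ≠ ordZ N B) : D A * B - A * D B ≠ 0 :=
  ((hA.hasOrdZ hN hA0).wronskian hN hA hB (hB.hasOrdZ hN hB0) hab).ne_zero

theorem QM.wronskian (hN : 0 < N) (hA : QM N A) (hB : QM N B) : QM N (D A * B - A * D B) :=
  ((hA.D hN).mul hB).sub hN (hA.mul (hB.D hN))

/-- a function with an order is eventually nonzero -/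
theorem HasOrdZ.eventually_ne (h : HasOrdZ N G k) : ∀ᶠ τ in atImInfty, G τ ≠ 0 := by
  obtain ⟨c, hc0, hc⟩ := h
  filter_upwards [hc.eventually_ne hc0] with τ hτ h0
  apply hτ
  rw [h0, zero_div]

end more

end Fermat.Agent.GenusLib.Cusps
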