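import Mathlib
import Fermat.Prelude.Def_ModularCurve_ArithmeticGalois
import Fermat.Agent.GenusLib.FormalLD
import Fermat.Agent.GenusLib.QExpL

/-!
# PROJECT Y (S24), leaf [S24-DEG]: the degree of the modular function field over `K(j)`

* `finrank_le_of_forall_natDegree_le`: a char-0 algebraic extension all of whose elements have
  degree `≤ n` is finite of degree `≤ n` (primitive element theorem).
* `finrank_le_of_relations`, `le_finrank_of_no_relation`: degree bounds for `F / K(J)` from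
  bivariate polynomial relations over `K[J]`.
* `transcendental_coeffEmb_jq`: the formal `j` is transcendental.
* `finrank_eq_of_complex`: `[F : K(j)] = d` for the modular function field over `ℚ̄`, conditional
  on the two analytic inputs over `ℂ` (descended through `FormalLD` and the Laurent `q`-expansion
  of `QExpL`).
-/

set_option autoImplicit false
set_option linter.style.haveILetI false

noncomputable section

namespace Fermat.Agent.GenusLib.Deg24

open Polynomial IntermediateField ModularCurve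

/-! ### Part 0: generic field theory -/

/-- A separable algebraic extension all of whose elements have degree `≤ n` is finite of degree
`≤ n`. -/
theorem finrank_le_of_forall_natDegree_le (k E : Type*) [Field k] [Field E] [Algebra k E]
    [CharZero k] (n : ℕ) (h : ∀ x : E, IsAlgebraic k x ∧ (minpoly k x).natDegree ≤ n) :
    FiniteDimensional k E ∧ Module.finrank k E ≤ n := by
  classical
  have : Algebra.IsAlgebraic k E := ⟨fun x => (h x).1⟩
  have : Algebra.IsSeparable k E := inferInstance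
  -- an element of maximal degree
  obtain ⟨x, hx⟩ : ∃ x : E, ∀ y : E, (minpoly k y).natDegree ≤ (minpoly k x).natDegree := by
    by_contra hcon
    push Not at hcon
    have : ∀ m : ℕ, ∃ x : E, m ≤ (minpoly k x).natDegree := by
      intro m
      induction m with
      | zero => exact ⟨0, Nat.zero_le _⟩
      | succ m ih =>
        obtain ⟨x, hx⟩ := ih
        obtain ⟨y, hy⟩ := hcon x
        exact ⟨y, by omega⟩
    obtain ⟨x, hx⟩ := this (n + 1)
    have := (h x).2
    omega
  have htop : k⟮x⟯ = ⊤ := by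
    refine eq_top_iff.mpr fun y _ => ?_
    obtain ⟨γ, hγ⟩ := Field.primitive_element_inf_aux k x y
    have hxi : IsIntegral k x := (h x).1.isIntegral
    have hγi : IsIntegral k γ := (h γ).1.isIntegral
    have : FiniteDimensional k k⟮γ⟯ := adjoin.finiteDimensional hγi
    have hle : k⟮x⟯ ≤ k⟮γ⟯ := by
      rw [← hγ]
      exact adjoin.mono k _ _ (by simp)
    have hfr : Module.finrank k k⟮γ⟯ ≤ Module.finrank k k⟮x⟯ := by
      rw [adjoin.finrank hγi, adjoin.finrank hxi]
      exact hx γ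
    have heq : k⟮x⟯ = k⟮γ⟯ := IntermediateField.eq_of_le_of_finrank_le hle hfr
    rw [heq, ← hγ]
    exact subset_adjoin k _ (by simp)
  have hfin : FiniteDimensional k E :=
    Field.FiniteDimensional.of_exists_primitive_element k E ⟨x, htop⟩
  refine ⟨hfin, ?_⟩
  rw [← (Field.primitive_element_iff_minpoly_natDegree_eq k x).mp htop]
  exact (h x).2

section Rel

variable {K F : Type*} [Field K] [Field F] [Algebra K F]

/-- The ring hom `K[X] → K⟮J⟯`, `X ↦ J`. -/
def toAdj (J : F) : K[X] →+* K⟮J⟯ := (aeval (AdjoinSimple.gen K J) : K[X] →ₐ[K] K⟮J⟯).toRingHom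

theorem algebraMap_toAdj (J : F) (p : K[X]) :
    algebraMap K⟮J⟯ F (toAdj J p) = aeval J p := by
  unfold toAdj
  change ((aeval (AdjoinSimple.gen K J) p : K⟮J⟯) : F) = _
  rw [← IntermediateField.coe_val, ← aeval_algHom_apply]
  rfl

theorem toAdj_injective (J : F) (hJ : Transcendental K J) : Function.Injective (toAdj (K := K) J) := by
  rw [injective_iff_map_eq_zero]
  intro p hp
  have h1 : aeval J p = 0 := by rw [← algebraMap_toAdj, hp, map_zero]
  by_contra hp0
  exact hJ ⟨p, hp0, h1⟩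

/-- A bivariate relation of `Y`-degree `≤ d` over `K[J]` bounds the degree over `K⟮J⟯`. -/
theorem natDegree_minpoly_le_of_relation (J : F) (hJ : Transcendental K J) (d : ℕ) (z : F)
    (q : K[X][X]) (hq0 : q ≠ 0) (hqd : q.natDegree ≤ d)
    (hq : q.eval₂ (aeval J : K[X] →ₐ[K] F).toRingHom z = 0) :
    IsAlgebraic K⟮J⟯ z ∧ (minpoly K⟮J⟯ z).natDegree ≤ d := by
  have hinj := toAdj_injective J hJ
  have hQ0 : q.map (toAdj J) ≠ 0 := (Polynomial.map_ne_zero_iff hinj).mpr hq0
  have hQz : aeval z (q.map (toAdj J)) = 0 := by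
    rw [aeval_def, eval₂_map, ← hq]
    congr 1
    ext p
    · exact algebraMap_toAdj J (C p)
    · exact algebraMap_toAdj J X
  have halg : IsAlgebraic K⟮J⟯ z := ⟨q.map (toAdj J), hQ0, hQz⟩
  refine ⟨halg, ?_⟩
  have hdvd := minpoly.dvd K⟮J⟯ z hQz
  calc (minpoly K⟮J⟯ z).natDegree ≤ (q.map (toAdj J)).natDegree :=
        natDegree_le_of_dvd hdvd hQ0
    _ ≤ q.natDegree := natDegree_map_le
    _ ≤ d := hqd

/-- **Upper bound**: if every element satisfies a nonzero bivariate relation of `Y`-degree `≤ d`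
over `K[J]`, then `[F : K(J)] ≤ d`. -/
theorem finrank_le_of_relations [CharZero K] (J : F) (hJ : Transcendental K J) (d : ℕ)
    (h : ∀ z : F, ∃ q : K[X][X], q ≠ 0 ∧ q.natDegree ≤ d ∧
      q.eval₂ (aeval J : K[X] →ₐ[K] F).toRingHom z = 0) :
    FiniteDimensional K⟮J⟯ F ∧ Module.finrank K⟮J⟯ F ≤ d := by
  have : CharZero K⟮J⟯ := charZero_of_injective_algebraMap (algebraMap K K⟮J⟯).injective
  refine finrank_le_of_forall_natDegree_le K⟮J⟯ F d fun z => ?_
  obtain ⟨q, hq0, hqd, hq⟩ := h z
  exact natDegree_minpoly_le_of_relation J hJ d z q hq0 hqd hq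

/-- **Lower bound**: if some element `z₀` satisfies no nonzero bivariate relation of `Y`-degree
`< d` over `K[J]`, then `d ≤ [F : K(J)]`. -/
theorem le_finrank_of_no_relation (J : F) (hJ : Transcendental K J) (d : ℕ)
    [FiniteDimensional K⟮J⟯ F] (z₀ : F)
    (h : ∀ q : K[X][X], q.natDegree < d →
      q.eval₂ (aeval J : K[X] →ₐ[K] F).toRingHom z₀ = 0 → q = 0) :
    d ≤ Module.finrank K⟮J⟯ F := by
  classical
  by_contra hlt
  push Not at hlt
  have hint : IsIntegral K⟮J⟯ z₀ := IsIntegral.of_finite K⟮J⟯ z₀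
  set m := minpoly K⟮J⟯ z₀ with hm
  have hm0 : m ≠ 0 := minpoly.ne_zero hint
  have hmdeg : m.natDegree < d := lt_of_le_of_lt (minpoly.natDegree_le z₀) hlt
  set n := m.natDegree with hn
  -- numerators and denominators of the coefficients
  have hrs : ∀ i : ℕ, ∃ rs : K[X] × K[X], rs.2 ≠ 0 ∧
      ((m.coeff i : K⟮J⟯) : F) * aeval J rs.2 = aeval J rs.1 := by
    intro i
    obtain ⟨r, s, hrs⟩ := (mem_adjoin_simple_iff K _).mp (m.coeff i).2
    by_cases hs : aeval J s = 0
    · refine ⟨(0, 1), one_ne_zero, ?_⟩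
      rw [hrs, hs, div_zero]
      simp
    · refine ⟨(r, s), fun h0 => hs (by rw [show s = 0 from h0, map_zero]), ?_⟩
      rw [hrs, div_mul_cancel₀ _ hs]
  choose rs hs hrs' using hrs
  have hsJ : ∀ i, aeval J (rs i).2 ≠ 0 := fun i h0 => hJ ⟨(rs i).2, hs i, h0⟩
  let S : K[X] := ∏ i ∈ Finset.range (n + 1), (rs i).2
  let t : ℕ → K[X] := fun i => (rs i).1 * ∏ i' ∈ (Finset.range (n + 1)).erase i, (rs i').2
  have ht : ∀ i ∈ Finset.range (n + 1), aeval J (t i) = ((m.coeff i : K⟮J⟯) : F) * aeval J S := by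
    intro i hi
    simp only [t, S, map_mul]
    rw [← hrs' i, mul_assoc, ← map_mul,
      Finset.mul_prod_erase (Finset.range (n + 1)) (fun i => (rs i).2) hi]
  let q : K[X][X] := ∑ i ∈ Finset.range (n + 1), C (t i) * X ^ i
  have hqdeg : q.natDegree < d := by
    refine lt_of_le_of_lt ?_ hmdeg
    refine natDegree_sum_le_of_forall_le _ _ fun i hi => ?_
    refine (natDegree_C_mul_X_pow_le _ _).trans ?_
    exact Nat.lt_succ_iff.mp (Finset.mem_range.mp hi)
  have hqz : q.eval₂ (aeval J : K[X] →ₐ[K] F).toRingHom z₀ = 0 := by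
    simp only [q, eval₂_finsetSum, eval₂_mul, eval₂_C, eval₂_pow, eval₂_X]
    have h1 : ∀ i ∈ Finset.range (n + 1), (aeval J : K[X] →ₐ[K] F).toRingHom (t i) * z₀ ^ i
        = aeval J S * (algebraMap K⟮J⟯ F (m.coeff i) * z₀ ^ i) := by
      intro i hi
      change aeval J (t i) * z₀ ^ i = _
      rw [ht i hi]
      change _ = aeval J S * (((m.coeff i : K⟮J⟯) : F) * z₀ ^ i)
      ring
    rw [Finset.sum_congr rfl h1, ← Finset.mul_sum]
    have h2 : ∑ i ∈ Finset.range (n + 1), algebraMap K⟮J⟯ F (m.coeff i) * z₀ ^ i = aeval z₀ m := by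
      rw [aeval_def, eval₂_eq_sum_range]
    rw [h2, hm, minpoly.aeval, mul_zero]
  have hq0 := h q hqdeg hqz
  have hcoeff : q.coeff n = t n := by
    simp only [q, finsetSum_coeff, coeff_C_mul, coeff_X_pow]
    rw [Finset.sum_eq_single n]
    · simp
    · intro i _ hin
      rw [if_neg (Ne.symm hin), mul_zero]
    · intro hn'
      exact absurd (Finset.self_mem_range_succ n) hn'
  have htn : aeval J (t n) = 0 := by
    rw [← hcoeff, hq0, coeff_zero, map_zero]
  rw [ht n (Finset.self_mem_range_succ n)] at htn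
  have hS : aeval J S ≠ 0 := by
    simp only [S, map_prod]
    exact Finset.prod_ne_zero_iff.mpr fun i _ => hsJ i
  have hlead : ((m.coeff n : K⟮J⟯) : F) = 0 := by
    rcases mul_eq_zero.mp htn with h0 | h0
    · exact h0
    · exact absurd h0 hS
  have hlead' : m.coeff n = 0 := by
    exact_mod_cast hlead
  exact hm0 (leadingCoeff_eq_zero.mp hlead')

end Rel

/-! ### Part A: the formal `j` is transcendental -/

section Transc

variable (L : Type*) [Field L] [Algebra ℚ L]

theorem coeff_coeffEmb_jq_pow_self (n : ℕ) : ((coeffEmb L jq) ^ n).coeff (-(n : ℤ)) = 1 := by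
  rw [← map_pow, coeffEmb_coeff, coeff_jq_pow_self, map_one]

theorem coeff_coeffEmb_jq_pow_of_lt {n : ℕ} {m : ℤ} (hm : m < -(n : ℤ)) :
    ((coeffEmb L jq) ^ n).coeff m = 0 := by
  rw [← map_pow, coeffEmb_coeff, coeff_jq_pow_of_lt hm, map_zero]

theorem aeval_coeffEmb_jq_eq_zero {p : L[X]} (hp : aeval (coeffEmb L jq) p = 0) : p = 0 := by
  by_contra hp0
  set n := p.natDegree with hn
  have hcoeff : (aeval (coeffEmb L jq) p).coeff (-(n : ℤ)) = p.coeff n := by
    rw [aeval_def, eval₂_eq_sum_range, HahnSeries.coeff_sum, Finset.sum_eq_single n]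
    · rw [algebraMap_laurentSeries_eq_single, HahnSeries.coeff_single_zero_mul,
        coeff_coeffEmb_jq_pow_self, mul_one]
    · intro i hi hin
      have hilt : i < n := lt_of_le_of_ne (Nat.lt_succ_iff.mp (Finset.mem_range.mp hi)) hin
      rw [algebraMap_laurentSeries_eq_single, HahnSeries.coeff_single_zero_mul,
        coeff_coeffEmb_jq_pow_of_lt, mul_zero]
      omega
    · intro hn'
      exact absurd (Finset.self_mem_range_succ n) hn'
  rw [hp] at hcoeff
  simp only [HahnSeries.coeff_zero] at hcoeff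
  exact hp0 (leadingCoeff_eq_zero.mp hcoeff.symm)

/-- The formal `j`-invariant is transcendental over the coefficient field. -/
theorem transcendental_coeffEmb_jq : Transcendental L (coeffEmb L jq) :=
  transcendental_iff.mpr fun _ hp => aeval_coeffEmb_jq_eq_zero L hp

end Transc

/-! ### Part B: the modular function field -/

section Modular

open UpperHalfPlane
open Fermat.Agent.GenusLib.Defs Fermat.Agent.S23Lib.Distinct Fermat.Agent.GenusLib.QExp

variable (N : ℕ) [NeZero N]

/-- `j(q^N)` as an element of the function field. -/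
def jNBar : ↥(modularFunctionFieldBar N) :=
  ⟨coeffEmb (AlgebraicClosure ℚ) (qExpand ℚ N jq),
    coeffEmb_mem_laurentBaseChange _ (jqd_mem_full N dvd_rfl)⟩

theorem coe_jNBar : ((jNBar N : ↥(modularFunctionFieldBar N)) : LaurentSeries (AlgebraicClosure ℚ))
    = coeffEmb (AlgebraicClosure ℚ) (qExpand ℚ N jq) := rfl

variable {N}

omit [NeZero N] in
theorem transcendental_of_coe (J : ↥(modularFunctionFieldBar N))
    (hJ : (J : LaurentSeries (AlgebraicClosure ℚ)) = coeffEmb (AlgebraicClosure ℚ) jq) :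
    Transcendental (AlgebraicClosure ℚ) J := by
  intro halg
  have h1 : IsAlgebraic (AlgebraicClosure ℚ) (J : LaurentSeries (AlgebraicClosure ℚ)) :=
    IntermediateField.isAlgebraic_iff.mp halg
  rw [hJ] at h1
  exact transcendental_coeffEmb_jq (AlgebraicClosure ℚ) h1

omit [NeZero N] in
/-- transfer of a bivariate relation from the ambient Laurent series field to the subfield -/
theorem eval₂_coe (J z : ↥(modularFunctionFieldBar N)) (q : (AlgebraicClosure ℚ)[X][X]) :
    ((q.eval₂ (aeval J : (AlgebraicClosure ℚ)[X] →ₐ[AlgebraicClosure ℚ]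
        ↥(modularFunctionFieldBar N)).toRingHom z : ↥(modularFunctionFieldBar N)) :
        LaurentSeries (AlgebraicClosure ℚ))
      = q.eval₂ (aeval (J : LaurentSeries (AlgebraicClosure ℚ)) :
          (AlgebraicClosure ℚ)[X] →ₐ[AlgebraicClosure ℚ]
            LaurentSeries (AlgebraicClosure ℚ)).toRingHom
          (z : LaurentSeries (AlgebraicClosure ℚ)) := by
  have h := hom_eval₂ q (aeval J : (AlgebraicClosure ℚ)[X] →ₐ[AlgebraicClosure ℚ]
        ↥(modularFunctionFieldBar N)).toRingHom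
    (modularFunctionFieldBar N).val.toRingHom z
  refine h.trans ?_
  congr 1
  ext p
  · simp
  · simp

/-- **Upper bound** `[F : K(j)] ≤ d`, given that every element of `F`, transported to `ℂ((q))`,
satisfies a nonzero relation of `Y`-degree `≤ d` over `ℂ[j]`. -/
theorem finrank_le_of_complex_relations (ι : AlgebraicClosure ℚ →+* ℂ)
    (J : ↥(modularFunctionFieldBar N))
    (hJ : (J : LaurentSeries (AlgebraicClosure ℚ)) = coeffEmb (AlgebraicClosure ℚ) jq) (d : ℕ)
    (hle : ∀ z : ↥(modularFunctionFieldBar N), ∃ Q : ℂ[X][X], Q ≠ 0 ∧ Q.natDegree ≤ d ∧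
      Q.eval₂ (aeval (coeffMap ι (coeffEmb (AlgebraicClosure ℚ) jq)) :
        ℂ[X] →ₐ[ℂ] LaurentSeries ℂ).toRingHom
        (coeffMap ι (z : LaurentSeries (AlgebraicClosure ℚ))) = 0) :
    FiniteDimensional (AlgebraicClosure ℚ)⟮J⟯ ↥(modularFunctionFieldBar N) ∧
      Module.finrank (AlgebraicClosure ℚ)⟮J⟯ ↥(modularFunctionFieldBar N) ≤ d := by
  refine finrank_le_of_relations J (transcendental_of_coe J hJ) d fun z => ?_
  obtain ⟨Q, hQ0, hQd, hQ⟩ := hle z
  obtain ⟨q, hq0, hqd, hq⟩ := FormalLD.exists_poly_of_poly ι (coeffEmb (AlgebraicClosure ℚ) jq)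
    (z : LaurentSeries (AlgebraicClosure ℚ)) d Q hQ0 hQd hQ
  refine ⟨q, hq0, hqd, Subtype.ext ?_⟩
  rw [eval₂_coe, hJ, hq]
  rfl

theorem coeffMap_coeffEmb_complex (ι : AlgebraicClosure ℚ →+* ℂ) (x : LaurentSeries ℚ) :
    coeffMap ι (coeffEmb (AlgebraicClosure ℚ) x) = coeffMap (algebraMap ℚ ℂ) x := by
  rw [coeffEmb, coeffMap_coeffMap]
  exact coeffMap_congr (Subsingleton.elim _ _) x

/-- evaluation at a point as a ring hom on `qmSubalgebra` -/
def evPt (τ : ℍ) : qmSubalgebra →+* ℂ := (Pi.evalRingHom (fun _ : ℍ => ℂ) τ).comp qmSubalgebra.val.toRingHom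

/-- **Lower bound** `d ≤ [F : K(j)]`, given that no nonzero polynomial of `Y`-degree `< d` over
`ℂ[j]` kills `j(Nτ)`. -/
theorem le_finrank_of_complex_no_relation (ι : AlgebraicClosure ℚ →+* ℂ)
    (J : ↥(modularFunctionFieldBar N))
    (hJ : (J : LaurentSeries (AlgebraicClosure ℚ)) = coeffEmb (AlgebraicClosure ℚ) jq) (d : ℕ)
    [FiniteDimensional (AlgebraicClosure ℚ)⟮J⟯ ↥(modularFunctionFieldBar N)]
    (hdist : ∀ P : ℂ[X][X], P.natDegree < d →
      (∀ τ : ℍ, (P.map (Polynomial.evalRingHom (jFun τ))).eval (jFun (dilPt N τ)) = 0) → P = 0) :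
    d ≤ Module.finrank (AlgebraicClosure ℚ)⟮J⟯ ↥(modularFunctionFieldBar N) := by
  refine le_finrank_of_no_relation J (transcendental_of_coe J hJ) d (jNBar N) fun q hqd hq => ?_
  -- the relation in `ℂ((q))`
  have h1 := congrArg (fun x : ↥(modularFunctionFieldBar N) =>
    (x : LaurentSeries (AlgebraicClosure ℚ))) hq
  simp only [eval₂_coe, hJ, coe_jNBar] at h1
  have h2 := congrArg (coeffMap ι) h1
  rw [hom_eval₂] at h2
  simp only [ZeroMemClass.coe_zero, map_zero, coeffMap_coeffEmb_complex] at h2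
  -- rewrite as a relation for `P := q.map (map ι)` over `ℂ[lexp j]`
  set P : ℂ[X][X] := q.map (mapRingHom ι) with hP
  have hcomp : (coeffMap ι).comp (aeval (coeffEmb (AlgebraicClosure ℚ) jq) :
      (AlgebraicClosure ℚ)[X] →ₐ[AlgebraicClosure ℚ] LaurentSeries (AlgebraicClosure ℚ)).toRingHom
      = ((aeval (lexp jFun) : ℂ[X] →ₐ[ℂ] LaurentSeries ℂ).toRingHom).comp (mapRingHom ι) := by
    refine RingHom.ext fun p => ?_
    change coeffMap ι (aeval (coeffEmb (AlgebraicClosure ℚ) jq) p) =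
      aeval (lexp jFun) (p.map ι)
    rw [lexp_jFun, ← coeffMap_coeffEmb_complex ι, FormalLD.aeval_coeffMap_map]
  rw [hcomp, ← eval₂_map, ← lexp_dil_jFun N] at h2
  -- the function `G = P(j, j_N)` is `q`-meromorphic with zero expansion
  let jQ : qmSubalgebra := ⟨jFun, qm_jFun⟩
  let jNQ : qmSubalgebra := ⟨dil N jFun, qm_dil N qm_jFun⟩
  let G : qmSubalgebra := P.eval₂ (aeval jQ : ℂ[X] →ₐ[ℂ] qmSubalgebra).toRingHom jNQ
  have hG : lexpAlgHom G = 0 := by
    have h3 := hom_eval₂ P (aeval jQ : ℂ[X] →ₐ[ℂ] qmSubalgebra).toRingHom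
      lexpAlgHom.toRingHom jNQ
    have h4 : lexpAlgHom.toRingHom.comp (aeval jQ : ℂ[X] →ₐ[ℂ] qmSubalgebra).toRingHom
        = (aeval (lexp jFun) : ℂ[X] →ₐ[ℂ] LaurentSeries ℂ).toRingHom := by
      ext p
      · simp
      · simp [jQ, lexpAlgHom_apply]
    rw [h4] at h3
    exact h3.trans h2
  have hG0 : G = 0 := lexpAlgHom_injective (hG.trans (map_zero _).symm)
  have hP0 : P = 0 := by
    refine hdist P (lt_of_le_of_lt natDegree_map_le hqd) fun τ => ?_
    have h5 := hom_eval₂ P (aeval jQ : ℂ[X] →ₐ[ℂ] qmSubalgebra).toRingHom (evPt τ) jNQ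
    have h6 : (evPt τ).comp (aeval jQ : ℂ[X] →ₐ[ℂ] qmSubalgebra).toRingHom
        = Polynomial.evalRingHom (jFun τ) := by
      ext p
      · simp [evPt]
      · simp [evPt, jQ]
    rw [h6] at h5
    have h7 : evPt τ jNQ = jFun (dilPt N τ) := rfl
    rw [h7] at h5
    rw [← eval₂_eq_eval_map, ← h5]
    change evPt τ G = 0
    rw [hG0, map_zero]
  exact Polynomial.map_injective (mapRingHom ι) (Polynomial.map_injective ι ι.injective)
    (hP0.trans (Polynomial.map_zero _).symm)

/-- **Degree of the modular function field over `K(j)`** (conditional form): given the two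
analytic inputs (relations of `Y`-degree `≤ d` for all elements; no relation of `Y`-degree `< d`
for `j(Nτ)`), `F` is finite over `K(j)` of degree exactly `d`. -/
theorem finrank_eq_of_complex (ι : AlgebraicClosure ℚ →+* ℂ)
    (J : ↥(modularFunctionFieldBar N))
    (hJ : (J : LaurentSeries (AlgebraicClosure ℚ)) = coeffEmb (AlgebraicClosure ℚ) jq) (d : ℕ)
    (hle : ∀ z : ↥(modularFunctionFieldBar N), ∃ Q : ℂ[X][X], Q ≠ 0 ∧ Q.natDegree ≤ d ∧
      Q.eval₂ (aeval (coeffMap ι (coeffEmb (AlgebraicClosure ℚ) jq)) :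
        ℂ[X] →ₐ[ℂ] LaurentSeries ℂ).toRingHom
        (coeffMap ι (z : LaurentSeries (AlgebraicClosure ℚ))) = 0)
    (hdist : ∀ P : ℂ[X][X], P.natDegree < d →
      (∀ τ : ℍ, (P.map (Polynomial.evalRingHom (jFun τ))).eval (jFun (dilPt N τ)) = 0) → P = 0) :
    FiniteDimensional (AlgebraicClosure ℚ)⟮J⟯ ↥(modularFunctionFieldBar N) ∧
      Module.finrank (AlgebraicClosure ℚ)⟮J⟯ ↥(modularFunctionFieldBar N) = d := by
  obtain ⟨hfin, hle'⟩ := finrank_le_of_complex_relations ι J hJ d hle
  exact ⟨hfin, le_antisymm hle' (le_finrank_of_complex_no_relation ι J hJ d hdist)⟩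

end Modular

end Fermat.Agent.GenusLib.Deg24
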