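import Mathlib
import Fermat.Agent.GenusLib.JOrd
import Fermat.Agent.GenusLib.QExpJ
import Fermat.Agent.GenusLib.Orb

/-!
# S24 leaf DIST: the translates of `j(Nτ)` are pairwise distinct

* `NonQuad z` : `z` is not a root of a nonzero integral polynomial of degree `≤ 2`;
  `exists_nonQuad`.
* `mul_inv_mem_Gamma0` : at a non-quadratic point `z`,
  `j(N·g₁z) = j(N·g₂z)` forces `g₂ g₁⁻¹ ∈ Γ₀(N)`.
* `mem_Gamma0_of_jFun_dil`, `trn_dil_jFun_injective_at`, `trn_dil_jFun_injective`,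
  `exists_point_trn_dil_jFun_injective`.
* `eq_zero_of_translates_distinct`, `eq_zero_of_eval_dil_jFun`, `eq_zero_of_eval₂_dil_jFun`,
  `eq_zero_of_sum_polyJ_mul_pow` : no nonzero polynomial of degree `< μ` over `ℂ[j]` kills
  `j(Nτ)`.
-/

set_option autoImplicit false

noncomputable section

namespace Fermat.Agent.GenusLib.Dist24

open UpperHalfPlane hiding I
open scoped MatrixGroups ModularForm Manifold
open CongruenceSubgroup Polynomial
open Fermat.Agent.S23Lib.Distinct Fermat.Agent.GenusLib.QExp Fermat.Agent.GenusLib.LS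
open Fermat.Agent.GenusLib.LevelOne Fermat.Agent.GenusLib.Defs

/-! ### Non-quadratic points -/

/-- `z` is not a root of a nonzero integral polynomial of degree `≤ 2`. -/
def NonQuad (z : ℍ) : Prop :=
  ∀ A B C : ℤ, (A : ℂ) * (z : ℂ) ^ 2 + (B : ℂ) * (z : ℂ) + (C : ℂ) = 0 → A = 0 ∧ B = 0 ∧ C = 0

theorem exists_nonQuad : ∃ z : ℍ, NonQuad z := by
  have ht0 : 0 < Real.sqrt (Real.sqrt 2) := Real.sqrt_pos.mpr (Real.sqrt_pos.mpr (by norm_num))
  have ht2 : Real.sqrt (Real.sqrt 2) ^ 2 = Real.sqrt 2 := Real.sq_sqrt (Real.sqrt_nonneg 2)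
  refine ⟨⟨Complex.I * (Real.sqrt (Real.sqrt 2) : ℂ), by simp [ht0]⟩, ?_⟩
  intro A B C h
  have hz2 : ((⟨Complex.I * (Real.sqrt (Real.sqrt 2) : ℂ), by simp [ht0]⟩ : ℍ) : ℂ) ^ 2
      = -((Real.sqrt 2 : ℝ) : ℂ) := by
    show (Complex.I * (Real.sqrt (Real.sqrt 2) : ℂ)) ^ 2 = _
    rw [mul_pow, Complex.I_sq, ← Complex.ofReal_pow, ht2]
    ring
  rw [hz2] at h
  change (A : ℂ) * -((Real.sqrt 2 : ℝ) : ℂ) + (B : ℂ) * (Complex.I * (Real.sqrt (Real.sqrt 2) : ℂ))
    + (C : ℂ) = 0 at h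
  have hre := congrArg Complex.re h
  have him := congrArg Complex.im h
  simp at hre him
  have hB : B = 0 := him
  have hA : A = 0 := by
    by_contra hA
    have hirr : Irrational ((A : ℝ) * Real.sqrt 2) := irrational_sqrt_two.intCast_mul hA
    exact hirr.ne_int C (by linarith)
  refine ⟨hA, hB, ?_⟩
  rw [hA] at hre
  simpa using hre

/-- Two integral matrices of the same nonzero determinant which induce the same Möbius
image of a non-quadratic point agree up to sign (statement for the bottom rows). -/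
theorem bottom_row_eq_of_nonQuad {z : ℍ} (hz : NonQuad z) (A₁ A₂ A₃ A₄ B₁ B₂ B₃ B₄ D : ℤ)
    (hD : D ≠ 0) (hA : A₁ * A₄ - A₂ * A₃ = D) (hB : B₁ * B₄ - B₂ * B₃ = D)
    (h : ((A₁ : ℂ) * z + A₂) * ((B₃ : ℂ) * z + B₄) = ((B₁ : ℂ) * z + B₂) * ((A₃ : ℂ) * z + A₄)) :
    (A₃ = B₃ ∧ A₄ = B₄) ∨ (A₃ = -B₃ ∧ A₄ = -B₄) := by
  obtain ⟨e₁, e₂, e₃⟩ := hz (A₁ * B₃ - B₁ * A₃) (A₁ * B₄ + A₂ * B₃ - B₁ * A₄ - B₂ * A₃)
    (A₂ * B₄ - B₂ * A₄) (by push_cast; linear_combination h)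
  have hsq : (B₄ * A₁ - B₂ * A₃) ^ 2 = D ^ 2 := by
    linear_combination (B₄ * A₁ - B₂ * A₃) * e₂ - (A₂ * B₄ - A₄ * B₂) * e₁
      + (B₁ * B₄ - B₂ * B₃) * hA + D * hB
  have h3 : D * A₃ = (B₄ * A₁ - B₂ * A₃) * B₃ := by
    linear_combination (-A₃) * hB - B₄ * e₁
  have h4 : D * A₄ = (B₄ * A₁ - B₂ * A₃) * B₄ := by
    linear_combination (-B₄) * e₂ - A₄ * hB + B₃ * e₃
  rcases sq_eq_sq_iff_eq_or_eq_neg.mp hsq with hl | hl
  · left
    rw [hl] at h3 h4
    exact ⟨mul_left_cancel₀ hD h3, mul_left_cancel₀ hD h4⟩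
  · right
    rw [hl] at h3 h4
    exact ⟨mul_left_cancel₀ hD (by linear_combination h3),
      mul_left_cancel₀ hD (by linear_combination h4)⟩

theorem det_eq_one (g : SL(2, ℤ)) : g 0 0 * g 1 1 - g 0 1 * g 1 0 = 1 := by
  have h := g.det_coe
  rwa [Matrix.det_fin_two] at h

theorem denom_ne (g : SL(2, ℤ)) (z : ℍ) : ((g 1 0 : ℤ) : ℂ) * (z : ℂ) + ((g 1 1 : ℤ) : ℂ) ≠ 0 := by
  have h := UpperHalfPlane.denom_ne_zero g z
  rwa [Pts.denom_eq] at h

/-- **Key lemma.** At a non-quadratic point `z`, `j(N·g₁z) = j(N·g₂z)` forces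
`g₂ g₁⁻¹ ∈ Γ₀(N)`. -/
theorem mul_inv_mem_Gamma0 (N : ℕ) [NeZero N] {z : ℍ} (hz : NonQuad z) (g₁ g₂ : SL(2, ℤ))
    (h : jFun (dilPt N (g₁ • z)) = jFun (dilPt N (g₂ • z))) : g₂ * g₁⁻¹ ∈ Gamma0 N := by
  obtain ⟨γ, hγ⟩ := JOrd.jFun_eq_iff.mp h
  have hN : (N : ℤ) ≠ 0 := by exact_mod_cast NeZero.ne N
  have hNc : (N : ℂ) ≠ 0 := by exact_mod_cast NeZero.ne N
  have hu := denom_ne g₁ z
  have hv := denom_ne g₂ z
  have hw := denom_ne γ (dilPt N (g₁ • z))
  have hc : ((γ • dilPt N (g₁ • z) : ℍ) : ℂ) = ((dilPt N (g₂ • z) : ℍ) : ℂ) := by rw [hγ]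
  rw [Pts.coe_smul_eq, coe_dilPt, coe_dilPt, Pts.coe_smul_eq, Pts.coe_smul_eq] at hc
  rw [coe_dilPt, Pts.coe_smul_eq] at hw
  set p : ℤ := γ 0 0
  set q : ℤ := γ 0 1
  set r : ℤ := γ 1 0
  set s : ℤ := γ 1 1
  set a₁ : ℤ := g₁ 0 0
  set b₁ : ℤ := g₁ 0 1
  set c₁ : ℤ := g₁ 1 0
  set d₁ : ℤ := g₁ 1 1
  set a₂ : ℤ := g₂ 0 0
  set b₂ : ℤ := g₂ 0 1
  set c₂ : ℤ := g₂ 1 0
  set d₂ : ℤ := g₂ 1 1
  have h1 : a₁ * d₁ - b₁ * c₁ = 1 := det_eq_one g₁
  have h2 : a₂ * d₂ - b₂ * c₂ = 1 := det_eq_one g₂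
  have h3 : p * s - q * r = 1 := det_eq_one γ
  -- clear denominators
  obtain ⟨u, hud⟩ : ∃ u : ℂ, u = (c₁ : ℂ) * z + d₁ := ⟨_, rfl⟩
  obtain ⟨v, hvd⟩ : ∃ v : ℂ, v = (c₂ : ℂ) * z + d₂ := ⟨_, rfl⟩
  obtain ⟨n₁, hn₁⟩ : ∃ n₁ : ℂ, n₁ = (a₁ : ℂ) * z + b₁ := ⟨_, rfl⟩
  obtain ⟨n₂, hn₂⟩ : ∃ n₂ : ℂ, n₂ = (a₂ : ℂ) * z + b₂ := ⟨_, rfl⟩
  rw [← hud, ← hn₁] at hw hc
  rw [← hvd, ← hn₂] at hc
  rw [← hud] at hu
  rw [← hvd] at hv
  have hw' : (r : ℂ) * N * n₁ + s * u ≠ 0 := by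
    intro h0
    apply hw
    field_simp
    linear_combination h0
  have key0 : ((p : ℂ) * N * n₁ + q * u) * v = N * n₂ * (r * N * n₁ + s * u) := by
    rw [div_eq_iff hw] at hc
    field_simp at hc
    linear_combination hc
  have key : (((p * N * a₁ + q * c₁ : ℤ) : ℂ) * z + ((p * N * b₁ + q * d₁ : ℤ) : ℂ)) *
      (((c₂ : ℤ) : ℂ) * z + ((d₂ : ℤ) : ℂ)) =
      (((N * a₂ : ℤ) : ℂ) * z + ((N * b₂ : ℤ) : ℂ)) *
      (((r * N * a₁ + s * c₁ : ℤ) : ℂ) * z + ((r * N * b₁ + s * d₁ : ℤ) : ℂ)) := by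
    rw [hud, hvd, hn₁, hn₂] at key0
    push_cast
    linear_combination key0
  have hrow := bottom_row_eq_of_nonQuad hz (p * N * a₁ + q * c₁) (p * N * b₁ + q * d₁)
    (r * N * a₁ + s * c₁) (r * N * b₁ + s * d₁) (N * a₂) (N * b₂) c₂ d₂ N hN
    (by linear_combination (N : ℤ) * (a₁ * d₁ - b₁ * c₁) * h3 + (N : ℤ) * h1)
    (by linear_combination (N : ℤ) * h2) key
  rw [Gamma0_mem]
  have hentry : (g₂ * g₁⁻¹) 1 0 = c₂ * d₁ - d₂ * c₁ := by
    have hinv : ((g₁⁻¹ : SL(2, ℤ)) : Matrix (Fin 2) (Fin 2) ℤ) =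
        !![g₁ 1 1, -g₁ 0 1; -g₁ 1 0, g₁ 0 0] := by
      rw [Matrix.SpecialLinearGroup.coe_inv, Matrix.adjugate_fin_two]
    show ((g₂ * g₁⁻¹ : SL(2, ℤ)) : Matrix (Fin 2) (Fin 2) ℤ) 1 0 = _
    rw [Matrix.SpecialLinearGroup.coe_mul, hinv, Matrix.mul_apply, Fin.sum_univ_two]
    simp only [Matrix.of_apply, Matrix.cons_val', Matrix.cons_val_zero, Matrix.cons_val_one,
      Matrix.cons_val_fin_one]
    ring
  rw [hentry, ZMod.intCast_zmod_eq_zero_iff_dvd]
  rcases hrow with ⟨e3, e4⟩ | ⟨e3, e4⟩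
  · exact ⟨r, by linear_combination d₁ * (-e3) + c₁ * e4 + r * N * h1⟩
  · exact ⟨-r, by linear_combination d₁ * e3 - c₁ * e4 - r * N * h1⟩

/-- If `j(N·gz) = j(N·z)` for all `z` then `g ∈ Γ₀(N)`. -/
theorem mem_Gamma0_of_jFun_dil (N : ℕ) [NeZero N] (g : SL(2, ℤ))
    (h : ∀ z : ℍ, jFun (dilPt N (g • z)) = jFun (dilPt N z)) : g ∈ Gamma0 N := by
  obtain ⟨z, hz⟩ := exists_nonQuad
  have h1 := mul_inv_mem_Gamma0 N hz g 1 (by rw [one_smul]; exact h z)
  have h2 := (Gamma0 N).inv_mem h1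
  simpa using h2

/-- At a non-quadratic point the `μ` translates of `j(Nτ)` take pairwise distinct values. -/
theorem trn_dil_jFun_injective_at (N : ℕ) [NeZero N] {z : ℍ} (hz : NonQuad z) :
    Function.Injective (fun q : X N => trn q (dil N jFun) z) := by
  intro q q' h
  simp only [trn_apply, dil_apply] at h
  have h1 := mul_inv_mem_Gamma0 N hz _ _ h
  rw [inv_inv] at h1
  have h2 : ((Quotient.out q' : SL(2, ℤ)) : X N) = ((Quotient.out q : SL(2, ℤ)) : X N) :=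
    QuotientGroup.eq.mpr h1
  have e1 : ((Quotient.out q : SL(2, ℤ)) : X N) = q := Quotient.out_eq' q
  have e2 : ((Quotient.out q' : SL(2, ℤ)) : X N) = q' := Quotient.out_eq' q'
  rw [e1, e2] at h2
  exact h2.symm

theorem exists_point_trn_dil_jFun_injective (N : ℕ) [NeZero N] :
    ∃ τ : ℍ, Function.Injective (fun q : X N => trn q (dil N jFun) τ) := by
  obtain ⟨z, hz⟩ := exists_nonQuad
  exact ⟨z, trn_dil_jFun_injective_at N hz⟩

/-- The `μ` translates of `j(Nτ)` are pairwise distinct functions. -/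
theorem trn_dil_jFun_injective (N : ℕ) [NeZero N] :
    Function.Injective (fun q : X N => trn q (dil N jFun)) := by
  obtain ⟨z, hz⟩ := exists_point_trn_dil_jFun_injective N
  intro q q' h
  exact hz (congrFun h z)

/-! ### Holomorphy -/

theorem mdiff_dil (d : ℕ) [NeZero d] {F : ℍ → ℂ} (hF : MDiff F) : MDiff (dil d F) := by
  rw [UpperHalfPlane.mdifferentiable_iff]
  have hΔ : DifferentiableOn ℂ (F ∘ ofComplex) {z | 0 < z.im} :=
    UpperHalfPlane.mdifferentiable_iff.mp hF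
  have hdpos : (0 : ℝ) < d := Nat.cast_pos.mpr (NeZero.pos d)
  have hmaps : Set.MapsTo (fun z : ℂ => (d : ℂ) * z) {z | 0 < z.im} {z | 0 < z.im} := by
    intro z hz
    have h : ((d : ℂ) * z).im = d * z.im := by simp
    show 0 < ((d : ℂ) * z).im
    rw [h]
    exact mul_pos hdpos hz
  have hcomp : DifferentiableOn ℂ ((F ∘ ofComplex) ∘ fun z : ℂ => (d : ℂ) * z)
      {z | 0 < z.im} := hΔ.comp (by fun_prop) hmaps
  refine hcomp.congr fun z hz => ?_
  have hz' : 0 < ((d : ℂ) * z).im := hmaps hz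
  simp only [Function.comp_apply]
  rw [ofComplex_apply_of_im_pos hz, ofComplex_apply_of_im_pos hz']
  rfl

theorem mdiff_dil_jFun (d : ℕ) [NeZero d] : MDiff (dil d jFun) := mdiff_dil d jFun_mdiff

/-- A finite product of nonzero holomorphic functions on `ℍ` is holomorphic and nonzero. -/
theorem mdiff_prod_ne_zero {κ : Type*} (s : Finset κ) (f : κ → ℍ → ℂ)
    (hf : ∀ i ∈ s, MDiff (f i)) (h0 : ∀ i ∈ s, f i ≠ 0) :
    MDiff (∏ i ∈ s, f i) ∧ ∏ i ∈ s, f i ≠ 0 := by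
  classical
  induction s using Finset.induction_on with
  | empty =>
    refine ⟨?_, ?_⟩
    · rw [Finset.prod_empty]
      exact mdifferentiable_const
    · rw [Finset.prod_empty]
      intro h
      have := congrFun h UpperHalfPlane.I
      simp at this
  | insert a s ha ih =>
    obtain ⟨ih1, ih2⟩ := ih (fun i hi => hf i (Finset.mem_insert_of_mem hi))
      (fun i hi => h0 i (Finset.mem_insert_of_mem hi))
    have hfa := hf a (Finset.mem_insert_self a s)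
    rw [Finset.prod_insert ha]
    refine ⟨hfa.mul ih1, ?_⟩
    intro h
    rcases (UpperHalfPlane.mul_eq_zero_iff hfa ih1).mp h with h | h
    · exact h0 a (Finset.mem_insert_self a s) h
    · exact ih2 h

/-! ### No polynomial of small degree kills a function with distinct translates -/

/-- If the `μ` translates of a holomorphic `F` are pairwise distinct, then no nonzero polynomial
of degree `< μ` over `ℂ[j]` kills `F`. -/
theorem eq_zero_of_translates_distinct (N : ℕ) [NeZero N] {F : ℍ → ℂ} (hF : MDiff F)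
    (hdist : Function.Injective (fun q : X N => trn q F)) (P : ℂ[X][X])
    (hdeg : P.natDegree < Nat.card (X N))
    (h : ∀ τ : ℍ, (P.map (Polynomial.evalRingHom (jFun τ))).eval (F τ) = 0) : P = 0 := by
  classical
  -- the discriminant-like product
  set Disc : ℍ → ℂ := ∏ x ∈ (Finset.univ : Finset (X N)).offDiag, (trn x.1 F - trn x.2 F)
    with hDisc
  have hD := mdiff_prod_ne_zero (Finset.univ : Finset (X N)).offDiag
    (fun x => trn x.1 F - trn x.2 F)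
    (fun x _ => (trn_mdiff x.1 hF).sub (trn_mdiff x.2 hF))
    (fun x hx h0 => by
      have hne : x.1 ≠ x.2 := (Finset.mem_offDiag.mp hx).2.2
      exact hne (hdist (sub_eq_zero.mp h0)))
  -- at points where `Disc ≠ 0`, the specialised polynomial vanishes
  have hpt : ∀ τ : ℍ, Disc τ ≠ 0 → P.map (Polynomial.evalRingHom (jFun τ)) = 0 := by
    intro τ hτ
    have hinj : Function.Injective (fun q : X N => trn q F τ) := by
      intro q q' hq
      by_contra hne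
      apply hτ
      rw [hDisc, Finset.prod_apply]
      refine Finset.prod_eq_zero (i := (q, q')) (Finset.mem_offDiag.mpr ⟨Finset.mem_univ _,
        Finset.mem_univ _, hne⟩) ?_
      simp only [Pi.sub_apply]
      exact sub_eq_zero.mpr hq
    refine Polynomial.eq_zero_of_natDegree_lt_card_of_eval_eq_zero _ hinj (fun q => ?_) ?_
    · have h1 := h ((Quotient.out q)⁻¹ • τ)
      rw [jFun_smul] at h1
      rw [trn_apply]
      exact h1
    · rw [← Nat.card_eq_fintype_card]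
      exact lt_of_le_of_lt Polynomial.natDegree_map_le hdeg
  -- hence every coefficient vanishes
  ext1 k
  rw [Polynomial.coeff_zero]
  apply polyJ_injective
  have hprod : polyJ (P.coeff k) * Disc = 0 := by
    funext τ
    by_cases hτ : Disc τ = 0
    · simp [hτ]
    · have h1 := congrArg (fun R : ℂ[X] => R.coeff k) (hpt τ hτ)
      simp only [Polynomial.coeff_map, Polynomial.coeff_zero, Polynomial.coe_evalRingHom] at h1
      simp [polyJ_apply, h1]
  rcases (UpperHalfPlane.mul_eq_zero_iff (polyJ_mdiff _) hD.1).mp hprod with h1 | h1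
  · rw [h1]
    funext τ
    simp [polyJ_apply]
  · exact absurd h1 hD.2

/-- No nonzero polynomial of degree `< μ` over `ℂ[j]` kills `j(Nτ)` (pointwise form). -/
theorem eq_zero_of_aeval_dil_jFun (N : ℕ) [NeZero N] (P : ℂ[X][X])
    (hdeg : P.natDegree < Nat.card (X N))
    (h : ∀ τ : ℍ, (P.map (Polynomial.evalRingHom (jFun τ))).eval (jFun (dilPt N τ)) = 0) :
    P = 0 :=
  eq_zero_of_translates_distinct N (mdiff_dil_jFun N) (trn_dil_jFun_injective N) P hdeg h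

/-- Pointwise value of a bivariate polynomial evaluated at `(jFun, G)` in the ring of functions. -/
theorem eval₂_aeval_jFun_apply (P : ℂ[X][X]) (G : ℍ → ℂ) (τ : ℍ) :
    (P.eval₂ (Polynomial.aeval jFun : ℂ[X] →ₐ[ℂ] (ℍ → ℂ)).toRingHom G) τ =
      (P.map (Polynomial.evalRingHom (jFun τ))).eval (G τ) := by
  have h1 := Polynomial.hom_eval₂ P (Polynomial.aeval jFun : ℂ[X] →ₐ[ℂ] (ℍ → ℂ)).toRingHom
    (Pi.evalRingHom (fun _ : ℍ => ℂ) τ) G
  have h2 : (Pi.evalRingHom (fun _ : ℍ => ℂ) τ).comp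
      (Polynomial.aeval jFun : ℂ[X] →ₐ[ℂ] (ℍ → ℂ)).toRingHom =
      Polynomial.evalRingHom (jFun τ) := by
    apply Polynomial.ringHom_ext
    · intro a
      simp
    · simp
  rw [h2] at h1
  rw [Polynomial.eval_map]
  exact h1

/-- If the `μ` translates of a holomorphic `F` are pairwise distinct, then no nonzero polynomial
of degree `< μ` over `ℂ[j]` kills `F` (form in the ring of functions). -/
theorem eq_zero_of_eval₂_of_translates_distinct (N : ℕ) [NeZero N] {F : ℍ → ℂ} (hF : MDiff F)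
    (hdist : Function.Injective (fun q : X N => trn q F)) (P : ℂ[X][X])
    (hdeg : P.natDegree < Nat.card (X N))
    (h : P.eval₂ (Polynomial.aeval jFun : ℂ[X] →ₐ[ℂ] (ℍ → ℂ)).toRingHom F = 0) : P = 0 :=
  eq_zero_of_translates_distinct N hF hdist P hdeg (fun τ => by
    rw [← eval₂_aeval_jFun_apply, h]
    rfl)

/-- No nonzero polynomial of degree `< μ` over `ℂ[j]` kills `j(Nτ)` (form in the ring of
functions `ℍ → ℂ`). -/
theorem eq_zero_of_eval₂_dil_jFun (N : ℕ) [NeZero N] (P : ℂ[X][X])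
    (hdeg : P.natDegree < Nat.card (X N))
    (h : P.eval₂ (Polynomial.aeval jFun : ℂ[X] →ₐ[ℂ] (ℍ → ℂ)).toRingHom (dil N jFun) = 0) :
    P = 0 :=
  eq_zero_of_eval₂_of_translates_distinct N (mdiff_dil_jFun N) (trn_dil_jFun_injective N) P hdeg h

theorem aeval_jFun_eq_polyJ (p : ℂ[X]) : Polynomial.aeval jFun p = polyJ p := by
  funext τ
  have h := eval₂_aeval_jFun_apply (Polynomial.C p) 0 τ
  simp only [Polynomial.eval₂_C, Polynomial.map_C, Polynomial.eval_C,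
    Polynomial.coe_evalRingHom] at h
  rw [polyJ_apply]
  exact h

/-- Sum form: if `∑_{k < μ} A_k(j) · j(Nτ)^k = 0` then all `A_k` vanish. -/
theorem eq_zero_of_sum_polyJ_mul_pow (N : ℕ) [NeZero N] (A : ℕ → ℂ[X])
    (h : ∑ k ∈ Finset.range (Nat.card (X N)), polyJ (A k) * dil N jFun ^ k = 0) :
    ∀ k < Nat.card (X N), A k = 0 := by
  classical
  have hμ : 0 < Nat.card (X N) := Nat.card_pos
  set P : ℂ[X][X] := ∑ k ∈ Finset.range (Nat.card (X N)), Polynomial.C (A k) * Polynomial.X ^ k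
    with hP
  have hdeg : P.natDegree < Nat.card (X N) := by
    have h1 : P.natDegree ≤ Nat.card (X N) - 1 := by
      rw [hP]
      refine Polynomial.natDegree_sum_le_of_forall_le _ _ (fun k hk => ?_)
      have hk' := Finset.mem_range.mp hk
      exact (Polynomial.natDegree_C_mul_X_pow_le _ _).trans (by omega)
    omega
  have hev : P.eval₂ (Polynomial.aeval jFun : ℂ[X] →ₐ[ℂ] (ℍ → ℂ)).toRingHom (dil N jFun) = 0 := by
    rw [hP, Polynomial.eval₂_finsetSum, ← h]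
    refine Finset.sum_congr rfl (fun k _ => ?_)
    rw [Polynomial.eval₂_mul, Polynomial.eval₂_C, Polynomial.eval₂_pow, Polynomial.eval₂_X]
    congr 1
    exact aeval_jFun_eq_polyJ (A k)
  have hP0 := eq_zero_of_eval₂_dil_jFun N P hdeg hev
  intro k hk
  have hc : P.coeff k = A k := by
    rw [hP, Polynomial.finsetSum_coeff]
    simp only [Polynomial.coeff_C_mul_X_pow]
    rw [Finset.sum_ite_eq (Finset.range (Nat.card (X N))) k, if_pos (Finset.mem_range.mpr hk)]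
  rw [← hc, hP0, Polynomial.coeff_zero]

end Fermat.Agent.GenusLib.Dist24
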