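import Mathlib
import Fermat.Agent.GenusLib.WHBasic
import Fermat.Agent.GenusLib.JOrd

/-!
# PROJECT X (S20): multiplication by `E₄E₆/Δ`

`f ↦ f * E₄E₆/Δ` identifies `WHlt N 2 m` (weight two) with the functions in `WHlt N 0 (m + 1)`
vanishing at all zeros of `E₄` and of `E₆` (the points over `j = 0` and `j = 1728`).
-/

set_option autoImplicit false
set_option linter.dupNamespace false

noncomputable section

namespace Fermat.Agent.GenusLib.E46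

open UpperHalfPlane hiding I
open Filter Topology
open scoped MatrixGroups ModularForm Manifold
open CongruenceSubgroup ModularForm
open Fermat.Agent.S23Lib Fermat.Agent.S23Lib.Conj
open Fermat.Agent.GenusLib.Defs Fermat.Agent.GenusLib.WHBasic Fermat.Agent.GenusLib

local notation "Δ" => ModularForm.discriminant

/-- `E₄E₆/Δ`: weight `-2`, level one, holomorphic on `ℍ`, simple pole at `i∞`. -/
def E46 : ℍ → ℂ := ⇑E₄ * ⇑E₆ * dpow (-1)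

theorem E46_mem_WHle (N : ℕ) : E46 ∈ WHle N (-2) 1 :=
  WHle_mul' (WHle_mul (levelOne_mem_WHle N E₄) (levelOne_mem_WHle N E₆)) (dpow_mem_WHle N (-1))
    (by norm_num) (by norm_num)

theorem E46_mdiff : MDiff E46 := (E46_mem_WHle 1).1

theorem E46_slash (γ : SL(2, ℤ)) : E46 ∣[(-2 : ℤ)] γ = E46 :=
  (E46_mem_WHle 1).2.1 γ (mem_Gamma0_one γ)

theorem E46_apply (τ : ℍ) : E46 τ = E₄ τ * E₆ τ * dpow (-1) τ := rfl

theorem E46_eq_zero_iff (τ : ℍ) : E46 τ = 0 ↔ E₄ τ = 0 ∨ E₆ τ = 0 := by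
  rw [E46_apply, mul_eq_zero, mul_eq_zero]
  constructor
  · rintro (h | h)
    · exact h
    · exact absurd h (dpow_ne_zero _ _)
  · intro h
    exact Or.inl h

theorem E46_mul_dpow_one : E46 * dpow 1 = ⇑E₄ * ⇑E₆ := by
  rw [E46, mul_assoc, dpow_neg_mul, mul_one]

theorem E46_ne_zero : E46 ≠ 0 := by
  intro h
  have h1 : (⇑E₄ * ⇑E₆ : ℍ → ℂ) = 0 := by rw [← E46_mul_dpow_one, h, zero_mul]
  rcases (UpperHalfPlane.mul_eq_zero_iff JOrd.E₄_mdiff JOrd.E₆_mdiff).mp h1 with h2 | h2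
  · exact JOrd.E₄_ne_zero h2
  · exact JOrd.E₆_ne_zero h2

theorem E4_mul_E6_tendsto : Tendsto ((⇑E₄ * ⇑E₆ : ℍ → ℂ)) atImInfty (𝓝 1) := by
  have h := E4_tendsto.mul E6_tendsto
  rw [mul_one] at h
  exact h

theorem ordAt_E46 (τ : ℍ) :
    Pts.ordAt E46 τ = Pts.ordAt (E₄ : ℍ → ℂ) τ + Pts.ordAt (E₆ : ℍ → ℂ) τ := by
  rw [E46, Pts.ordAt_mul (JOrd.E₄_mdiff.mul JOrd.E₆_mdiff) (dpow_mdiff (-1)),
    Pts.ordAt_mul JOrd.E₄_mdiff JOrd.E₆_mdiff, JOrd.ordAt_dpow, add_zero]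

/-- `E₄E₆/Δ` has at most simple zeros, exactly at the zeros of `E₄` and `E₆`. -/
theorem ordAt_E46_le {b : ℍ → ℂ} (hb : MDiff b)
    (hvan : ∀ τ : ℍ, E₄ τ = 0 ∨ E₆ τ = 0 → b τ = 0) (τ : ℍ) :
    Pts.ordAt E46 τ ≤ Pts.ordAt b τ := by
  have hb1 : ∀ τ : ℍ, E₄ τ = 0 ∨ E₆ τ = 0 → 1 ≤ Pts.ordAt b τ := by
    intro τ h
    rw [Order.one_le_iff_ne_zero]
    intro h0
    exact (Pts.ordAt_eq_zero_iff hb τ).mp h0 (hvan τ h)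
  rw [ordAt_E46]
  by_cases h4 : E₄ τ = 0
  · have h6 : E₆ τ ≠ 0 := fun h6 => JOrd.not_E₄_and_E₆ τ ⟨h4, h6⟩
    rw [JOrd.ordAt_E₄ h4, (Pts.ordAt_eq_zero_iff JOrd.E₆_mdiff τ).mpr h6, add_zero]
    exact hb1 τ (Or.inl h4)
  · by_cases h6 : E₆ τ = 0
    · rw [JOrd.ordAt_E₆ h6, (Pts.ordAt_eq_zero_iff JOrd.E₄_mdiff τ).mpr h4, zero_add]
      exact hb1 τ (Or.inr h6)
    · rw [(Pts.ordAt_eq_zero_iff JOrd.E₄_mdiff τ).mpr h4,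
        (Pts.ordAt_eq_zero_iff JOrd.E₆_mdiff τ).mpr h6, add_zero]
      exact bot_le

section Level

variable {N : ℕ}

theorem mul_E46_mem_WHle {m : ℤ} {f : ℍ → ℂ} (hf : f ∈ WHle N 2 m) :
    f * E46 ∈ WHle N 0 (m + 1) :=
  WHle_mul' hf (E46_mem_WHle N) (by norm_num) rfl

theorem mul_E46_mem_WHlt {m : ℤ} {f : ℍ → ℂ} (hf : f ∈ WHlt N 2 m) :
    f * E46 ∈ WHlt N 0 (m + 1) :=
  WHlt_mul_WHle' hf (E46_mem_WHle N) (by norm_num) rfl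

theorem mul_E46_vanish (f : ℍ → ℂ) {τ : ℍ} (h : E₄ τ = 0 ∨ E₆ τ = 0) : (f * E46) τ = 0 := by
  rw [Pi.mul_apply, (E46_eq_zero_iff τ).mpr h, mul_zero]

theorem mul_E46_cancel {f g : ℍ → ℂ} (hf : MDiff f) (hg : MDiff g) (h : f * E46 = g * E46) :
    f = g := by
  have h1 : (f - g) * E46 = 0 := by rw [sub_mul, h, sub_self]
  rcases (UpperHalfPlane.mul_eq_zero_iff (hf.sub hg) E46_mdiff).mp h1 with h2 | h2
  · exact sub_eq_zero.mp h2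
  · exact absurd h2 E46_ne_zero

theorem slash_mul_E46 (Q : ℍ → ℂ) (γ : SL(2, ℤ)) :
    (Q * E46) ∣[(0 : ℤ)] γ = (Q ∣[(2 : ℤ)] γ) * E46 := by
  have h := ModularForm.mul_slash_SL2 2 (-2) γ Q E46
  rw [E46_slash] at h
  exact h

/-- Division by `E₄E₆/Δ`: the general statement. -/
theorem exists_eq_mul_E46_aux {b : ℍ → ℂ} (hb : MDiff b) (hinv : Inv (Gamma0 N) 0 b)
    (hvan : ∀ τ : ℍ, E₄ τ = 0 ∨ E₆ τ = 0 → b τ = 0) :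
    ∃ f : ℍ → ℂ, MDiff f ∧ Inv (Gamma0 N) 2 f ∧ b = f * E46 := by
  obtain ⟨Q, hQ, hbQ⟩ := Pts.exists_eq_mul_of_ordAt_le hb E46_mdiff (ordAt_E46_le hb hvan)
  refine ⟨Q, hQ, ?_, hbQ⟩
  refine inv_of_mul (w := -2) (k := 2) hQ E46_mdiff E46_ne_zero hbQ.symm
    (fun γ _ => E46_slash γ) ?_
  have h0 : (2 : ℤ) + -2 = 0 := by norm_num
  rw [h0]
  exact hinv

theorem slash_mul_E46_mul_dpow (f : ℍ → ℂ) (m : ℤ) (γ : SL(2, ℤ)) :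
    ((f * E46) ∣[(0 : ℤ)] γ) * dpow (m + 1) = (⇑E₄ * ⇑E₆) * ((f ∣[(2 : ℤ)] γ) * dpow m) := by
  rw [slash_mul_E46, dpow_add, ← E46_mul_dpow_one]
  ring

theorem exists_eq_mul_E46 {m : ℤ} {b : ℍ → ℂ} (hb : b ∈ WHlt N 0 (m + 1))
    (hvan : ∀ τ : ℍ, E₄ τ = 0 ∨ E₆ τ = 0 → b τ = 0) : ∃ f ∈ WHlt N 2 m, b = f * E46 := by
  obtain ⟨f, hf, hfinv, hbf⟩ := exists_eq_mul_E46_aux hb.1 hb.2.1 hvan
  refine ⟨f, ⟨hf, hfinv, fun γ => ?_⟩, hbf⟩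
  have h1 := hb.2.2 γ
  rw [hbf, slash_mul_E46_mul_dpow] at h1
  exact zero_of_mul_zero E4_mul_E6_tendsto h1

theorem exists_eq_mul_E46_le {m : ℤ} {b : ℍ → ℂ} (hb : b ∈ WHle N 0 (m + 1))
    (hvan : ∀ τ : ℍ, E₄ τ = 0 ∨ E₆ τ = 0 → b τ = 0) : ∃ f ∈ WHle N 2 m, b = f * E46 := by
  obtain ⟨f, hf, hfinv, hbf⟩ := exists_eq_mul_E46_aux hb.1 hb.2.1 hvan
  refine ⟨f, ⟨hf, hfinv, fun γ => ?_⟩, hbf⟩
  have h1 := hb.2.2 γ
  rw [hbf, slash_mul_E46_mul_dpow] at h1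
  exact bdd_of_mul_bdd E4_mul_E6_tendsto h1

/-- The functions of `WHlt N 0 (m + 1)` vanishing at the zeros of `E₄` and `E₆`. -/
def subBox (N : ℕ) (m : ℤ) : Submodule ℂ (ℍ → ℂ) where
  carrier := {b | b ∈ WHlt N 0 (m + 1) ∧ ∀ τ : ℍ, E₄ τ = 0 ∨ E₆ τ = 0 → b τ = 0}
  add_mem' := by
    rintro a b ⟨ha, ha0⟩ ⟨hb, hb0⟩
    exact ⟨(WHlt N 0 (m + 1)).add_mem ha hb, fun τ h => by
      rw [Pi.add_apply, ha0 τ h, hb0 τ h, add_zero]⟩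
  zero_mem' := ⟨(WHlt N 0 (m + 1)).zero_mem, fun _ _ => rfl⟩
  smul_mem' := by
    rintro c b ⟨hb, hb0⟩
    exact ⟨(WHlt N 0 (m + 1)).smul_mem c hb, fun τ h => by
      rw [Pi.smul_apply, hb0 τ h, smul_zero]⟩

theorem mem_subBox {m : ℤ} {b : ℍ → ℂ} :
    b ∈ subBox N m ↔ b ∈ WHlt N 0 (m + 1) ∧ ∀ τ : ℍ, E₄ τ = 0 ∨ E₆ τ = 0 → b τ = 0 := Iff.rfl

/-- The same condition in terms of the fibres of `j` over `0` and `1728`. -/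
theorem mem_subBox_iff {m : ℤ} {b : ℍ → ℂ} :
    b ∈ subBox N m ↔ b ∈ WHlt N 0 (m + 1) ∧ (∀ τ : ℍ, jFun τ = 0 → b τ = 0) ∧
      (∀ τ : ℍ, jFun τ = 1728 → b τ = 0) := by
  rw [mem_subBox]
  constructor
  · rintro ⟨h1, h2⟩
    exact ⟨h1, fun τ h => h2 τ (Or.inl ((JOrd.E₄_eq_zero_iff τ).mpr h)),
      fun τ h => h2 τ (Or.inr ((JOrd.E₆_eq_zero_iff τ).mpr h))⟩
  · rintro ⟨h1, h2, h3⟩
    refine ⟨h1, fun τ h => ?_⟩
    rcases h with h | h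
    · exact h2 τ ((JOrd.E₄_eq_zero_iff τ).mp h)
    · exact h3 τ ((JOrd.E₆_eq_zero_iff τ).mp h)

/-- `f ↦ f * E₄E₆/Δ` as a linear map `WHlt N 2 m → subBox N m`. -/
def mulE46 (N : ℕ) (m : ℤ) : WHlt N 2 m →ₗ[ℂ] subBox N m where
  toFun f := ⟨f.1 * E46, mul_E46_mem_WHlt f.2, fun _ h => mul_E46_vanish f.1 h⟩
  map_add' _ _ := Subtype.ext (add_mul _ _ _)
  map_smul' _ _ := Subtype.ext (smul_mul_assoc _ _ _)

theorem mulE46_bijective (N : ℕ) (m : ℤ) : Function.Bijective (mulE46 N m) := by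
  constructor
  · intro f g h
    apply Subtype.ext
    exact mul_E46_cancel f.2.1 g.2.1 (congrArg Subtype.val h)
  · rintro ⟨b, hb, hvan⟩
    obtain ⟨f, hf, hbf⟩ := exists_eq_mul_E46 hb hvan
    exact ⟨⟨f, hf⟩, Subtype.ext hbf.symm⟩

/-- `WHlt N 2 m ≃ subBox N m`. -/
def mulE46Equiv (N : ℕ) (m : ℤ) : WHlt N 2 m ≃ₗ[ℂ] subBox N m :=
  LinearEquiv.ofBijective (mulE46 N m) (mulE46_bijective N m)

theorem finrank_subBox (N : ℕ) (m : ℤ) :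
    Module.finrank ℂ (subBox N m) = Module.finrank ℂ (WHlt N 2 m) :=
  (mulE46Equiv N m).finrank_eq.symm

theorem subBox_le (N : ℕ) (m : ℤ) : subBox N m ≤ WHlt N 0 (m + 1) := fun _ h => h.1

end Level

end Fermat.Agent.GenusLib.E46
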