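import Mathlib

/-!
# PROJECT Z (S21, Eichler–Shimura): the maximum principle on `X₀(N)`

`const_of_invariant_re` : a holomorphic function on the upper half plane whose real part is
invariant under `Γ₀(N)` and which has a limit at every cusp is constant.
-/

set_option autoImplicit false

noncomputable section

namespace Fermat.Agent.GenusLib.ES

open UpperHalfPlane hiding I
open Filter Topology Complex Function
open scoped Real MatrixGroups ModularForm Manifold
open CongruenceSubgroup Matrix.SpecialLinearGroup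

/-- If the real part of a holomorphic function on `ℍ` attains its maximum, the function is
constant (maximum modulus principle for `exp ∘ G`). -/
theorem eq_of_isMax_re {G : ℍ → ℂ} (hG : MDiff G) (z₀ : ℍ)
    (hmax : ∀ z, (G z).re ≤ (G z₀).re) : ∀ z, G z = G z₀ := by
  set U : Set ℂ := {z : ℂ | 0 < z.im} with hU
  have hUo : IsOpen U := isOpen_upperHalfPlaneSet
  have hUc : IsPreconnected U := (convex_halfSpace_im_gt 0).isPreconnected
  set g : ℂ → ℂ := G ∘ ofComplex with hg
  have hgd : DifferentiableOn ℂ g U := UpperHalfPlane.mdifferentiable_iff.mp hG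
  set E : ℂ → ℂ := fun z => cexp (g z) with hE
  have hEd : DifferentiableOn ℂ E U := fun z hz => (hgd z hz).cexp
  have hz₀ : (z₀ : ℂ) ∈ U := z₀.im_pos
  have hm : IsMaxOn (norm ∘ E) U (z₀ : ℂ) := by
    intro z _
    simp only [comp_apply, hE, hg, Complex.norm_exp, ofComplex_apply]
    exact Real.exp_le_exp.mpr (hmax _)
  have hconst := Complex.eqOn_of_isPreconnected_of_isMaxOn_norm hUc hUo hEd hz₀ hm
  have hderiv : U.EqOn (deriv g) 0 := by
    intro z hz
    have hzU : U ∈ 𝓝 z := hUo.mem_nhds hz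
    have h1 : HasDerivAt E (cexp (g z) * deriv g z) z :=
      ((hgd z hz).differentiableAt hzU).hasDerivAt.cexp
    have h2 : HasDerivAt E 0 z := by
      refine (hasDerivAt_const z (E (z₀ : ℂ))).congr_of_eventuallyEq ?_
      filter_upwards [hzU] with x hx
      exact hconst hx
    have h3 := h1.unique h2
    rcases mul_eq_zero.mp h3 with h | h
    · exact absurd h (Complex.exp_ne_zero _)
    · exact h
  intro z
  have := hUo.is_const_of_deriv_eq_zero hUc hgd hderiv z.im_pos z₀.im_pos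
  simpa [hg] using this

theorem det_mapGL_pos' (δ : SL(2, ℤ)) : 0 < (mapGL ℝ δ : GL (Fin 2) ℝ).det.val := by
  rw [Matrix.SpecialLinearGroup.det_mapGL]
  exact one_pos

/-- Composition with the action of an element of `SL(2, ℤ)` preserves holomorphy. -/
theorem mdiff_comp_smul {G : ℍ → ℂ} (hG : MDiff G) (δ : SL(2, ℤ)) :
    MDiff (fun w : ℍ => G (δ • w)) :=
  hG.comp (mdifferentiable_smul (det_mapGL_pos' δ))

/-- Composition with a real translation preserves holomorphy. -/
theorem mdiff_comp_vadd {G : ℍ → ℂ} (hG : MDiff G) (h : ℝ) :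
    MDiff (fun w : ℍ => G (h +ᵥ w)) := by
  rw [UpperHalfPlane.mdifferentiable_iff] at hG ⊢
  intro z hz
  have hz' : 0 < (z + h).im := by simpa using hz
  have h1 : DifferentiableAt ℂ (G ∘ ofComplex) (z + h) :=
    (hG _ hz').differentiableAt (isOpen_upperHalfPlaneSet.mem_nhds hz')
  have h2 : DifferentiableAt ℂ ((G ∘ ofComplex) ∘ fun x : ℂ => x + (h : ℂ)) z :=
    DifferentiableAt.comp z h1 (differentiableAt_id.add_const (h : ℂ))
  refine (h2.congr_of_eventuallyEq ?_).differentiableWithinAt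
  filter_upwards [isOpen_upperHalfPlaneSet.mem_nhds hz] with x hx
  have hx' : 0 < (x + h).im := by simpa using hx
  simp only [comp_apply, ofComplex_apply_of_im_pos hx, ofComplex_apply_of_im_pos hx']
  congr 1
  ext
  simp [add_comm]

theorem tendsto_vadd_atImInfty (h : ℝ) : Tendsto (fun w : ℍ => h +ᵥ w) atImInfty atImInfty := by
  rw [atImInfty, tendsto_comap_iff]
  have : (UpperHalfPlane.im ∘ fun w : ℍ => h +ᵥ w) = UpperHalfPlane.im := by
    funext w
    simp [vadd_im]
  rw [this]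
  exact tendsto_comap

/-- A holomorphic function with a limit at `i∞` whose real part is `h`-periodic is
`h`-periodic. -/
theorem periodic_of_re {G : ℍ → ℂ} (hG : MDiff G) (h : ℝ)
    (hre : ∀ w : ℍ, (G (h +ᵥ w)).re = (G w).re) {L : ℂ}
    (hlim : Tendsto G atImInfty (𝓝 L)) : ∀ w : ℍ, G (h +ᵥ w) = G w := by
  set H : ℍ → ℂ := fun w => G (h +ᵥ w) - G w with hH
  have hHd : MDiff H := (mdiff_comp_vadd hG h).sub hG
  have hH0 : ∀ w, (H w).re = 0 := fun w => by simp [hH, hre w]
  have hHc : ∀ w, H w = H UpperHalfPlane.I :=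
    eq_of_isMax_re hHd UpperHalfPlane.I (fun w => by rw [hH0, hH0])
  have hHlim : Tendsto H atImInfty (𝓝 (L - L)) :=
    (hlim.comp (tendsto_vadd_atImInfty h)).sub hlim
  rw [sub_self] at hHlim
  have hHI : H UpperHalfPlane.I = 0 := by
    have h1 : Tendsto H atImInfty (𝓝 (H UpperHalfPlane.I)) := by
      have : H = fun _ => H UpperHalfPlane.I := funext hHc
      rw [this]
      exact tendsto_const_nhds
    exact tendsto_nhds_unique h1 hHlim
  intro w
  have := hHc w
  rw [hHI] at this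
  exact sub_eq_zero.mp this

theorem re_invQParam (h : ℝ) (q : ℂ) : (Periodic.invQParam h q).re = h / (2 * π) * q.arg := by
  simp only [Periodic.invQParam, ← div_div, div_I, neg_mul, neg_re, mul_re, mul_im, div_ofReal_re,
    div_ofNat_re, ofReal_re, Complex.I_re, mul_zero, div_ofReal_im, div_ofNat_im, ofReal_im,
    zero_div, Complex.I_im, mul_one, sub_self, zero_mul, add_zero, log_re, log_im, neg_neg,
    zero_sub]

/-- Periodicity on `ℍ` gives periodicity of the extension by `ofComplex`. -/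
theorem periodic_comp_ofComplex {F : ℍ → ℂ} {h : ℝ} (hper : ∀ w : ℍ, F (h +ᵥ w) = F w) :
    Periodic (F ∘ ofComplex) (h : ℂ) := by
  intro w
  by_cases hw : 0 < w.im
  · have hw' : 0 < (w + h).im := by simpa using hw
    simp only [comp_apply, ofComplex_apply_of_im_pos hw', ofComplex_apply_of_im_pos hw]
    rw [← hper ⟨w, hw⟩]
    congr 1
    ext
    simp [add_comm]
  · have hw0 : w.im ≤ 0 := not_lt.mp hw
    have hw' : (w + h).im ≤ 0 := by simpa using hw0
    simp only [comp_apply]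
    rw [ofComplex_apply_eq_of_im_nonpos hw' hw0]

/-- **Maximum principle at a cusp.** For a holomorphic `h`-periodic function with a limit at
`i∞`, the supremum of the real part over `{Y ≤ im w}` is attained at a point with `im w = Y` and
`|re w| ≤ h / 2`. -/
theorem exists_max_above {F : ℍ → ℂ} (hF : MDiff F) {h : ℝ} (hh : 0 < h)
    (hper : ∀ w : ℍ, F (h +ᵥ w) = F w) {L : ℂ} (hlim : Tendsto F atImInfty (𝓝 L))
    {Y : ℝ} (hY : 0 < Y) :
    ∃ w₀ : ℍ, w₀.im = Y ∧ |w₀.re| ≤ h / 2 ∧ ∀ w : ℍ, Y ≤ w.im → (F w).re ≤ (F w₀).re := by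
  have hper' : Periodic (F ∘ ofComplex) (h : ℂ) := periodic_comp_ofComplex hper
  have hbdd : IsBoundedAtImInfty F := hlim.isBigO_one ℝ
  set g : ℂ → ℂ := cuspFunction h F with hg
  have hgd : DifferentiableOn ℂ g (Metric.ball 0 1) :=
    differentiableOn_cuspFunction_ball hh hper' hF hbdd
  set r : ℝ := Real.exp (-2 * π * Y / h) with hr
  have hr0 : 0 < r := Real.exp_pos _
  have hr1 : r < 1 := by
    have h1 : 0 < 2 * π * Y / h := by positivity
    have h2 : -2 * π * Y / h = -(2 * π * Y / h) := by ring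
    calc r < Real.exp 0 := Real.exp_lt_exp.mpr (by rw [h2]; linarith)
      _ = 1 := Real.exp_zero
  set E : ℂ → ℂ := fun q => cexp (g q) with hE
  have hEd : DifferentiableOn ℂ E (Metric.ball 0 1) := fun q hq => (hgd q hq).cexp
  have hsub : Metric.closedBall (0 : ℂ) r ⊆ Metric.ball 0 1 := Metric.closedBall_subset_ball hr1
  have hdc : DiffContOnCl ℂ E (Metric.ball 0 r) := hEd.diffContOnCl_ball hsub
  obtain ⟨q₀, hq₀, hmax⟩ := Complex.exists_mem_frontier_isMaxOn_norm Metric.isBounded_ball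
    ⟨0, Metric.mem_ball_self hr0⟩ hdc
  rw [frontier_ball _ hr0.ne', mem_sphere_zero_iff_norm] at hq₀
  rw [closure_ball _ hr0.ne'] at hmax
  have hq₀0 : q₀ ≠ 0 := by
    intro h0
    rw [h0, norm_zero] at hq₀
    exact hr0.ne hq₀
  have him : (Periodic.invQParam h q₀).im = Y := by
    rw [Periodic.im_invQParam, hq₀, hr, Real.log_exp]
    field_simp
  have hre : |(Periodic.invQParam h q₀).re| ≤ h / 2 := by
    rw [re_invQParam, abs_mul, abs_of_pos (by positivity : 0 < h / (2 * π))]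
    calc h / (2 * π) * |q₀.arg| ≤ h / (2 * π) * π := by
          gcongr
          exact Complex.abs_arg_le_pi q₀
      _ = h / 2 := by field_simp
  have him' : 0 < (Periodic.invQParam h q₀).im := by rw [him]; exact hY
  refine ⟨⟨Periodic.invQParam h q₀, him'⟩, him, hre, fun w hw => ?_⟩
  have hFw₀ : F ⟨Periodic.invQParam h q₀, him'⟩ = g q₀ := by
    have h1 := eq_cuspFunction (f := F) ⟨Periodic.invQParam h q₀, him'⟩ hh.ne' hper'
    rw [← h1]
    show g _ = g _
    congr 1
    exact Periodic.qParam_right_inv hh.ne' hq₀0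
  have hFw : F w = g (Periodic.qParam h w) := (eq_cuspFunction (f := F) w hh.ne' hper').symm
  have hqw : Periodic.qParam h w ∈ Metric.closedBall (0 : ℂ) r := by
    rw [mem_closedBall_zero_iff, Periodic.norm_qParam, hr]
    apply Real.exp_le_exp.mpr
    have h1 : -2 * π * (w : ℂ).im / h = -(2 * π / h) * w.im := by
      rw [UpperHalfPlane.coe_im]; ring
    have h2 : -2 * π * Y / h = -(2 * π / h) * Y := by ring
    rw [h1, h2]
    have : 0 < 2 * π / h := by positivity
    nlinarith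
  have := hmax hqw
  simp only [comp_apply, hE, Complex.norm_exp] at this
  rw [hFw, hFw₀]
  exact Real.exp_le_exp.mp this

theorem conj_T_pow_mem_Gamma0 (N : ℕ) (δ : SL(2, ℤ)) :
    δ * ModularGroup.T ^ (N : ℤ) * δ⁻¹ ∈ Gamma0 N := by
  have h1 : ModularGroup.T ^ (N : ℤ) ∈ CongruenceSubgroup.Gamma N := by
    rw [CongruenceSubgroup.Gamma_mem, ModularGroup.coe_T_zpow]
    simp
  have h2 := (CongruenceSubgroup.Gamma_normal N).conj_mem _ h1 δ
  rw [Gamma0_mem]
  exact (CongruenceSubgroup.Gamma_mem.mp h2).2.2.1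

/-- **The maximum principle on `X₀(N)`.** A holomorphic function on `ℍ` whose real part is
`Γ₀(N)`-invariant and which has limits at all cusps is constant. -/
theorem const_of_invariant_re (N : ℕ) [NeZero N] (G : ℍ → ℂ) (hG : MDiff G)
    (hinv : ∀ γ ∈ Gamma0 N, ∀ z : ℍ, (G (γ • z)).re = (G z).re)
    (hlim : ∀ δ : SL(2, ℤ), ∃ L : ℂ, Tendsto (fun w : ℍ => G (δ • w)) atImInfty (𝓝 L)) :
    ∀ z : ℍ, G z = G UpperHalfPlane.I := by
  have hN1 : (1 : ℝ) ≤ N := by exact_mod_cast NeZero.one_le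
  have hN : (0 : ℝ) < N := lt_of_lt_of_le one_pos hN1
  -- the translates are holomorphic and `N`-periodic
  have hGδ : ∀ δ : SL(2, ℤ), MDiff (fun w : ℍ => G (δ • w)) := fun δ => mdiff_comp_smul hG δ
  have hper : ∀ (δ : SL(2, ℤ)) (w : ℍ), G (δ • ((N : ℝ) +ᵥ w)) = G (δ • w) := by
    intro δ
    obtain ⟨L, hL⟩ := hlim δ
    refine periodic_of_re (hGδ δ) (N : ℝ) (fun w => ?_) hL
    have h1 : (N : ℝ) +ᵥ w = ModularGroup.T ^ (N : ℤ) • w := by
      rw [UpperHalfPlane.modular_T_zpow_smul]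
      simp
    have h2 : δ • (ModularGroup.T ^ (N : ℤ) • w)
        = (δ * ModularGroup.T ^ (N : ℤ) * δ⁻¹) • (δ • w) := by
      simp [mul_smul]
    rw [h1, h2]
    exact hinv _ (conj_T_pow_mem_Gamma0 N δ) _
  -- the compact set
  set K : Set ℂ := (Set.Icc (-(N : ℝ) / 2) ((N : ℝ) / 2)) ×ℂ (Set.Icc (1 / 2 : ℝ) 1) with hK
  have hKc : IsCompact K := isCompact_Icc.reProdIm isCompact_Icc
  have hKU : ∀ z ∈ K, 0 < z.im := fun z hz => by
    have := (Complex.mem_reProdIm.mp hz).2.1
    linarith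
  have hKne : K.Nonempty := by
    refine ⟨Complex.I, Complex.mem_reProdIm.mpr ⟨?_, ?_⟩⟩
    · simp only [Complex.I_re, Set.mem_Icc]
      constructor <;> linarith
    · simp only [Complex.I_im, Set.mem_Icc]
      constructor <;> norm_num
  -- for each `δ` a maximiser on `K`
  have hmaxK : ∀ δ : SL(2, ℤ), ∃ m : ℍ, ∀ w : ℍ, (w : ℂ) ∈ K →
      (G (δ • w)).re ≤ (G (δ • m)).re := by
    intro δ
    have h1 : DifferentiableOn ℂ ((fun w : ℍ => G (δ • w)) ∘ ofComplex) {z : ℂ | 0 < z.im} :=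
      UpperHalfPlane.mdifferentiable_iff.mp (hGδ δ)
    have hcont : ContinuousOn (fun z : ℂ => (((fun w : ℍ => G (δ • w)) ∘ ofComplex) z).re) K :=
      Complex.continuous_re.comp_continuousOn (h1.continuousOn.mono hKU)
    obtain ⟨m, hmK, hm⟩ := hKc.exists_isMaxOn hKne hcont
    refine ⟨⟨m, hKU m hmK⟩, fun w hw => ?_⟩
    have h2 : (((fun w : ℍ => G (δ • w)) ∘ ofComplex) (w : ℂ)).re
        ≤ (((fun w : ℍ => G (δ • w)) ∘ ofComplex) m).re := hm hw
    simp only [comp_apply, ofComplex_apply, ofComplex_apply_of_im_pos (hKU m hmK)] at h2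
    exact h2
  -- points of the fundamental domain are dominated by points of `K`
  have hfd : ∀ (δ : SL(2, ℤ)) (w : ℍ), w ∈ ModularGroup.fd →
      ∃ w₀ : ℍ, (w₀ : ℂ) ∈ K ∧ (G (δ • w)).re ≤ (G (δ • w₀)).re := by
    intro δ w hw
    by_cases hw1 : w.im ≤ 1
    · refine ⟨w, Complex.mem_reProdIm.mpr ⟨?_, ?_⟩, le_rfl⟩
      · have h2 : |w.re| ≤ 1 / 2 := hw.2
        rw [abs_le] at h2
        rw [UpperHalfPlane.coe_re, Set.mem_Icc]
        constructor <;> linarith [h2.1, h2.2]
      · have h1 : 1 ≤ Complex.normSq (w : ℂ) := hw.1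
        have h2 : |w.re| ≤ 1 / 2 := hw.2
        rw [abs_le] at h2
        rw [Complex.normSq_apply, UpperHalfPlane.coe_re, UpperHalfPlane.coe_im] at h1
        rw [UpperHalfPlane.coe_im, Set.mem_Icc]
        refine ⟨?_, hw1⟩
        have hpos := w.im_pos
        by_contra hcon
        rw [not_le] at hcon
        nlinarith [h2.1, h2.2]
    · obtain ⟨L, hL⟩ := hlim δ
      obtain ⟨w₀, h1, h2, h3⟩ := exists_max_above (hGδ δ) hN (hper δ) hL one_pos
      refine ⟨w₀, Complex.mem_reProdIm.mpr ⟨?_, ?_⟩, h3 w (le_of_lt (not_le.mp hw1))⟩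
      · rw [abs_le] at h2
        rw [UpperHalfPlane.coe_re, Set.mem_Icc]
        constructor <;> linarith [h2.1, h2.2]
      · rw [UpperHalfPlane.coe_im, h1, Set.mem_Icc]
        constructor <;> norm_num
  choose m hm using hmaxK
  -- finite maximum over the cosets
  obtain ⟨q₀, hq₀⟩ := Finite.exists_max
    (fun q : SL(2, ℤ) ⧸ Gamma0 N => (G ((Quotient.out q)⁻¹ • m (Quotient.out q)⁻¹)).re)
  have key : ∀ z, (G z).re ≤ (G ((Quotient.out q₀)⁻¹ • m (Quotient.out q₀)⁻¹)).re := by
    intro z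
    obtain ⟨g, hg⟩ := ModularGroup.exists_smul_mem_fd z
    obtain ⟨γ₀, hγ₀⟩ := QuotientGroup.mk_out_eq_mul (Gamma0 N) g
    have hz : z = (γ₀ : SL(2, ℤ)) •
        ((Quotient.out (g : SL(2, ℤ) ⧸ Gamma0 N))⁻¹ • (g • z)) := by
      rw [hγ₀]
      simp [mul_smul]
    obtain ⟨w₀, hw₀K, hw₀⟩ := hfd (Quotient.out (g : SL(2, ℤ) ⧸ Gamma0 N))⁻¹ (g • z) hg
    calc (G z).re
        = (G ((Quotient.out (g : SL(2, ℤ) ⧸ Gamma0 N))⁻¹ • (g • z))).re := by
          conv_lhs => rw [hz]
          exact hinv _ γ₀.2 _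
      _ ≤ (G ((Quotient.out (g : SL(2, ℤ) ⧸ Gamma0 N))⁻¹ • w₀)).re := hw₀
      _ ≤ _ := hm _ w₀ hw₀K
      _ ≤ _ := hq₀ (g : SL(2, ℤ) ⧸ Gamma0 N)
  have h1 := eq_of_isMax_re hG _ key
  intro z
  rw [h1 z, h1 UpperHalfPlane.I]

end Fermat.Agent.GenusLib.ES
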