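import Mathlib
import Fermat.Prelude.Def_ModularCurve_PeriodHomPair
import Fermat.Agent.S22Lib.Sep

/-!
# PROJECT Z (S21, Eichler–Shimura), leaf [ES-A1]: the canonical primitive of a weight 2 cusp
form on `Γ₀(N)` and its periods

`prim f` is the primitive of `f` vanishing at `i∞`; `per f γ = prim f (γ • i) - prim f i`.
The prelude's `periodMap N f` is `γ ↦ per f γ`, it is linear in `f`, and `periodHomPair` is
computed explicitly.
-/

set_option autoImplicit false

noncomputable section

namespace Fermat.Agent.GenusLib.ES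

open UpperHalfPlane hiding I
open Filter Topology Complex
open scoped Real MatrixGroups ModularForm Manifold
open CongruenceSubgroup ModularCurve ModularCurve.Period
open Fermat.Agent.S22Lib Matrix.SpecialLinearGroup

variable {N : ℕ} [NeZero N]

/-- The canonical primitive of a weight `2` cusp form (vanishing at `i∞`). -/
def prim (f : CuspForm (Gamma0 N) 2) : ℍ → ℂ := Fermat.Agent.S22Lib.primI 1 (⇑f)

theorem prim_cp (f : CuspForm (Gamma0 N) 2) : CP 1 (prim f) := primI_cp one_pos (cp_cusp f)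

theorem prim_mdiff (f : CuspForm (Gamma0 N) 2) : MDiff (prim f) := (prim_cp f).hol

theorem prim_hasDerivAt (f : CuspForm (Gamma0 N) 2) (τ : ℍ) :
    HasDerivAt (prim f ∘ ofComplex) (f τ) τ := primI_deriv one_pos (cp_cusp f) τ

theorem prim_tendsto (f : CuspForm (Gamma0 N) 2) : Tendsto (prim f) atImInfty (𝓝 0) :=
  (prim_cp f).zero

/-- Chain rule: a primitive of `f` composed with `δ` is a primitive of `f ∣[2] δ`. -/
theorem hasDerivAt_comp_smul {f F : ℍ → ℂ} (hF : ∀ τ : ℍ, HasDerivAt (F ∘ ofComplex) (f τ) τ)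
    (δ : SL(2, ℤ)) (τ : ℍ) :
    HasDerivAt ((fun w : ℍ => F (δ • w)) ∘ ofComplex)
      ((f ∣[(2 : ℤ)] (mapGL ℝ δ : GL (Fin 2) ℝ)) τ) τ := by
  have h0 : PrimOf f 0 (fun τ _ _ => F τ) := by
    intro x y τ
    have h := hF τ
    simp only [pow_zero, mul_one]
    exact h
  have h1 := h0.mv (det_mapGL_pos δ)
  have h2 := h1 0 0 τ
  simp only [pow_zero, mul_one] at h2
  have hk : ((0 : ℕ) : ℤ) + 2 = 2 := by norm_num
  rw [hk] at h2
  exact h2

/-- `prim f ∘ γ - prim f` is constant for `γ ∈ Γ₀(N)`. -/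
theorem prim_smul_sub (f : CuspForm (Gamma0 N) 2) {γ : SL(2, ℤ)} (hγ : γ ∈ Gamma0 N) (z z' : ℍ) :
    prim f (γ • z) - prim f z = prim f (γ • z') - prim f z' := by
  have h1 : ∀ τ : ℍ, HasDerivAt ((fun w : ℍ => prim f (γ • w)) ∘ ofComplex) (f τ) τ := by
    intro τ
    have := hasDerivAt_comp_smul (prim_hasDerivAt f) γ τ
    rwa [slash_eq_of_mem f hγ] at this
  exact const_of_hasDerivAt h1 (prim_hasDerivAt f) z z'

/-- limits at all cusps -/
theorem prim_tendsto_smul (f : CuspForm (Gamma0 N) 2) (δ : SL(2, ℤ)) :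
    ∃ L : ℂ, Tendsto (fun w : ℍ => prim f (δ • w)) atImInfty (𝓝 L) := by
  obtain ⟨M, hM, hper⟩ := Sep.exists_period N
  have hM' : (0 : ℝ) < M := by exact_mod_cast hM
  set fδ : ℍ → ℂ := ⇑f ∣[(2 : ℤ)] (mapGL ℝ δ : GL (Fin 2) ℝ) with hfδ
  have hcp : CP M fδ := Sep.cp_translate f δ (hper δ)
  have h1 : ∀ τ : ℍ, HasDerivAt ((fun w : ℍ => prim f (δ • w)) ∘ ofComplex) (fδ τ) τ :=
    fun τ => hasDerivAt_comp_smul (prim_hasDerivAt f) δ τ
  have h2 : ∀ τ : ℍ, HasDerivAt (primI M fδ ∘ ofComplex) (fδ τ) τ := primI_deriv hM' hcp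
  have hc := fun τ => const_of_hasDerivAt h1 h2 τ UpperHalfPlane.I
  refine ⟨prim f (δ • UpperHalfPlane.I) - primI M fδ UpperHalfPlane.I, ?_⟩
  have h3 : Tendsto (primI M fδ) atImInfty (𝓝 0) := (primI_cp hM' hcp).zero
  have h4 : (fun w : ℍ => prim f (δ • w)) = fun w =>
      primI M fδ w + (prim f (δ • UpperHalfPlane.I) - primI M fδ UpperHalfPlane.I) := by
    funext w
    have := hc w
    linear_combination this
  rw [h4]
  simpa using h3.add_const (prim f (δ • UpperHalfPlane.I) - primI M fδ UpperHalfPlane.I)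

theorem hasEquivariantPrimitive_prim (f : CuspForm (Gamma0 N) 2) :
    HasEquivariantPrimitive N f (prim f) :=
  ⟨prim_hasDerivAt f, prim_tendsto f,
    fun γ => ⟨prim f ((γ : SL(2, ℤ)) • UpperHalfPlane.I) - prim f UpperHalfPlane.I,
      fun z => prim_smul_sub f γ.2 z UpperHalfPlane.I⟩,
    prim_tendsto_smul f⟩

theorem tendsto_axis : Tendsto (fun t : ℝ => ofComplex (t * I)) atTop atImInfty := by
  have := tendsto_vert 0
  simpa using this

theorem eq_prim {f : CuspForm (Gamma0 N) 2} {F : ℍ → ℂ} (hF : HasEquivariantPrimitive N f F) :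
    F = prim f := by
  refine eq_of_hasDerivAt_of_tendsto hF.1 (prim_hasDerivAt f) ?_
  have h1 := (hF.2.1.comp tendsto_axis).sub ((prim_tendsto f).comp tendsto_axis)
  simpa using h1

theorem prim_add (f g : CuspForm (Gamma0 N) 2) : prim (f + g) = prim f + prim g := by
  refine eq_of_hasDerivAt_of_tendsto (d := ⇑(f + g)) (prim_hasDerivAt (f + g)) (fun τ => ?_) ?_
  · exact (prim_hasDerivAt f τ).add (prim_hasDerivAt g τ)
  · have h1 := ((prim_tendsto (f + g)).comp tendsto_axis).sub
      (((prim_tendsto f).comp tendsto_axis).add ((prim_tendsto g).comp tendsto_axis))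
    simpa using h1

theorem prim_smul (c : ℂ) (f : CuspForm (Gamma0 N) 2) : prim (c • f) = c • prim f := by
  refine eq_of_hasDerivAt_of_tendsto (d := ⇑(c • f)) (prim_hasDerivAt (c • f)) (fun τ => ?_) ?_
  · exact (prim_hasDerivAt f τ).const_smul c
  · have h1 := ((prim_tendsto (c • f)).comp tendsto_axis).sub
      (((prim_tendsto f).comp tendsto_axis).const_smul c)
    simpa using h1

/-- If the primitive is constant, the form vanishes. -/
theorem eq_zero_of_prim_const (f : CuspForm (Gamma0 N) 2)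
    (h : ∀ z, prim f z = prim f UpperHalfPlane.I) : f = 0 := by
  refine DFunLike.ext _ _ fun τ => ?_
  have h1 := prim_hasDerivAt f τ
  have h2 : prim f ∘ ofComplex = fun _ => prim f UpperHalfPlane.I := by
    funext z
    exact h _
  rw [h2] at h1
  exact h1.unique (hasDerivAt_const _ _)

/-- The period of `f` along `γ`. -/
def per (f : CuspForm (Gamma0 N) 2) (γ : SL(2, ℤ)) : ℂ :=
  prim f (γ • UpperHalfPlane.I) - prim f UpperHalfPlane.I

theorem prim_smul_eq (f : CuspForm (Gamma0 N) 2) {γ : SL(2, ℤ)} (hγ : γ ∈ Gamma0 N) (z : ℍ) :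
    prim f (γ • z) = prim f z + per f γ := by
  have := prim_smul_sub f hγ z UpperHalfPlane.I
  unfold per
  linear_combination this

theorem periodMap_apply (f : CuspForm (Gamma0 N) 2) (γ : Gamma0 N) :
    periodMap N f (Additive.ofMul γ) = per f γ := by
  obtain ⟨F₀, h₀, hpm⟩ := periodMap_def N f (hasEquivariantPrimitive_prim f)
  have hF : F₀ = prim f := eq_prim h₀
  subst hF
  rw [hpm]
  rfl

theorem per_add (f g : CuspForm (Gamma0 N) 2) (γ : SL(2, ℤ)) :
    per (f + g) γ = per f γ + per g γ := by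
  unfold per
  rw [prim_add]
  simp only [Pi.add_apply]
  ring

theorem per_smul (c : ℂ) (f : CuspForm (Gamma0 N) 2) (γ : SL(2, ℤ)) :
    per (c • f) γ = c * per f γ := by
  unfold per
  rw [prim_smul]
  simp only [Pi.smul_apply, smul_eq_mul]
  ring

/-- The period map as a linear map. -/
def periodLin (N : ℕ) [NeZero N] : CuspForm (Gamma0 N) 2 →ₗ[ℂ] (Additive (Gamma0 N) →+ ℂ) where
  toFun f := periodMap N f
  map_add' f g := by
    refine AddMonoidHom.ext fun γ => ?_
    have h1 := periodMap_apply (f + g) (Additive.toMul γ)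
    have h2 := periodMap_apply f (Additive.toMul γ)
    have h3 := periodMap_apply g (Additive.toMul γ)
    rw [ofMul_toMul] at h1 h2 h3
    rw [AddMonoidHom.add_apply, h1, h2, h3, per_add]
  map_smul' c f := by
    refine AddMonoidHom.ext fun γ => ?_
    have h1 := periodMap_apply (c • f) (Additive.toMul γ)
    have h2 := periodMap_apply f (Additive.toMul γ)
    rw [ofMul_toMul] at h1 h2
    rw [RingHom.id_apply, AddMonoidHom.smul_apply, h1, h2, per_smul, smul_eq_mul]

theorem periodLin_apply (f : CuspForm (Gamma0 N) 2) : periodLin N f = periodMap N f := rfl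

theorem existsPeriodMapLinear (N : ℕ) [NeZero N] : ExistsPeriodMapLinear N :=
  ⟨periodLin N, fun _ => rfl⟩

theorem periodHomPair_apply (f g : CuspForm (Gamma0 N) 2) (γ : Gamma0 N) :
    periodHomPair N (f, g) (Additive.ofMul γ)
      = (per f γ + per f (jConjSL γ)) + (per g γ - per g (jConjSL γ)) := by
  obtain ⟨pml, hpml, hdef⟩ := periodHomPair_def N (existsPeriodMapLinear N)
  rw [hdef]
  simp only [LinearMap.coprod_apply, LinearMap.comp_apply, LinearMap.add_apply,
    LinearMap.sub_apply, LinearMap.id_apply, hpml, AddMonoidHom.add_apply, AddMonoidHom.sub_apply,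
    charInvolution_apply, periodMap_apply, toMul_ofMul, jConjGamma0_coe]

end Fermat.Agent.GenusLib.ES
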