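import Mathlib
import Fermat.Agent.GenusLib.ESPrim
import Fermat.Agent.GenusLib.ESMax

/-!
# PROJECT Z (S21, Eichler–Shimura) [ES-B2]: injectivity of the pair map

`injective_periodHomPair` : the map `(f, g) ↦ (1 + ι) P_f + (1 - ι) P_g` is injective, by the
maximum principle applied to `F + H ± (conj (F ∘ J) - conj (H ∘ J))`.
-/

set_option autoImplicit false

noncomputable section

namespace Fermat.Agent.GenusLib.ES

open UpperHalfPlane hiding I
open Filter Topology Complex
open scoped Real MatrixGroups ModularForm Manifold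
open CongruenceSubgroup ModularCurve ModularCurve.Period

variable {N : ℕ} [NeZero N]

/-- The reflection `z ↦ -conj z` intertwines `γ` and `jConjSL γ`. -/
theorem J_smul_smul (γ : SL(2, ℤ)) (z : ℍ) : J • (γ • z) = jConjSL γ • (J • z) := by
  apply UpperHalfPlane.ext
  rw [coe_J_smul, coe_specialLinearGroup_apply, coe_specialLinearGroup_apply, coe_J_smul]
  have h00 : (jConjSL γ) 0 0 = γ 0 0 := by
    show jConjMat (γ : Matrix (Fin 2) (Fin 2) ℤ) 0 0 = _
    simp
  have h01 : (jConjSL γ) 0 1 = -γ 0 1 := by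
    show jConjMat (γ : Matrix (Fin 2) (Fin 2) ℤ) 0 1 = _
    simp
  have h10 : (jConjSL γ) 1 0 = -γ 1 0 := by
    show jConjMat (γ : Matrix (Fin 2) (Fin 2) ℤ) 1 0 = _
    simp
  have h11 : (jConjSL γ) 1 1 = γ 1 1 := by
    show jConjMat (γ : Matrix (Fin 2) (Fin 2) ℤ) 1 1 = _
    simp
  rw [h00, h01, h10, h11]
  simp only [map_div₀, map_add, map_mul, map_intCast, algebraMap_int_eq, eq_intCast,
    Int.cast_neg, Complex.ofReal_neg, Complex.ofReal_intCast]
  rw [← neg_div]
  congr 1 <;> ring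

/-- `z ↦ conj (F (-conj z))` is holomorphic if `F` is. -/
theorem mdiff_conj_J {F : ℍ → ℂ} (hF : MDiff F) :
    MDiff (fun z : ℍ => (starRingEnd ℂ) (F (J • z))) := by
  rw [UpperHalfPlane.mdifferentiable_iff]
  have hFd : DifferentiableOn ℂ (F ∘ ofComplex) upperHalfPlaneSet :=
    UpperHalfPlane.mdifferentiable_iff.mp hF
  intro w hw
  have hnhds : upperHalfPlaneSet ∈ 𝓝 w := isOpen_upperHalfPlaneSet.mem_nhds hw
  -- the model function `conj ∘ f ∘ conj` with `f y = (F ∘ ofComplex) (-y)`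
  set f : ℂ → ℂ := fun y => (F ∘ ofComplex) (-y) with hf
  have hw' : -(starRingEnd ℂ) w ∈ upperHalfPlaneSet := by
    show 0 < (-(starRingEnd ℂ) w).im
    simpa using hw
  have hfd : DifferentiableAt ℂ f ((starRingEnd ℂ) w) := by
    have h1 : DifferentiableAt ℂ (F ∘ ofComplex) (-(starRingEnd ℂ) w) :=
      (hFd _ hw').differentiableAt (isOpen_upperHalfPlaneSet.mem_nhds hw')
    exact h1.comp ((starRingEnd ℂ) w) differentiableAt_id.neg
  have hmodel : DifferentiableAt ℂ ((starRingEnd ℂ) ∘ f ∘ (starRingEnd ℂ)) w :=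
    differentiableAt_conj_conj_iff.mpr hfd
  have heq : ((fun z : ℍ => (starRingEnd ℂ) (F (J • z))) ∘ ofComplex) =ᶠ[𝓝 w]
      ((starRingEnd ℂ) ∘ f ∘ (starRingEnd ℂ)) := by
    filter_upwards [hnhds] with x hx
    have hx' : 0 < (-(starRingEnd ℂ) x).im := by simpa using hx
    simp only [Function.comp_apply, hf, ofComplex_apply_of_im_pos hx,
      ofComplex_apply_of_im_pos hx']
    congr 2
    apply UpperHalfPlane.ext
    rw [coe_J_smul]
  exact (hmodel.congr_of_eventuallyEq heq).differentiableWithinAt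

theorem tendsto_J_smul_atImInfty : Tendsto (fun w : ℍ => J • w) atImInfty atImInfty :=
  tendsto_smul_atImInfty (by simp [J])

theorem J_smul_J_smul (z : ℍ) : J • (J • z) = z := by
  rw [← mul_smul, ← sq, J_sq, one_smul]

/-- Injectivity of the Eichler–Shimura pair map. -/
theorem injective_periodHomPair (N : ℕ) [NeZero N] : Function.Injective (periodHomPair N) := by
  rw [injective_iff_map_eq_zero]
  rintro ⟨f, g⟩ hfg
  have hrel : ∀ γ : SL(2, ℤ), γ ∈ Gamma0 N →
      (per f γ + per f (jConjSL γ)) + (per g γ - per g (jConjSL γ)) = 0 := by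
    intro γ hγ
    have := periodHomPair_apply f g ⟨γ, hγ⟩
    rw [hfg] at this
    exact this.symm
  -- the two auxiliary holomorphic functions
  set G₁ : ℍ → ℂ := prim f + prim g with hG₁
  set G₂ : ℍ → ℂ := (fun z : ℍ => (starRingEnd ℂ) (prim f (J • z)))
    - (fun z : ℍ => (starRingEnd ℂ) (prim g (J • z))) with hG₂
  have hG₁md : MDiff G₁ := (prim_mdiff f).add (prim_mdiff g)
  have hG₂md : MDiff G₂ := (mdiff_conj_J (prim_mdiff f)).sub (mdiff_conj_J (prim_mdiff g))
  -- increments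
  have hinc₁ : ∀ γ : SL(2, ℤ), γ ∈ Gamma0 N → ∀ z : ℍ,
      G₁ (γ • z) = G₁ z + (per f γ + per g γ) := by
    intro γ hγ z
    simp only [hG₁, Pi.add_apply, prim_smul_eq f hγ z, prim_smul_eq g hγ z]
    ring
  have hinc₂ : ∀ γ : SL(2, ℤ), γ ∈ Gamma0 N → ∀ z : ℍ,
      G₂ (γ • z) = G₂ z + (starRingEnd ℂ) (per f (jConjSL γ) - per g (jConjSL γ)) := by
    intro γ hγ z
    have hj : jConjSL γ ∈ Gamma0 N := jConjSL_mem_Gamma0 hγ
    simp only [hG₂, Pi.sub_apply, J_smul_smul, prim_smul_eq f hj (J • z),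
      prim_smul_eq g hj (J • z), map_add, map_sub]
    ring
  -- limits at the cusps
  have hlim₁ : ∀ δ : SL(2, ℤ), ∃ L : ℂ, Tendsto (fun w : ℍ => G₁ (δ • w)) atImInfty (𝓝 L) := by
    intro δ
    obtain ⟨Lf, hLf⟩ := prim_tendsto_smul f δ
    obtain ⟨Lg, hLg⟩ := prim_tendsto_smul g δ
    exact ⟨Lf + Lg, hLf.add hLg⟩
  have hlim₂ : ∀ δ : SL(2, ℤ), ∃ L : ℂ, Tendsto (fun w : ℍ => G₂ (δ • w)) atImInfty (𝓝 L) := by
    intro δ
    obtain ⟨Lf, hLf⟩ := prim_tendsto_smul f (jConjSL δ)
    obtain ⟨Lg, hLg⟩ := prim_tendsto_smul g (jConjSL δ)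
    refine ⟨(starRingEnd ℂ) Lf - (starRingEnd ℂ) Lg, ?_⟩
    have h1 := (Complex.continuous_conj.tendsto Lf).comp (hLf.comp tendsto_J_smul_atImInfty)
    have h2 := (Complex.continuous_conj.tendsto Lg).comp (hLg.comp tendsto_J_smul_atImInfty)
    refine (h1.sub h2).congr fun w => ?_
    simp only [hG₂, Pi.sub_apply, Function.comp_apply, J_smul_smul]
  -- `G₁ + G₂` is constant
  have hA := const_of_invariant_re N (G₁ + G₂) (hG₁md.add hG₂md)
    (by
      intro γ hγ z
      have hr := congrArg Complex.re (hrel γ hγ)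
      simp only [Pi.add_apply, hinc₁ γ hγ z, hinc₂ γ hγ z, Complex.add_re, Complex.sub_re,
        Complex.conj_re, Complex.zero_re] at hr ⊢
      linarith)
    (by
      intro δ
      obtain ⟨L₁, hL₁⟩ := hlim₁ δ
      obtain ⟨L₂, hL₂⟩ := hlim₂ δ
      exact ⟨L₁ + L₂, hL₁.add hL₂⟩)
  -- `I * (G₁ - G₂)` is constant
  have hB := const_of_invariant_re N ((fun _ : ℍ => Complex.I) * (G₁ - G₂))
    (mdifferentiable_const.mul (hG₁md.sub hG₂md))
    (by
      intro γ hγ z
      have hi := congrArg Complex.im (hrel γ hγ)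
      simp only [Pi.mul_apply, Pi.sub_apply, hinc₁ γ hγ z, hinc₂ γ hγ z, Complex.mul_re,
        Complex.I_re, Complex.I_im, Complex.add_im, Complex.sub_im, Complex.add_re,
        Complex.sub_re, Complex.conj_im, Complex.conj_re, Complex.zero_im] at hi ⊢
      linarith)
    (by
      intro δ
      obtain ⟨L₁, hL₁⟩ := hlim₁ δ
      obtain ⟨L₂, hL₂⟩ := hlim₂ δ
      exact ⟨Complex.I * (L₁ - L₂), (hL₁.sub hL₂).const_mul Complex.I⟩)
  -- hence `G₁` and `G₂` are constant
  have hD : ∀ z : ℍ, G₁ z - G₂ z = G₁ UpperHalfPlane.I - G₂ UpperHalfPlane.I := by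
    intro z
    have := hB z
    simp only [Pi.mul_apply, Pi.sub_apply] at this
    exact mul_left_cancel₀ Complex.I_ne_zero this
  have hS : ∀ z : ℍ, G₁ z + G₂ z = G₁ UpperHalfPlane.I + G₂ UpperHalfPlane.I := fun z => hA z
  have hG₁c : ∀ z : ℍ, G₁ z = G₁ UpperHalfPlane.I := by
    intro z
    linear_combination (1 / 2 : ℂ) * hS z + (1 / 2 : ℂ) * hD z
  have hG₂c : ∀ z : ℍ, G₂ z = G₂ UpperHalfPlane.I := by
    intro z
    linear_combination (1 / 2 : ℂ) * hS z - (1 / 2 : ℂ) * hD z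
  -- `f + g = 0`
  have h1 : f + g = 0 := by
    apply eq_zero_of_prim_const
    intro z
    rw [prim_add]
    exact hG₁c z
  -- `f - g = 0`
  have h2 : f + (-1 : ℂ) • g = 0 := by
    apply eq_zero_of_prim_const
    intro z
    rw [prim_add, prim_smul]
    have e1 := hG₂c (J • z)
    have e2 := hG₂c (J • UpperHalfPlane.I)
    simp only [hG₂, Pi.sub_apply, J_smul_J_smul] at e1 e2
    have e3 : (starRingEnd ℂ) (prim f z) - (starRingEnd ℂ) (prim g z)
        = (starRingEnd ℂ) (prim f UpperHalfPlane.I) - (starRingEnd ℂ) (prim g UpperHalfPlane.I) := by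
      rw [e1, e2]
    have e4 := congrArg (starRingEnd ℂ) e3
    simp only [map_sub, Complex.conj_conj] at e4
    simp only [Pi.add_apply, Pi.smul_apply, smul_eq_mul]
    linear_combination e4
  have hf0 : f = 0 := by
    ext τ
    have e1 : f τ + g τ = 0 := by
      have := congrArg (fun h : CuspForm (Gamma0 N) 2 => h τ) h1
      simpa using this
    have e2 : f τ + -1 * g τ = 0 := by
      have := congrArg (fun h : CuspForm (Gamma0 N) 2 => h τ) h2
      simpa using this
    have : f τ = 0 := by linear_combination (1 / 2 : ℂ) * e1 + (1 / 2 : ℂ) * e2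
    simpa using this
  have hg0 : g = 0 := by
    rw [hf0, zero_add] at h1
    exact h1
  rw [hf0, hg0]
  rfl

end Fermat.Agent.GenusLib.ES
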