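import Mathlib

/-!
# PROJECT Z (S21, Eichler–Shimura) [ES-A3]: periods vanish on elements of trace `±2`

* `exists_conj_T_of_trace`: an element of `SL(2, ℤ)` with `trace ^ 2 = 4` is conjugate to `± T ^ n`;
* `increment_eq_zero_of_trace`: if `F ∘ γ - F` is a constant `c`, `γ` has `trace ^ 2 = 4` and `F`
  has limits at all cusps, then `c = 0`.
-/

set_option autoImplicit false

noncomputable section

namespace Fermat.Agent.GenusLib.ES

open UpperHalfPlane hiding I
open Filter Topology Complex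
open scoped Real MatrixGroups ModularForm Manifold

/-- a primitive eigenvector of an integer matrix of determinant `1` and trace `2ε` -/
theorem exists_coprime_eigen (a b c d ε : ℤ) (hε : ε ^ 2 = 1) (hdet : a * d - b * c = 1)
    (htr : a + d = 2 * ε) :
    ∃ x y : ℤ, IsCoprime x y ∧ a * x + b * y = ε * x ∧ c * x + d * y = ε * y := by
  by_cases hg : Int.gcd (ε - d) c = 0
  · obtain ⟨h1, h2⟩ := Int.gcd_eq_zero_iff.1 hg
    refine ⟨1, 0, isCoprime_one_left, ?_, ?_⟩
    · linear_combination htr + h1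
    · linear_combination h2
  · have hgpos : 0 < Int.gcd (ε - d) c := Nat.pos_of_ne_zero hg
    obtain ⟨x, hx⟩ := Int.gcd_dvd_left (ε - d) c
    obtain ⟨y, hy⟩ := Int.gcd_dvd_right (ε - d) c
    have hg0 : ((Int.gcd (ε - d) c : ℕ) : ℤ) ≠ 0 := by exact_mod_cast hg
    have hcop := Int.gcd_div_gcd_div_gcd hgpos
    have hx' : (ε - d) / ((Int.gcd (ε - d) c : ℕ) : ℤ) = x := Int.ediv_eq_of_eq_mul_right hg0 hx
    have hy' : c / ((Int.gcd (ε - d) c : ℕ) : ℤ) = y := Int.ediv_eq_of_eq_mul_right hg0 hy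
    rw [hx', hy'] at hcop
    refine ⟨x, y, Int.isCoprime_iff_gcd_eq_one.2 hcop, ?_, ?_⟩
    · apply mul_left_cancel₀ hg0
      generalize ((Int.gcd (ε - d) c : ℕ) : ℤ) = g at hx hy
      have hd : d = ε - g * x := by linear_combination -hx
      have ha : a = ε + g * x := by linear_combination htr - hd
      subst hd ha hy
      linear_combination (-1 : ℤ) * hdet + hε
    · apply mul_left_cancel₀ hg0
      generalize ((Int.gcd (ε - d) c : ℕ) : ℤ) = g at hx hy
      have hd : d = ε - g * x := by linear_combination -hx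
      subst hd hy
      ring

/-- the second column of `γ δ` when the first column of `δ` is an eigenvector of `γ` -/
theorem conj_entries (a b c d ε x y u w : ℤ) (hε : ε ^ 2 = 1) (hdet : a * d - b * c = 1)
    (hδ : x * w - u * y = 1) (E1 : a * x + b * y = ε * x) (E2 : c * x + d * y = ε * y) :
    a * u + b * w = (w * (a * u + b * w) - u * (c * u + d * w)) * x + ε * u ∧
      c * u + d * w = (w * (a * u + b * w) - u * (c * u + d * w)) * y + ε * w := by
  have h1 : ε * (x * (c * u + d * w) - y * (a * u + b * w)) = 1 := by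
    linear_combination (-(c * u + d * w)) * E1 + (a * u + b * w) * E2
      + (x * w - u * y) * hdet + hδ
  have h2 : x * (c * u + d * w) - y * (a * u + b * w) = ε := by
    linear_combination ε * h1 - (x * (c * u + d * w) - y * (a * u + b * w)) * hε
  constructor
  · linear_combination u * h2 - (a * u + b * w) * hδ
  · linear_combination w * h2 - (c * u + d * w) * hδ

/-- An element of `SL(2, ℤ)` with `trace ^ 2 = 4` is conjugate to `± T ^ n`. -/
theorem exists_conj_T_of_trace (γ : SL(2, ℤ))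
    (h : (γ : Matrix (Fin 2) (Fin 2) ℤ).trace ^ 2 = 4) :
    ∃ (δ : SL(2, ℤ)) (n : ℤ), γ * δ = δ * ModularGroup.T ^ n ∨ γ * δ = -(δ * ModularGroup.T ^ n) := by
  have hdet : γ 0 0 * γ 1 1 - γ 0 1 * γ 1 0 = 1 := by
    have := γ.2
    rwa [Matrix.det_fin_two] at this
  rw [Matrix.trace_fin_two] at h
  have key : ∀ ε : ℤ, ε ^ 2 = 1 → γ 0 0 + γ 1 1 = 2 * ε →
      ∃ (δ : SL(2, ℤ)) (m : ℤ), γ 0 0 * δ 0 0 + γ 0 1 * δ 1 0 = ε * δ 0 0 ∧
        γ 1 0 * δ 0 0 + γ 1 1 * δ 1 0 = ε * δ 1 0 ∧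
        γ 0 0 * δ 0 1 + γ 0 1 * δ 1 1 = m * δ 0 0 + ε * δ 0 1 ∧
        γ 1 0 * δ 0 1 + γ 1 1 * δ 1 1 = m * δ 1 0 + ε * δ 1 1 := by
    intro ε hε htr
    obtain ⟨x, y, hxy, E1, E2⟩ :=
      exists_coprime_eigen (γ 0 0) (γ 0 1) (γ 1 0) (γ 1 1) ε hε (by linear_combination hdet) htr
    obtain ⟨δ, hδ0, hδ1⟩ := hxy.exists_SL2_col 0
    have hδ : δ 0 0 * δ 1 1 - δ 0 1 * δ 1 0 = 1 := by
      have := δ.2
      rwa [Matrix.det_fin_two] at this
    rw [← hδ0, ← hδ1] at E1 E2
    obtain ⟨e3, e4⟩ := conj_entries _ _ _ _ ε _ _ _ _ hε hdet hδ E1 E2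
    exact ⟨δ, _, E1, E2, e3, e4⟩
  have hcases : γ 0 0 + γ 1 1 = 2 * 1 ∨ γ 0 0 + γ 1 1 = 2 * (-1) := by
    have h3 : (γ 0 0 + γ 1 1 - 2) * (γ 0 0 + γ 1 1 + 2) = 0 := by linear_combination h
    rcases mul_eq_zero.1 h3 with h4 | h4
    · left; linear_combination h4
    · right; linear_combination h4
  rcases hcases with htr | htr
  · obtain ⟨δ, m, e1, e2, e3, e4⟩ := key 1 (by norm_num) htr
    refine ⟨δ, m, Or.inl ?_⟩
    ext i j
    fin_cases i <;> fin_cases j <;>
      simp [Matrix.mul_apply, Fin.sum_univ_two, ModularGroup.coe_T_zpow]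
    · linear_combination e1
    · linear_combination e3
    · linear_combination e2
    · linear_combination e4
  · obtain ⟨δ, m, e1, e2, e3, e4⟩ := key (-1) (by norm_num) htr
    refine ⟨δ, -m, Or.inr ?_⟩
    ext i j
    fin_cases i <;> fin_cases j <;>
      simp [Matrix.mul_apply, Fin.sum_univ_two, ModularGroup.coe_T_zpow]
    · linear_combination e1
    · linear_combination e3
    · linear_combination e2
    · linear_combination e4

/-- If `F ∘ γ - F` is a constant `c`, `γ` has `trace ^ 2 = 4` and `F` has limits at all cusps,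
then `c = 0`. -/
theorem increment_eq_zero_of_trace {F : ℍ → ℂ}
    (hlim : ∀ δ : SL(2, ℤ), ∃ L : ℂ, Tendsto (fun w : ℍ => F (δ • w)) atImInfty (𝓝 L))
    {γ : SL(2, ℤ)} {c : ℂ} (hc : ∀ z : ℍ, F (γ • z) - F z = c)
    (h : (γ : Matrix (Fin 2) (Fin 2) ℤ).trace ^ 2 = 4) : c = 0 := by
  obtain ⟨δ, n, hδ⟩ := exists_conj_T_of_trace γ h
  obtain ⟨L, hL⟩ := hlim δ
  have hsm : ∀ w : ℍ, γ • (δ • w) = δ • (ModularGroup.T ^ n • w) := by
    intro w
    rcases hδ with hδ | hδ
    · rw [← mul_smul, hδ, mul_smul]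
    · rw [← mul_smul, hδ, ModularGroup.SL_neg_smul, mul_smul]
  have hT : Tendsto (fun w : ℍ => ModularGroup.T ^ n • w) atImInfty atImInfty := by
    rw [atImInfty, tendsto_comap_iff]
    have : (UpperHalfPlane.im ∘ fun w : ℍ => ModularGroup.T ^ n • w) = UpperHalfPlane.im := by
      funext w
      exact ModularGroup.im_T_zpow_smul w n
    rw [this]
    exact tendsto_comap
  have h1 : Tendsto (fun w : ℍ => F (δ • (ModularGroup.T ^ n • w))) atImInfty (𝓝 L) :=
    hL.comp hT
  have h2 : Tendsto (fun w : ℍ => F (δ • (ModularGroup.T ^ n • w)) - F (δ • w)) atImInfty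
      (𝓝 (L - L)) := h1.sub hL
  have h3 : (fun w : ℍ => F (δ • (ModularGroup.T ^ n • w)) - F (δ • w)) = fun _ => c := by
    funext w
    rw [← hsm]
    exact hc _
  rw [h3, sub_self] at h2
  exact tendsto_nhds_unique tendsto_const_nhds h2

end Fermat.Agent.GenusLib.ES
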