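import Fermat.Agent.GenusLib.ParHom
import Fermat.Agent.GenusLib.CosetCount
import Fermat.Agent.GenusLib.CuspCount

/-!
# `dim Hom_par(Γ₀(N), ℂ) ≤ 2 * genusFormula N`
-/

set_option autoImplicit false

namespace Fermat.Agent.GenusLib.ParHom

open scoped MatrixGroups
open CongruenceSubgroup ModularCurve.Period Module

theorem neg_one_mem_Gamma0 (N : ℕ) : (-1 : SL(2, ℤ)) ∈ Gamma0 N := by
  rw [Gamma0_mem]
  simp

/-- The space of parabolic homomorphisms `Γ₀(N) → ℂ` has dimension at most `2 g(X₀(N))`. -/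
theorem finrank_parabolicHoms_Gamma0_le (N : ℕ) [NeZero N] :
    FiniteDimensional ℂ (parabolicHoms ℂ (Gamma0 N) ℂ) ∧
      (finrank ℂ (parabolicHoms ℂ (Gamma0 N) ℂ) : ℚ) ≤ 2 * ModularCurve.genusFormula N := by
  obtain ⟨hfin, h⟩ := finrank_parabolicHoms_le (Gamma0 N) (neg_one_mem_Gamma0 N)
  refine ⟨hfin, ?_⟩
  rw [Cosets.card_quot, Cosets.card_fixed_S, Cosets.card_fixed_ST, CuspCount.card_orbits_T] at h
  have h' : (6 * finrank ℂ (parabolicHoms ℂ (Gamma0 N) ℂ) : ℚ) + 6 * ModularCurve.cuspCount N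
      + 3 * ModularCurve.nuTwo N + 4 * ModularCurve.nuThree N
      ≤ ModularCurve.dedekindPsi N + 12 := by
    exact_mod_cast h
  rw [ModularCurve.genusFormula]
  linarith

end Fermat.Agent.GenusLib.ParHom
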