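import Mathlib
import Fermat.Agent.GenusLib.ESPrim
import Fermat.Agent.GenusLib.ESPar
import Fermat.Agent.GenusLib.ESPair
import Fermat.Agent.GenusLib.ParHomGamma0
import Fermat.Agent.S23Lib.Descent

/-!
# PROJECT Z (S21, Eichler–Shimura): assembly

* `per_eq_zero_of_trace` : the periods of a weight `2` cusp form vanish on the elements of
  `Γ₀(N)` with `trace ^ 2 = 4`;
* `range_le_parabolicHoms` : the Eichler–Shimura pair map takes values in the parabolic
  homomorphisms;
* `eichlerShimura_of_finrank` : the Eichler–Shimura isomorphism, given the dimension formula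
  `dim S₂(Γ₀(N)) = genusFormula N`.
-/

set_option autoImplicit false

noncomputable section

namespace Fermat.Agent.GenusLib.ES

open UpperHalfPlane hiding I
open Filter Topology Complex
open scoped Real MatrixGroups ModularForm Manifold
open CongruenceSubgroup ModularCurve ModularCurve.Period

section ESFinal
variable {N : ℕ} [NeZero N]

/-- The periods of a cusp form vanish on elements of trace `± 2`. -/
theorem per_eq_zero_of_trace (f : CuspForm (Gamma0 N) 2) {γ : SL(2, ℤ)} (hγ : γ ∈ Gamma0 N)
    (h : (γ : Matrix (Fin 2) (Fin 2) ℤ).trace ^ 2 = 4) : per f γ = 0 :=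
  increment_eq_zero_of_trace (prim_tendsto_smul f)
    (fun z => by rw [prim_smul_eq f hγ z]; ring) h

/-- The Eichler–Shimura pair map takes values in the parabolic homomorphisms. -/
theorem range_le_parabolicHoms (N : ℕ) [NeZero N] :
    LinearMap.range (periodHomPair N) ≤ parabolicHoms ℂ (Gamma0 N) ℂ := by
  rintro φ ⟨⟨f, g⟩, rfl⟩
  rw [mem_parabolicHoms_iff]
  intro γ hγ
  have hγ' : ((jConjSL (γ : SL(2, ℤ)) : SL(2, ℤ)) : Matrix (Fin 2) (Fin 2) ℤ).trace ^ 2 = 4 := by
    rw [jConjSL_coe, jConjMat_trace]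
    exact hγ
  rw [periodHomPair_apply, per_eq_zero_of_trace f γ.2 hγ,
    per_eq_zero_of_trace f (jConjSL_mem_Gamma0 γ.2) hγ', per_eq_zero_of_trace g γ.2 hγ,
    per_eq_zero_of_trace g (jConjSL_mem_Gamma0 γ.2) hγ']
  simp

/-- **Eichler–Shimura**, given the dimension formula for `S₂(Γ₀(N))`. -/
theorem eichlerShimura_of_finrank (N : ℕ) [NeZero N]
    (hdim : (Module.finrank ℂ (CuspForm (Gamma0 N) 2) : ℚ) = ModularCurve.genusFormula N) :
    Function.Injective (periodHomPair N)
      ∧ LinearMap.range (periodHomPair N) = parabolicHoms ℂ (Gamma0 N) ℂ := by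
  have hinj := injective_periodHomPair N
  refine ⟨hinj, ?_⟩
  have hfd : FiniteDimensional ℂ (CuspForm (Gamma0 N) 2) :=
    Fermat.Agent.S23Lib.Descent.finiteDimensional_cuspForm N 2
  obtain ⟨hfin, hle⟩ := ParHom.finrank_parabolicHoms_Gamma0_le N
  have h1 : Module.finrank ℂ (LinearMap.range (periodHomPair N))
      = 2 * Module.finrank ℂ (CuspForm (Gamma0 N) 2) := by
    rw [LinearMap.finrank_range_of_inj hinj, Module.finrank_prod]
    ring
  refine Submodule.eq_of_le_of_finrank_le (range_le_parabolicHoms N) ?_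
  have h2 : (Module.finrank ℂ (parabolicHoms ℂ (Gamma0 N) ℂ) : ℚ)
      ≤ (Module.finrank ℂ (LinearMap.range (periodHomPair N)) : ℚ) := by
    rw [h1]
    push_cast
    rw [hdim]
    exact hle
  exact_mod_cast h2

end ESFinal

end Fermat.Agent.GenusLib.ES
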