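import Mathlib
import Fermat.Agent.GenusLib.Cusps
import Fermat.Prelude.Def_ModularCurve_PeriodMapBundled

/-!
# S21, package B: injectivity input for Eichler–Shimura

* `const_of_invariant_re`: a holomorphic function on `ℍ` whose real part is `Γ₀(N)`-invariant and
  which has a limit at every cusp is constant (maximum principle on the compactified quotient).
* `eq_zero_of_period_add_conj`: cusp forms `a`, `b` of weight two with equivariant primitives whose
  periods satisfy `P_a γ + conj (P_b γ) = 0` for all `γ` vanish.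
-/

set_option autoImplicit false

noncomputable section

namespace Fermat.Agent.GenusLib.ESInj

open UpperHalfPlane hiding I
open Filter Topology Complex Function
open scoped Real MatrixGroups ModularForm Manifold
open CongruenceSubgroup Matrix.SpecialLinearGroup ModularForm
open Fermat.Agent.GenusLib.Cusps

local notation "𝕢" => Periodic.qParam

/-! ### Maximum principle for the real part -/

/-- On a convex open set, a holomorphic function whose real part has a maximum has constant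
exponential. -/
theorem exp_eq_of_re_max {U : Set ℂ} (hU : IsOpen U) (hconv : Convex ℝ U) {g : ℂ → ℂ}
    (hg : DifferentiableOn ℂ g U) {x₀ : ℂ} (hx₀ : x₀ ∈ U)
    (h : ∀ x ∈ U, (g x).re ≤ (g x₀).re) : ∀ x ∈ U, Complex.exp (g x) = Complex.exp (g x₀) := by
  have hd : DifferentiableOn ℂ (fun x => Complex.exp (g x)) U := hg.cexp
  have hm : IsMaxOn (norm ∘ fun x => Complex.exp (g x)) U x₀ := by
    intro x hx
    simp only [Function.comp_apply, Complex.norm_exp]
    show Real.exp (g x).re ≤ Real.exp (g x₀).re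
    exact Real.exp_le_exp.mpr (h x hx)
  intro x hx
  exact Complex.eqOn_of_isPreconnected_of_isMaxOn_norm hconv.isPreconnected hU hd hx₀ hm hx

/-- A holomorphic function on `ℍ` whose real part attains its maximum is constant. -/
theorem const_of_re_max {F : ℍ → ℂ} (hF : MDiff F) (z₀ : ℍ) (h : ∀ z, (F z).re ≤ (F z₀).re) :
    ∀ z, F z = F z₀ := by
  have hdiff : DifferentiableOn ℂ (F ∘ ofComplex) upperHalfPlaneSet :=
    UpperHalfPlane.mdifferentiable_iff.mp hF
  have hconv : Convex ℝ upperHalfPlaneSet := convex_halfSpace_im_gt 0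
  have hexp := exp_eq_of_re_max isOpen_upperHalfPlaneSet hconv hdiff z₀.im_pos (by
    intro x hx
    simp only [Function.comp_apply, ofComplex_apply_of_im_pos hx, ofComplex_apply]
    exact h _)
  -- the derivative of `F ∘ ofComplex` vanishes
  have hderiv : Set.EqOn (deriv (F ∘ ofComplex)) 0 upperHalfPlaneSet := by
    intro w hw
    have hnhds : upperHalfPlaneSet ∈ 𝓝 w := isOpen_upperHalfPlaneSet.mem_nhds hw
    have hFd : HasDerivAt (F ∘ ofComplex) (deriv (F ∘ ofComplex) w) w :=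
      ((hdiff w hw).differentiableAt hnhds).hasDerivAt
    have h1 : HasDerivAt (fun x => Complex.exp ((F ∘ ofComplex) x))
        (Complex.exp ((F ∘ ofComplex) w) * deriv (F ∘ ofComplex) w) w := hFd.cexp
    have h2 : (fun x => Complex.exp ((F ∘ ofComplex) x)) =ᶠ[𝓝 w]
        fun _ => Complex.exp ((F ∘ ofComplex) (z₀ : ℂ)) := by
      filter_upwards [hnhds] with x hx
      exact hexp x hx
    have h3 : HasDerivAt (fun x => Complex.exp ((F ∘ ofComplex) x)) 0 w :=
      (hasDerivAt_const w _).congr_of_eventuallyEq h2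
    have h4 := h1.unique h3
    rcases mul_eq_zero.mp h4 with h5 | h5
    · exact absurd h5 (Complex.exp_ne_zero _)
    · exact h5
  intro z
  have := isOpen_upperHalfPlaneSet.is_const_of_deriv_eq_zero hconv.isPreconnected hdiff hderiv
    z.im_pos z₀.im_pos
  simpa only [Function.comp_apply, ofComplex_apply] using this

/-- A holomorphic function on `ℍ` with constant real part is constant. -/
theorem const_of_re_const {F : ℍ → ℂ} (hF : MDiff F) (h : ∀ z w : ℍ, (F z).re = (F w).re) :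
    ∀ z w : ℍ, F z = F w := by
  intro z w
  exact const_of_re_max hF w (fun z => (h z w).le) z

/-! ### Translates -/

theorem slash_zero_apply (G : ℍ → ℂ) (δ : SL(2, ℤ)) (w : ℍ) :
    (G ∣[(0 : ℤ)] δ) w = G (δ • w) := by
  rw [ModularForm.SL_slash_apply]
  simp

theorem tendsto_vadd_atImInfty (t : ℝ) : Tendsto (fun w : ℍ => t +ᵥ w) atImInfty atImInfty := by
  unfold atImInfty
  rw [tendsto_comap_iff]
  have : (UpperHalfPlane.im ∘ fun w : ℍ => t +ᵥ w) = UpperHalfPlane.im := by
    funext w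
    simp [UpperHalfPlane.vadd_im]
  rw [this]
  exact tendsto_comap

section main

variable {N : ℕ} {G : ℍ → ℂ}

/-- The translates `G ∘ δ` are `N`-periodic. -/
theorem shift_slash_of_re (hG : MDiff G)
    (hinv : ∀ γ ∈ Gamma0 N, ∀ z : ℍ, (G (γ • z)).re = (G z).re) (δ : SL(2, ℤ)) {L : ℂ}
    (hL : Tendsto (fun w : ℍ => G (δ • w)) atImInfty (𝓝 L)) :
    shift (N : ℝ) (G ∣[(0 : ℤ)] δ) = G ∣[(0 : ℤ)] δ := by
  set H : ℍ → ℂ := G ∣[(0 : ℤ)] δ with hH
  have hHmd : MDiff H := mdiff_slash hG 0 δ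
  have hHlim : Tendsto H atImInfty (𝓝 L) := by
    refine hL.congr fun w => ?_
    rw [hH, slash_zero_apply]
  have hshift : shift (N : ℝ) H = H ∣[(0 : ℤ)] (ModularGroup.T ^ (N : ℤ)) := by
    rw [slash_T_zpow]
    norm_cast
  have hSmd : MDiff (shift (N : ℝ) H) := by
    rw [hshift]
    exact mdiff_slash hHmd 0 _
  -- the difference has zero real part
  have hre : ∀ w : ℍ, ((shift (N : ℝ) H - H) w).re = 0 := by
    intro w
    have h1 : shift (N : ℝ) H w = G ((δ * ModularGroup.T ^ (N : ℤ) * δ⁻¹) • (δ • w)) := by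
      rw [hshift, slash_zero_apply, hH, slash_zero_apply, ← mul_smul, ← mul_smul]
      congr 1
      group
    rw [Pi.sub_apply, Complex.sub_re, h1, hinv _ (conj_T_pow_mem_Gamma0 N δ), hH,
      slash_zero_apply, sub_self]
  have hconst := const_of_re_const (hSmd.sub hHmd) (fun z w => by rw [hre z, hre w])
  -- the constant is zero, by the limits at `i∞`
  have hlim1 : Tendsto (shift (N : ℝ) H) atImInfty (𝓝 L) :=
    hHlim.comp (tendsto_vadd_atImInfty (N : ℝ))
  have hlim2 : Tendsto (shift (N : ℝ) H - H) atImInfty (𝓝 (L - L)) := hlim1.sub hHlim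
  have hlim3 : Tendsto (shift (N : ℝ) H - H) atImInfty
      (𝓝 ((shift (N : ℝ) H - H) UpperHalfPlane.I)) := by
    have : (shift (N : ℝ) H - H) = fun _ => (shift (N : ℝ) H - H) UpperHalfPlane.I := by
      funext w
      exact hconst w UpperHalfPlane.I
    rw [this]
    exact tendsto_const_nhds
  have hzero : (shift (N : ℝ) H - H) UpperHalfPlane.I = 0 := by
    have := tendsto_nhds_unique hlim3 hlim2
    rw [this, sub_self]
  funext w
  have := hconst w UpperHalfPlane.I
  rw [hzero, Pi.sub_apply, sub_eq_zero] at this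
  exact this

theorem qp_slash_of_re [NeZero N] (hG : MDiff G)
    (hinv : ∀ γ ∈ Gamma0 N, ∀ z : ℍ, (G (γ • z)).re = (G z).re) (δ : SL(2, ℤ)) {L : ℂ}
    (hL : Tendsto (fun w : ℍ => G (δ • w)) atImInfty (𝓝 L)) :
    QP N (G ∣[(0 : ℤ)] δ) := by
  refine QP.of_tendsto (c := L) (periodic_of_shift (shift_slash_of_re hG hinv δ hL))
    (mdiff_slash hG 0 δ) ?_
  refine hL.congr fun w => ?_
  rw [slash_zero_apply]

/-- Every point of `ℍ` is `Γ₀(N)`-equivalent to a point `q.out⁻¹ • w` with `im w ≥ 1/2`. -/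
theorem exists_rep (hinv : ∀ γ ∈ Gamma0 N, ∀ z : ℍ, (G (γ • z)).re = (G z).re) (z : ℍ) :
    ∃ (q : SL(2, ℤ) ⧸ Gamma0 N) (w : ℍ), 1 / 2 ≤ w.im ∧
      (G z).re = ((G ∣[(0 : ℤ)] (Quotient.out q)⁻¹) w).re := by
  obtain ⟨g, hg⟩ := ModularGroup.exists_one_half_le_im_smul z
  obtain ⟨h, hh⟩ := QuotientGroup.mk_out_eq_mul (Gamma0 N) g
  refine ⟨(QuotientGroup.mk g : SL(2, ℤ) ⧸ Gamma0 N), g • z, hg, ?_⟩
  rw [slash_zero_apply]
  have h1 : (Quotient.out (QuotientGroup.mk g : SL(2, ℤ) ⧸ Gamma0 N))⁻¹ • (g • z)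
      = ((h : SL(2, ℤ))⁻¹) • z := by
    rw [← mul_smul]
    congr 1
    rw [hh]
    group
  rw [h1, hinv _ (inv_mem h.2)]

/-- **Maximum principle on `X₀(N)`**: a holomorphic function on `ℍ` whose real part is
`Γ₀(N)`-invariant and which has a limit at every cusp is constant. -/
theorem const_of_invariant_re (N : ℕ) [NeZero N] (G : ℍ → ℂ) (hG : MDiff G)
    (hinv : ∀ γ ∈ Gamma0 N, ∀ z : ℍ, (G (γ • z)).re = (G z).re)
    (hlim : ∀ δ : SL(2, ℤ), ∃ L : ℂ, Tendsto (fun w : ℍ => G (δ • w)) atImInfty (𝓝 L)) :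
    ∃ c : ℂ, ∀ z, G z = c := by
  have hN : (0 : ℝ) < N := by exact_mod_cast Nat.pos_of_ne_zero (NeZero.ne N)
  -- the translates and their cusp functions
  set H : SL(2, ℤ) ⧸ Gamma0 N → ℍ → ℂ := fun q => G ∣[(0 : ℤ)] (Quotient.out q)⁻¹ with hHdef
  have hQP : ∀ q, QP N (H q) := fun q => by
    obtain ⟨L, hL⟩ := hlim (Quotient.out q)⁻¹
    exact qp_slash_of_re hG hinv _ hL
  set c : SL(2, ℤ) ⧸ Gamma0 N → ℂ → ℂ := fun q => cuspFunction N (H q) with hcdef
  have hcd : ∀ q, DifferentiableOn ℂ (c q) (Metric.ball 0 1) := fun q =>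
    differentiableOn_cuspFunction_ball hN (hQP q).per (hQP q).hol (hQP q).bdd
  have hceq : ∀ q (w : ℍ), c q (𝕢 N w) = H q w := fun q w => (hQP q).eq_cusp hN w
  -- a compact disc containing the images of `{im ≥ 1/2}`
  set r₀ : ℝ := Real.exp (-2 * π * (1 / 2) / N) with hr₀
  have hr₀1 : r₀ < 1 := by
    rw [hr₀, Real.exp_lt_one_iff]
    have := Real.pi_pos
    apply div_neg_of_neg_of_pos _ hN
    nlinarith
  have hr₀0 : 0 ≤ r₀ := (Real.exp_pos _).le
  have hsub : Metric.closedBall (0 : ℂ) r₀ ⊆ Metric.ball 0 1 :=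
    Metric.closedBall_subset_ball hr₀1
  have hmem : ∀ w : ℍ, 1 / 2 ≤ w.im → 𝕢 N w ∈ Metric.closedBall (0 : ℂ) r₀ := by
    intro w hw
    rw [mem_closedBall_zero_iff, Periodic.norm_qParam, hr₀, Real.exp_le_exp]
    apply div_le_div_of_nonneg_right _ hN.le
    have := Real.pi_pos
    have hw' : 1 / 2 ≤ (w : ℂ).im := hw
    nlinarith
  -- maxima on the compact disc
  have hmax : ∀ q, ∃ x ∈ Metric.closedBall (0 : ℂ) r₀,
      ∀ y ∈ Metric.closedBall (0 : ℂ) r₀, (c q y).re ≤ (c q x).re := by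
    intro q
    have hcont : ContinuousOn (fun y => (c q y).re) (Metric.closedBall (0 : ℂ) r₀) :=
      Complex.continuous_re.comp_continuousOn ((hcd q).continuousOn.mono hsub)
    obtain ⟨x, hx, hxmax⟩ := (isCompact_closedBall (0 : ℂ) r₀).exists_isMaxOn
      ⟨0, Metric.mem_closedBall_self hr₀0⟩ hcont
    exact ⟨x, hx, fun y hy => hxmax hy⟩
  choose xq hxq hxqmax using hmax
  obtain ⟨q₀, hq₀⟩ := Finite.exists_max (fun q => (c q (xq q)).re)
  -- the global bound
  have hbound : ∀ z : ℍ, (G z).re ≤ (c q₀ (xq q₀)).re := by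
    intro z
    obtain ⟨q, w, hw, hzw⟩ := exists_rep hinv z
    rw [hzw]
    show (H q w).re ≤ _
    rw [← hceq q w]
    exact (hxqmax q _ (hmem w hw)).trans (hq₀ q)
  -- the bound on the whole unit disc for the cusp function at `q₀`
  have hball : ∀ x ∈ Metric.ball (0 : ℂ) 1, (c q₀ x).re ≤ (c q₀ (xq q₀)).re := by
    intro x hx
    by_cases hx0 : x = 0
    · rw [hx0]
      exact hxqmax q₀ 0 (Metric.mem_closedBall_self hr₀0)
    · have him : 0 < (Periodic.invQParam N x).im :=
        Periodic.im_invQParam_pos_of_norm_lt_one hN (by simpa using hx) hx0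
      have hq : 𝕢 N ((⟨Periodic.invQParam N x, him⟩ : ℍ) : ℂ) = x :=
        Periodic.qParam_right_inv hN.ne' hx0
      rw [← hq, hceq q₀, hHdef]
      simp only
      rw [slash_zero_apply]
      exact hbound _
  have hexp := exp_eq_of_re_max Metric.isOpen_ball (convex_ball (0 : ℂ) 1) (hcd q₀)
    (hsub (hxq q₀)) hball
  -- hence `H q₀` has constant real part, so it is constant
  have hqmem : ∀ w : ℍ, 𝕢 N (w : ℂ) ∈ Metric.ball (0 : ℂ) 1 := fun w => by
    rw [mem_ball_zero_iff]
    exact Periodic.norm_qParam_lt_one hN w.im_pos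
  have hre : ∀ w : ℍ, (H q₀ w).re = (c q₀ (xq q₀)).re := by
    intro w
    have h1 := hexp _ (hqmem w)
    rw [hceq q₀ w] at h1
    have h2 := congrArg norm h1
    rw [Complex.norm_exp, Complex.norm_exp] at h2
    exact Real.exp_injective h2
  have hconst := const_of_re_const (hQP q₀).hol (fun z w => by rw [hre z, hre w])
  refine ⟨H q₀ UpperHalfPlane.I, fun z => ?_⟩
  have h3 := hconst ((Quotient.out q₀) • z) UpperHalfPlane.I
  rw [← h3, hHdef]
  simp only
  rw [slash_zero_apply, ← mul_smul, inv_mul_cancel, one_smul]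

end main

/-! ### Consequence for periods of cusp forms -/

section periods

open ModularCurve ModularCurve.Period

theorem mdiff_of_hasDerivAt {F : ℍ → ℂ} {f : ℍ → ℂ}
    (h : ∀ τ : ℍ, HasDerivAt (F ∘ ofComplex) (f τ) ↑τ) : MDiff F := by
  rw [UpperHalfPlane.mdifferentiable_iff]
  intro z hz
  exact (h ⟨z, hz⟩).differentiableAt.differentiableWithinAt

theorem deriv_eq_zero_of_const {F : ℍ → ℂ} {c d : ℂ} (τ : ℍ)
    (hF : HasDerivAt (F ∘ ofComplex) d ↑τ) (hc : ∀ z, F z = c) : d = 0 := by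
  have h1 : (F ∘ ofComplex) = fun _ => c := by
    funext z
    exact hc _
  rw [h1] at hF
  exact hF.unique (hasDerivAt_const _ _)

/-- **Injectivity input for Eichler–Shimura.** If `a`, `b` are weight two cusp forms with
equivariant primitives whose periods satisfy `P_a γ + conj (P_b γ) = 0` for all `γ ∈ Γ₀(N)`,
then `a = 0` and `b = 0`. -/
theorem eq_zero_of_period_add_conj (N : ℕ) [NeZero N] (a b : CuspForm (Gamma0 N) 2)
    (Fa Fb : ℍ → ℂ) (ha : HasEquivariantPrimitive N a Fa) (hb : HasEquivariantPrimitive N b Fb)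
    (h : ∀ γ : Gamma0 N, ha.2.2.1.period γ + (starRingEnd ℂ) (hb.2.2.1.period γ) = 0) :
    a = 0 ∧ b = 0 := by
  have hFa : MDiff Fa := mdiff_of_hasDerivAt ha.1
  have hFb : MDiff Fb := mdiff_of_hasDerivAt hb.1
  have hpa : ∀ (γ : Gamma0 N) (z : ℍ), Fa ((γ : SL(2, ℤ)) • z) = Fa z + ha.2.2.1.period γ :=
    fun γ z => by rw [← ha.2.2.1.sub_eq_period γ z]; ring
  have hpb : ∀ (γ : Gamma0 N) (z : ℍ), Fb ((γ : SL(2, ℤ)) • z) = Fb z + hb.2.2.1.period γ :=
    fun γ z => by rw [← hb.2.2.1.sub_eq_period γ z]; ring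
  have hre : ∀ γ : Gamma0 N, (ha.2.2.1.period γ).re + (hb.2.2.1.period γ).re = 0 := by
    intro γ
    have := congrArg Complex.re (h γ)
    simpa using this
  have him : ∀ γ : Gamma0 N, (ha.2.2.1.period γ).im - (hb.2.2.1.period γ).im = 0 := by
    intro γ
    have := congrArg Complex.im (h γ)
    simpa [sub_eq_add_neg] using this
  -- first function: `Fa + Fb`
  obtain ⟨c₁, hc₁⟩ := const_of_invariant_re N (Fa + Fb) (hFa.add hFb)
    (by
      intro γ hγ z
      have e1 := hpa ⟨γ, hγ⟩ z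
      have e2 := hpb ⟨γ, hγ⟩ z
      simp only at e1 e2
      simp only [Pi.add_apply, e1, e2, Complex.add_re]
      linarith [hre ⟨γ, hγ⟩])
    (by
      intro δ
      obtain ⟨La, hLa⟩ := ha.2.2.2 δ
      obtain ⟨Lb, hLb⟩ := hb.2.2.2 δ
      exact ⟨La + Lb, hLa.add hLb⟩)
  -- second function: `I • (Fa - Fb)`
  obtain ⟨c₂, hc₂⟩ := const_of_invariant_re N (fun z => Complex.I * (Fa z - Fb z))
    (by
      have : (fun z => Complex.I * (Fa z - Fb z)) = (fun _ : ℍ => Complex.I) * (Fa - Fb) := rfl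
      rw [this]
      exact mdifferentiable_const.mul (hFa.sub hFb))
    (by
      intro γ hγ z
      have e1 := hpa ⟨γ, hγ⟩ z
      have e2 := hpb ⟨γ, hγ⟩ z
      simp only at e1 e2
      simp only [e1, e2, Complex.mul_re, Complex.I_re, Complex.I_im, Complex.sub_re,
        Complex.sub_im, Complex.add_re, Complex.add_im]
      linarith [him ⟨γ, hγ⟩])
    (by
      intro δ
      obtain ⟨La, hLa⟩ := ha.2.2.2 δ
      obtain ⟨Lb, hLb⟩ := hb.2.2.2 δ
      exact ⟨Complex.I * (La - Lb), (hLa.sub hLb).const_mul Complex.I⟩)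
  have hsum : ∀ τ : ℍ, a τ + b τ = 0 := fun τ =>
    deriv_eq_zero_of_const (F := Fa + Fb) τ ((ha.1 τ).add (hb.1 τ)) hc₁
  have hdiff : ∀ τ : ℍ, Complex.I * (a τ - b τ) = 0 := fun τ =>
    deriv_eq_zero_of_const (F := fun z => Complex.I * (Fa z - Fb z)) τ
      (((ha.1 τ).sub (hb.1 τ)).const_mul Complex.I) hc₂
  have hdiff' : ∀ τ : ℍ, a τ - b τ = 0 := fun τ =>
    (mul_eq_zero.mp (hdiff τ)).resolve_left Complex.I_ne_zero
  constructor
  · ext τ
    have h1 := hsum τ
    have h2 := hdiff' τ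
    have : a τ = 0 := by linear_combination (1 / 2 : ℂ) * h1 + (1 / 2 : ℂ) * h2
    simpa using this
  · ext τ
    have h1 := hsum τ
    have h2 := hdiff' τ
    have : b τ = 0 := by linear_combination (1 / 2 : ℂ) * h1 - (1 / 2 : ℂ) * h2
    simpa using this

end periods

end Fermat.Agent.GenusLib.ESInj
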