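import Mathlib
import Fermat.Prelude.Def_AlgebraicCurve_CanonicalDivisor

/-!
# Abstract core for the genus of a function field: definitions (S24)

`OrdFun K F`: a `ℤ`-valued order function on a field `F` over `K`.
`locRing K t`: the local ring `K[t]_(t)` inside `F`.
`PlaceHyps`: the bundle of hypotheses of the abstract degree theorem
(`PlaceCore.degree_canonical`, in `GenusLib/PlaceCore.lean`).
-/

set_option autoImplicit false

noncomputable section

namespace Fermat.Agent.GenusLib.PlaceCore

open AlgebraicCurve KaehlerDifferential Polynomial IntermediateField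

/-- A `ℤ`-valued order function on `F`, trivial on `K` (value at `0` is irrelevant). -/
structure OrdFun (K F : Type*) [Field K] [Field F] [Algebra K F] where
  w : F → ℤ
  map_mul' : ∀ f g : F, f ≠ 0 → g ≠ 0 → w (f * g) = w f + w g
  map_add' : ∀ f g : F, f ≠ 0 → g ≠ 0 → f + g ≠ 0 → min (w f) (w g) ≤ w (f + g)
  map_const' : ∀ a : K, a ≠ 0 → w (algebraMap K F a) = 0

variable {K F : Type*} [Field K] [Field F] [Algebra K F]

/-- `K[t]_(t)` inside `F`: the elements `p(t)/q(t)` with `q(0) ≠ 0`. -/
def locRing (K : Type*) {F : Type*} [Field K] [Field F] [Algebra K F] (t : F) :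
    Subalgebra K F where
  carrier := {x | ∃ p q : K[X], q.eval 0 ≠ 0 ∧ x * aeval t q = aeval t p}
  mul_mem' := by
    rintro x y ⟨p, q, hq, h⟩ ⟨p', q', hq', h'⟩
    refine ⟨p * p', q * q', by simp [hq, hq'], ?_⟩
    simp only [map_mul]; rw [← h, ← h']; ring
  add_mem' := by
    rintro x y ⟨p, q, hq, h⟩ ⟨p', q', hq', h'⟩
    refine ⟨p * q' + p' * q, q * q', by simp [hq, hq'], ?_⟩
    simp only [map_mul, map_add]; rw [← h, ← h']; ring
  algebraMap_mem' := fun a => ⟨C a, 1, by simp, by simp⟩

theorem mem_locRing {t x : F} :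
    x ∈ locRing K t ↔ ∃ p q : K[X], q.eval 0 ≠ 0 ∧ x * aeval t q = aeval t p := Iff.rfl

theorem aeval_mem_locRing (t : F) (p : K[X]) : aeval t p ∈ locRing K t :=
  ⟨p, 1, by simp, by simp⟩

theorem self_mem_locRing (t : F) : t ∈ locRing K t := by
  simpa using aeval_mem_locRing (K := K) t X

/-- A monic polynomial over `F` with coefficients in `locRing K t` killing `f` shows that `f` is
integral over `locRing K t`. -/
theorem isIntegral_locRing_of_monic (t f : F) (P : F[X]) (hP : P.Monic)
    (hcoeff : ∀ k, P.coeff k ∈ locRing K t) (hroot : P.eval f = 0) :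
    IsIntegral (locRing K t) f := by
  have hco : (↑P.coeffs : Set F) ⊆ (locRing K t).toSubring := by
    intro a ha
    rw [Finset.mem_coe, Polynomial.mem_coeffs_iff] at ha
    obtain ⟨k, -, rfl⟩ := ha
    exact hcoeff k
  refine ⟨P.toSubring (locRing K t).toSubring hco, ?_, ?_⟩
  · exact (Polynomial.monic_toSubring P _ hco).mpr hP
  · have h1 : (P.toSubring (locRing K t).toSubring hco).map
        (locRing K t).toSubring.subtype = P := Polynomial.map_toSubring P _ hco
    have h2 : eval₂ (algebraMap (locRing K t) F) f (P.toSubring (locRing K t).toSubring hco)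
        = eval f ((P.toSubring (locRing K t).toSubring hco).map
            (locRing K t).toSubring.subtype) := by
      rw [Polynomial.eval_map]; rfl
    rw [h2, h1, hroot]

/-- The hypotheses of the abstract degree theorem: for every `c : K` a finite family `W c` of order
functions (the points over `j = c`), and a finite family `Winf` (the points over `j = ∞`). -/
structure PlaceHyps (j : F) (n : ℕ)
    (I : K → Type) [∀ c, Fintype (I c)] (W : ∀ c, I c → OrdFun K F)
    (Iinf : Type) [Fintype Iinf] (Winf : Iinf → OrdFun K F) (S : Finset K) : Prop where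
  hpos : ∀ c i, 0 < (W c i).w (j - algebraMap K F c)
  hsum : ∀ c, ∑ i, (W c i).w (j - algebraMap K F c) = n
  hint : ∀ c (f : F), f ≠ 0 → (∀ i, 0 ≤ (W c i).w f) →
    IsIntegral (locRing K (j - algebraMap K F c)) f
  hposinf : ∀ i, 0 < (Winf i).w j⁻¹
  hsuminf : ∑ i, (Winf i).w j⁻¹ = n
  hintinf : ∀ f : F, f ≠ 0 → (∀ i, 0 ≤ (Winf i).w f) → IsIntegral (locRing K j⁻¹) f
  hdne : ∀ c i (π : F), (W c i).w π = 1 → D K F π ≠ 0
  hdiff : ∀ c i (π f : F), (W c i).w π = 1 → D K F j = f • D K F π →
    (W c i).w f = (W c i).w (j - algebraMap K F c) - 1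
  hdneinf : ∀ i (π : F), (Winf i).w π = 1 → D K F π ≠ 0
  hdiffinf : ∀ i (π f : F), (Winf i).w π = 1 → D K F j = f • D K F π →
    (Winf i).w f = -(Winf i).w j⁻¹ - 1
  hS : ∀ c, c ∉ S → ∀ i, (W c i).w (j - algebraMap K F c) = 1

/-- The product formula hypothesis (norm of `g` is `p(j)/q(j)`). -/
def ProductFormula (I : K → Type) [∀ c, Fintype (I c)] (W : ∀ c, I c → OrdFun K F)
    (Iinf : Type) [Fintype Iinf] (Winf : Iinf → OrdFun K F) : Prop :=
  ∀ g : F, g ≠ 0 → ∃ p q : K[X], p ≠ 0 ∧ q ≠ 0 ∧
    (∀ c, ∑ i, (W c i).w g = (p.rootMultiplicity c : ℤ) - q.rootMultiplicity c) ∧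
    ∑ i, (Winf i).w g = (q.natDegree : ℤ) - p.natDegree

theorem dCoord_spec (v : Place K F) :
    ∃ π : v.toValuationSubring, Irreducible π ∧ v.dCoord = KaehlerDifferential.D K F (π : F) :=
  ⟨(IsDiscreteValuationRing.exists_irreducible v.toValuationSubring).choose,
    (IsDiscreteValuationRing.exists_irreducible v.toValuationSubring).choose_spec, rfl⟩

/-- The genus is `g` as soon as every canonical divisor has degree `2 g - 2`. -/
theorem genus_eq [HasCanonicalDivisor (K := K) (F := F)] (g : ℕ) (hne : ∃ ω : Ω[F⁄K], ω ≠ 0)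
    (h : ∀ (ω : Ω[F⁄K]) (_ : ω ≠ 0) (Dv : Divisor K F),
      (∀ v : Place K F, Dv v = v.ordDifferential ω) → Divisor.degree Dv = 2 * (g : ℤ) - 2) :
    AlgebraicCurve.genus K F = g := by
  classical
  unfold AlgebraicCurve.genus
  rw [dif_pos hne, h _ hne.choose_spec _ (fun v => canonicalDivisorOf_apply hne.choose_spec v)]
  omega

end Fermat.Agent.GenusLib.PlaceCore
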