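import Mathlib
import Fermat.Agent.GenusLib.PlaceCoreDefs

/-!
# S24, analytic side: extension of order functions to the fraction field

A `ℤ`-valued order `v` on a domain `A` (additive on products, `min ≤` on sums, for nonzero
arguments) extends uniquely to the fraction field: `ext (a / b) = v a - v b`.
Composed with a ring homomorphism `e : F →+* Frac A` this gives an `OrdFun` on `F`.
-/

set_option autoImplicit false

noncomputable section

namespace Fermat.Agent.GenusLib.FFOrd

open Fermat.Agent.GenusLib.PlaceCore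

/-- A `ℤ`-valued order on a commutative ring (the value at `0` is irrelevant). -/
structure PreOrd (A : Type*) [CommRing A] where
  v : A → ℤ
  v_mul : ∀ a b : A, a ≠ 0 → b ≠ 0 → v (a * b) = v a + v b
  v_add : ∀ a b : A, a ≠ 0 → b ≠ 0 → a + b ≠ 0 → min (v a) (v b) ≤ v (a + b)

namespace PreOrd

variable {A : Type*} [CommRing A] [IsDomain A] (p : PreOrd A)
variable (M : Type*) [Field M] [Algebra A M] [IsFractionRing A M]

theorem v_one : p.v 1 = 0 := by
  have h := p.v_mul 1 1 one_ne_zero one_ne_zero
  rw [mul_one] at h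
  omega

/-- The extension of `p.v` to the fraction field. -/
def ext (x : M) : ℤ :=
  p.v (IsLocalization.sec (nonZeroDivisors A) x).1 -
    p.v ((IsLocalization.sec (nonZeroDivisors A) x).2 : A)

variable {M}

omit [IsDomain A] in
theorem algebraMap_ne_zero {a : A} (ha : a ≠ 0) : algebraMap A M a ≠ 0 := fun h =>
  ha ((IsFractionRing.injective A M) (by rw [h, map_zero]))

/-- The extension is computed by any representation `x * b = a`. -/
theorem ext_eq {x : M} {a b : A} (ha : a ≠ 0) (hb : b ≠ 0)
    (h : x * algebraMap A M b = algebraMap A M a) : p.ext M x = p.v a - p.v b := by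
  have hx : x ≠ 0 := by
    rintro rfl
    rw [zero_mul] at h
    exact algebraMap_ne_zero ha h.symm
  set s := IsLocalization.sec (nonZeroDivisors A) x with hs
  have hspec : x * algebraMap A M (s.2 : A) = algebraMap A M s.1 :=
    IsLocalization.sec_spec (nonZeroDivisors A) x
  have hs2 : (s.2 : A) ≠ 0 := nonZeroDivisors.ne_zero s.2.2
  have hs1 : s.1 ≠ 0 := by
    intro h0
    rw [h0, map_zero] at hspec
    rcases mul_eq_zero.mp hspec with h1 | h1
    · exact hx h1
    · exact algebraMap_ne_zero hs2 h1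
  have key : a * (s.2 : A) = s.1 * b := by
    apply IsFractionRing.injective A M
    rw [map_mul, map_mul, ← h, ← hspec]
    ring
  have h1 := p.v_mul a (s.2 : A) ha hs2
  have h2 := p.v_mul s.1 b hs1 hb
  rw [key] at h1
  show p.v s.1 - p.v (s.2 : A) = p.v a - p.v b
  omega

theorem exists_rep (x : M) (hx : x ≠ 0) :
    ∃ a b : A, a ≠ 0 ∧ b ≠ 0 ∧ x * algebraMap A M b = algebraMap A M a := by
  set s := IsLocalization.sec (nonZeroDivisors A) x with hs
  have hspec : x * algebraMap A M (s.2 : A) = algebraMap A M s.1 :=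
    IsLocalization.sec_spec (nonZeroDivisors A) x
  have hs2 : (s.2 : A) ≠ 0 := nonZeroDivisors.ne_zero s.2.2
  refine ⟨s.1, s.2, ?_, hs2, hspec⟩
  intro h0
  rw [h0, map_zero] at hspec
  rcases mul_eq_zero.mp hspec with h1 | h1
  · exact hx h1
  · exact algebraMap_ne_zero hs2 h1

theorem ext_algebraMap {a : A} (ha : a ≠ 0) : p.ext M (algebraMap A M a) = p.v a := by
  have h := p.ext_eq (M := M) (x := algebraMap A M a) ha one_ne_zero (by rw [map_one, mul_one])
  rw [h, p.v_one, sub_zero]

theorem ext_mul {x y : M} (hx : x ≠ 0) (hy : y ≠ 0) :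
    p.ext M (x * y) = p.ext M x + p.ext M y := by
  obtain ⟨a, b, ha, hb, h⟩ := exists_rep (A := A) x hx
  obtain ⟨a', b', ha', hb', h'⟩ := exists_rep (A := A) y hy
  have h3 : x * y * algebraMap A M (b * b') = algebraMap A M (a * a') := by
    rw [map_mul, map_mul, ← h, ← h']
    ring
  rw [p.ext_eq (mul_ne_zero ha ha') (mul_ne_zero hb hb') h3, p.ext_eq ha hb h,
    p.ext_eq ha' hb' h', p.v_mul a a' ha ha', p.v_mul b b' hb hb']
  ring

theorem ext_add {x y : M} (hx : x ≠ 0) (hy : y ≠ 0) (hxy : x + y ≠ 0) :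
    min (p.ext M x) (p.ext M y) ≤ p.ext M (x + y) := by
  obtain ⟨a, b, ha, hb, h⟩ := exists_rep (A := A) x hx
  obtain ⟨a', b', ha', hb', h'⟩ := exists_rep (A := A) y hy
  have h3 : (x + y) * algebraMap A M (b * b') = algebraMap A M (a * b' + a' * b) := by
    rw [map_mul, map_add, map_mul, map_mul, ← h, ← h']
    ring
  have hne : a * b' + a' * b ≠ 0 := by
    intro h0
    rw [h0, map_zero] at h3
    rcases mul_eq_zero.mp h3 with h1 | h1
    · exact hxy h1
    · exact algebraMap_ne_zero (mul_ne_zero hb hb') h1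
  rw [p.ext_eq hne (mul_ne_zero hb hb') h3, p.ext_eq ha hb h, p.ext_eq ha' hb' h',
    p.v_mul b b' hb hb']
  have h4 := p.v_add (a * b') (a' * b) (mul_ne_zero ha hb') (mul_ne_zero ha' hb) hne
  rw [p.v_mul a b' ha hb', p.v_mul a' b ha' hb] at h4
  rcases min_le_iff.mp h4 with h5 | h5
  · exact le_trans (min_le_left _ _) (by omega)
  · exact le_trans (min_le_right _ _) (by omega)

open Classical in
/-- The order function on `F` induced through a ring homomorphism `e : F →+* M`
(normalised by `w 0 = 0`). -/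
def toOrdFun {K F : Type*} [Field K] [Field F] [Algebra K F] (e : F →+* M)
    (hconst : ∀ c : K, c ≠ 0 → p.ext M (e (algebraMap K F c)) = 0) : OrdFun K F where
  w f := if f = 0 then 0 else p.ext M (e f)
  map_mul' f g hf hg := by
    rw [if_neg hf, if_neg hg, if_neg (mul_ne_zero hf hg), _root_.map_mul]
    exact p.ext_mul ((map_ne_zero e).mpr hf) ((map_ne_zero e).mpr hg)
  map_add' f g hf hg hfg := by
    rw [if_neg hf, if_neg hg, if_neg hfg, _root_.map_add]
    exact p.ext_add ((map_ne_zero e).mpr hf) ((map_ne_zero e).mpr hg)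
      (by rw [← _root_.map_add]; exact (map_ne_zero e).mpr hfg)
  map_const' c hc := by
    rw [if_neg ((map_ne_zero (algebraMap K F)).mpr hc)]
    exact hconst c hc

theorem toOrdFun_w {K F : Type*} [Field K] [Field F] [Algebra K F] (e : F →+* M)
    (hconst : ∀ c : K, c ≠ 0 → p.ext M (e (algebraMap K F c)) = 0) {f : F} (hf : f ≠ 0) :
    (p.toOrdFun e hconst).w f = p.ext M (e f) := by
  simp only [toOrdFun]
  rw [if_neg hf]

@[simp] theorem toOrdFun_w_zero {K F : Type*} [Field K] [Field F] [Algebra K F] (e : F →+* M)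
    (hconst : ∀ c : K, c ≠ 0 → p.ext M (e (algebraMap K F c)) = 0) :
    (p.toOrdFun e hconst).w 0 = 0 := by
  simp [toOrdFun]

end PreOrd

end Fermat.Agent.GenusLib.FFOrd
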