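import Mathlib
import Fermat.Agent.GenusLib.LevelOne
import Fermat.Agent.GenusLib.BStruct

/-!
# PROJECT Y (S24), design-free leaf: the `j`-function is surjective

If `j - c` had no zero, `1 / (j - c)` would be an `SL(2, ℤ)`-invariant holomorphic function
bounded at `i∞`, hence a constant, which must be `0` since `|j| → ∞`.
-/

set_option autoImplicit false

noncomputable section

namespace Fermat.Agent.GenusLib.JSurj

open UpperHalfPlane hiding I
open Filter Topology Complex
open scoped Real MatrixGroups ModularForm Manifold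
open Polynomial
open Fermat.Agent.GenusLib.Defs Fermat.Agent.GenusLib.LevelOne

/-- `1 / (j - c)` tends to `0` at `i∞`. -/
theorem tendsto_inv_jFun_sub (c : ℂ) :
    Tendsto (fun z : ℍ => (jFun z - c)⁻¹) atImInfty (𝓝 0) := by
  have h1 : Tendsto (fun z : ℍ => ‖jFun z - c‖) atImInfty atTop := by
    have h2 : Tendsto (fun z : ℍ => ‖jFun z‖ + (-‖c‖)) atImInfty atTop :=
      tendsto_atTop_add_const_right _ _ BStruct.jFun_norm_tendsto
    refine tendsto_atTop_mono (fun z => ?_) h2
    have := norm_sub_norm_le (jFun z) c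
    linarith
  exact tendsto_inv₀_cobounded.comp (tendsto_norm_atTop_iff_cobounded.mp h1)

/-- The inverse of a nowhere vanishing holomorphic function on `ℍ` is holomorphic. -/
theorem mdiff_inv {F : ℍ → ℂ} (hF : MDiff F) (h0 : ∀ τ, F τ ≠ 0) :
    MDiff (fun τ => (F τ)⁻¹) := by
  rw [UpperHalfPlane.mdifferentiable_iff] at hF ⊢
  intro z hz
  exact (hF z hz).inv (h0 _)

/-- **The `j`-function is surjective.** -/
theorem jFun_surjective : Function.Surjective jFun := by
  intro c
  by_contra hc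
  push Not at hc
  have hne : ∀ τ : ℍ, jFun τ - c ≠ 0 := fun τ => sub_ne_zero.mpr (hc τ)
  set g : ℍ → ℂ := fun τ => (jFun τ - c)⁻¹ with hg
  have hsub : MDiff (fun τ : ℍ => jFun τ - c) := jFun_mdiff.sub mdifferentiable_const
  have hgm : MDiff g := mdiff_inv hsub hne
  have hinv : ∀ γ : SL(2, ℤ), g ∣[(0 : ℤ)] γ = g :=
    slash_zero_eq_of_smul fun γ z => by simp only [hg, jFun_smul]
  have hlim : Tendsto g atImInfty (𝓝 0) := tendsto_inv_jFun_sub c
  have hg0 : g * dpow ((0 : ℕ) : ℤ) = g := by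
    funext z
    simp [dpow_apply]
  have hb : IsBoundedAtImInfty (g * dpow ((0 : ℕ) : ℤ)) := by
    rw [hg0]
    exact isBoundedAtImInfty_of_tendsto hlim
  obtain ⟨P, hP, hPz⟩ := exists_poly_weight_zero hgm hinv 0 hb
  have hPc : P = C (P.coeff 0) := eq_C_of_natDegree_le_zero hP
  have hconst : ∀ τ, g τ = P.coeff 0 := fun τ => by
    rw [hPz τ, hPc]
    simp
  have h1 : Tendsto g atImInfty (𝓝 (P.coeff 0)) := by
    rw [show g = fun _ => P.coeff 0 from funext hconst]
    exact tendsto_const_nhds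
  have h0 : P.coeff 0 = 0 := tendsto_nhds_unique h1 hlim
  have h2 := hconst UpperHalfPlane.I
  rw [h0] at h2
  exact inv_ne_zero (hne _) h2

theorem exists_jFun_eq (c : ℂ) : ∃ τ : ℍ, jFun τ = c := jFun_surjective c

/-- A polynomial in `j` has a zero on `ℍ` as soon as the polynomial has a root. -/
theorem exists_polyJ_eq_zero {P : ℂ[X]} (hP : 0 < P.degree) : ∃ τ : ℍ, polyJ P τ = 0 := by
  obtain ⟨c, hc⟩ := Complex.exists_root hP
  obtain ⟨τ, hτ⟩ := exists_jFun_eq c
  exact ⟨τ, by rw [polyJ_apply, hτ]; exact hc⟩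

/-- A polynomial in `j` without zeros on `ℍ` is a nonzero constant. -/
theorem eq_C_of_polyJ_ne_zero {P : ℂ[X]} (h : ∀ τ : ℍ, polyJ P τ ≠ 0) :
    ∃ a : ℂ, a ≠ 0 ∧ P = C a := by
  have hdeg : ¬ 0 < P.degree := fun hP => by
    obtain ⟨τ, hτ⟩ := exists_polyJ_eq_zero hP
    exact h τ hτ
  have hPc : P = C (P.coeff 0) := eq_C_of_degree_le_zero (not_lt.mp hdeg)
  refine ⟨P.coeff 0, fun h0 => ?_, hPc⟩
  have := h UpperHalfPlane.I
  rw [polyJ_apply, hPc, h0] at this
  simp at this

/-- The value `jFun τ` is a root of `P` iff `polyJ P` vanishes at `τ`; every root is a value. -/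
theorem isRoot_iff_exists (P : ℂ[X]) (c : ℂ) :
    P.IsRoot c ↔ ∃ τ : ℍ, jFun τ = c ∧ polyJ P τ = 0 := by
  constructor
  · intro h
    obtain ⟨τ, hτ⟩ := exists_jFun_eq c
    exact ⟨τ, hτ, by rw [polyJ_apply, hτ]; exact h⟩
  · rintro ⟨τ, rfl, h⟩
    exact h

end Fermat.Agent.GenusLib.JSurj
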