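import Mathlib
import Fermat.Agent.GenusLib.FFOrd
import Fermat.Agent.GenusLib.PFam
import Fermat.Agent.GenusLib.JOrd
import Fermat.Agent.GenusLib.JSurj
import Fermat.Agent.GenusLib.BStruct
import Fermat.Agent.GenusLib.QExpJ
import Fermat.Prelude.Def_ModularCurve_ArithmeticGalois

/-!
# S24, analytic side: shared definitions

* `Qb = AlgebraicClosure ℚ`, `FN N` = the function field `modularFunctionFieldBar N`, `MN N` = the
  fraction field of `BAlg N` (meromorphic functions on `X₀(N)`), `jF N`, `jdF N d` ∈ `FN N`;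
* `BridgeData N` : the comparison homomorphism `e : FN N →+* MN N` with its `q`-expansion
  characterisation (constructed in `Bridge.lean`);
* `tauOf B c` : a point with `j = ι c`;
* `ptPre N τ ω` : the normalised order at the point `ω` over `τ` as a `PreOrd` on `BAlg N`, and
  `W B c ω` : the induced `OrdFun` on `FN N`.
-/

set_option autoImplicit false
set_option linter.unusedSectionVars false

noncomputable section

namespace Fermat.Agent.GenusLib.FF

open UpperHalfPlane hiding I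
open scoped MatrixGroups ModularForm Manifold
open CongruenceSubgroup Polynomial
open Fermat.Agent.S23Lib Fermat.Agent.S23Lib.Conj
open Fermat.Agent.GenusLib.Defs Fermat.Agent.GenusLib.LS Fermat.Agent.GenusLib.BStruct
  Fermat.Agent.GenusLib.PlaceCore Fermat.Agent.GenusLib.FFOrd Fermat.Agent.GenusLib

/-- The algebraic closure of `ℚ`. -/
abbrev Qb : Type := AlgebraicClosure ℚ

variable (N : ℕ) [NeZero N]

/-- The function field of `X₀(N)` over `Qb`. -/
abbrev FN : Type := ↥(ModularCurve.modularFunctionFieldBar N)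

/-- The field of meromorphic functions on `X₀(N)`: the fraction field of `BAlg N`. -/
abbrev MN : Type := FractionRing (BAlg N)

/-- The formal `j(q^d)` as an element of the function field. -/
def jdF (d : ℕ) [NeZero d] (hd : d ∣ N) : FN N :=
  ⟨ModularCurve.coeffEmb Qb (ModularCurve.qExpand ℚ d ModularCurve.jq),
    ModularCurve.coeffEmb_mem_laurentBaseChange _ (ModularCurve.jqd_mem_full N hd)⟩

/-- The formal `j` as an element of the function field. -/
def jF : FN N :=
  ⟨ModularCurve.coeffEmb Qb ModularCurve.jq,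
    ModularCurve.coeffEmb_mem_laurentBaseChange _
      (ModularCurve.modularFunctionField_le_full N (ModularCurve.jq_mem N))⟩

@[simp] theorem coe_jF : ((jF N : FN N) : LaurentSeries Qb) =
    ModularCurve.coeffEmb Qb ModularCurve.jq := rfl

@[simp] theorem coe_jdF (d : ℕ) [NeZero d] (hd : d ∣ N) : ((jdF N d hd : FN N) : LaurentSeries Qb) =
    ModularCurve.coeffEmb Qb (ModularCurve.qExpand ℚ d ModularCurve.jq) := rfl

/-- `j` as an element of `MN N`. -/
def jM : MN N := algebraMap (BAlg N) (MN N) (jB N)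

/-- The comparison between the formal function field and the analytic one. -/
structure BridgeData where
  ι : Qb →+* ℂ
  e : FN N →+* MN N
  lexp : MN N →+* LaurentSeries ℂ
  lexp_const : ∀ z : ℂ, lexp (algebraMap ℂ (MN N) z) = HahnSeries.C z
  lexp_e : ∀ f : FN N, lexp (e f) = ModularCurve.coeffMap ι (f : LaurentSeries Qb)
  e_const : ∀ c : Qb, e (algebraMap Qb (FN N) c) = algebraMap ℂ (MN N) (ι c)
  e_j : e (jF N) = jM N
  dil_mem : QExp.dil N jFun ∈ BAlg N
  e_jN : e (jdF N N dvd_rfl) = algebraMap (BAlg N) (MN N) ⟨QExp.dil N jFun, dil_mem⟩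

variable {N}

theorem BridgeData.e_injective (B : BridgeData N) : Function.Injective B.e := B.e.injective

theorem BridgeData.ι_injective (B : BridgeData N) : Function.Injective B.ι := B.ι.injective

/-- A point of `ℍ` with `j = ι c`. -/
def tauOf (B : BridgeData N) (c : Qb) : ℍ := (JSurj.exists_jFun_eq (B.ι c)).choose

theorem jFun_tauOf (B : BridgeData N) (c : Qb) : jFun (tauOf B c) = B.ι c :=
  (JSurj.exists_jFun_eq (B.ι c)).choose_spec

/-! ### Translates of elements of `BAlg N` -/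

theorem coe_ne_zero {b : BAlg N} (hb : b ≠ 0) : (b : ℍ → ℂ) ≠ 0 := fun h => hb (Subtype.ext h)

theorem trn_ne_zero (q : X N) {b : ℍ → ℂ} (hb : b ≠ 0) : trn q b ≠ 0 := by
  intro h
  apply hb
  funext w
  have h1 := congrFun h ((Quotient.out q) • w)
  rw [trn_apply, inv_smul_smul] at h1
  exact h1

theorem ordAt_trn_ne_top (q : X N) {b : BAlg N} (hb : b ≠ 0) (τ : ℍ) :
    Pts.ordAt (trn q (b : ℍ → ℂ)) τ ≠ ⊤ :=
  Pts.ordAt_ne_top (trn_mdiff q (BAlg_mdiff b)) (trn_ne_zero q (coe_ne_zero hb)) τ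

/-- The order of a translate at `τ`, as a natural number. -/
def ordN (τ : ℍ) (q : X N) (b : BAlg N) : ℕ := (Pts.ordAt (trn q (b : ℍ → ℂ)) τ).toNat

theorem coe_ordN (τ : ℍ) (q : X N) {b : BAlg N} (hb : b ≠ 0) :
    ((ordN τ q b : ℕ) : ℕ∞) = Pts.ordAt (trn q (b : ℍ → ℂ)) τ :=
  ENat.natCast_toNat (ordAt_trn_ne_top q hb τ)

theorem ordN_mul (τ : ℍ) (q : X N) {a b : BAlg N} (ha : a ≠ 0) (hb : b ≠ 0) :
    ordN τ q (a * b) = ordN τ q a + ordN τ q b := by
  have h : Pts.ordAt (trn q ((a * b : BAlg N) : ℍ → ℂ)) τ =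
      Pts.ordAt (trn q (a : ℍ → ℂ)) τ + Pts.ordAt (trn q (b : ℍ → ℂ)) τ := by
    rw [Subalgebra.coe_mul, trn_mul,
      Pts.ordAt_mul (trn_mdiff q (BAlg_mdiff a)) (trn_mdiff q (BAlg_mdiff b))]
  rw [← coe_ordN τ q ha, ← coe_ordN τ q hb, ← coe_ordN τ q (mul_ne_zero ha hb)] at h
  exact_mod_cast h

theorem ordN_add (τ : ℍ) (q : X N) {a b : BAlg N} (ha : a ≠ 0) (hb : b ≠ 0) (hab : a + b ≠ 0) :
    min (ordN τ q a) (ordN τ q b) ≤ ordN τ q (a + b) := by
  have h : min (Pts.ordAt (trn q (a : ℍ → ℂ)) τ) (Pts.ordAt (trn q (b : ℍ → ℂ)) τ) ≤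
      Pts.ordAt (trn q ((a + b : BAlg N) : ℍ → ℂ)) τ := by
    rw [Subalgebra.coe_add, trn_add]
    exact Pts.le_ordAt_add _ _ τ
  rw [← coe_ordN τ q ha, ← coe_ordN τ q hb, ← coe_ordN τ q hab] at h
  rcases min_le_iff.mp h with h1 | h1
  · exact le_trans (min_le_left _ _) (by exact_mod_cast h1)
  · exact le_trans (min_le_right _ _) (by exact_mod_cast h1)

theorem eP_dvd_ordN {τ : ℍ} (ω : OrbP N τ) {b : BAlg N} (hb : b ≠ 0) :
    eP ω ∣ ordN τ (repP ω) b :=
  eP_dvd_ordAt b.2 ω (coe_ordN τ (repP ω) hb).symm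

/-- Orders of translates at `τ` only depend on the orbit of the coset under the stabiliser. -/
theorem ordN_repP (τ : ℍ) (q : X N) (b : BAlg N) :
    ordN τ q b = ordN τ (repP (Quotient.mk'' q : OrbP N τ)) b := by
  obtain ⟨h, hh, hq⟩ := exists_smul_repP τ q
  unfold ordN
  conv_lhs => rw [hq]
  rw [ordAt_trn_smul b.2 hh]

/-! ### The order functions at the points of `ℍ` -/

/-- The normalised order at the point `ω` over `τ`. -/
def ptPre (N : ℕ) [NeZero N] (τ : ℍ) (ω : OrbP N τ) : PreOrd (BAlg N) where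
  v b := ((ordN τ (repP ω) b / eP ω : ℕ) : ℤ)
  v_mul a b ha hb := by
    obtain ⟨m, hm⟩ := eP_dvd_ordN ω ha
    obtain ⟨n, hn⟩ := eP_dvd_ordN ω hb
    have he := eP_pos ω
    rw [ordN_mul τ _ ha hb, hm, hn, ← Nat.mul_add, Nat.mul_div_cancel_left _ he,
      Nat.mul_div_cancel_left _ he, Nat.mul_div_cancel_left _ he]
    push_cast
    ring
  v_add a b ha hb hab := by
    have h := ordN_add τ (repP ω) ha hb hab
    have h1 : min (ordN τ (repP ω) a / eP ω) (ordN τ (repP ω) b / eP ω) ≤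
        ordN τ (repP ω) (a + b) / eP ω := by
      rcases min_le_iff.mp h with h2 | h2
      · exact le_trans (min_le_left _ _) (Nat.div_le_div_right h2)
      · exact le_trans (min_le_right _ _) (Nat.div_le_div_right h2)
    exact_mod_cast h1

theorem ptPre_v (τ : ℍ) (ω : OrbP N τ) (b : BAlg N) :
    (ptPre N τ ω).v b = ((ordN τ (repP ω) b / eP ω : ℕ) : ℤ) := rfl

theorem ptPre_v_mul_eP (τ : ℍ) (ω : OrbP N τ) {b : BAlg N} (hb : b ≠ 0) :
    (ptPre N τ ω).v b * eP ω = ordN τ (repP ω) b := by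
  rw [ptPre_v]
  exact_mod_cast Nat.div_mul_cancel (eP_dvd_ordN ω hb)

theorem algebraMap_BAlg_ne_zero {z : ℂ} (hz : z ≠ 0) : algebraMap ℂ (BAlg N) z ≠ 0 := by
  intro h
  have h1 := congrFun (congrArg Subtype.val h) UpperHalfPlane.I
  simp at h1
  exact hz h1

theorem ordN_algebraMap (τ : ℍ) (q : X N) {z : ℂ} (hz : z ≠ 0) :
    ordN τ q (algebraMap ℂ (BAlg N) z) = 0 := by
  unfold ordN
  have h : trn q ((algebraMap ℂ (BAlg N) z : BAlg N) : ℍ → ℂ) = fun _ => z := by
    funext w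
    rw [trn_apply]
    simp
  rw [h, Pts.ordAt_const hz]
  rfl

theorem ptPre_ext_const (τ : ℍ) (ω : OrbP N τ) {z : ℂ} (hz : z ≠ 0) :
    (ptPre N τ ω).ext (MN N) (algebraMap ℂ (MN N) z) = 0 := by
  rw [IsScalarTower.algebraMap_apply ℂ (BAlg N) (MN N),
    PreOrd.ext_algebraMap _ (algebraMap_BAlg_ne_zero hz), ptPre_v, ordN_algebraMap τ _ hz]
  simp

/-- The order function on the function field at the point `ω` over `j = c`. -/
def W (B : BridgeData N) (c : Qb) (ω : OrbP N (tauOf B c)) : OrdFun Qb (FN N) :=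
  (ptPre N (tauOf B c) ω).toOrdFun B.e (fun z hz => by
    rw [B.e_const]
    exact ptPre_ext_const _ ω ((map_ne_zero B.ι).mpr hz))

theorem W_w (B : BridgeData N) (c : Qb) (ω : OrbP N (tauOf B c)) {g : FN N} (hg : g ≠ 0) :
    (W B c ω).w g = (ptPre N (tauOf B c) ω).ext (MN N) (B.e g) :=
  PreOrd.toOrdFun_w _ _ _ hg

@[simp] theorem W_w_zero (B : BridgeData N) (c : Qb) (ω : OrbP N (tauOf B c)) :
    (W B c ω).w 0 = 0 :=
  PreOrd.toOrdFun_w_zero _ _ _

/-- A representation `e g = a / b` with `a ≠ 0` forces `g ≠ 0`. -/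
theorem ne_zero_of_rep (B : BridgeData N) {g : FN N} {a b : BAlg N} (ha : a ≠ 0)
    (h : B.e g * algebraMap (BAlg N) (MN N) b = algebraMap (BAlg N) (MN N) a) : g ≠ 0 := by
  rintro rfl
  rw [map_zero, zero_mul] at h
  exact PreOrd.algebraMap_ne_zero ha h.symm

/-- In a representation `e g = a / b` of `g ≠ 0` the numerator is nonzero. -/
theorem rep_ne_zero (B : BridgeData N) {g : FN N} (hg : g ≠ 0) {a b : BAlg N} (hb : b ≠ 0)
    (h : B.e g * algebraMap (BAlg N) (MN N) b = algebraMap (BAlg N) (MN N) a) : a ≠ 0 := by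
  rintro rfl
  rw [map_zero] at h
  rcases mul_eq_zero.mp h with h1 | h1
  · exact hg ((map_eq_zero B.e).mp h1)
  · exact PreOrd.algebraMap_ne_zero hb h1

/-- The order at `ω` is computed on any representation `e g = a / b`. -/
theorem W_eq (B : BridgeData N) (c : Qb) (ω : OrbP N (tauOf B c)) {g : FN N} {a b : BAlg N}
    (ha : a ≠ 0) (hb : b ≠ 0)
    (h : B.e g * algebraMap (BAlg N) (MN N) b = algebraMap (BAlg N) (MN N) a) :
    (W B c ω).w g = (ptPre N (tauOf B c) ω).v a - (ptPre N (tauOf B c) ω).v b := by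
  rw [W_w B c ω (ne_zero_of_rep B ha h)]
  exact PreOrd.ext_eq _ ha hb h

/-- Every element of the function field has a representation `e g = a / b`. -/
theorem exists_rep (B : BridgeData N) (g : FN N) :
    ∃ a b : BAlg N, b ≠ 0 ∧
      B.e g * algebraMap (BAlg N) (MN N) b = algebraMap (BAlg N) (MN N) a := by
  obtain ⟨⟨a, b⟩, h⟩ := IsLocalization.surj (nonZeroDivisors (BAlg N)) (B.e g)
  exact ⟨a, b, nonZeroDivisors.ne_zero b.2, h⟩

end Fermat.Agent.GenusLib.FF
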