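import Mathlib
import Fermat.Agent.GenusLib.BStruct

/-!
# PROJECT Y (S24), leaf [S24-DER]: derivations on fraction fields and the Wronskian relation

* (a) `fracDeriv δ : Derivation k K K` : the extension of a derivation `δ` of a domain `R` to a
  field of fractions `K` (through the dual numbers `TrivSqZeroExt K K`);
* (b) `Hol` (holomorphic functions on `ℍ`, a domain), `Dhol` (the normalized derivative as a
  derivation), `MerH := FractionRing Hol`, `incl` (fractions of `BAlg N` inside `MerH`);
* (c) `wronskian_rel`, `wronskian_ne_zero` : a Kähler relation `D x = f • D π` in a field `F`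
  mapped to fractions of `BAlg N` becomes an identity of holomorphic functions.
-/

set_option autoImplicit false

noncomputable section

namespace Fermat.Agent.GenusLib.Mer

open UpperHalfPlane hiding I
open scoped Manifold MatrixGroups ModularForm
open Fermat.Agent.GenusLib.Defs Fermat.Agent.GenusLib.BStruct

local notation "D" => Derivative.normalizedDerivOfComplex

/-! ### (a) Generic: the extension of a derivation to the fraction field -/

section Generic

variable {k R K : Type*} [CommRing k] [CommRing R] [Algebra k R] [Field K] [Algebra R K]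

/-- `r ↦ (r, δ r)` into the dual numbers over `K`. -/
def dualFun (δ : Derivation k R R) (r : R) : TrivSqZeroExt K K :=
  TrivSqZeroExt.inl (algebraMap R K r) + TrivSqZeroExt.inr (algebraMap R K (δ r))

theorem fst_dualFun (δ : Derivation k R R) (r : R) :
    (dualFun (K := K) δ r).fst = algebraMap R K r := by
  simp only [dualFun, TrivSqZeroExt.fst_add, TrivSqZeroExt.fst_inl, TrivSqZeroExt.fst_inr,
    add_zero]

theorem snd_dualFun (δ : Derivation k R R) (r : R) :
    (dualFun (K := K) δ r).snd = algebraMap R K (δ r) := by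
  simp only [dualFun, TrivSqZeroExt.snd_add, TrivSqZeroExt.snd_inl, TrivSqZeroExt.snd_inr,
    zero_add]

/-- `r ↦ (r, δ r)` as a ring hom into the dual numbers over `K`. -/
def dualHom (δ : Derivation k R R) : R →+* TrivSqZeroExt K K where
  toFun := dualFun δ
  map_one' := by
    apply TrivSqZeroExt.ext
    · rw [fst_dualFun, map_one, TrivSqZeroExt.fst_one]
    · rw [snd_dualFun, Derivation.map_one_eq_zero, map_zero, TrivSqZeroExt.snd_one]
  map_mul' x y := by
    apply TrivSqZeroExt.ext
    · rw [fst_dualFun, TrivSqZeroExt.fst_mul, fst_dualFun, fst_dualFun, map_mul]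
    · rw [snd_dualFun, TrivSqZeroExt.snd_mul, fst_dualFun, fst_dualFun, snd_dualFun, snd_dualFun,
        Derivation.leibniz, map_add, smul_eq_mul, smul_eq_mul, map_mul, map_mul, smul_eq_mul,
        MulOpposite.smul_eq_mul_unop, MulOpposite.unop_op]
      ring
  map_zero' := by
    apply TrivSqZeroExt.ext
    · rw [fst_dualFun, map_zero, TrivSqZeroExt.fst_zero]
    · rw [snd_dualFun, map_zero, map_zero, TrivSqZeroExt.snd_zero]
  map_add' x y := by
    apply TrivSqZeroExt.ext
    · rw [fst_dualFun, TrivSqZeroExt.fst_add, fst_dualFun, fst_dualFun, map_add]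
    · rw [snd_dualFun, TrivSqZeroExt.snd_add, snd_dualFun, snd_dualFun, map_add, map_add]

theorem fst_dualHom (δ : Derivation k R R) (r : R) :
    (dualHom (K := K) δ r).fst = algebraMap R K r := fst_dualFun δ r

theorem snd_dualHom (δ : Derivation k R R) (r : R) :
    (dualHom (K := K) δ r).snd = algebraMap R K (δ r) := snd_dualFun δ r

variable [IsFractionRing R K]

theorem isUnit_dualHom (δ : Derivation k R R) (y : nonZeroDivisors R) :
    IsUnit (dualHom (K := K) δ y) := by
  rw [TrivSqZeroExt.isUnit_iff_isUnit_fst, fst_dualHom]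
  exact IsLocalization.map_units K y

/-- The extension of `dualHom` to the fraction field. -/
def dualLift (δ : Derivation k R R) : K →+* TrivSqZeroExt K K :=
  IsLocalization.lift (M := nonZeroDivisors R) (isUnit_dualHom δ)

theorem dualLift_algebraMap (δ : Derivation k R R) (r : R) :
    dualLift (K := K) δ (algebraMap R K r) = dualHom δ r :=
  IsLocalization.lift_eq _ r

theorem fst_dualLift (δ : Derivation k R R) (x : K) : (dualLift δ x).fst = x := by
  have h : (TrivSqZeroExt.fstHom K K K).toRingHom.comp (dualLift δ) = RingHom.id K := by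
    apply IsLocalization.ringHom_ext (nonZeroDivisors R)
    ext r
    simp only [RingHom.comp_apply, dualLift_algebraMap, RingHom.id_apply]
    exact fst_dualHom δ r
  exact congrArg (fun f : K →+* K => f x) h

variable [Algebra k K] [IsScalarTower k R K]

/-- **The extension of a derivation to the fraction field** (quotient rule). -/
def fracDeriv (δ : Derivation k R R) : Derivation k K K :=
  Derivation.mk'
    { toFun := fun x => (dualLift δ x).snd
      map_add' := fun x y => by rw [map_add, TrivSqZeroExt.snd_add]
      map_smul' := fun c x => by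
        have h0 : (dualLift (K := K) δ (algebraMap k K c)).snd = 0 := by
          rw [IsScalarTower.algebraMap_apply k R K, dualLift_algebraMap, snd_dualHom,
            Derivation.map_algebraMap, map_zero]
        have h1 : (dualLift (K := K) δ (algebraMap k K c)).fst = algebraMap k K c :=
          fst_dualLift δ _
        simp only [RingHom.id_apply]
        rw [Algebra.smul_def, map_mul, TrivSqZeroExt.snd_mul, h0, h1, fst_dualLift, smul_zero,
          add_zero, smul_eq_mul, Algebra.smul_def] }
    (fun x y => by
      show (dualLift δ (x * y)).snd = x • (dualLift δ y).snd + y • (dualLift δ x).snd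
      rw [map_mul, TrivSqZeroExt.snd_mul, fst_dualLift, fst_dualLift, MulOpposite.smul_eq_mul_unop,
        MulOpposite.unop_op, smul_eq_mul, smul_eq_mul, mul_comm y])

theorem fracDeriv_apply (δ : Derivation k R R) (x : K) :
    fracDeriv δ x = (dualLift δ x).snd := rfl

@[simp] theorem fracDeriv_algebraMap (δ : Derivation k R R) (r : R) :
    fracDeriv (K := K) δ (algebraMap R K r) = algebraMap R K (δ r) := by
  rw [fracDeriv_apply, dualLift_algebraMap, snd_dualHom]

/-- Quotient rule on representatives. -/
theorem fracDeriv_mul_sq (δ : Derivation k R R) {x : K} {a b : R}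
    (h : x * algebraMap R K b = algebraMap R K a) :
    fracDeriv δ x * algebraMap R K b ^ 2 =
      algebraMap R K (δ a) * algebraMap R K b - algebraMap R K a * algebraMap R K (δ b) := by
  have h1 := congrArg (fracDeriv (K := K) δ) h
  rw [Derivation.leibniz, fracDeriv_algebraMap, fracDeriv_algebraMap, smul_eq_mul, smul_eq_mul] at h1
  rw [← h1, ← h]
  ring

end Generic

/-! ### Generic: a derivation on a field kills Kähler relations -/

/-- Transport of a Kähler relation along a ring hom into a field with a derivation. -/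
theorem kaehler_rel {K F L : Type*} [Field K] [Field F] [Algebra K F] [Field L] (φ : F →+* L)
    (d : L → L) (hadd : ∀ x y, d (x + y) = d x + d y)
    (hmul : ∀ x y, d (x * y) = x * d y + y * d x)
    (hconst : ∀ c : K, d (φ (algebraMap K F c)) = 0) (x f π : F)
    (h : KaehlerDifferential.D K F x = f • KaehlerDifferential.D K F π) :
    d (φ x) = φ f * d (φ π) := by
  let _ : Algebra F L := φ.toAlgebra
  let _ : Algebra K L := (φ.comp (algebraMap K F)).toAlgebra
  have : IsScalarTower K F L := IsScalarTower.of_algebraMap_eq fun c => rfl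
  have hsm : ∀ (y : F) (m : L), y • m = φ y * m := fun y m => by
    rw [Algebra.smul_def]; rfl
  let dF : Derivation K F L := Derivation.mk'
    { toFun := fun y => d (φ y)
      map_add' := fun y z => by rw [map_add, hadd]
      map_smul' := fun c y => by
        have h1 : c • y = algebraMap K F c * y := Algebra.smul_def c y
        have h2 : ∀ m : L, c • m = φ (algebraMap K F c) * m := fun m => by
          rw [Algebra.smul_def]; rfl
        simp only [RingHom.id_apply]
        rw [h1, map_mul, hmul, hconst, mul_zero, add_zero, h2] }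
    (fun y z => by
      show d (φ (y * z)) = y • d (φ z) + z • d (φ y)
      rw [map_mul, hmul, hsm, hsm])
  have h1 := congrArg dF.liftKaehlerDifferential h
  rw [map_smul, Derivation.liftKaehlerDifferential_comp_D, Derivation.liftKaehlerDifferential_comp_D,
    hsm] at h1
  exact h1

/-! ### Holomorphic functions -/

/-- The algebra of holomorphic functions on the upper half plane. -/
def Hol : Subalgebra ℂ (ℍ → ℂ) where
  carrier := {F | MDiff F}
  mul_mem' := fun hF hG => hF.mul hG
  one_mem' := mdifferentiable_const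
  add_mem' := fun hF hG => hF.add hG
  zero_mem' := mdifferentiable_const
  algebraMap_mem' := fun _ => mdifferentiable_const

theorem mem_Hol {F : ℍ → ℂ} : F ∈ Hol ↔ MDiff F := Iff.rfl

theorem Hol_mdiff (a : Hol) : MDiff (a : ℍ → ℂ) := a.2

instance instNoZeroDivisorsHol : NoZeroDivisors Hol where
  eq_zero_or_eq_zero_of_mul_eq_zero := by
    intro a b hab
    have h : (a : ℍ → ℂ) * (b : ℍ → ℂ) = 0 := congrArg Subtype.val hab
    rcases (UpperHalfPlane.mul_eq_zero_iff (Hol_mdiff a) (Hol_mdiff b)).mp h with h | h
    · exact Or.inl (Subtype.ext h)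
    · exact Or.inr (Subtype.ext h)

instance instIsDomainHol : IsDomain Hol := NoZeroDivisors.to_isDomain _

/-- The normalized derivative as a derivation of `Hol`. -/
def Dhol : Derivation ℂ Hol Hol :=
  Derivation.mk'
    { toFun := fun a => ⟨D (a : ℍ → ℂ), Derivative.normalizedDerivOfComplex_mdifferentiable a.2⟩
      map_add' := fun a b =>
        Subtype.ext (Derivative.normalizedDerivOfComplex_add _ _ a.2 b.2)
      map_smul' := fun c a =>
        Subtype.ext (Derivative.normalizedDerivOfComplex_smul c _ a.2) }
    (fun a b => Subtype.ext (by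
      show D ((a : ℍ → ℂ) * (b : ℍ → ℂ)) = (a : ℍ → ℂ) * D (b : ℍ → ℂ) + (b : ℍ → ℂ) * D (a : ℍ → ℂ)
      rw [Derivative.normalizedDerivOfComplex_mul _ _ a.2 b.2]
      ring))

@[simp] theorem coe_Dhol (a : Hol) : ((Dhol a : Hol) : ℍ → ℂ) = D (a : ℍ → ℂ) := rfl

/-- The field of meromorphic functions on `ℍ` (fractions of holomorphic functions). -/
abbrev MerH : Type := FractionRing Hol

theorem BAlg_le_Hol (N : ℕ) : BAlg N ≤ Hol := fun _ hF => by
  obtain ⟨m, hm⟩ := hF
  exact hm.1

/-- The inclusion `BAlg N → Hol`. -/
def inclB (N : ℕ) : BAlg N →ₐ[ℂ] Hol := Subalgebra.inclusion (BAlg_le_Hol N)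

@[simp] theorem coe_inclB {N : ℕ} (b : BAlg N) : ((inclB N b : Hol) : ℍ → ℂ) = (b : ℍ → ℂ) := rfl

theorem inclB_injective (N : ℕ) : Function.Injective (inclB N) :=
  Subalgebra.inclusion_injective (BAlg_le_Hol N)


/-! ### (c) The Wronskian relation -/

section Wronskian

variable {N : ℕ} {M : Type*} [Field M] [Algebra (BAlg N) M] [IsFractionRing (BAlg N) M]

theorem algebraMap_inclB_injective (N : ℕ) :
    Function.Injective ((algebraMap Hol MerH).comp (inclB N).toRingHom) :=
  (IsFractionRing.injective Hol MerH).comp (inclB_injective N)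

/-- The inclusion of a field of fractions of `BAlg N` into `MerH`. -/
def incl (N : ℕ) (M : Type*) [Field M] [Algebra (BAlg N) M] [IsFractionRing (BAlg N) M] :
    M →+* MerH :=
  IsFractionRing.lift (algebraMap_inclB_injective N)

theorem incl_algebraMap (b : BAlg N) :
    incl N M (algebraMap (BAlg N) M b) = algebraMap Hol MerH (inclB N b) :=
  IsFractionRing.lift_algebraMap (algebraMap_inclB_injective N) b

/-- The derivation of `MerH`. -/
def dMer : Derivation ℂ MerH MerH := fracDeriv Dhol

theorem dMer_algebraMap (a : Hol) : dMer (algebraMap Hol MerH a) = algebraMap Hol MerH (Dhol a) :=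
  fracDeriv_algebraMap Dhol a

/-- Quotient rule for an element of `M` with a representation `x * b = a`. -/
theorem dMer_incl_mul_sq {x : M} {a b : BAlg N}
    (h : x * algebraMap (BAlg N) M b = algebraMap (BAlg N) M a) :
    dMer (incl N M x) * algebraMap Hol MerH (inclB N b) ^ 2 =
      algebraMap Hol MerH (Dhol (inclB N a) * inclB N b - inclB N a * Dhol (inclB N b)) := by
  have h1 : incl N M x * algebraMap Hol MerH (inclB N b) = algebraMap Hol MerH (inclB N a) := by
    rw [← incl_algebraMap (M := M), ← incl_algebraMap (M := M), ← map_mul, h]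
  have h2 := fracDeriv_mul_sq Dhol h1
  rw [map_sub, map_mul, map_mul]
  exact h2

variable {K F : Type*} [Field K] [Field F] [Algebra K F] [Algebra ℂ M]
  [IsScalarTower ℂ (BAlg N) M]

/-- A Kähler relation `D x = f • D π` in `F`, transported by `e : F → M` (constants going to
constants), gives `d (e x) = e f * d (e π)` in `MerH`. -/
theorem dMer_rel (ι : K →+* ℂ) (e : F →+* M)
    (he : ∀ c : K, e (algebraMap K F c) = algebraMap ℂ M (ι c)) (x π f : F)
    (h : KaehlerDifferential.D K F x = f • KaehlerDifferential.D K F π) :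
    dMer (incl N M (e x)) = incl N M (e f) * dMer (incl N M (e π)) := by
  refine kaehler_rel (K := K) ((incl N M).comp e) (fun y => dMer y) (fun y z => map_add dMer y z)
    (fun y z => ?_) (fun c => ?_) x f π h
  · rw [Derivation.leibniz, smul_eq_mul, smul_eq_mul]
  · rw [RingHom.comp_apply, he, IsScalarTower.algebraMap_apply ℂ (BAlg N) M, incl_algebraMap,
      dMer_algebraMap, AlgHom.commutes, Derivation.map_algebraMap, map_zero]

/-- **Wronskian relation**, general form. -/
theorem wronskian_rel_gen (ι : K →+* ℂ) (e : F →+* M)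
    (he : ∀ c : K, e (algebraMap K F c) = algebraMap ℂ M (ι c)) (x π f : F)
    (h : KaehlerDifferential.D K F x = f • KaehlerDifferential.D K F π)
    (a₀ b₀ a b A B : BAlg N)
    (hx : e x * algebraMap (BAlg N) M b₀ = algebraMap (BAlg N) M a₀)
    (hπ : e π * algebraMap (BAlg N) M b = algebraMap (BAlg N) M a)
    (hf : e f * algebraMap (BAlg N) M B = algebraMap (BAlg N) M A) :
    (B : ℍ → ℂ) * (D (a₀ : ℍ → ℂ) * (b₀ : ℍ → ℂ) - (a₀ : ℍ → ℂ) * D (b₀ : ℍ → ℂ)) *
        (b : ℍ → ℂ) ^ 2 =
      (A : ℍ → ℂ) * (D (a : ℍ → ℂ) * (b : ℍ → ℂ) - (a : ℍ → ℂ) * D (b : ℍ → ℂ)) *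
        (b₀ : ℍ → ℂ) ^ 2 := by
  have h0 := dMer_rel (N := N) (M := M) ι e he x π f h
  have hx' := dMer_incl_mul_sq (M := M) hx
  have hπ' := dMer_incl_mul_sq (M := M) hπ
  have hf' : incl N M (e f) * algebraMap Hol MerH (inclB N B) =
      algebraMap Hol MerH (inclB N A) := by
    rw [← incl_algebraMap (M := M), ← incl_algebraMap (M := M), ← map_mul, hf]
  have key : algebraMap Hol MerH (inclB N B *
        (Dhol (inclB N a₀) * inclB N b₀ - inclB N a₀ * Dhol (inclB N b₀)) * inclB N b ^ 2) =
      algebraMap Hol MerH (inclB N A *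
        (Dhol (inclB N a) * inclB N b - inclB N a * Dhol (inclB N b)) * inclB N b₀ ^ 2) := by
    rw [map_mul, map_mul, map_mul, map_mul, map_pow, map_pow, ← hx', ← hπ', ← hf', h0]
    ring
  have key2 := IsFractionRing.injective Hol MerH key
  exact congrArg (fun u : Hol => (u : ℍ → ℂ)) key2

theorem D_one : D (1 : ℍ → ℂ) = 0 := Derivative.normalizedDerivOfComplex_const 1

/-- **Wronskian relation** for `x = j`: if `D j = f • D π` in `Ω[F⁄K]`, `e π = a / b` and
`e f = A / B`, then `A (a' b - a b') = B j' b²` as functions on `ℍ`. -/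
theorem wronskian_rel (ι : K →+* ℂ) (e : F →+* M)
    (he : ∀ c : K, e (algebraMap K F c) = algebraMap ℂ M (ι c)) (jF : F)
    (hej : e jF = algebraMap (BAlg N) M (jB N)) (π f : F)
    (h : KaehlerDifferential.D K F jF = f • KaehlerDifferential.D K F π)
    (a b A B : BAlg N)
    (hπ : e π * algebraMap (BAlg N) M b = algebraMap (BAlg N) M a)
    (hf : e f * algebraMap (BAlg N) M B = algebraMap (BAlg N) M A) :
    (A : ℍ → ℂ) * (D (a : ℍ → ℂ) * (b : ℍ → ℂ) - (a : ℍ → ℂ) * D (b : ℍ → ℂ)) =
      (B : ℍ → ℂ) * D jFun * (b : ℍ → ℂ) ^ 2 := by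
  have hx : e jF * algebraMap (BAlg N) M 1 = algebraMap (BAlg N) M (jB N) := by
    rw [map_one, mul_one, hej]
  have h1 := wronskian_rel_gen (N := N) (M := M) ι e he jF π f h (jB N) 1 a b A B hx hπ hf
  simp only [coe_jB, OneMemClass.coe_one, D_one, mul_zero, sub_zero, mul_one, one_pow] at h1
  exact h1.symm

/-- If the Wronskian of a representation `e π = a / b` does not vanish, then `D π ≠ 0`. -/
theorem wronskian_ne_zero (ι : K →+* ℂ) (e : F →+* M)
    (he : ∀ c : K, e (algebraMap K F c) = algebraMap ℂ M (ι c)) (π : F) (a b : BAlg N)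
    (hπ : e π * algebraMap (BAlg N) M b = algebraMap (BAlg N) M a)
    (hW : D (a : ℍ → ℂ) * (b : ℍ → ℂ) - (a : ℍ → ℂ) * D (b : ℍ → ℂ) ≠ 0) :
    KaehlerDifferential.D K F π ≠ 0 := by
  intro h0
  have h : KaehlerDifferential.D K F π = (0 : F) • KaehlerDifferential.D K F π := by
    rw [zero_smul, h0]
  have h1 := dMer_rel (N := N) (M := M) ι e he π π 0 h
  rw [map_zero, map_zero, zero_mul] at h1
  have h2 := dMer_incl_mul_sq (M := M) hπ
  rw [h1, zero_mul] at h2
  have h3 : (0 : MerH) = algebraMap Hol MerH 0 := (map_zero _).symm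
  rw [h3] at h2
  have h4 := IsFractionRing.injective Hol MerH h2
  exact hW (congrArg (fun u : Hol => (u : ℍ → ℂ)) h4).symm

end Wronskian

end Fermat.Agent.GenusLib.Mer
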