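import Mathlib
import Fermat.Agent.GenusLib.FFDefs
import Fermat.Agent.GenusLib.CuspsZ
import Fermat.Agent.GenusLib.QFam
import Fermat.Agent.GenusLib.Mer

/-!
# S24, analytic side: the order functions at the cusps

The cusp mirror of the point side of `FFDefs.lean`:

* `ordC q b` : the `q_N`-order at `i∞` of the translate `trn q b` of `b ∈ BAlg N`;
* `cuspPre N ω` : the normalised order at the cusp `ω` as a `PreOrd` on `BAlg N`, and
  `Winf B ω` : the induced `OrdFun` on the function field (with value `0` at `0`);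
* the fields `hposinf`, `hsuminf`, `hdneinf`, `hdiffinf` of `PlaceCore.PlaceHyps`.
-/

set_option autoImplicit false
set_option linter.unusedSectionVars false

noncomputable section

namespace Fermat.Agent.GenusLib.FF

open UpperHalfPlane hiding I
open scoped MatrixGroups ModularForm Manifold
open CongruenceSubgroup Polynomial
open Fermat.Agent.S23Lib Fermat.Agent.S23Lib.Conj
open Fermat.Agent.GenusLib.Defs Fermat.Agent.GenusLib.LS Fermat.Agent.GenusLib.BStruct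
  Fermat.Agent.GenusLib.PlaceCore Fermat.Agent.GenusLib.FFOrd Fermat.Agent.GenusLib

local notation "DD" => Derivative.normalizedDerivOfComplex

variable {N : ℕ} [NeZero N]

/-! ### Orders of translates at `i∞` -/

/-- translates of elements of `BAlg N` are meromorphic at `i∞` -/
theorem qm_trn (q : X N) (b : BAlg N) : Cusps.QM N (trn q (b : ℍ → ℂ)) :=
  Cusps.qm_slash_of_mem_WH level_pos b.2 _

/-- The `q_N`-order at `i∞` of the translate of `b` attached to the coset `q`. -/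
def ordC (q : X N) (b : BAlg N) : ℤ := Cusps.ordZ N (trn q (b : ℍ → ℂ))

theorem hasOrdZ_trn (q : X N) {b : BAlg N} (hb : b ≠ 0) :
    Cusps.HasOrdZ N (trn q (b : ℍ → ℂ)) (ordC q b) :=
  (qm_trn q b).hasOrdZ level_pos (trn_ne_zero q (coe_ne_zero hb))

theorem ordC_mul (q : X N) {a b : BAlg N} (ha : a ≠ 0) (hb : b ≠ 0) :
    ordC q (a * b) = ordC q a + ordC q b := by
  unfold ordC
  rw [Subalgebra.coe_mul, trn_mul]
  exact Cusps.ordZ_mul level_pos (qm_trn q a) (qm_trn q b) (trn_ne_zero q (coe_ne_zero ha))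
    (trn_ne_zero q (coe_ne_zero hb))

theorem ordC_add (q : X N) {a b : BAlg N} (hab : a + b ≠ 0) :
    min (ordC q a) (ordC q b) ≤ ordC q (a + b) := by
  unfold ordC
  rw [Subalgebra.coe_add, trn_add]
  refine Cusps.le_ordZ_add level_pos (qm_trn q a) (qm_trn q b) ?_
  rw [← trn_add, ← Subalgebra.coe_add]
  exact trn_ne_zero q (coe_ne_zero hab)

theorem ordC_algebraMap (q : X N) {z : ℂ} (hz : z ≠ 0) :
    ordC q (algebraMap ℂ (BAlg N) z) = 0 := by
  unfold ordC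
  have h : trn q ((algebraMap ℂ (BAlg N) z : BAlg N) : ℍ → ℂ) = fun _ => z := by
    funext w
    rw [trn_apply]
    simp
  rw [h]
  exact Cusps.ordZ_const level_pos hz

/-- `T^i`-translates have the same order at `i∞`. -/
theorem ordC_T_zpow_smul (i : ℤ) (q : X N) (b : BAlg N) :
    ordC (ModularGroup.T ^ i • q) b = ordC q b := by
  by_cases hb : b = 0
  · subst hb
    unfold ordC
    have h : ∀ q' : X N, trn q' (((0 : BAlg N) : BAlg N) : ℍ → ℂ) = 0 := by
      intro q'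
      funext w
      rw [trn_apply]
      simp
    rw [h, h]
  · obtain ⟨d, hd⟩ := b.2
    have h0 : trn q (b : ℍ → ℂ) ≠ 0 := trn_ne_zero q (coe_ne_zero hb)
    have htop : Cusps.ordCusp N d (trn q (b : ℍ → ℂ)) ≠ ⊤ := fun ht =>
      h0 ((Cusps.ordCusp_eq_top_iff level_pos (qp_trn hd q)).mp ht)
    obtain ⟨n, hn⟩ := ENat.ne_top_iff_exists.mp htop
    have h1 : Cusps.ordCusp N d (trn (ModularGroup.T ^ i • q) (b : ℍ → ℂ)) = n := by
      rw [ordCusp_trn_smul hd i q, hn]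
    unfold ordC
    rw [Cusps.ordZ_eq_of_ordCusp level_pos (qp_trn hd _) h1,
      Cusps.ordZ_eq_of_ordCusp level_pos (qp_trn hd _) hn.symm]

/-- Orders of translates at `i∞` only depend on the cusp. -/
theorem ordC_repQ (q : X N) (b : BAlg N) :
    ordC q b = ordC (repQ (Quotient.mk'' q : OrbQ N)) b := by
  obtain ⟨i, hi⟩ := exists_zpow_smul_repQ q
  conv_lhs => rw [hi]
  exact ordC_T_zpow_smul i _ b

/-- The order at the representative of a cusp is divisible by `N / hQ ω`. -/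
theorem div_hQ_dvd_ordC (ω : OrbQ N) {b : BAlg N} (hb : b ≠ 0) :
    ((N / hQ ω : ℕ) : ℤ) ∣ ordC (repQ ω) b := by
  obtain ⟨d, hd⟩ := b.2
  have h0 : trn (repQ ω) (b : ℍ → ℂ) ≠ 0 := trn_ne_zero _ (coe_ne_zero hb)
  have htop : Cusps.ordCusp N d (trn (repQ ω) (b : ℍ → ℂ)) ≠ ⊤ := fun ht =>
    h0 ((Cusps.ordCusp_eq_top_iff level_pos (qp_trn hd _)).mp ht)
  obtain ⟨n, hn⟩ := ENat.ne_top_iff_exists.mp htop
  obtain ⟨c, hc⟩ := div_hQ_dvd_ordCusp hd ω hn.symm
  unfold ordC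
  rw [Cusps.ordZ_eq_of_ordCusp level_pos (qp_trn hd _) hn.symm]
  have hN : ((hQ ω : ℕ) : ℤ) * ((N / hQ ω : ℕ) : ℤ) = (N : ℤ) := by
    exact_mod_cast hQ_mul_div ω
  refine dvd_sub ⟨c, by exact_mod_cast hc⟩ ?_
  rw [← hN]
  exact dvd_mul_of_dvd_right (dvd_mul_left _ _) _

theorem div_hQ_cast_pos (ω : OrbQ N) : (0 : ℤ) < ((N / hQ ω : ℕ) : ℤ) := by
  exact_mod_cast div_hQ_pos ω

/-! ### The order functions at the cusps -/

/-- The normalised order at the cusp `ω`. -/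
def cuspPre (N : ℕ) [NeZero N] (ω : OrbQ N) : PreOrd (BAlg N) where
  v b := ordC (repQ ω) b / ((N / hQ ω : ℕ) : ℤ)
  v_mul a b ha hb := by
    obtain ⟨m, hm⟩ := div_hQ_dvd_ordC ω ha
    obtain ⟨n, hn⟩ := div_hQ_dvd_ordC ω hb
    have he := (div_hQ_cast_pos ω).ne'
    rw [ordC_mul _ ha hb, hm, hn, ← mul_add, Int.mul_ediv_cancel_left _ he,
      Int.mul_ediv_cancel_left _ he, Int.mul_ediv_cancel_left _ he]
  v_add a b _ _ hab := by
    have h := ordC_add (repQ ω) hab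
    have hpos := div_hQ_cast_pos ω
    rcases min_le_iff.mp h with h2 | h2
    · exact le_trans (min_le_left _ _) (Int.ediv_le_ediv hpos h2)
    · exact le_trans (min_le_right _ _) (Int.ediv_le_ediv hpos h2)

theorem cuspPre_v (ω : OrbQ N) (b : BAlg N) :
    (cuspPre N ω).v b = ordC (repQ ω) b / ((N / hQ ω : ℕ) : ℤ) := rfl

theorem cuspPre_v_mul_ordC (ω : OrbQ N) {b : BAlg N} (hb : b ≠ 0) :
    (cuspPre N ω).v b * ((N / hQ ω : ℕ) : ℤ) = ordC (repQ ω) b :=
  Int.ediv_mul_cancel (div_hQ_dvd_ordC ω hb)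

theorem cuspPre_ext_const (ω : OrbQ N) {z : ℂ} (hz : z ≠ 0) :
    (cuspPre N ω).ext (MN N) (algebraMap ℂ (MN N) z) = 0 := by
  rw [IsScalarTower.algebraMap_apply ℂ (BAlg N) (MN N),
    PreOrd.ext_algebraMap _ (algebraMap_BAlg_ne_zero hz), cuspPre_v, ordC_algebraMap _ hz]
  simp

/-- The order function on the function field at the cusp `ω` (with value `0` at `0`). -/
def Winf (B : BridgeData N) (ω : OrbQ N) : OrdFun Qb (FN N) :=
  (cuspPre N ω).toOrdFun B.e (fun z hz => by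
    rw [B.e_const]
    exact cuspPre_ext_const ω ((map_ne_zero B.ι).mpr hz))

@[simp] theorem Winf_w_zero (B : BridgeData N) (ω : OrbQ N) : (Winf B ω).w 0 = 0 :=
  PreOrd.toOrdFun_w_zero _ _ _

theorem Winf_w (B : BridgeData N) (ω : OrbQ N) {g : FN N} (hg : g ≠ 0) :
    (Winf B ω).w g = (cuspPre N ω).ext (MN N) (B.e g) :=
  PreOrd.toOrdFun_w _ _ _ hg

/-- The order at the cusp `ω` is computed on any representation `e g = a / b`. -/
theorem Winf_eq (B : BridgeData N) (ω : OrbQ N) {g : FN N} {a b : BAlg N}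
    (ha : a ≠ 0) (hb : b ≠ 0)
    (h : B.e g * algebraMap (BAlg N) (MN N) b = algebraMap (BAlg N) (MN N) a) :
    (Winf B ω).w g = (cuspPre N ω).v a - (cuspPre N ω).v b := by
  rw [Winf_w B ω (ne_zero_of_rep B ha h)]
  exact PreOrd.ext_eq _ ha hb h

/-- every nonzero element of the function field is a quotient of elements of `BAlg N` -/
theorem Cu.exists_rep_e (B : BridgeData N) {g : FN N} (hg : g ≠ 0) :
    ∃ a b : BAlg N, a ≠ 0 ∧ b ≠ 0 ∧
      B.e g * algebraMap (BAlg N) (MN N) b = algebraMap (BAlg N) (MN N) a :=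
  PreOrd.exists_rep (A := BAlg N) (B.e g) ((map_ne_zero B.e).mpr hg)

/-- The order at the cusp in terms of the orders of the translates. -/
theorem Winf_mul_eq (B : BridgeData N) (ω : OrbQ N) {g : FN N} {a b : BAlg N}
    (ha : a ≠ 0) (hb : b ≠ 0)
    (h : B.e g * algebraMap (BAlg N) (MN N) b = algebraMap (BAlg N) (MN N) a) :
    (Winf B ω).w g * ((N / hQ ω : ℕ) : ℤ) = ordC (repQ ω) a - ordC (repQ ω) b := by
  rw [Winf_eq B ω ha hb h, sub_mul, cuspPre_v_mul_ordC ω ha, cuspPre_v_mul_ordC ω hb]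

/-! ### `j` at the cusps: `hposinf`, `hsuminf` -/

theorem Cu.trn_jFun (q : X N) : trn q jFun = jFun := trn_levelOne q WHBasic.jFun_slash

theorem ordC_jB (q : X N) : ordC q (jB N) = -(N : ℤ) := by
  unfold ordC
  rw [coe_jB, Cu.trn_jFun]
  exact Cusps.ordZ_jFun level_pos

theorem Cu.jB_ne_zero : jB N ≠ 0 := by
  intro h
  have h1 := ordC_jB (N := N) (repQ (Quotient.mk'' ((1 : SL(2, ℤ)) : X N) : OrbQ N))
  rw [h] at h1
  unfold ordC at h1
  have h2 : trn (repQ (Quotient.mk'' ((1 : SL(2, ℤ)) : X N) : OrbQ N))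
      (((0 : BAlg N) : BAlg N) : ℍ → ℂ) = 0 := by
    funext w
    rw [trn_apply]
    simp
  rw [h2, Cusps.ordZ_zero] at h1
  have : (0 : ℤ) < N := by exact_mod_cast (level_pos : 0 < N)
  omega

theorem cuspPre_v_jB (ω : OrbQ N) : (cuspPre N ω).v (jB N) = -(hQ ω : ℤ) := by
  have h1 := cuspPre_v_mul_ordC ω (Cu.jB_ne_zero (N := N))
  rw [ordC_jB] at h1
  have hN : ((hQ ω : ℕ) : ℤ) * ((N / hQ ω : ℕ) : ℤ) = (N : ℤ) := by
    exact_mod_cast hQ_mul_div ω
  have he := (div_hQ_cast_pos ω).ne'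
  have h2 : (cuspPre N ω).v (jB N) * ((N / hQ ω : ℕ) : ℤ) = -(hQ ω : ℤ) * ((N / hQ ω : ℕ) : ℤ) := by
    rw [h1, ← hN]; ring
  exact mul_right_cancel₀ he h2

theorem Cu.jF_ne_zero (B : BridgeData N) : jF N ≠ 0 := by
  intro h
  have h1 := B.e_j
  rw [h, map_zero] at h1
  exact PreOrd.algebraMap_ne_zero (M := MN N) (Cu.jB_ne_zero (N := N)) h1.symm

theorem Winf_jF_inv (B : BridgeData N) (ω : OrbQ N) : (Winf B ω).w (jF N)⁻¹ = hQ ω := by
  have hj : B.e (jF N) ≠ 0 := (map_ne_zero B.e).mpr (Cu.jF_ne_zero B)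
  have h : B.e (jF N)⁻¹ * algebraMap (BAlg N) (MN N) (jB N) = algebraMap (BAlg N) (MN N) 1 := by
    have h1 : algebraMap (BAlg N) (MN N) (jB N) = B.e (jF N) := B.e_j.symm
    rw [h1, map_inv₀, inv_mul_cancel₀ hj, map_one]
  rw [Winf_eq B ω one_ne_zero Cu.jB_ne_zero h, PreOrd.v_one, cuspPre_v_jB]
  ring

/-- `hposinf` -/
theorem Winf_jF_inv_pos (B : BridgeData N) (ω : OrbQ N) : 0 < (Winf B ω).w (jF N)⁻¹ := by
  rw [Winf_jF_inv]
  exact_mod_cast hQ_pos ω

/-- `hsuminf` -/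
theorem sum_Winf_jF_inv (B : BridgeData N) :
    ∑ ω : OrbQ N, (Winf B ω).w (jF N)⁻¹ = (Nat.card (X N) : ℤ) := by
  simp only [Winf_jF_inv]
  rw [← sum_hQ (N := N)]
  push_cast
  rfl

/-! ### Differentials at the cusps: `hdneinf`, `hdiffinf` -/

/-- the weight `2` translate of a Wronskian is the Wronskian of the weight `0` translates -/
theorem Cu.slash_wronskian {a b : ℍ → ℂ} (ha : MDiff a) (hb : MDiff b) (γ : SL(2, ℤ)) :
    (DD a * b - a * DD b) ∣[(2 : ℤ)] γ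
      = DD (a ∣[(0 : ℤ)] γ) * (b ∣[(0 : ℤ)] γ) - (a ∣[(0 : ℤ)] γ) * DD (b ∣[(0 : ℤ)] γ) := by
  have e1 := ModularForm.mul_slash_SL2 2 0 γ (DD a) b
  have e2 := ModularForm.mul_slash_SL2 0 2 γ a (DD b)
  rw [add_zero] at e1
  rw [zero_add] at e2
  rw [sub_eq_add_neg, SlashAction.add_slash, SlashAction.neg_slash, e1, e2, Cusps.D_slash_zero ha,
    Cusps.D_slash_zero hb, ← sub_eq_add_neg]

theorem Cu.trn_wronskian (q : X N) {a b : ℍ → ℂ} (ha : MDiff a) (hb : MDiff b) :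
    (DD a * b - a * DD b) ∣[(2 : ℤ)] (Quotient.out q)⁻¹
      = DD (trn q a) * trn q b - trn q a * DD (trn q b) :=
  Cu.slash_wronskian ha hb _

/-- translate of the Wronskian relation -/
theorem Cu.trn_wronskian_rel (q : X N) {A a b B' : ℍ → ℂ} (ha : MDiff a) (hb : MDiff b)
    (h : A * (DD a * b - a * DD b) = B' * DD jFun * b ^ 2) :
    trn q A * (DD (trn q a) * trn q b - trn q a * DD (trn q b))
      = trn q B' * DD jFun * trn q b ^ 2 := by
  have h1 : (A * (DD a * b - a * DD b)) ∣[(2 : ℤ)] (Quotient.out q)⁻¹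
      = (B' * DD jFun * b ^ 2) ∣[(2 : ℤ)] (Quotient.out q)⁻¹ := by rw [h]
  have e1 := ModularForm.mul_slash_SL2 0 2 (Quotient.out q)⁻¹ A (DD a * b - a * DD b)
  rw [zero_add] at e1
  have e2 := ModularForm.mul_slash_SL2 2 0 (Quotient.out q)⁻¹ (B' * DD jFun) (b ^ 2)
  rw [add_zero] at e2
  have e3 := ModularForm.mul_slash_SL2 0 2 (Quotient.out q)⁻¹ B' (DD jFun)
  rw [zero_add] at e3
  have e4 := ModularForm.mul_slash_SL2 0 0 (Quotient.out q)⁻¹ b b
  rw [add_zero] at e4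
  have e5 : (DD jFun) ∣[(2 : ℤ)] (Quotient.out q)⁻¹ = DD jFun := by
    rw [← Cusps.D_slash_zero WHBasic.jFun_mdiff, WHBasic.jFun_slash]
  rw [e1, e2, e3, pow_two, e4, e5, Cu.trn_wronskian q ha hb] at h1
  rw [pow_two]
  exact h1

theorem Cu.D_jFun_ne_zero : DD jFun ≠ 0 := by
  have h1 : (0 : ℕ) < 1 := one_pos
  refine Cusps.D_ne_zero_of_ordZ h1 (Cusps.qm_jFun h1) ?_
  rw [Cusps.ordZ_jFun h1]
  norm_num

theorem Cu.D_jF_ne_zero (B : BridgeData N) : KaehlerDifferential.D Qb (FN N) (jF N) ≠ 0 := by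
  have hrep : B.e (jF N) * algebraMap (BAlg N) (MN N) 1 = algebraMap (BAlg N) (MN N) (jB N) := by
    rw [map_one, mul_one, B.e_j]
    rfl
  refine Mer.wronskian_ne_zero (N := N) (M := MN N) B.ι B.e B.e_const (jF N) (jB N) 1 hrep ?_
  simp only [coe_jB, OneMemClass.coe_one, Mer.D_one, mul_zero, sub_zero, mul_one]
  exact Cu.D_jFun_ne_zero

/-- if `Winf π = 1` then the translates of numerator and denominator have different orders -/
theorem ordC_sub_of_Winf_eq_one (B : BridgeData N) (ω : OrbQ N) {π : FN N} {a b : BAlg N}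
    (ha : a ≠ 0) (hb : b ≠ 0)
    (hrep : B.e π * algebraMap (BAlg N) (MN N) b = algebraMap (BAlg N) (MN N) a)
    (h : (Winf B ω).w π = 1) : ordC (repQ ω) a - ordC (repQ ω) b = ((N / hQ ω : ℕ) : ℤ) := by
  rw [← Winf_mul_eq B ω ha hb hrep, h, one_mul]

theorem ne_zero_of_Winf_eq_one (B : BridgeData N) (ω : OrbQ N) {π : FN N}
    (h : (Winf B ω).w π = 1) : π ≠ 0 := by
  rintro rfl
  rw [Winf_w_zero] at h
  exact zero_ne_one h

/-- the Wronskian of the translates of a representation of `π` with `Winf π = 1` -/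
theorem wronskian_trn_ne_zero (B : BridgeData N) (ω : OrbQ N) {π : FN N} {a b : BAlg N}
    (ha : a ≠ 0) (hb : b ≠ 0)
    (hrep : B.e π * algebraMap (BAlg N) (MN N) b = algebraMap (BAlg N) (MN N) a)
    (h : (Winf B ω).w π = 1) :
    Cusps.HasOrdZ N (DD (trn (repQ ω) (a : ℍ → ℂ)) * trn (repQ ω) (b : ℍ → ℂ)
      - trn (repQ ω) (a : ℍ → ℂ) * DD (trn (repQ ω) (b : ℍ → ℂ)))
      (ordC (repQ ω) a + ordC (repQ ω) b) := by
  have hsub := ordC_sub_of_Winf_eq_one B ω ha hb hrep h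
  have hpos := div_hQ_cast_pos ω
  refine (hasOrdZ_trn _ ha).wronskian level_pos (qm_trn _ a) (qm_trn _ b) (hasOrdZ_trn _ hb) ?_
  intro heq
  rw [heq, sub_self] at hsub
  omega

/-- `hdneinf` -/
theorem D_ne_zero_of_Winf_eq_one (B : BridgeData N) (ω : OrbQ N) (π : FN N)
    (h : (Winf B ω).w π = 1) : KaehlerDifferential.D Qb (FN N) π ≠ 0 := by
  have hπ := ne_zero_of_Winf_eq_one B ω h
  obtain ⟨a, b, ha, hb, hrep⟩ := Cu.exists_rep_e B hπ
  refine Mer.wronskian_ne_zero (N := N) (M := MN N) B.ι B.e B.e_const π a b hrep ?_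
  intro hW
  have h1 := (wronskian_trn_ne_zero B ω ha hb hrep h).ne_zero
  apply h1
  rw [← Cu.trn_wronskian (repQ ω) (BAlg_mdiff a) (BAlg_mdiff b), hW, SlashAction.zero_slash]

/-- `hdiffinf` -/
theorem Winf_of_D_eq (B : BridgeData N) (ω : OrbQ N) (π f : FN N) (h : (Winf B ω).w π = 1)
    (hD : KaehlerDifferential.D Qb (FN N) (jF N) = f • KaehlerDifferential.D Qb (FN N) π) :
    (Winf B ω).w f = -(Winf B ω).w (jF N)⁻¹ - 1 := by
  have hN : 0 < N := level_pos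
  have hπ := ne_zero_of_Winf_eq_one B ω h
  have hf : f ≠ 0 := by
    rintro rfl
    rw [zero_smul] at hD
    exact Cu.D_jF_ne_zero B hD
  obtain ⟨a, b, ha, hb, hrep⟩ := Cu.exists_rep_e B hπ
  obtain ⟨A, B', hA, hB', hrepf⟩ := Cu.exists_rep_e B hf
  have hrel := Mer.wronskian_rel (N := N) (M := MN N) B.ι B.e B.e_const (jF N) B.e_j π f hD
    a b A B' hrep hrepf
  have hrel' := Cu.trn_wronskian_rel (repQ ω) (BAlg_mdiff a) (BAlg_mdiff b) hrel
  -- orders of both sides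
  have hW := wronskian_trn_ne_zero B ω ha hb hrep h
  have hL := (hasOrdZ_trn (repQ ω) hA).mul hW
  have hR := ((hasOrdZ_trn (repQ ω) hB').mul (Cusps.hasOrdZ_D_jFun hN)).mul
    ((hasOrdZ_trn (repQ ω) hb).pow 2)
  rw [hrel'] at hL
  have key := hL.unique hN hR
  have hsub := ordC_sub_of_Winf_eq_one B ω ha hb hrep h
  have hNe : ((hQ ω : ℕ) : ℤ) * ((N / hQ ω : ℕ) : ℤ) = (N : ℤ) := by
    exact_mod_cast hQ_mul_div ω
  have he := (div_hQ_cast_pos ω).ne'
  have h1 := Winf_mul_eq B ω hA hB' hrepf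
  rw [Winf_jF_inv]
  apply mul_right_cancel₀ he
  rw [h1]
  have h2 : (-(hQ ω : ℤ) - 1) * ((N / hQ ω : ℕ) : ℤ) = -(N : ℤ) - ((N / hQ ω : ℕ) : ℤ) := by
    rw [← hNe]; ring
  rw [h2]
  push_cast at key
  linarith

/-! ### The interface in the shape of `PlaceCore.PlaceHyps` -/

theorem ordC_def (q : X N) (b : BAlg N) : ordC q b = Cusps.ordZ N (trn q (b : ℍ → ℂ)) := rfl

/-- Orders of translates at `i∞` only depend on the cusp (`T`-orbit invariance). -/
theorem ordZ_trn_repQ (q : X N) (b : BAlg N) :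
    Cusps.ordZ N (trn q (b : ℍ → ℂ))
      = Cusps.ordZ N (trn (repQ (Quotient.mk'' q : OrbQ N)) (b : ℍ → ℂ)) :=
  ordC_repQ q b

theorem cuspPre_v_mul (ω : OrbQ N) {b : BAlg N} (hb : b ≠ 0) :
    (cuspPre N ω).v b * ((N / hQ ω : ℕ) : ℤ) = Cusps.ordZ N (trn (repQ ω) (b : ℍ → ℂ)) :=
  cuspPre_v_mul_ordC ω hb

theorem Winf_j_inv (B : BridgeData N) (ω : OrbQ N) : (Winf B ω).w (jF N)⁻¹ = hQ ω :=
  Winf_jF_inv B ω

theorem hposinf (B : BridgeData N) : ∀ ω : OrbQ N, 0 < (Winf B ω).w (jF N)⁻¹ :=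
  Winf_jF_inv_pos B

theorem hsuminf (B : BridgeData N) :
    ∑ ω : OrbQ N, (Winf B ω).w (jF N)⁻¹ = (Nat.card (X N) : ℤ) :=
  sum_Winf_jF_inv B

theorem hdneinf (B : BridgeData N) : ∀ (ω : OrbQ N) (π : FN N), (Winf B ω).w π = 1 →
    KaehlerDifferential.D Qb (FN N) π ≠ 0 :=
  D_ne_zero_of_Winf_eq_one B

theorem hdiffinf (B : BridgeData N) : ∀ (ω : OrbQ N) (π f : FN N), (Winf B ω).w π = 1 →
    KaehlerDifferential.D Qb (FN N) (jF N) = f • KaehlerDifferential.D Qb (FN N) π →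
    (Winf B ω).w f = -(Winf B ω).w (jF N)⁻¹ - 1 :=
  Winf_of_D_eq B

/-- Nonnegative orders at all cusps: every translate of the numerator has order at least that of
the translate of the denominator. -/
theorem le_ordZ_trn_of_nonneg (B : BridgeData N) {g : FN N} {a b : BAlg N}
    (ha : a ≠ 0) (hb : b ≠ 0)
    (h : B.e g * algebraMap (BAlg N) (MN N) b = algebraMap (BAlg N) (MN N) a)
    (hw : ∀ ω : OrbQ N, 0 ≤ (Winf B ω).w g) :
    ∀ q : X N, Cusps.ordZ N (trn q (b : ℍ → ℂ)) ≤ Cusps.ordZ N (trn q (a : ℍ → ℂ)) := by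
  intro q
  rw [ordZ_trn_repQ q a, ordZ_trn_repQ q b]
  have h1 := Winf_mul_eq B (Quotient.mk'' q : OrbQ N) ha hb h
  have h2 := mul_nonneg (hw (Quotient.mk'' q : OrbQ N)) (div_hQ_cast_pos (Quotient.mk'' q : OrbQ N)).le
  rw [h1] at h2
  unfold ordC at h2
  linarith

/-- Converse: the order at a cusp is nonnegative as soon as the translate of the numerator at its
representative has order at least that of the denominator. -/
theorem Winf_nonneg_of_le (B : BridgeData N) (ω : OrbQ N) {g : FN N} {a b : BAlg N}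
    (ha : a ≠ 0) (hb : b ≠ 0)
    (h : B.e g * algebraMap (BAlg N) (MN N) b = algebraMap (BAlg N) (MN N) a)
    (hle : Cusps.ordZ N (trn (repQ ω) (b : ℍ → ℂ)) ≤ Cusps.ordZ N (trn (repQ ω) (a : ℍ → ℂ))) :
    0 ≤ (Winf B ω).w g := by
  have h1 := Winf_mul_eq B ω ha hb h
  have hpos := div_hQ_cast_pos ω
  unfold ordC at h1
  by_contra hneg
  rw [not_le] at hneg
  have h2 := mul_neg_of_neg_of_pos hneg hpos
  rw [h1] at h2
  linarith

end Fermat.Agent.GenusLib.FF
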