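import Mathlib
import Fermat.Agent.GenusLib.Dist24

/-!
# S24 leaf DIST, interface file

The two statements of the S24 skeleton, as thin wrappers around `GenusLib/Dist24.lean`.
-/

set_option autoImplicit false

namespace Fermat.Agent.GenusLib.JDist

open UpperHalfPlane hiding I
open scoped MatrixGroups ModularForm Manifold
open CongruenceSubgroup
open Fermat.Agent.GenusLib.Defs

theorem exists_dil_jFun_ne (N : ℕ) [NeZero N] (γ : SL(2, ℤ)) (hγ : γ ∉ Gamma0 N) :
    ∃ τ : ℍ, jFun (S23Lib.Distinct.dilPt N (γ • τ)) ≠ jFun (S23Lib.Distinct.dilPt N τ) := by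
  by_contra hcon
  push Not at hcon
  exact hγ (Dist24.mem_Gamma0_of_jFun_dil N γ hcon)

theorem trn_dil_jFun_injective (N : ℕ) [NeZero N] :
    Function.Injective (fun q : LS.X N => LS.trn q (QExp.dil N jFun)) :=
  Dist24.trn_dil_jFun_injective N

end Fermat.Agent.GenusLib.JDist
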