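import Mathlib
import Fermat.Agent.GenusLib.FFDefs
import Fermat.Agent.GenusLib.FormalLD
import Fermat.Agent.GenusLib.JDist
import Fermat.Agent.GenusLib.Deg24

/-!
# S24, analytic side, leaf [S24-DEG]: the degree of the function field over `Qb(j)`

Everything is stated through a `BridgeData N`:

* `e_aevalAeval`, `exists_relation_of_complex`, `exists_linear_relation`: transport and descent
  of polynomial relations between the function field `FN N` and the analytic field `MN N`;
* `transcendental_jF`: `j` is transcendental over `Qb`;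
* `finiteDimensional_FN`, `finrank_FN`: `[FN N : Qb(j)] = [SL(2, ℤ) : Γ₀(N)]`.
-/

set_option autoImplicit false
set_option linter.unusedSectionVars false

noncomputable section

namespace Fermat.Agent.GenusLib.FF

open UpperHalfPlane hiding I
open scoped MatrixGroups ModularForm Manifold
open CongruenceSubgroup Polynomial IntermediateField
open Fermat.Agent.GenusLib.Defs Fermat.Agent.GenusLib.BStruct Fermat.Agent.GenusLib

/-! ### Generalities on bivariate evaluation -/

theorem aevalAeval_eq_eval₂ {R A : Type*} [CommSemiring R] [CommSemiring A] [Algebra R A]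
    (x y : A) (G : R[X][X]) :
    aevalAeval x y G = G.eval₂ (aeval x : R[X] →ₐ[R] A).toRingHom y := by
  have h : (aevalAeval x y : R[X][X] →ₐ[R] A).toRingHom =
      eval₂RingHom (aeval x : R[X] →ₐ[R] A).toRingHom y := by
    refine Polynomial.ringHom_ext (fun p => ?_) ?_
    · simp
    · simp
  exact DFunLike.congr_fun h G

variable {N : ℕ} [NeZero N]

/-- `e` commutes with evaluation of polynomials at `j`. -/
theorem e_aeval (B : BridgeData N) (p : Qb[X]) :
    B.e (aeval (jF N) p) = aeval (jM N) (p.map B.ι) := by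
  have h : B.e.comp (aeval (jF N) : Qb[X] →ₐ[Qb] FN N).toRingHom =
      ((aeval (jM N) : ℂ[X] →ₐ[ℂ] MN N).toRingHom).comp (mapRingHom B.ι) := by
    refine Polynomial.ringHom_ext (fun c => ?_) ?_
    · simp [B.e_const]
    · simp [B.e_j]
  exact DFunLike.congr_fun h p

/-- `e` commutes with bivariate evaluation at `(j, g)`. -/
theorem e_aevalAeval (B : BridgeData N) (G : Qb[X][X]) (g : FN N) :
    B.e (Polynomial.aevalAeval (jF N) g G) =
      Polynomial.aevalAeval (jM N) (B.e g) (G.map (mapRingHom B.ι)) := by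
  have h : B.e.comp (aevalAeval (jF N) g : Qb[X][X] →ₐ[Qb] FN N).toRingHom =
      ((aevalAeval (jM N) (B.e g) : ℂ[X][X] →ₐ[ℂ] MN N).toRingHom).comp
        (mapRingHom (mapRingHom B.ι)) := by
    refine Polynomial.ringHom_ext (fun p => ?_) ?_
    · simpa using e_aeval B p
    · simp
  exact DFunLike.congr_fun h G

/-- The `q`-expansion of `j ∈ MN N`. -/
theorem lexp_jM (B : BridgeData N) :
    B.lexp (jM N) = ModularCurve.coeffMap B.ι (ModularCurve.coeffEmb Qb ModularCurve.jq) := by
  rw [← B.e_j, B.lexp_e, coe_jF]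

/-- The `q`-expansion of a polynomial in `j`. -/
theorem lexp_aeval (B : BridgeData N) (P : ℂ[X]) :
    B.lexp (aeval (jM N) P) =
      aeval (ModularCurve.coeffMap B.ι (ModularCurve.coeffEmb Qb ModularCurve.jq)) P := by
  have h : B.lexp.comp (aeval (jM N) : ℂ[X] →ₐ[ℂ] MN N).toRingHom =
      (aeval (ModularCurve.coeffMap B.ι (ModularCurve.coeffEmb Qb ModularCurve.jq)) :
        ℂ[X] →ₐ[ℂ] LaurentSeries ℂ).toRingHom := by
    refine Polynomial.ringHom_ext (fun c => ?_) ?_
    · change B.lexp (aeval (jM N) (C c)) = aeval _ (C c)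
      rw [aeval_C, aeval_C, B.lexp_const, FormalLD.C_eq_algebraMap]
    · change B.lexp (aeval (jM N) X) = aeval _ X
      rw [aeval_X, aeval_X, lexp_jM B]
  exact DFunLike.congr_fun h P

/-- The `q`-expansion of a bivariate polynomial in `(j, x)`. -/
theorem lexp_aevalAeval (B : BridgeData N) (x : MN N) (H : ℂ[X][X]) :
    B.lexp (aevalAeval (jM N) x H) =
      H.eval₂ (aeval (ModularCurve.coeffMap B.ι (ModularCurve.coeffEmb Qb ModularCurve.jq)) :
        ℂ[X] →ₐ[ℂ] LaurentSeries ℂ).toRingHom (B.lexp x) := by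
  rw [aevalAeval_eq_eval₂, hom_eval₂]
  congr 1
  exact RingHom.ext fun P => lexp_aeval B P

/-- coercion of a bivariate evaluation in `FN N` to Laurent series -/
theorem coe_aevalAeval (J z : FN N) (q : Qb[X][X]) :
    ((aevalAeval J z q : FN N) : LaurentSeries Qb) =
      q.eval₂ (aeval (J : LaurentSeries Qb) : Qb[X] →ₐ[Qb] LaurentSeries Qb).toRingHom
        (z : LaurentSeries Qb) := by
  rw [aevalAeval_eq_eval₂]
  exact Deg24.eval₂_coe J z q

/-- **Descent of algebraic relations**: a nonzero relation for `e g` over `ℂ[j]` yields a nonzero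
relation for `g` over `Qb[j]` of at most the same `Y`-degree. -/
theorem exists_relation_of_complex (B : BridgeData N) (g : FN N) (H : ℂ[X][X]) (hH : H ≠ 0)
    (h : Polynomial.aevalAeval (jM N) (B.e g) H = 0) :
    ∃ G : Qb[X][X], G ≠ 0 ∧ G.natDegree ≤ H.natDegree ∧
      Polynomial.aevalAeval (jF N) g G = 0 := by
  have h1 := congrArg B.lexp h
  rw [lexp_aevalAeval, B.lexp_e, map_zero] at h1
  obtain ⟨q, hq0, hqd, hq⟩ := FormalLD.exists_poly_of_poly B.ι
    (ModularCurve.coeffEmb Qb ModularCurve.jq) (g : LaurentSeries Qb) H.natDegree H hH le_rfl h1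
  refine ⟨q, hq0, hqd, Subtype.ext ?_⟩
  rw [coe_aevalAeval, coe_jF, hq]
  rfl

set_option synthInstance.maxHeartbeats 400000 in
/-- **Descent of linear relations** over `ℂ[j]` to `Qb[j]`. -/
theorem exists_linear_relation (B : BridgeData N) {n : ℕ} (g : Fin n → FN N) (P : Fin n → ℂ[X])
    (hP : P ≠ 0) (h : ∑ i, algebraMap ℂ[X] (MN N) (P i) * B.e (g i) = 0) :
    ∃ p : Fin n → Qb[X], p ≠ 0 ∧ ∑ i, aeval (jF N) (p i) * g i = 0 := by
  have halg : ∀ Q : ℂ[X], algebraMap ℂ[X] (MN N) Q = aeval (jM N) Q := by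
    intro Q
    rw [IsScalarTower.algebraMap_apply ℂ[X] (BAlg N) (MN N), BStruct.algebraMap_eq, jM,
      ← aeval_algebraMap_apply]
  have h1 : ∑ i, aeval (ModularCurve.coeffMap B.ι (ModularCurve.coeffEmb Qb ModularCurve.jq))
      (P i) * ModularCurve.coeffMap B.ι ((g i : FN N) : LaurentSeries Qb) = 0 := by
    have h2 := congrArg B.lexp h
    rw [map_sum, map_zero] at h2
    rw [← h2]
    refine Finset.sum_congr rfl fun i _ => ?_
    rw [map_mul, halg, lexp_aeval, B.lexp_e]
  obtain ⟨p, hp0, hp⟩ := FormalLD.exists_relation B.ι (ModularCurve.coeffEmb Qb ModularCurve.jq)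
    (fun i => (g i : LaurentSeries Qb)) P hP h1
  refine ⟨p, hp0, Subtype.ext ?_⟩
  have hco : ∀ r : Qb[X], ((aeval (jF N) r : FN N) : LaurentSeries Qb) =
      aeval (ModularCurve.coeffEmb Qb ModularCurve.jq) r := by
    intro r
    rw [← coe_jF N]
    exact (aeval_algHom_apply (ModularCurve.modularFunctionFieldBar N).val (jF N) r).symm
  rw [ZeroMemClass.coe_zero, ← hp]
  simp only [AddSubmonoidClass.coe_finsetSum, MulMemClass.coe_mul, hco]

/-- `j` is transcendental over `Qb`. -/
theorem transcendental_jF (_B : BridgeData N) : Transcendental Qb (jF N) :=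
  Deg24.transcendental_of_coe (jF N) rfl

/-- Every element of `MN N` of the form `e g` satisfies a nonzero relation of `Y`-degree at most
the index `[SL(2, ℤ) : Γ₀(N)]` over `ℂ[j]`, since `BAlg N` is free of that rank over `ℂ[j]`. -/
theorem exists_complex_relation (B : BridgeData N) (g : FN N) :
    ∃ H : ℂ[X][X], H ≠ 0 ∧ H.natDegree ≤ Nat.card (LS.X N) ∧
      Polynomial.aevalAeval (jM N) (B.e g) H = 0 := by
  classical
  obtain ⟨a, b, hb, hab⟩ := exists_rep B g
  set μ := Nat.card (LS.X N) with hμ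
  let v : Fin (μ + 1) → BAlg N := fun k => a ^ (k : ℕ) * b ^ (μ - k)
  have hdep : ¬ LinearIndependent ℂ[X] v := by
    intro hli
    have h1 := hli.fintype_card_le_finrank
    rw [BStruct.finrank_BAlg, Fintype.card_fin] at h1
    have h2 : μ + 1 ≤ μ := h1
    omega
  rw [Fintype.not_linearIndependent_iff] at hdep
  obtain ⟨P, hP, k₀, hk₀⟩ := hdep
  refine ⟨∑ k : Fin (μ + 1), C (P k) * X ^ (k : ℕ), ?_, ?_, ?_⟩
  · intro h0
    apply hk₀
    have h2 := congrArg (fun q : ℂ[X][X] => q.coeff (k₀ : ℕ)) h0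
    simp only [finsetSum_coeff, coeff_C_mul, coeff_X_pow, coeff_zero] at h2
    simp only [Fin.val_inj, mul_ite, mul_one, mul_zero] at h2
    rw [Finset.sum_ite_eq] at h2
    simpa using h2
  · have h2 := degree_sum_fin_lt (fun i : Fin (μ + 1) => P i)
    by_cases h0 : (∑ i : Fin (μ + 1), C (P i) * X ^ (i : ℕ)) = 0
    · rw [h0]; simp
    · have := (natDegree_lt_iff_degree_lt h0).mpr h2
      omega
  · have hbM : algebraMap (BAlg N) (MN N) b ≠ 0 := FFOrd.PreOrd.algebraMap_ne_zero hb
    have hpow : algebraMap (BAlg N) (MN N) b ^ μ ≠ 0 := pow_ne_zero _ hbM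
    apply mul_right_cancel₀ hpow
    rw [zero_mul, map_sum, Finset.sum_mul]
    have hterm : ∀ k : Fin (μ + 1),
        aevalAeval (jM N) (B.e g) (C (P k) * X ^ (k : ℕ)) * algebraMap (BAlg N) (MN N) b ^ μ =
          algebraMap (BAlg N) (MN N) (P k • v k) := by
      intro k
      have hk : (k : ℕ) ≤ μ := Nat.lt_succ_iff.mp k.2
      have h3 : B.e g ^ (k : ℕ) * algebraMap (BAlg N) (MN N) b ^ μ =
          algebraMap (BAlg N) (MN N) (a ^ (k : ℕ) * b ^ (μ - k)) := by
        rw [map_mul, map_pow, map_pow, ← hab, mul_pow, mul_assoc, ← pow_add,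
          Nat.add_sub_cancel' hk]
      rw [map_mul, map_pow, aevalAeval_C, aevalAeval_Y, mul_assoc, h3, Algebra.smul_def,
        BStruct.algebraMap_eq,
        map_mul (algebraMap (BAlg N) (MN N)) (aeval (jB N) (P k)) (v k), jM,
        aeval_algebraMap_apply]
    rw [Finset.sum_congr rfl fun k _ => hterm k, ← map_sum, hP, map_zero]

theorem finiteDimensional_and_finrank_le (B : BridgeData N) :
    FiniteDimensional Qb⟮jF N⟯ (FN N) ∧
      Module.finrank Qb⟮jF N⟯ (FN N) ≤ Nat.card (LS.X N) := by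
  refine Deg24.finrank_le_of_relations (jF N) (transcendental_jF B) _ fun z => ?_
  obtain ⟨H, hH0, hHd, hH⟩ := exists_complex_relation B z
  obtain ⟨G, hG0, hGd, hG⟩ := exists_relation_of_complex B z H hH0 hH
  exact ⟨G, hG0, hGd.trans hHd, by rw [← aevalAeval_eq_eval₂]; exact hG⟩

/-- The function field is finite over `Qb(j)`. -/
theorem finiteDimensional_FN (B : BridgeData N) : FiniteDimensional Qb⟮jF N⟯ (FN N) :=
  (finiteDimensional_and_finrank_le B).1

/-- **The degree of the function field of `X₀(N)` over `Qb(j)`** is the index of `Γ₀(N)`. -/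
theorem finrank_FN (B : BridgeData N) :
    Module.finrank Qb⟮jF N⟯ (FN N) = Nat.card (LS.X N) := by
  have hfin := finiteDimensional_FN B
  refine le_antisymm (finiteDimensional_and_finrank_le B).2 ?_
  exact Deg24.le_finrank_of_complex_no_relation B.ι (jF N) rfl _
    (fun P hdeg h => Dist24.eq_zero_of_aeval_dil_jFun N P hdeg h)

end Fermat.Agent.GenusLib.FF
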