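import Mathlib
import Fermat.Agent.GenusLib.FormalLD

/-!
# PROJECT Y (S24), leaf [S24-LD], part 2: descent of polynomial relations with a prescribed
non-vanishing coefficient

If `Q(ι J, ι z) = 0` for `Q ∈ L[X][Y]` and a coefficient of `Q` is nonzero, there is
`q ∈ K[X][Y]` with `q(J, z) = 0`, the same coefficient nonzero and support inside the support
of `Q`.
-/

set_option autoImplicit false

noncomputable section

namespace Fermat.Agent.GenusLib.FormalLD

open Polynomial ModularCurve

variable {K L : Type*} [Field K] [Field L]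

/-- Family version: a relation `∑ P_i(ι J) ι(x_i) = 0` over `L[J]` with `(P i₀).coeff a ≠ 0`
descends to a relation over `K[J]` with the same coefficient nonzero and smaller support. -/
theorem exists_family_coeff_ne (ι : K →+* L) (J : LaurentSeries K) {n : ℕ}
    (x : Fin n → LaurentSeries K) (P : Fin n → L[X])
    (hP : ∑ i, aeval (coeffMap ι J) (P i) * coeffMap ι (x i) = 0) (i₀ : Fin n) (a : ℕ)
    (h : (P i₀).coeff a ≠ 0) :
    ∃ p : Fin n → K[X], ∑ i, aeval J (p i) * x i = 0 ∧ (p i₀).coeff a ≠ 0 ∧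
      ∀ i a', (P i).coeff a' = 0 → (p i).coeff a' = 0 := by
  classical
  let _ : Algebra K L := ι.toAlgebra
  have hsmul : ∀ (c : K) (l : L), c • l = ι c * l := fun c l => by
    rw [Algebra.smul_def, RingHom.algebraMap_toAlgebra]
  let bas := Module.Basis.ofVectorSpace K L
  let T : Finset (Module.Basis.ofVectorSpaceIndex K L) :=
    Finset.univ.biUnion fun i : Fin n =>
      (P i).support.biUnion fun t => (bas.repr ((P i).coeff t)).support
  have hsub : ∀ (i : Fin n) (t : ℕ), (bas.repr ((P i).coeff t)).support ⊆ T := by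
    intro i t b hb
    by_cases ht : t ∈ (P i).support
    · exact Finset.mem_biUnion.mpr ⟨i, Finset.mem_univ i, Finset.mem_biUnion.mpr ⟨t, ht, hb⟩⟩
    · rw [Polynomial.notMem_support_iff.mp ht, map_zero] at hb
      simp at hb
  let p : Fin n → Module.Basis.ofVectorSpaceIndex K L → K[X] := fun i b =>
    ∑ t ∈ (P i).support, monomial t (bas.repr ((P i).coeff t) b)
  have hpcoeff : ∀ i b t, (p i b).coeff t = bas.repr ((P i).coeff t) b := by
    intro i b t
    simp only [p, finsetSum_coeff, coeff_monomial]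
    rw [Finset.sum_ite_eq']
    split_ifs with ht
    · rfl
    · rw [Polynomial.notMem_support_iff.mp ht, map_zero]
      rfl
  have hcoeff_eq : ∀ i t, (P i).coeff t = ∑ b ∈ T, bas b * ι ((p i b).coeff t) := by
    intro i t
    have h1 := bas.linearCombination_repr ((P i).coeff t)
    rw [Finsupp.linearCombination_apply, Finsupp.sum] at h1
    conv_lhs => rw [← h1]
    rw [Finset.sum_subset (hsub i t)
      (fun b _ hb => by rw [Finsupp.notMem_support_iff.mp hb, zero_smul])]
    refine Finset.sum_congr rfl fun b _ => ?_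
    rw [hsmul, mul_comm, hpcoeff]
  have hP_eq : ∀ i, P i = ∑ b ∈ T, C (bas b) * (p i b).map ι := by
    intro i
    ext t
    simp only [finsetSum_coeff, coeff_C_mul, coeff_map]
    exact hcoeff_eq i t
  let y : Module.Basis.ofVectorSpaceIndex K L → LaurentSeries K := fun b =>
    ∑ i, aeval J (p i b) * x i
  have hy : ∑ b ∈ T, HahnSeries.C (bas b) * coeffMap ι (y b) = 0 := by
    rw [← hP]
    simp only [y, map_sum, map_mul, Finset.mul_sum]
    rw [Finset.sum_comm]
    refine Finset.sum_congr rfl fun i _ => ?_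
    conv_rhs => rw [hP_eq i, map_sum, Finset.sum_mul]
    refine Finset.sum_congr rfl fun b _ => ?_
    rw [map_mul, aeval_C, aeval_coeffMap_map, C_eq_algebraMap, mul_assoc]
  have hy0 : ∀ b ∈ T, y b = 0 := by
    refine coeffMap_eq_zero_of_linearIndependent ι T (fun b => bas b) ?_ y hy
    intro c hc
    refine linearIndependent_iff'.mp bas.linearIndependent T c ?_
    rw [← hc]
    exact Finset.sum_congr rfl fun b _ => hsmul _ _
  -- some basis vector sees the prescribed coefficient
  have hex : ∃ b ∈ T, (p i₀ b).coeff a ≠ 0 := by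
    by_contra hcon
    push Not at hcon
    apply h
    rw [hcoeff_eq i₀ a]
    exact Finset.sum_eq_zero fun b hb => by rw [hcon b hb, map_zero, mul_zero]
  obtain ⟨b, hb, hba⟩ := hex
  refine ⟨fun i => p i b, hy0 b hb, hba, fun i a' h0 => ?_⟩
  rw [hpcoeff, h0, map_zero]
  rfl

/-- (d) **Descent with a prescribed coefficient**: if `Q(ι J, ι z) = 0` and
`(Q.coeff b).coeff a ≠ 0`, there is `q ∈ K[X][Y]` with `q(J, z) = 0`, `(q.coeff b).coeff a ≠ 0`
and support contained in the support of `Q`. -/
theorem exists_poly_coeff_ne (ι : K →+* L) (J z : LaurentSeries K) (Q : L[X][X])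
    (hQ : Q.eval₂ (aeval (coeffMap ι J) : L[X] →ₐ[L] LaurentSeries L).toRingHom (coeffMap ι z) = 0)
    (a b : ℕ) (hab : (Q.coeff b).coeff a ≠ 0) :
    ∃ q : K[X][X], q.eval₂ (aeval J : K[X] →ₐ[K] LaurentSeries K).toRingHom z = 0 ∧
      (q.coeff b).coeff a ≠ 0 ∧ ∀ a' b' : ℕ, (Q.coeff b').coeff a' = 0 → (q.coeff b').coeff a' = 0 := by
  classical
  set d := Q.natDegree with hd
  have hb : b < d + 1 := by
    have : Q.coeff b ≠ 0 := fun h0 => hab (by rw [h0, coeff_zero])
    exact Nat.lt_succ_of_le (le_natDegree_of_ne_zero this)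
  have h1 : ∑ i : Fin (d + 1), aeval (coeffMap ι J) (Q.coeff i) * coeffMap ι (z ^ (i : ℕ)) = 0 := by
    rw [eval₂_eq_sum_range' _ (Nat.lt_succ_self d), ← Fin.sum_univ_eq_sum_range
      (fun i => (aeval (coeffMap ι J) : L[X] →ₐ[L] LaurentSeries L).toRingHom (Q.coeff i) *
        coeffMap ι z ^ i) (d + 1)] at hQ
    rw [← hQ]
    refine Finset.sum_congr rfl fun i _ => ?_
    rw [map_pow]
    rfl
  obtain ⟨p, hp, hpa, hsupp⟩ := exists_family_coeff_ne ι J (fun i : Fin (d + 1) => z ^ (i : ℕ))
    (fun i => Q.coeff i) h1 ⟨b, hb⟩ a hab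
  have hqcoeff : ∀ t : ℕ, (∑ i : Fin (d + 1), C (p i) * X ^ (i : ℕ) : K[X][X]).coeff t =
      if ht : t < d + 1 then p ⟨t, ht⟩ else 0 := by
    intro t
    simp only [finsetSum_coeff, coeff_C_mul, coeff_X_pow, mul_ite, mul_one, mul_zero]
    split_ifs with ht
    · rw [Finset.sum_eq_single ⟨t, ht⟩]
      · simp
      · intro i _ hi
        rw [if_neg]
        intro h0
        exact hi (Fin.ext h0.symm)
      · intro h0
        exact absurd (Finset.mem_univ _) h0
    · refine Finset.sum_eq_zero fun i _ => ?_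
      rw [if_neg]
      intro h0
      exact ht (h0 ▸ i.2)
  refine ⟨∑ i : Fin (d + 1), C (p i) * X ^ (i : ℕ), ?_, ?_, ?_⟩
  · rw [eval₂_finsetSum, ← hp]
    refine Finset.sum_congr rfl fun i _ => ?_
    rw [eval₂_mul, eval₂_C, eval₂_pow, eval₂_X]
    rfl
  · rw [hqcoeff, dif_pos hb]
    exact hpa
  · intro a' b' h0
    rw [hqcoeff]
    split_ifs with hb'
    · exact hsupp ⟨b', hb'⟩ a' h0
    · rw [coeff_zero]

end Fermat.Agent.GenusLib.FormalLD
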