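import Mathlib
import Fermat.Agent.GenusLib.PlaceCoreDefs

/-!
# S24: from a bivariate polynomial relation to integrality over `K[t]_(t)`

`q(t, g) = 0` with `q ∈ K[X][Y]` of `Y`-degree `≤ μ` whose `Y^μ`-coefficient does not vanish at
`X = 0` makes `g` integral over `locRing K t` (the local ring `K[t]_(t)` inside `F`).  The version
at `∞` (`t = j⁻¹`) uses the reversed coefficient polynomials.
-/

set_option autoImplicit false

noncomputable section

namespace Fermat.Agent.GenusLib.Gauss24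

open Polynomial
open Fermat.Agent.GenusLib.PlaceCore

variable {K F : Type*} [Field K] [Field F] [Algebra K F]

/-- Evaluation of a bivariate polynomial at `(t, g)` as a finite sum. -/
theorem eval₂_aeval_eq_sum (t g : F) (q : K[X][X]) {μ : ℕ} (hdeg : q.natDegree ≤ μ) :
    q.eval₂ (aeval t : K[X] →ₐ[K] F).toRingHom g =
      ∑ k ∈ Finset.range (μ + 1), aeval t (q.coeff k) * g ^ k := by
  rw [Polynomial.eval₂_eq_sum_range' _ (Nat.lt_succ_of_le hdeg)]
  rfl

/-- A relation `∑_{k ≤ μ} a_k(t) g^k = 0` whose top coefficient `a_μ` does not vanish at `0`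
makes `g` integral over `K[t]_(t)`. -/
theorem isIntegral_locRing_of_sum (t g : F) (μ : ℕ) (a : ℕ → K[X])
    (h : ∑ k ∈ Finset.range (μ + 1), aeval t (a k) * g ^ k = 0) (h0 : (a μ).eval 0 ≠ 0) :
    IsIntegral (locRing K t) g := by
  by_cases hu0 : aeval t (a μ) = 0
  · -- degenerate case: everything lies in `locRing K t`
    have hg : g ∈ locRing K t := ⟨0, a μ, h0, by rw [hu0]; simp⟩
    exact isIntegral_algebraMap (R := locRing K t) (x := ⟨g, hg⟩)
  · have hc : ∀ k, aeval t (a k) / aeval t (a μ) ∈ locRing K t := fun k =>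
      ⟨a k, a μ, h0, by field_simp⟩
    have hdeg' : (∑ k ∈ Finset.range μ,
        C (⟨_, hc k⟩ : locRing K t) * (X : (locRing K t)[X]) ^ k).degree < (μ : WithBot ℕ) := by
      refine lt_of_le_of_lt (degree_sum_le _ _) ?_
      refine (Finset.sup_lt_iff (WithBot.bot_lt_coe μ)).mpr ?_
      intro k hk
      exact lt_of_le_of_lt (degree_C_mul_X_pow_le k _)
        (WithBot.coe_lt_coe.mpr (Finset.mem_range.mp hk))
    refine ⟨X ^ μ + ∑ k ∈ Finset.range μ, C (⟨_, hc k⟩ : locRing K t) * X ^ k,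
      monic_X_pow_add hdeg', ?_⟩
    rw [eval₂_add, eval₂_X_pow, eval₂_finsetSum]
    simp only [eval₂_mul, eval₂_C, eval₂_X_pow]
    rw [Finset.sum_range_succ] at h
    apply mul_left_cancel₀ hu0
    rw [mul_zero, mul_add, Finset.mul_sum, ← h, add_comm]
    congr 1
    refine Finset.sum_congr rfl fun k _ => ?_
    show aeval t (a μ) * (aeval t (a k) / aeval t (a μ) * g ^ k) = aeval t (a k) * g ^ k
    field_simp

/-- (G1) `q(t, g) = 0`, `deg_Y q ≤ μ`, `q_μ(0) ≠ 0`  ⟹  `g` is integral over `K[t]_(t)`. -/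
theorem isIntegral_locRing_of_bivariate (t g : F) (q : K[X][X]) (μ : ℕ) (hdeg : q.natDegree ≤ μ)
    (hq : q.eval₂ (aeval t : K[X] →ₐ[K] F).toRingHom g = 0) (h0 : (q.coeff μ).eval 0 ≠ 0) :
    IsIntegral (locRing K t) g := by
  rw [eval₂_aeval_eq_sum t g q hdeg] at hq
  exact isIntegral_locRing_of_sum t g μ (fun k => q.coeff k) hq h0

/-- The same with the coefficient condition stated as in `FormalLD.exists_poly_coeff_ne`. -/
theorem isIntegral_locRing_of_bivariate' (t g : F) (q : K[X][X]) (μ : ℕ) (hdeg : q.natDegree ≤ μ)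
    (hq : q.eval₂ (aeval t : K[X] →ₐ[K] F).toRingHom g = 0) (h0 : (q.coeff μ).coeff 0 ≠ 0) :
    IsIntegral (locRing K t) g :=
  isIntegral_locRing_of_bivariate t g q μ hdeg hq (by rwa [← coeff_zero_eq_eval_zero])

/-- (G2) the version at `∞`: `q(j, g) = 0`, `deg_Y q ≤ μ`, and all coefficients `q_k` have
degree at most `D`, where the coefficient of `X^D` in `q_μ` is nonzero  ⟹  `g` is integral over
`K[j⁻¹]_(j⁻¹)`. -/
theorem isIntegral_locRing_inv_of_bivariate (j g : F) (hj : j ≠ 0) (q : K[X][X]) (μ D : ℕ)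
    (hdeg : q.natDegree ≤ μ)
    (hq : q.eval₂ (aeval j : K[X] →ₐ[K] F).toRingHom g = 0)
    (hD : ∀ k, (q.coeff k).natDegree ≤ D) (h0 : (q.coeff μ).coeff D ≠ 0) :
    IsIntegral (locRing K j⁻¹) g := by
  rw [eval₂_aeval_eq_sum j g q hdeg] at hq
  refine isIntegral_locRing_of_sum j⁻¹ g μ (fun k => reflect D (q.coeff k)) ?_ ?_
  · have hjD : j ^ D ≠ 0 := pow_ne_zero D hj
    apply mul_right_cancel₀ hjD
    rw [zero_mul, Finset.sum_mul, ← hq]
    refine Finset.sum_congr rfl fun k _ => ?_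
    let _ : Invertible j := invertibleOfNonzero hj
    have h1 := eval₂_reflect_mul_pow (algebraMap K F) j D (q.coeff k) (hD k)
    rw [invOf_eq_inv] at h1
    show aeval j⁻¹ (reflect D (q.coeff k)) * g ^ k * j ^ D = aeval j (q.coeff k) * g ^ k
    rw [aeval_def, aeval_def, ← h1]
    ring
  · show (reflect D (q.coeff μ)).eval 0 ≠ 0
    rw [← coeff_zero_eq_eval_zero, coeff_reflect, revAt_zero]
    exact h0

end Fermat.Agent.GenusLib.Gauss24
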