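import Mathlib
import Fermat.Agent.GenusLib.FFDefs
import Fermat.Agent.GenusLib.Conj24
import Fermat.Agent.GenusLib.CuspsZ
import Fermat.Agent.GenusLib.FormalLD2
import Fermat.Agent.GenusLib.Gauss24
import Fermat.Agent.GenusLib.Deg24

/-!
# S24, analytic side: the two integrality fields of `PlaceHyps`

For `g` in the function field with `e g = a / b` (`a, b ∈ BAlg N`):

* if every translate of `a` vanishes at `τ_c` to at least the order of the translate of `b`, then
  `g` is integral over `Qb[j - c]_(j - c)` (`isIntegral_of_ordAt_le`, and `hint` for `FF.W`);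
* if every translate of `a` has at least the order of the translate of `b` at `i∞`, then `g` is
  integral over `Qb[j⁻¹]_(j⁻¹)` (`isIntegral_inv_of_ordZ_le`).

Route: the characteristic polynomial of `a / b` over `ℂ[j]` (`Conj24`), transported to the
Laurent series by the bridge, descended to `Qb` with a prescribed nonzero coefficient
(`FormalLD2`), and the elementary integrality criteria of `Gauss24`.
-/

set_option autoImplicit false
set_option linter.unusedSectionVars false

noncomputable section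

namespace Fermat.Agent.GenusLib.FFInt

open UpperHalfPlane hiding I
open scoped MatrixGroups ModularForm Manifold
open CongruenceSubgroup Polynomial
open Fermat.Agent.S23Lib Fermat.Agent.S23Lib.Conj
open Fermat.Agent.GenusLib.Defs Fermat.Agent.GenusLib.LS Fermat.Agent.GenusLib.BStruct
  Fermat.Agent.GenusLib.PlaceCore Fermat.Agent.GenusLib.FFOrd Fermat.Agent.GenusLib
  Fermat.Agent.GenusLib.FF

variable {N : ℕ} [NeZero N]

/-! ### Bivariate polynomials from coefficient sequences -/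

/-- The bivariate polynomial `∑_{k ≤ n} A k · Y ^ k`. -/
def biv {R : Type*} [CommRing R] (A : ℕ → R[X]) (n : ℕ) : R[X][X] :=
  ∑ k ∈ Finset.range (n + 1), C (A k) * Polynomial.X ^ k

theorem coeff_biv {R : Type*} [CommRing R] (A : ℕ → R[X]) (n k : ℕ) :
    (biv A n).coeff k = if k ≤ n then A k else 0 := by
  unfold biv
  rw [Polynomial.finsetSum_coeff]
  simp only [Polynomial.coeff_C_mul_X_pow]
  rw [Finset.sum_ite_eq]
  simp

theorem eval₂_biv {R S : Type*} [CommRing R] [CommRing S] (A : ℕ → R[X]) (n : ℕ)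
    (f : R[X] →+* S) (x : S) :
    (biv A n).eval₂ f x = ∑ k ∈ Finset.range (n + 1), f (A k) * x ^ k := by
  unfold biv
  rw [Polynomial.eval₂_finsetSum]
  refine Finset.sum_congr rfl fun k _ => ?_
  rw [Polynomial.eval₂_mul, Polynomial.eval₂_C, Polynomial.eval₂_pow, Polynomial.eval₂_X]

/-! ### Descent of a relation through the bridge -/

/-- A bivariate relation over `ℂ` between `e t` and `e g` descends to a bivariate relation over
`Qb` between `t` and `g`, with a prescribed nonzero coefficient and support control. -/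
theorem exists_descent (B : BridgeData N) (t g : FN N) (Q : ℂ[X][X])
    (hQ : Q.eval₂ (aeval (B.e t) : ℂ[X] →ₐ[ℂ] MN N).toRingHom (B.e g) = 0) (a b : ℕ)
    (hab : (Q.coeff b).coeff a ≠ 0) :
    ∃ q : Qb[X][X], q.eval₂ (aeval t : Qb[X] →ₐ[Qb] FN N).toRingHom g = 0 ∧
      (q.coeff b).coeff a ≠ 0 ∧
      ∀ a' b' : ℕ, (Q.coeff b').coeff a' = 0 → (q.coeff b').coeff a' = 0 := by
  have h1 : Q.eval₂ (aeval (ModularCurve.coeffMap B.ι (t : LaurentSeries Qb)) :
      ℂ[X] →ₐ[ℂ] LaurentSeries ℂ).toRingHom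
      (ModularCurve.coeffMap B.ι (g : LaurentSeries Qb)) = 0 := by
    have h2 := congrArg B.lexp hQ
    rw [map_zero, Polynomial.hom_eval₂, B.lexp_e] at h2
    rw [← h2]
    congr 1
    apply Polynomial.ringHom_ext
    · intro z
      simp only [RingHom.coe_comp, Function.comp_apply, AlgHom.toRingHom_eq_coe, RingHom.coe_coe,
        aeval_C, B.lexp_const]
      exact (FormalLD.C_eq_algebraMap z).symm
    · simp [B.lexp_e]
  obtain ⟨q, hq, hqa, hsupp⟩ := FormalLD.exists_poly_coeff_ne B.ι (t : LaurentSeries Qb)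
    (g : LaurentSeries Qb) Q h1 a b hab
  refine ⟨q, Subtype.ext ?_, hqa, hsupp⟩
  rw [Deg24.eval₂_coe]
  exact hq

/-- A function-level relation `∑ P_k(j) a^k b^(n-k) = 0` gives `∑ P_k(j) x^k = 0` for
`x = a / b`. -/
theorem sum_aeval_mul_pow_eq_zero {x : MN N} {a b : BAlg N} (hb : b ≠ 0)
    (h : x * algebraMap (BAlg N) (MN N) b = algebraMap (BAlg N) (MN N) a) (A : ℕ → ℂ[X]) (n : ℕ)
    (hrel : ∑ k ∈ Finset.range (n + 1),
      LevelOne.polyJ (A k) * (a : ℍ → ℂ) ^ k * (b : ℍ → ℂ) ^ (n - k) = 0) :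
    ∑ k ∈ Finset.range (n + 1), aeval (jM N) (A k) * x ^ k = 0 := by
  have h1 : ∑ k ∈ Finset.range (n + 1), aeval (jB N) (A k) * a ^ k * b ^ (n - k) = (0 : BAlg N) := by
    apply Subtype.ext
    rw [Subalgebra.coe_zero, ← hrel]
    rw [AddSubmonoidClass.coe_finsetSum]
    refine Finset.sum_congr rfl fun k _ => ?_
    rw [Subalgebra.coe_mul, Subalgebra.coe_mul, Subalgebra.coe_pow, Subalgebra.coe_pow]
    congr 2
    funext z
    rw [coe_aeval_jB]
    rfl
  have h2 := congrArg (algebraMap (BAlg N) (MN N)) h1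
  rw [map_sum, map_zero] at h2
  have hb' : algebraMap (BAlg N) (MN N) b ≠ 0 := PreOrd.algebraMap_ne_zero hb
  have h3 : (∑ k ∈ Finset.range (n + 1), aeval (jM N) (A k) * x ^ k) *
      (algebraMap (BAlg N) (MN N) b) ^ n = 0 := by
    rw [← h2, Finset.sum_mul]
    refine Finset.sum_congr rfl fun k hk => ?_
    have hk' : k ≤ n := Nat.lt_succ_iff.mp (Finset.mem_range.mp hk)
    rw [map_mul, map_mul, map_pow, map_pow, ← h, mul_pow, ← pow_mul_pow_sub _ hk']
    have h4 : algebraMap (BAlg N) (MN N) (aeval (jB N) (A k)) = aeval (jM N) (A k) := by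
      unfold jM
      rw [Polynomial.aeval_algebraMap_apply]
    rw [h4]
    ring
  rcases mul_eq_zero.mp h3 with h5 | h5
  · exact h5
  · exact absurd h5 (pow_ne_zero n hb')

/-! ### Points over `j = c` -/

/-- If every translate of `a` vanishes at `τ_c` to at least the order of the corresponding
translate of `b`, then `g = a / b` is integral over `Qb[j - c]_(j - c)`. -/
theorem isIntegral_of_ordAt_le (B : BridgeData N) (c : Qb) {g : FN N} {a b : BAlg N} (hb : b ≠ 0)
    (h : B.e g * algebraMap (BAlg N) (MN N) b = algebraMap (BAlg N) (MN N) a)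
    (hord : ∀ q : LS.X N, Pts.ordAt (trn q (b : ℍ → ℂ)) (tauOf B c) ≤
      Pts.ordAt (trn q (a : ℍ → ℂ)) (tauOf B c)) :
    IsIntegral (PlaceCore.locRing Qb (jF N - algebraMap Qb (FN N) c)) g := by
  obtain ⟨A', hA', hrel⟩ := Conj24.exists_reduced_rel a.2 b.2 (coe_ne_zero hb) (tauOf B c) hord
  rw [jFun_tauOf] at hA'
  have hx := sum_aeval_mul_pow_eq_zero hb h A' (Nat.card (LS.X N)) hrel
  have het : B.e (jF N - algebraMap Qb (FN N) c) = jM N - algebraMap ℂ (MN N) (B.ι c) := by
    rw [RingHom.map_sub, B.e_j, B.e_const]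
  have hQ : (biv (fun k => (A' k).comp (Polynomial.X + C (B.ι c))) (Nat.card (LS.X N))).eval₂
      (aeval (B.e (jF N - algebraMap Qb (FN N) c)) : ℂ[X] →ₐ[ℂ] MN N).toRingHom (B.e g) = 0 := by
    rw [eval₂_biv, ← hx]
    refine Finset.sum_congr rfl fun k _ => ?_
    congr 1
    show aeval (B.e (jF N - algebraMap Qb (FN N) c)) ((A' k).comp (Polynomial.X + C (B.ι c))) =
      aeval (jM N) (A' k)
    rw [Polynomial.aeval_comp, het]
    simp
  have hQc : ((biv (fun k => (A' k).comp (Polynomial.X + C (B.ι c)))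
      (Nat.card (LS.X N))).coeff (Nat.card (LS.X N))).coeff 0 ≠ 0 := by
    rw [coeff_biv, if_pos le_rfl, Polynomial.coeff_zero_eq_eval_zero, Polynomial.eval_comp]
    simpa using hA'
  obtain ⟨q, hq, hq0, hsupp⟩ := exists_descent B (jF N - algebraMap Qb (FN N) c) g _ hQ 0
    (Nat.card (LS.X N)) hQc
  have hdeg : q.natDegree ≤ Nat.card (LS.X N) := by
    rw [Polynomial.natDegree_le_iff_coeff_eq_zero]
    intro k hk
    ext i
    rw [Polynomial.coeff_zero]
    apply hsupp
    rw [coeff_biv, if_neg (not_le.mpr hk), Polynomial.coeff_zero]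
  exact Gauss24.isIntegral_locRing_of_bivariate' _ g q (Nat.card (LS.X N)) hdeg hq hq0

/-- **The `hint` field of `PlaceHyps`** for the order functions `FF.W B`: an element of the
function field with non-negative order at all points over `j = c` is integral over
`Qb[j - c]_(j - c)`. -/
theorem hint (B : BridgeData N) : ∀ (c : Qb) (g : FN N), g ≠ 0 →
    (∀ ω : OrbP N (tauOf B c), 0 ≤ (W B c ω).w g) →
    IsIntegral (PlaceCore.locRing Qb (jF N - algebraMap Qb (FN N) c)) g := by
  intro c g hg hw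
  obtain ⟨a, b, hb, h⟩ := exists_rep B g
  have ha : a ≠ 0 := rep_ne_zero B hg hb h
  refine isIntegral_of_ordAt_le B c hb h
    (Conj24.forall_ordAt_le_of_repP a.2 b.2 (tauOf B c) fun ω => ?_)
  have h1 := hw ω
  rw [W_eq B c ω ha hb h] at h1
  have h2 : (ptPre N (tauOf B c) ω).v b ≤ (ptPre N (tauOf B c) ω).v a := by linarith
  have h3 := mul_le_mul_of_nonneg_right h2 (Int.natCast_nonneg (eP ω))
  rw [ptPre_v_mul_eP _ ω hb, ptPre_v_mul_eP _ ω ha] at h3
  rw [← coe_ordN _ _ hb, ← coe_ordN _ _ ha]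
  exact_mod_cast h3

/-! ### Points over `j = ∞` -/

/-- The degree bound of `Conj24` with the hypothesis stated through the integer orders `ordZ` at
`i∞` of the translates. -/
theorem natDegree_cpoly_le_of_ordZ {a b : ℍ → ℂ} (ha : a ∈ WH N 0) (hb : b ∈ WH N 0)
    (hb0 : b ≠ 0)
    (h : ∀ q : LS.X N, Cusps.ordZ N (trn q b) ≤ Cusps.ordZ N (trn q a)) (k : ℕ) :
    (Conj24.cpoly N a b k).natDegree ≤ (Conj24.cpoly N a b (Nat.card (LS.X N))).natDegree := by
  have hN : 0 < N := NeZero.pos N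
  obtain ⟨d1, h1⟩ := ha
  obtain ⟨d2, h2⟩ := hb
  have ha' : a ∈ WHle N 0 (max d1 d2) := WHle_mono N 0 (le_max_left _ _) h1
  have hb' : b ∈ WHle N 0 (max d1 d2) := WHle_mono N 0 (le_max_right _ _) h2
  refine Conj24.natDegree_cpoly_le ha' hb' hb0 (fun q => ?_) k
  by_cases ha0 : a = 0
  · have h0 : trn q a = 0 := (Conj24.trn_eq_zero_iff q a).mpr ha0
    rw [(Cusps.ordCusp_eq_top_iff hN (LS.qp_trn ha' q)).mpr h0]
    exact le_top
  · obtain ⟨e1, -⟩ := Cusps.ordCusp_eq_ordZ hN (LS.qp_trn ha' q) (trn_ne_zero q ha0)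
    obtain ⟨e2, -⟩ := Cusps.ordCusp_eq_ordZ hN (LS.qp_trn hb' q) (trn_ne_zero q hb0)
    rw [e1, e2]
    exact_mod_cast Int.toNat_le_toNat (by linarith [h q])

theorem jF_ne_zero (N : ℕ) [NeZero N] : jF N ≠ 0 := by
  intro h0
  have h1 := Deg24.transcendental_of_coe (jF N) (coe_jF N)
  rw [h0] at h1
  exact h1 isAlgebraic_zero

/-- If every translate of `a` has at least the order at `i∞` of the corresponding translate of
`b`, then `g = a / b` is integral over `Qb[j⁻¹]_(j⁻¹)`. -/
theorem isIntegral_inv_of_ordZ_le (B : BridgeData N) {g : FN N} {a b : BAlg N} (hb : b ≠ 0)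
    (h : B.e g * algebraMap (BAlg N) (MN N) b = algebraMap (BAlg N) (MN N) a)
    (hord : ∀ q : LS.X N, Cusps.ordZ N (trn q (b : ℍ → ℂ)) ≤ Cusps.ordZ N (trn q (a : ℍ → ℂ))) :
    IsIntegral (PlaceCore.locRing Qb (jF N)⁻¹) g := by
  have hb0 := coe_ne_zero hb
  have hx := sum_aeval_mul_pow_eq_zero hb h (fun k => Conj24.cpoly N (a : ℍ → ℂ) (b : ℍ → ℂ) k)
    (Nat.card (LS.X N)) (Conj24.cpoly_rel a.2 b.2)
  have hQ : (biv (fun k => Conj24.cpoly N (a : ℍ → ℂ) (b : ℍ → ℂ) k) (Nat.card (LS.X N))).eval₂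
      (aeval (B.e (jF N)) : ℂ[X] →ₐ[ℂ] MN N).toRingHom (B.e g) = 0 := by
    rw [eval₂_biv, B.e_j]
    exact hx
  have hQc : ((biv (fun k => Conj24.cpoly N (a : ℍ → ℂ) (b : ℍ → ℂ) k)
      (Nat.card (LS.X N))).coeff (Nat.card (LS.X N))).coeff
      (Conj24.cpoly N (a : ℍ → ℂ) (b : ℍ → ℂ) (Nat.card (LS.X N))).natDegree ≠ 0 := by
    rw [coeff_biv, if_pos le_rfl]
    exact Polynomial.leadingCoeff_ne_zero.mpr (Conj24.cpoly_card_ne_zero a.2 b.2 hb0)
  obtain ⟨q, hq, hq0, hsupp⟩ := exists_descent B (jF N) g _ hQ _ (Nat.card (LS.X N)) hQc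
  have hdeg : q.natDegree ≤ Nat.card (LS.X N) := by
    rw [Polynomial.natDegree_le_iff_coeff_eq_zero]
    intro k hk
    ext i
    rw [Polynomial.coeff_zero]
    apply hsupp
    rw [coeff_biv, if_neg (not_le.mpr hk), Polynomial.coeff_zero]
  have hqD : ∀ k, (q.coeff k).natDegree ≤
      (Conj24.cpoly N (a : ℍ → ℂ) (b : ℍ → ℂ) (Nat.card (LS.X N))).natDegree := by
    intro k
    rw [Polynomial.natDegree_le_iff_coeff_eq_zero]
    intro i hi
    apply hsupp
    rw [coeff_biv]
    split_ifs with hk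
    · exact Polynomial.coeff_eq_zero_of_natDegree_lt
        (lt_of_le_of_lt (natDegree_cpoly_le_of_ordZ a.2 b.2 hb0 hord k) hi)
    · rw [Polynomial.coeff_zero]
  exact Gauss24.isIntegral_locRing_inv_of_bivariate (jF N) g (jF_ne_zero N) q (Nat.card (LS.X N))
    _ hdeg hq hqD hq0

end Fermat.Agent.GenusLib.FFInt
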