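import Mathlib
import Fermat.Agent.GenusLib.FFDefs
import Fermat.Agent.GenusLib.Mer

/-!
# S24, analytic side: the points of `ℍ`

* `W_j_sub` : the order of `j - c` at the point `ω` over `c` is the orbit size `sP ω`; hence
  `hpos`, `hsum`, `hS`;
* `ordAt_wronskian` : the order of the Wronskian `D a * b - a * D b` at a point where the orders of
  `a` and `b` differ;
* `hdne`, `hdiff` : the differential hypotheses of `PlaceHyps` at the points of `ℍ`.
-/

set_option autoImplicit false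
set_option linter.unusedSectionVars false

noncomputable section

namespace Fermat.Agent.GenusLib.FF

open UpperHalfPlane hiding I
open scoped MatrixGroups ModularForm Manifold Derivative
open CongruenceSubgroup Polynomial Complex Real ModularForm EisensteinSeries
open Fermat.Agent.S23Lib Fermat.Agent.S23Lib.Conj
open Fermat.Agent.GenusLib.Defs Fermat.Agent.GenusLib.LS Fermat.Agent.GenusLib.BStruct
  Fermat.Agent.GenusLib.PlaceCore Fermat.Agent.GenusLib.FFOrd Fermat.Agent.GenusLib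
  Fermat.Agent.GenusLib.Pts

variable {N : ℕ} [NeZero N]

/-! ### The order of `j - c` -/

theorem jB_sub_ne_zero (z : ℂ) : jB N - algebraMap ℂ (BAlg N) z ≠ 0 := by
  intro h
  obtain ⟨w, hw⟩ := aeval_jFun_ne_zero (p := Polynomial.X - C z) (X_sub_C_ne_zero z)
  apply hw
  have h1 := congrFun (congrArg Subtype.val h) w
  simpa using h1

theorem coe_jB_sub (z : ℂ) :
    ((jB N - algebraMap ℂ (BAlg N) z : BAlg N) : ℍ → ℂ) = fun w => jFun w - z := by
  funext w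
  simp

theorem trn_jFun_sub (q : X N) (z : ℂ) :
    trn q (fun w : ℍ => jFun w - z) = fun w => jFun w - z := by
  funext w
  rw [trn_apply, LevelOne.jFun_smul]

theorem ordN_jB_sub {τ : ℍ} {z : ℂ} (h : jFun τ = z) (q : X N) :
    ordN τ q (jB N - algebraMap ℂ (BAlg N) z) = Nat.card (StabG τ) / 2 := by
  unfold ordN
  rw [coe_jB_sub, trn_jFun_sub, JOrd.ordAt_jFun_sub_const h]
  rfl

theorem e_j_sub (B : BridgeData N) (c : Qb) :
    B.e (jF N - algebraMap Qb (FN N) c) =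
      algebraMap (BAlg N) (MN N) (jB N - algebraMap ℂ (BAlg N) (B.ι c)) := by
  rw [RingHom.map_sub B.e, RingHom.map_sub (algebraMap (BAlg N) (MN N)), B.e_j, B.e_const, jM,
    ← IsScalarTower.algebraMap_apply ℂ (BAlg N) (MN N)]

theorem jF_sub_ne_zero (B : BridgeData N) (c : Qb) : jF N - algebraMap Qb (FN N) c ≠ 0 := by
  intro h
  have h1 := e_j_sub B c
  rw [h, map_zero] at h1
  exact PreOrd.algebraMap_ne_zero (jB_sub_ne_zero (B.ι c)) h1.symm

/-- The order of `j - c` at the point `ω` over `c` is the size of the orbit `ω`. -/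
theorem W_j_sub (B : BridgeData N) (c : Qb) (ω : OrbP N (tauOf B c)) :
    (W B c ω).w (jF N - algebraMap Qb (FN N) c) = sP ω := by
  have hrep : B.e (jF N - algebraMap Qb (FN N) c) * algebraMap (BAlg N) (MN N) 1 =
      algebraMap (BAlg N) (MN N) (jB N - algebraMap ℂ (BAlg N) (B.ι c)) := by
    rw [map_one, mul_one, e_j_sub]
  rw [W_eq B c ω (jB_sub_ne_zero (B.ι c)) one_ne_zero hrep, PreOrd.v_one, sub_zero, ptPre_v,
    ordN_jB_sub (jFun_tauOf B c), ← sP_mul_eP ω, Nat.mul_div_cancel _ (eP_pos ω)]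

theorem hpos (B : BridgeData N) (c : Qb) (ω : OrbP N (tauOf B c)) :
    0 < (W B c ω).w (jF N - algebraMap Qb (FN N) c) := by
  rw [W_j_sub]
  exact_mod_cast sP_pos ω

theorem hsum (B : BridgeData N) (c : Qb) :
    ∑ ω : OrbP N (tauOf B c), (W B c ω).w (jF N - algebraMap Qb (FN N) c) =
      (Nat.card (X N) : ℤ) := by
  simp_rw [W_j_sub]
  rw [← Nat.cast_sum, sum_sP]

open Classical in
/-- The ramification set `{0, 1728}` of `j`. -/
def SQ : Finset Qb := {0, 1728}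

theorem mem_SQ {c : Qb} : c ∈ SQ ↔ c = 0 ∨ c = 1728 := by
  classical
  simp [SQ]

theorem zero_ne_1728 : (0 : Qb) ≠ 1728 := by norm_num

theorem sum_SQ {M : Type*} [AddCommMonoid M] (f : Qb → M) : ∑ c ∈ SQ, f c = f 0 + f 1728 := by
  classical
  unfold SQ
  exact Finset.sum_pair zero_ne_1728

theorem hS (B : BridgeData N) (c : Qb) (hc : c ∉ SQ)
    (ω : OrbP N (tauOf B c)) : (W B c ω).w (jF N - algebraMap Qb (FN N) c) = 1 := by
  rw [W_j_sub]
  have hj := jFun_tauOf B c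
  rw [mem_SQ, not_or] at hc
  have h4 : E₄ (tauOf B c) ≠ 0 := by
    intro h
    rw [JOrd.E₄_eq_zero_iff, hj] at h
    exact hc.1 ((map_eq_zero B.ι).mp h)
  have h6 : E₆ (tauOf B c) ≠ 0 := by
    intro h
    rw [JOrd.E₆_eq_zero_iff, hj] at h
    apply hc.2
    apply B.ι.injective
    rw [h]
    exact (map_ofNat B.ι 1728).symm
  have hcard : Nat.card (StabG (tauOf B c)) = 2 := JOrd.card_stabilizer_of_ne h4 h6
  have h1 := sP_mul_eP ω
  rw [hcard] at h1
  have h2 : sP ω = 1 := Nat.eq_one_of_mul_eq_one_right (by simpa using h1)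
  exact_mod_cast h2

/-! ### The order of a Wronskian -/

/-- Taylor coefficients of the normalised derivative. -/
theorem cfAt_D {F : ℍ → ℂ} (hF : MDiff F) (τ : ℍ) (k : ℕ) :
    cfAt (D F) τ k = (2 * (Real.pi : ℂ) * Complex.I)⁻¹ * ((k : ℂ) + 1) * cfAt F τ (k + 1) := by
  unfold cfAt
  have h1 : (D F) ∘ ofComplex =ᶠ[nhds (τ : ℂ)]
      fun z => (2 * (Real.pi : ℂ) * Complex.I)⁻¹ * deriv (F ∘ ofComplex) z := by
    filter_upwards [isOpen_upperHalfPlaneSet.mem_nhds τ.im_pos] with z hz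
    simp [Derivative.normalizedDerivOfComplex, ofComplex_apply_of_im_pos hz]
  rw [h1.iteratedDeriv_eq k, iteratedDeriv_const_mul_field, ← iteratedDeriv_succ']
  have hk : ((k.factorial : ℕ) : ℂ) ≠ 0 := by exact_mod_cast k.factorial_ne_zero
  have hk1 : (((k + 1).factorial : ℕ) : ℂ) = ((k : ℂ) + 1) * (k.factorial : ℂ) := by
    rw [Nat.factorial_succ]; push_cast; ring
  have hk2 : ((k : ℂ) + 1) ≠ 0 := by exact_mod_cast Nat.succ_ne_zero k
  rw [hk1]
  field_simp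

theorem le_ordAt_D {F : ℍ → ℂ} (hF : MDiff F) (τ : ℍ) {n : ℕ} (h : (n : ℕ∞) ≤ ordAt F τ) :
    ((n - 1 : ℕ) : ℕ∞) ≤ ordAt (D F) τ := by
  have hD : MDiff (D F) := Derivative.normalizedDerivOfComplex_mdifferentiable hF
  rw [le_ordAt_iff hD]
  intro i hi
  rw [cfAt_D hF, ((le_ordAt_iff hF τ n).mp h) (i + 1) (by omega), mul_zero]

/-- The leading term of `D a * b` at a point where `a`, `b` have orders `n`, `m`. -/
theorem wronskian_aux {a b : ℍ → ℂ} (ha : MDiff a) (hb : MDiff b) {τ : ℍ} {n m : ℕ}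
    (hn : (n : ℕ∞) ≤ ordAt a τ) (hm : (m : ℕ∞) ≤ ordAt b τ) (hnm : 1 ≤ n + m) :
    ((n + m - 1 : ℕ) : ℕ∞) ≤ ordAt (D a * b) τ ∧
      cfAt (D a * b) τ (n + m - 1) =
        (2 * (Real.pi : ℂ) * Complex.I)⁻¹ * (n : ℂ) * (cfAt a τ n * cfAt b τ m) := by
  have hD : MDiff (D a) := Derivative.normalizedDerivOfComplex_mdifferentiable ha
  have h1 := le_ordAt_D ha τ hn
  have hle : (((n - 1) + m : ℕ) : ℕ∞) ≤ ordAt (D a * b) τ := by
    rw [ordAt_mul hD hb]
    push_cast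
    exact add_le_add h1 hm
  rcases Nat.eq_zero_or_pos n with h0 | h0
  · subst h0
    have hm1 : 1 ≤ m := by omega
    refine ⟨le_trans (by exact_mod_cast (by omega : 0 + m - 1 ≤ (0 - 1) + m)) hle, ?_⟩
    have hlt : ((0 + m - 1 : ℕ) : ℕ∞) < ordAt (D a * b) τ :=
      lt_of_lt_of_le (by exact_mod_cast (by omega : 0 + m - 1 < (0 - 1) + m)) hle
    rw [cfAt_eq_zero_of_lt (hD.mul hb) hlt]
    simp
  · have he : n + m - 1 = (n - 1) + m := by omega
    rw [he]
    refine ⟨hle, ?_⟩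
    rw [cfAt_mul hD hb h1 hm, cfAt_D ha]
    have : ((n - 1 : ℕ) : ℂ) + 1 = (n : ℂ) := by
      have : n - 1 + 1 = n := by omega
      exact_mod_cast this
    rw [this, Nat.sub_add_cancel h0]
    ring

theorem wronskian_mdiff {a b : ℍ → ℂ} (ha : MDiff a) (hb : MDiff b) :
    MDiff (D a * b - a * D b) :=
  ((Derivative.normalizedDerivOfComplex_mdifferentiable ha).mul hb).sub
    (ha.mul (Derivative.normalizedDerivOfComplex_mdifferentiable hb))

/-- **The order of the Wronskian** at a point where the orders of `a` and `b` differ. -/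
theorem ordAt_wronskian {a b : ℍ → ℂ} (ha : MDiff a) (hb : MDiff b) {τ : ℍ} {n m : ℕ}
    (hn : ordAt a τ = n) (hm : ordAt b τ = m) (hnm : n ≠ m) :
    ordAt (D a * b - a * D b) τ = ((n + m - 1 : ℕ) : ℕ∞) := by
  have hDa : MDiff (D a) := Derivative.normalizedDerivOfComplex_mdifferentiable ha
  have hDb : MDiff (D b) := Derivative.normalizedDerivOfComplex_mdifferentiable hb
  have h1m : 1 ≤ n + m := by omega
  have hn' := ((ordAt_eq_iff ha τ n).mp hn)
  have hm' := ((ordAt_eq_iff hb τ m).mp hm)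
  obtain ⟨h1, h2⟩ := wronskian_aux ha hb hn'.1 hm'.1 h1m
  obtain ⟨h3, h4⟩ := wronskian_aux hb ha hm'.1 hn'.1 (by omega : 1 ≤ m + n)
  have hcomm : a * D b = D b * a := mul_comm _ _
  rw [Nat.add_comm m n] at h3 h4
  rw [← hcomm] at h3 h4
  have hW : MDiff (D a * b - a * D b) := wronskian_mdiff ha hb
  rw [ordAt_eq_iff hW]
  refine ⟨le_trans (le_min h1 h3) (le_ordAt_sub _ _ τ), ?_⟩
  rw [cfAt_sub (hDa.mul hb) (ha.mul hDb), h2, h4]
  have hc : (2 * (Real.pi : ℂ) * Complex.I)⁻¹ ≠ 0 := inv_ne_zero Complex.two_pi_I_ne_zero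
  have hnm' : (n : ℂ) - (m : ℂ) ≠ 0 := by
    rw [sub_ne_zero]
    exact_mod_cast hnm
  have e : (2 * (Real.pi : ℂ) * Complex.I)⁻¹ * (n : ℂ) * (cfAt a τ n * cfAt b τ m) -
      (2 * (Real.pi : ℂ) * Complex.I)⁻¹ * (m : ℂ) * (cfAt b τ m * cfAt a τ n) =
      (2 * (Real.pi : ℂ) * Complex.I)⁻¹ * ((n : ℂ) - m) * (cfAt a τ n * cfAt b τ m) := by ring
  rw [e]
  exact mul_ne_zero (mul_ne_zero hc hnm') (mul_ne_zero hn'.2 hm'.2)

/-! ### The point attached to a coset -/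

/-- The point of `ℍ` attached to the coset `q` over `τ`. -/
def ptOf (τ : ℍ) (q : X N) : ℍ := (Quotient.out q)⁻¹ • τ

theorem ordAt_ptOf (τ : ℍ) (q : X N) {b : BAlg N} (hb : b ≠ 0) :
    ordAt (b : ℍ → ℂ) (ptOf τ q) = (ordN τ q b : ℕ∞) := by
  rw [coe_ordN τ q hb, ordAt_trn_eq (BAlg_mdiff b)]
  rfl

theorem card_StabG_ptOf (τ : ℍ) (q : X N) : Nat.card (StabG (ptOf τ q)) = Nat.card (StabG τ) :=
  JOrd.card_stabilizer_smul _ τ

theorem ordAt_D_jFun (τ : ℍ) :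
    ordAt (D jFun) τ + 1 = ((Nat.card (StabG τ) / 2 : ℕ) : ℕ∞) := by
  rw [ordAt_D_add_one LevelOne.jFun_mdiff, JOrd.ordAt_jFun_sub]

/-! ### Uniformisers and differentials at a point (any `τ`) -/

/-- If `a / b` has order `1` at `ω`, then the orders of `a` and `b` at the point differ by `eP ω`. -/
theorem ordN_eq_add_of_v {τ : ℍ} (ω : OrbP N τ) {a b : BAlg N} (ha : a ≠ 0) (hb : b ≠ 0)
    (hw : (ptPre N τ ω).v a - (ptPre N τ ω).v b = 1) :
    ordN τ (repP ω) a = ordN τ (repP ω) b + eP ω := by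
  have h1 := ptPre_v_mul_eP τ ω ha
  have h2 := ptPre_v_mul_eP τ ω hb
  have h3 : (ptPre N τ ω).v a = (ptPre N τ ω).v b + 1 := by omega
  rw [h3, add_mul, one_mul, h2] at h1
  exact_mod_cast h1.symm

theorem wronskian_ne_zero_of_v {τ : ℍ} (ω : OrbP N τ) {a b : BAlg N} (ha : a ≠ 0) (hb : b ≠ 0)
    (hw : (ptPre N τ ω).v a - (ptPre N τ ω).v b = 1) :
    D (a : ℍ → ℂ) * (b : ℍ → ℂ) - (a : ℍ → ℂ) * D (b : ℍ → ℂ) ≠ 0 := by
  have hne := ordN_eq_add_of_v ω ha hb hw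
  have he := eP_pos ω
  intro h0
  have h1 := ordAt_wronskian (BAlg_mdiff a) (BAlg_mdiff b)
    (ordAt_ptOf τ (repP ω) ha) (ordAt_ptOf τ (repP ω) hb) (by omega)
  rw [h0, ordAt_zero] at h1
  exact ENat.top_ne_coe _ h1

/-- The core of `hdiff`: the order of `A / B'` from the Wronskian relation. -/
theorem v_sub_of_wronskian_rel {τ : ℍ} (ω : OrbP N τ) {a b A B' : BAlg N} (ha : a ≠ 0)
    (hb : b ≠ 0) (hB' : B' ≠ 0)
    (hw : (ptPre N τ ω).v a - (ptPre N τ ω).v b = 1)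
    (hrel : (A : ℍ → ℂ) * (D (a : ℍ → ℂ) * (b : ℍ → ℂ) - (a : ℍ → ℂ) * D (b : ℍ → ℂ)) =
      (B' : ℍ → ℂ) * D jFun * (b : ℍ → ℂ) ^ 2) :
    A ≠ 0 ∧ (ptPre N τ ω).v A - (ptPre N τ ω).v B' = (sP ω : ℤ) - 1 := by
  have hne := ordN_eq_add_of_v ω ha hb hw
  have he := eP_pos ω
  have hWord := ordAt_wronskian (BAlg_mdiff a) (BAlg_mdiff b)
    (ordAt_ptOf τ (repP ω) ha) (ordAt_ptOf τ (repP ω) hb) (by omega)
  have hDj := ordAt_D_jFun (ptOf τ (repP ω))
  rw [card_StabG_ptOf] at hDj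
  have hDjm : MDiff (D jFun) :=
    Derivative.normalizedDerivOfComplex_mdifferentiable LevelOne.jFun_mdiff
  have hWm := wronskian_mdiff (BAlg_mdiff a) (BAlg_mdiff b)
  obtain ⟨d, hd⟩ : ∃ d : ℕ, ordAt (D jFun) (ptOf τ (repP ω)) = d := by
    refine ⟨(ordAt (D jFun) (ptOf τ (repP ω))).toNat, (ENat.coe_toNat ?_).symm⟩
    intro htop
    rw [htop] at hDj
    simp at hDj
  rw [hd] at hDj
  have hDj' : d + 1 = Nat.card (StabG τ) / 2 := by exact_mod_cast hDj
  -- orders of both sides at the point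
  have hR : ordAt ((B' : ℍ → ℂ) * D jFun * (b : ℍ → ℂ) ^ 2) (ptOf τ (repP ω)) =
      ((ordN τ (repP ω) B' + d + 2 * ordN τ (repP ω) b : ℕ) : ℕ∞) := by
    rw [ordAt_mul ((BAlg_mdiff B').mul hDjm) ((BAlg_mdiff b).pow 2),
      ordAt_mul (BAlg_mdiff B') hDjm, ordAt_pow (BAlg_mdiff b), ordAt_ptOf τ (repP ω) hB',
      ordAt_ptOf τ (repP ω) hb, hd]
    push_cast
    rfl
  have hL : ordAt ((A : ℍ → ℂ) * (D (a : ℍ → ℂ) * (b : ℍ → ℂ) - (a : ℍ → ℂ) * D (b : ℍ → ℂ)))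
      (ptOf τ (repP ω)) = ordAt (A : ℍ → ℂ) (ptOf τ (repP ω)) +
        ((ordN τ (repP ω) a + ordN τ (repP ω) b - 1 : ℕ) : ℕ∞) := by
    rw [ordAt_mul (BAlg_mdiff A) hWm, hWord]
  rw [hrel, hR] at hL
  have hA : A ≠ 0 := by
    rintro rfl
    simp only [ZeroMemClass.coe_zero, ordAt_zero, top_add] at hL
    exact ENat.coe_ne_top _ hL
  refine ⟨hA, ?_⟩
  rw [ordAt_ptOf τ (repP ω) hA] at hL
  have hL' : ordN τ (repP ω) B' + d + 2 * ordN τ (repP ω) b =
      ordN τ (repP ω) A + (ordN τ (repP ω) a + ordN τ (repP ω) b - 1) := by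
    exact_mod_cast hL
  have hsp := sP_mul_eP ω
  have h1 := ptPre_v_mul_eP τ ω hA
  have h2 := ptPre_v_mul_eP τ ω hB'
  have key : ((ptPre N τ ω).v A - (ptPre N τ ω).v B') * (eP ω : ℤ) = ((sP ω : ℤ) - 1) * eP ω := by
    rw [sub_mul, h1, h2, sub_mul, one_mul]
    have h3 : (sP ω : ℤ) * eP ω = (d : ℤ) + 1 := by
      exact_mod_cast hsp.trans hDj'.symm
    rw [h3]
    have hL'' : (ordN τ (repP ω) B' : ℤ) + d + 2 * ordN τ (repP ω) b
        = ordN τ (repP ω) A + (ordN τ (repP ω) a + ordN τ (repP ω) b - 1) := by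
      have h1le : 1 ≤ ordN τ (repP ω) a + ordN τ (repP ω) b := by omega
      omega
    have hne' : (ordN τ (repP ω) a : ℤ) = ordN τ (repP ω) b + eP ω := by exact_mod_cast hne
    linarith
  have he' : (eP ω : ℤ) ≠ 0 := by exact_mod_cast he.ne'
  exact mul_right_cancel₀ he' key

/-! ### The differential hypotheses of `PlaceHyps` at the points of `ℍ` -/

theorem ne_zero_of_W_eq_one (B : BridgeData N) (c : Qb) (ω : OrbP N (tauOf B c)) {u : FN N}
    (hw : (W B c ω).w u = 1) : u ≠ 0 := by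
  rintro rfl
  rw [W_w_zero] at hw
  exact zero_ne_one hw

theorem hdne (B : BridgeData N) (c : Qb) (ω : OrbP N (tauOf B c)) (u : FN N)
    (hw : (W B c ω).w u = 1) : KaehlerDifferential.D Qb (FN N) u ≠ 0 := by
  have hu0 := ne_zero_of_W_eq_one B c ω hw
  obtain ⟨a, b, hb, h⟩ := exists_rep B u
  have ha := rep_ne_zero B hu0 hb h
  rw [W_eq B c ω ha hb h] at hw
  exact Mer.wronskian_ne_zero B.ι B.e B.e_const u a b h (wronskian_ne_zero_of_v ω ha hb hw)

set_option synthInstance.maxHeartbeats 400000 in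
set_option maxHeartbeats 1000000 in
theorem hdiff (B : BridgeData N) (c : Qb) (ω : OrbP N (tauOf B c)) (u f : FN N)
    (hw : (W B c ω).w u = 1)
    (hD : KaehlerDifferential.D Qb (FN N) (jF N) = f • KaehlerDifferential.D Qb (FN N) u) :
    (W B c ω).w f = (W B c ω).w (jF N - algebraMap Qb (FN N) c) - 1 := by
  have hu0 := ne_zero_of_W_eq_one B c ω hw
  obtain ⟨a, b, hb, h⟩ := exists_rep B u
  have ha := rep_ne_zero B hu0 hb h
  obtain ⟨A, B', hB', h'⟩ := exists_rep B f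
  rw [W_eq B c ω ha hb h] at hw
  have hrel := Mer.wronskian_rel B.ι B.e B.e_const (jF N) B.e_j u f hD a b A B' h h'
  obtain ⟨hA, hv⟩ := v_sub_of_wronskian_rel ω ha hb hB' hw hrel
  rw [W_j_sub, W_eq B c ω hA hB' h', hv]

end Fermat.Agent.GenusLib.FF
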