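import Fermat.Agent.GenusLib.PlaceCore

/-!
# Abstract core for S24: the product formula, and Riemann–Hurwitz without it as a hypothesis

* `place_product_formula`: `∑ v, v.ord g = 0` for a function field of one variable over an
  algebraically closed field of characteristic zero (zeros and poles of `g` both have degree
  `[F : K(g)]`).
* `degree_canonical'`: the degree of a canonical divisor from the hypotheses `PlaceHyps` alone.
-/

set_option autoImplicit false
set_option linter.style.haveILetI false

noncomputable section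

namespace Fermat.Agent.GenusLib.PlaceCore

open AlgebraicCurve Polynomial IsDedekindDomain IntermediateField KaehlerDifferential

variable {K F : Type*} [Field K] [Field F] [Algebra K F]

/-- Over an algebraically closed field, algebraic elements are constants. -/
theorem exists_algebraMap_eq_of_isAlgebraic [IsAlgClosed K] {g : F} (hg : IsAlgebraic K g) :
    ∃ a : K, g = algebraMap K F a := by
  have hint : IsIntegral K g := hg.isIntegral
  have hdeg : (minpoly K g).degree = 1 :=
    IsAlgClosed.degree_eq_one_of_irreducible K (minpoly.irreducible hint)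
  obtain ⟨a, ha⟩ := minpoly.mem_range_of_degree_eq_one K g hdeg
  exact ⟨a, ha.symm⟩

open IntermediateField.algebraAdjoinAdjoin in
theorem isTranscendenceBasis_const (j : F) (hj : Transcendental K j)
    [Algebra.IsAlgebraic K⟮j⟯ F] : IsTranscendenceBasis K (fun _ : Unit => j) := by
  rw [isTranscendenceBasis_iff_algebraicIndependent_isAlgebraic]
  refine ⟨algebraicIndependent_unique_type_iff.mpr hj, ?_⟩
  rw [Set.range_const]
  exact Algebra.IsAlgebraic.trans (Algebra.adjoin K {j}) K⟮j⟯ F

/-- In a function field of one variable, everything is algebraic over `K(g)` for every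
transcendental `g`. -/
theorem isAlgebraic_of_transcendental (j : F) (hj : Transcendental K j)
    [Algebra.IsAlgebraic K⟮j⟯ F] (g : F) (hg : Transcendental K g) :
    Algebra.IsAlgebraic K⟮g⟯ F := by
  have hjB := isTranscendenceBasis_const j hj
  have hgB : IsTranscendenceBasis K (fun _ : Unit => g) :=
    (algebraicIndependent_unique_type_iff.mpr hg).isTranscendenceBasis_of_lift_trdeg_le_of_finite
      hjB.lift_cardinalMk_eq_trdeg.ge
  have := hgB.isAlgebraic_field
  rwa [Set.range_const] at this

/-- If `F` is finite over `K(j)` and algebraic over an intermediate field `E`, it is finite over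
`E` as soon as `j` is algebraic over `E`. -/
theorem finiteDimensional_of_isAlgebraic (j : F) [FiniteDimensional K⟮j⟯ F]
    (E : IntermediateField K F) [Algebra.IsAlgebraic E F] : FiniteDimensional E F := by
  classical
  let b := Module.finBasis K⟮j⟯ F
  haveI : Finite (insert j (Set.range b) : Set F) := ((Set.finite_range b).insert j)
  have hL : FiniteDimensional E (IntermediateField.adjoin E (insert j (Set.range b))) :=
    IntermediateField.finiteDimensional_adjoin
      (fun x _ => (Algebra.IsAlgebraic.isAlgebraic (R := E) x).isIntegral)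
  have hjL : j ∈ IntermediateField.adjoin E (insert j (Set.range b)) :=
    IntermediateField.subset_adjoin E _ (Set.mem_insert _ _)
  have hbL : ∀ i, b i ∈ IntermediateField.adjoin E (insert j (Set.range b)) := fun i =>
    IntermediateField.subset_adjoin E _ (Set.mem_insert_of_mem _ ⟨i, rfl⟩)
  have hle : K⟮j⟯ ≤ (IntermediateField.adjoin E (insert j (Set.range b))).restrictScalars K := by
    rw [adjoin_simple_le_iff, IntermediateField.mem_restrictScalars]
    exact hjL
  have htop : IntermediateField.adjoin E (insert j (Set.range b)) = ⊤ := by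
    rw [eq_top_iff]
    intro x _
    rw [← b.sum_repr x]
    refine sum_mem fun i _ => ?_
    rw [Algebra.smul_def]
    refine mul_mem ?_ (hbL i)
    have := hle (b.repr x i).2
    rwa [IntermediateField.mem_restrictScalars] at this
  rw [htop] at hL
  exact (IntermediateField.topEquiv (F := E) (E := F)).toLinearEquiv.finiteDimensional

/-- A function field of one variable is finite over `K(g)` for every transcendental `g`. -/
theorem finiteDimensional_of_transcendental (j : F) (hj : Transcendental K j)
    [FiniteDimensional K⟮j⟯ F] (g : F) (hg : Transcendental K g) : FiniteDimensional K⟮g⟯ F := by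
  haveI := isAlgebraic_of_transcendental j hj g hg
  exact finiteDimensional_of_isAlgebraic j K⟮g⟯

/-- **Product formula** for a function field of one variable over an algebraically closed field
of characteristic zero. -/
theorem place_product_formula [IsAlgClosed K] [CharZero K] (j : F) (hj : Transcendental K j)
    [FiniteDimensional K⟮j⟯ F] (g : F) (hg : g ≠ 0) :
    ∃ s : Finset (Place K F), (∀ v : Place K F, v.ord g ≠ 0 → v ∈ s) ∧ ∑ v ∈ s, v.ord g = 0 := by
  classical
  by_cases halg : IsAlgebraic K g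
  · obtain ⟨a, rfl⟩ := exists_algebraMap_eq_of_isAlgebraic halg
    have ha : a ≠ 0 := by
      rintro rfl
      simp at hg
    exact ⟨∅, fun v hv => absurd (place_ord_algebraMap v a ha) hv, by simp⟩
  · haveI := finiteDimensional_of_transcendental j hj g halg
    have hginv : Transcendental K g⁻¹ := transcendental_inv halg
    have hE : K⟮g⁻¹⟯ = K⟮g⟯ := adjoin_inv_eq g
    haveI : FiniteDimensional K⟮g⁻¹⟯ F := by rw [hE]; infer_instance
    obtain ⟨s₁, h1mem, h1sum, -⟩ := places_over g halg
    obtain ⟨s₂, h2mem, h2sum, -⟩ := places_over g⁻¹ hginv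
    have hfr : Module.finrank K⟮g⁻¹⟯ F = Module.finrank K⟮g⟯ F := by rw [hE]
    have hdisj : Disjoint s₁ s₂ := by
      rw [Finset.disjoint_left]
      intro v hv1 hv2
      have h1 := (h1mem v).mp hv1
      have h2 := (h2mem v).mp hv2
      rw [v.ord_inv] at h2
      omega
    refine ⟨s₁ ∪ s₂, fun v hv => ?_, ?_⟩
    · rcases lt_or_gt_of_ne hv with h | h
      · exact Finset.mem_union_right _ ((h2mem v).mpr (by rw [v.ord_inv]; omega))
      · exact Finset.mem_union_left _ ((h1mem v).mpr h)
    · rw [Finset.sum_union hdisj, h1sum]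
      have : ∑ v ∈ s₂, v.ord g = -∑ v ∈ s₂, v.ord g⁻¹ := by
        rw [← Finset.sum_neg_distrib]
        exact Finset.sum_congr rfl (fun v _ => by rw [v.ord_inv, neg_neg])
      rw [this, h2sum, hfr]
      ring

/-- **Riemann–Hurwitz**, abstract form, without the product formula hypothesis. -/
theorem degree_canonical' [IsAlgClosed K] [CharZero K]
    (j : F) (hj : Transcendental K j) [FiniteDimensional K⟮j⟯ F] (n : ℕ)
    (hn : Module.finrank K⟮j⟯ F = n)
    (I : K → Type) [∀ c, Fintype (I c)] (W : ∀ c, I c → OrdFun K F)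
    (Iinf : Type) [Fintype Iinf] (Winf : Iinf → OrdFun K F) (S : Finset K)
    (H : PlaceHyps j n I W Iinf Winf S)
    (ω : Ω[F⁄K]) (hω : ω ≠ 0) (Dv : Divisor K F)
    (hDv : ∀ v : Place K F, Dv v = v.ordDifferential ω) :
    Divisor.degree Dv = ∑ c ∈ S, ∑ i, ((W c i).w (j - algebraMap K F c) - 1)
      - ∑ i, ((Winf i).w j⁻¹ + 1) := by
  classical
  have hΦ : ∀ c, ∃ Φ : I c → Place K F, Function.Injective Φ ∧
      (∀ i (f : F), f ≠ 0 → (Φ i).ord f = (W c i).w f) ∧
      (∀ v : Place K F, 0 < v.ord (j - algebraMap K F c) → ∃ i, Φ i = v) ∧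
      (∀ i, (Φ i).deg = 1) := by
    intro c
    exact local_bijection' j (j - algebraMap K F c) (transcendental_sub_algebraMap hj c)
      (adjoin_sub_algebraMap j c) (W c) (H.hpos c) (by rw [hn]; exact H.hsum c) (H.hint c)
  choose Φ hΦinj hΦord hΦsurj hΦdeg using hΦ
  obtain ⟨Φi, hΦiinj, hΦiord, hΦisurj, hΦideg⟩ := local_bijection' j j⁻¹ (transcendental_inv hj)
    (adjoin_inv_eq j) Winf H.hposinf (by rw [hn]; exact H.hsuminf) H.hintinf
  have hj0 : j ≠ 0 := fun h0 => hj (h0 ▸ isAlgebraic_zero)
  have hjc0 : ∀ c : K, j - algebraMap K F c ≠ 0 := by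
    intro c h0
    apply hj
    rw [sub_eq_zero.mp h0]
    exact isAlgebraic_algebraMap c
  have hΦpos : ∀ c i, 0 < (Φ c i).ord (j - algebraMap K F c) := by
    intro c i
    rw [hΦord c i _ (hjc0 c)]
    exact H.hpos c i
  have hΦipos : ∀ i, 0 < (Φi i).ord j⁻¹ := by
    intro i
    rw [hΦiord i _ (inv_ne_zero hj0)]
    exact H.hposinf i
  have hdeg : ∀ v : Place K F, v.deg = 1 := by
    intro v
    rcases place_classify j hj v with ⟨c, hc⟩ | hinf
    · obtain ⟨i, rfl⟩ := hΦsurj c v hc
      exact hΦdeg c i
    · obtain ⟨i, rfl⟩ := hΦisurj v hinf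
      exact hΦideg i
  obtain ⟨g, hg⟩ := exists_eq_smul_D j ω
  have hg0 : g ≠ 0 := by
    rintro rfl
    rw [zero_smul] at hg
    exact hω hg
  have hDj : D K F j ≠ 0 := by
    intro h0
    rw [h0, smul_zero] at hg
    exact hω hg
  have hspan : ∀ x : F, ∃ f : F, D K F x = f • D K F j := fun x => exists_eq_smul_D j (D K F x)
  have hval : ∀ c i, Dv (Φ c i) = (W c i).w g + ((W c i).w (j - algebraMap K F c) - 1) := by
    intro c i
    rw [hDv, ordDifferential_eq (Φ c i) ω j g hg hg0 hspan ?_
      ((W c i).w (j - algebraMap K F c) - 1) ?_, hΦord c i g hg0]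
    · intro π hπ
      have hπ0 : π ≠ 0 := by rintro rfl; simp at hπ
      exact H.hdne c i π (by rw [← hΦord c i π hπ0]; exact hπ)
    · intro π f hπ hf
      have hπ0 : π ≠ 0 := by rintro rfl; simp at hπ
      have hf0 : f ≠ 0 := by
        rintro rfl
        rw [zero_smul] at hf
        exact hDj hf
      rw [hΦord c i f hf0]
      exact H.hdiff c i π f (by rw [← hΦord c i π hπ0]; exact hπ) hf
  have hvali : ∀ i, Dv (Φi i) = (Winf i).w g + (-(Winf i).w j⁻¹ - 1) := by
    intro i
    rw [hDv, ordDifferential_eq (Φi i) ω j g hg hg0 hspan ?_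
      (-(Winf i).w j⁻¹ - 1) ?_, hΦiord i g hg0]
    · intro π hπ
      have hπ0 : π ≠ 0 := by rintro rfl; simp at hπ
      exact H.hdneinf i π (by rw [← hΦiord i π hπ0]; exact hπ)
    · intro π f hπ hf
      have hπ0 : π ≠ 0 := by rintro rfl; simp at hπ
      have hf0 : f ≠ 0 := by
        rintro rfl
        rw [zero_smul] at hf
        exact hDj hf
      rw [hΦiord i f hf0]
      exact H.hdiffinf i π f (by rw [← hΦiord i π hπ0]; exact hπ) hf
  have hdegree : Divisor.degree Dv = ∑ v ∈ Dv.support, Dv v := by
    unfold Divisor.degree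
    rw [Finsupp.liftAddHom_apply, Finsupp.sum]
    refine Finset.sum_congr rfl fun v _ => ?_
    simp [hdeg v]
  obtain ⟨s, hs_mem, hs_sum⟩ := place_product_formula j hj g hg0
  let cOf : Place K F → K := fun v =>
    if h : ∃ c, 0 < v.ord (j - algebraMap K F c) then h.choose else 0
  have hcOf : ∀ c i, cOf (Φ c i) = c := by
    intro c i
    have h : ∃ c', 0 < (Φ c i).ord (j - algebraMap K F c') := ⟨c, hΦpos c i⟩
    simp only [cOf, dif_pos h]
    exact place_center_unique _ j h.choose_spec (hΦpos c i)
  set T : Finset K := S ∪ s.image cOf ∪ Dv.support.image cOf with hT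
  set Z : Finset (Place K F) :=
    (T.biUnion (fun c => Finset.univ.image (Φ c))) ∪ Finset.univ.image Φi with hZ
  have hsuppZ : Dv.support ⊆ Z := by
    intro v hv
    rcases place_classify j hj v with ⟨c, hc⟩ | hinf
    · obtain ⟨i, rfl⟩ := hΦsurj c v hc
      refine Finset.mem_union_left _ (Finset.mem_biUnion.mpr
        ⟨c, ?_, Finset.mem_image_of_mem _ (Finset.mem_univ i)⟩)
      exact Finset.mem_union_right _ (Finset.mem_image.mpr ⟨Φ c i, hv, hcOf c i⟩)
    · obtain ⟨i, rfl⟩ := hΦisurj v hinf
      exact Finset.mem_union_right _ (Finset.mem_image_of_mem _ (Finset.mem_univ i))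
  have hsumZ : ∑ v ∈ Dv.support, Dv v = ∑ v ∈ Z, Dv v :=
    Finset.sum_subset hsuppZ (fun v _ hv => Finsupp.notMem_support_iff.mp hv)
  have hdisj1 : Disjoint (T.biUnion (fun c => Finset.univ.image (Φ c)))
      (Finset.univ.image Φi) := by
    rw [Finset.disjoint_left]
    intro v hv hv'
    obtain ⟨c, -, hc⟩ := Finset.mem_biUnion.mp hv
    obtain ⟨i, -, rfl⟩ := Finset.mem_image.mp hc
    obtain ⟨i', -, hi'⟩ := Finset.mem_image.mp hv'
    exact place_not_both (Φ c i) j (hΦpos c i) (hi' ▸ hΦipos i')
  have hdisj2 : ∀ c ∈ T, ∀ c' ∈ T, c ≠ c' →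
      Disjoint (Finset.univ.image (Φ c)) (Finset.univ.image (Φ c')) := by
    intro c _ c' _ hne
    rw [Finset.disjoint_left]
    intro v hv hv'
    obtain ⟨i, -, rfl⟩ := Finset.mem_image.mp hv
    obtain ⟨i', -, hi'⟩ := Finset.mem_image.mp hv'
    exact hne (place_center_unique (Φ c i) j (hΦpos c i) (hi' ▸ hΦpos c' i'))
  have hsplitZ : ∀ φ : Place K F → ℤ,
      ∑ v ∈ Z, φ v = ∑ c ∈ T, ∑ i, φ (Φ c i) + ∑ i, φ (Φi i) := by
    intro φ
    rw [hZ, Finset.sum_union hdisj1, Finset.sum_biUnion hdisj2,
      Finset.sum_image (fun a _ b _ h => hΦiinj h)]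
    congr 1
    refine Finset.sum_congr rfl fun c _ => ?_
    rw [Finset.sum_image (fun a _ b _ h => hΦinj c h)]
  have hsZ : s ⊆ Z := by
    intro v hv
    rcases place_classify j hj v with ⟨c, hc⟩ | hinf
    · obtain ⟨i, rfl⟩ := hΦsurj c v hc
      refine Finset.mem_union_left _ (Finset.mem_biUnion.mpr
        ⟨c, ?_, Finset.mem_image_of_mem _ (Finset.mem_univ i)⟩)
      exact Finset.mem_union_left _ (Finset.mem_union_right _
        (Finset.mem_image.mpr ⟨Φ c i, hv, hcOf c i⟩))
    · obtain ⟨i, rfl⟩ := hΦisurj v hinf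
      exact Finset.mem_union_right _ (Finset.mem_image_of_mem _ (Finset.mem_univ i))
  have hST : S ⊆ T := fun c hc =>
    Finset.mem_union_left _ (Finset.mem_union_left _ hc)
  have e1 : ∑ c ∈ T, ∑ i, Dv (Φ c i) = ∑ c ∈ T, ∑ i, (W c i).w g
      + ∑ c ∈ T, ∑ i, ((W c i).w (j - algebraMap K F c) - 1) := by
    rw [← Finset.sum_add_distrib]
    refine Finset.sum_congr rfl fun c _ => ?_
    rw [← Finset.sum_add_distrib]
    exact Finset.sum_congr rfl fun i _ => hval c i
  have e2 : ∑ i, Dv (Φi i) = ∑ i, (Winf i).w g - ∑ i, ((Winf i).w j⁻¹ + 1) := by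
    rw [← Finset.sum_sub_distrib]
    exact Finset.sum_congr rfl fun i _ => by rw [hvali i]; ring
  have e3 : ∑ c ∈ T, ∑ i, (W c i).w g + ∑ i, (Winf i).w g = 0 := by
    have h1 : ∑ v ∈ Z, v.ord g = 0 := by
      rw [← hs_sum]
      symm
      exact Finset.sum_subset hsZ (fun v _ hv => by
        by_contra h
        exact hv (hs_mem v h))
    rw [hsplitZ (fun v => v.ord g)] at h1
    rw [← h1]
    congr 1
    · exact Finset.sum_congr rfl fun c _ => Finset.sum_congr rfl fun i _ => (hΦord c i g hg0).symm
    · exact Finset.sum_congr rfl fun i _ => (hΦiord i g hg0).symm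
  have e4 : ∑ c ∈ T, ∑ i, ((W c i).w (j - algebraMap K F c) - 1)
      = ∑ c ∈ S, ∑ i, ((W c i).w (j - algebraMap K F c) - 1) := by
    symm
    refine Finset.sum_subset hST (fun c _ hc => ?_)
    refine Finset.sum_eq_zero fun i _ => ?_
    rw [H.hS c hc i]; simp
  rw [hdegree, hsumZ, hsplitZ (fun v => Dv v), e1, e2, e4]
  linarith

end Fermat.Agent.GenusLib.PlaceCore
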