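import Mathlib
import Fermat.Agent.GenusLib.PlaceCorePF
import Fermat.Agent.GenusLib.FFDefs
import Fermat.Agent.GenusLib.Count24
import Fermat.Prelude.Def_ModularCurve_GenusNumerics

/-!
# PROJECT Y (S24): the final wrapper

From the hypotheses `PlaceHyps` of the abstract Riemann–Hurwitz theorem for the function field of
`X₀(N)` (with the order functions `W B c ω` at the points and any family `Winf` at the cusps whose
values at `j - c`, resp. `j⁻¹`, are the orbit sizes `sP ω`, resp. the widths `hQ ω`), the degree of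
`[F : K(j)]` and the transcendence of `j`, the genus is `genusFormula N`.
-/

set_option autoImplicit false

noncomputable section

namespace Fermat.Agent.GenusLib.Wrap24

open UpperHalfPlane hiding I
open scoped MatrixGroups ModularForm
open CongruenceSubgroup IntermediateField KaehlerDifferential AlgebraicCurve
open Fermat.Agent.GenusLib.Defs Fermat.Agent.GenusLib.LS Fermat.Agent.GenusLib.PlaceCore
  Fermat.Agent.GenusLib.FF

variable {N : ℕ} [NeZero N]

theorem jFun_tauOf_zero (B : BridgeData N) : jFun (tauOf B 0) = 0 := by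
  rw [jFun_tauOf, map_zero]

theorem jFun_tauOf_1728 (B : BridgeData N) : jFun (tauOf B 1728) = 1728 := by
  rw [jFun_tauOf, map_ofNat]

/-- The degree of a canonical divisor is `2 g - 2` with `g = dim S₂(Γ₀(N))`. -/
theorem degree_eq (B : BridgeData N) (Winf : OrbQ N → OrdFun Qb (FN N))
    (hj : Transcendental Qb (jF N)) [FiniteDimensional Qb⟮jF N⟯ (FN N)]
    (hn : Module.finrank Qb⟮jF N⟯ (FN N) = Nat.card (X N))
    (S : Finset Qb) (hS : ∀ c, c ∈ S ↔ c = 0 ∨ c = 1728)
    (H : PlaceHyps (jF N) (Nat.card (X N)) (fun c => OrbP N (tauOf B c)) (W B) (OrbQ N) Winf S)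
    (hW : ∀ c (ω : OrbP N (tauOf B c)),
      (W B c ω).w (jF N - algebraMap Qb (FN N) c) = sP ω)
    (hWinf : ∀ ω : OrbQ N, (Winf ω).w (jF N)⁻¹ = hQ ω)
    (ω : Ω[FN N⁄Qb]) (hω : ω ≠ 0) (Dv : Divisor Qb (FN N))
    (hDv : ∀ v : Place Qb (FN N), Dv v = v.ordDifferential ω) :
    Divisor.degree Dv = 2 * (Module.finrank ℂ (CuspForm (Gamma0 N) 2) : ℤ) - 2 := by
  classical
  have h := degree_canonical' (jF N) hj (Nat.card (X N)) hn (fun c => OrbP N (tauOf B c)) (W B)
    (OrbQ N) Winf S H ω hω Dv hDv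
  rw [h]
  have hSeq : S = {0, 1728} := by
    ext c
    rw [hS, Finset.mem_insert, Finset.mem_singleton]
  have h01 : (0 : Qb) ≠ 1728 := by norm_num
  rw [hSeq, Finset.sum_pair h01]
  simp only [hW, hWinf]
  have hc := Count24.riemann_hurwitz_count N (tauOf B 1728) (tauOf B 0) (jFun_tauOf_1728 B)
    (jFun_tauOf_zero B)
  linarith

/-- **S24 from the hypotheses of the abstract core.** -/
theorem genus_eq_genusFormula [HasCanonicalDivisor (K := Qb) (F := FN N)]
    (B : BridgeData N) (Winf : OrbQ N → OrdFun Qb (FN N))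
    (hj : Transcendental Qb (jF N)) [FiniteDimensional Qb⟮jF N⟯ (FN N)]
    (hn : Module.finrank Qb⟮jF N⟯ (FN N) = Nat.card (X N))
    (S : Finset Qb) (hS : ∀ c, c ∈ S ↔ c = 0 ∨ c = 1728)
    (H : PlaceHyps (jF N) (Nat.card (X N)) (fun c => OrbP N (tauOf B c)) (W B) (OrbQ N) Winf S)
    (hW : ∀ c (ω : OrbP N (tauOf B c)),
      (W B c ω).w (jF N - algebraMap Qb (FN N) c) = sP ω)
    (hWinf : ∀ ω : OrbQ N, (Winf ω).w (jF N)⁻¹ = hQ ω)
    (hne : ∃ ω : Ω[FN N⁄Qb], ω ≠ 0) :
    (AlgebraicCurve.genus Qb (FN N) : ℚ) = ModularCurve.genusFormula N := by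
  have hg : AlgebraicCurve.genus Qb (FN N) = Module.finrank ℂ (CuspForm (Gamma0 N) 2) :=
    genus_eq _ hne fun ω hω Dv hDv => degree_eq B Winf hj hn S hS H hW hWinf ω hω Dv hDv
  rw [hg]
  exact Final.finrank_cuspTwo_eq N

end Fermat.Agent.GenusLib.Wrap24
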