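import Mathlib
import Fermat.Agent.GenusLib.Wrap24

/-!
# PROJECT Y (S24): the final wrapper, without the hypothesis `hne`

The existence of a nonzero Kähler differential follows from the hypotheses `PlaceHyps` themselves:
over `c = 1` (which is not a branch value) there is a point, `j - 1` is a uniformizer there, and the
field `hdne` says that its differential does not vanish.
-/

set_option autoImplicit false

noncomputable section

namespace Fermat.Agent.GenusLib.Wrap24

open UpperHalfPlane hiding I
open scoped MatrixGroups ModularForm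
open CongruenceSubgroup IntermediateField KaehlerDifferential AlgebraicCurve
open Fermat.Agent.GenusLib.Defs Fermat.Agent.GenusLib.LS Fermat.Agent.GenusLib.PlaceCore
  Fermat.Agent.GenusLib.FF

variable {N : ℕ} [NeZero N]

/-- A nonzero differential exists, from the hypotheses of the abstract core. -/
theorem exists_kaehler_ne_zero (B : BridgeData N) (Winf : OrbQ N → OrdFun Qb (FN N))
    (S : Finset Qb) (hS : ∀ c, c ∈ S ↔ c = 0 ∨ c = 1728)
    (H : PlaceHyps (jF N) (Nat.card (X N)) (fun c => OrbP N (tauOf B c)) (W B) (OrbQ N) Winf S) :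
    ∃ ω : Ω[FN N⁄Qb], ω ≠ 0 := by
  classical
  have h1 : (1 : Qb) ∉ S := by
    rw [hS]
    norm_num
  have hμ : 0 < Nat.card (X N) := Nat.card_pos
  have hne : Nonempty (OrbP N (tauOf B 1)) := by
    by_contra hemp
    rw [not_nonempty_iff] at hemp
    have h := H.hsum 1
    rw [Finset.univ_eq_empty, Finset.sum_empty] at h
    have h' : (Nat.card (X N) : ℤ) = 0 := h.symm
    omega
  obtain ⟨i⟩ := hne
  exact ⟨D Qb (FN N) (jF N - algebraMap Qb (FN N) 1), H.hdne 1 i _ (H.hS 1 h1 i)⟩

/-- **S24 from the hypotheses of the abstract core** (no extra hypothesis on differentials). -/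
theorem genus_eq_genusFormula' [HasCanonicalDivisor (K := Qb) (F := FN N)]
    (B : BridgeData N) (Winf : OrbQ N → OrdFun Qb (FN N))
    (hj : Transcendental Qb (jF N)) [FiniteDimensional Qb⟮jF N⟯ (FN N)]
    (hn : Module.finrank Qb⟮jF N⟯ (FN N) = Nat.card (X N))
    (S : Finset Qb) (hS : ∀ c, c ∈ S ↔ c = 0 ∨ c = 1728)
    (H : PlaceHyps (jF N) (Nat.card (X N)) (fun c => OrbP N (tauOf B c)) (W B) (OrbQ N) Winf S)
    (hW : ∀ c (ω : OrbP N (tauOf B c)),
      (W B c ω).w (jF N - algebraMap Qb (FN N) c) = sP ω)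
    (hWinf : ∀ ω : OrbQ N, (Winf ω).w (jF N)⁻¹ = hQ ω) :
    (AlgebraicCurve.genus Qb (FN N) : ℚ) = ModularCurve.genusFormula N :=
  genus_eq_genusFormula B Winf hj hn S hS H hW hWinf (exists_kaehler_ne_zero B Winf S hS H)

end Fermat.Agent.GenusLib.Wrap24
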