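import Mathlib
import Fermat.Agent.GenusLib.Wrap24b
import Fermat.Agent.GenusLib.FFPts
import Fermat.Agent.GenusLib.FFCusp
import Fermat.Agent.GenusLib.FFInt
import Fermat.Agent.GenusLib.FFDeg
import Fermat.Agent.GenusLib.Bridge

/-!
# S24: the final assembly

* `bridgeData` : the comparison of `Bridge.lean` between the formal function field of `X₀(N)` over
  `Qb` and the field of meromorphic functions, packaged as a `BridgeData`;
* `placeHyps` : the hypotheses of the abstract Riemann–Hurwitz core, from the point side (`FFPts`),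
  the cusp side (`FFCusp`) and the integrality statements (`FFInt`);
* `genus_eq_genusFormula` : the genus of the function field of `X₀(N)` is given by the classical
  formula.
-/

set_option autoImplicit false

noncomputable section

namespace Fermat.Agent.GenusLib.FF

open UpperHalfPlane hiding I
open scoped MatrixGroups ModularForm Manifold
open CongruenceSubgroup Polynomial IntermediateField
open Fermat.Agent.GenusLib.Defs Fermat.Agent.GenusLib.LS Fermat.Agent.GenusLib.BStruct
  Fermat.Agent.GenusLib.PlaceCore Fermat.Agent.GenusLib.FFOrd Fermat.Agent.GenusLib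

variable {N : ℕ} [NeZero N]

/-- The bridge of `Bridge.lean` as a `BridgeData`. -/
def bridgeData (N : ℕ) [NeZero N] (ι : Qb →+* ℂ) : BridgeData N where
  ι := ι
  e := Bridge.e N ι
  lexp := Bridge.lexpM N
  lexp_const := fun z => by
    rw [Bridge.lexpM_algebraMap_complex]
    exact (FormalLD.C_eq_algebraMap z).symm
  lexp_e := Bridge.lexpM_e N ι
  e_const := Bridge.e_algebraMap N ι
  e_j := Bridge.e_jF N ι
  dil_mem := (Bridge.jdB N N dvd_rfl).2
  e_jN := Bridge.e_jdF N ι N dvd_rfl

/-- An embedding of `Qb` into `ℂ`. -/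
def embQb : Qb →+* ℂ :=
  haveI : Algebra.IsAlgebraic ℚ (AlgebraicClosure ℚ) := AlgebraicClosure.isAlgebraic ℚ
  ((IsAlgClosed.lift : AlgebraicClosure ℚ →ₐ[ℚ] ℂ) : AlgebraicClosure ℚ →+* ℂ)

/-- The `hintinf` field of `PlaceHyps`: an element with non-negative order at all cusps is integral
over `Qb[j⁻¹]_(j⁻¹)`. -/
theorem hintinf (B : BridgeData N) : ∀ g : FN N, g ≠ 0 → (∀ ω : OrbQ N, 0 ≤ (Winf B ω).w g) →
    IsIntegral (PlaceCore.locRing Qb (jF N)⁻¹) g := by
  intro g hg hw
  obtain ⟨a, b, hb, h⟩ := exists_rep B g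
  have ha := rep_ne_zero B hg hb h
  exact FFInt.isIntegral_inv_of_ordZ_le B hb h (le_ordZ_trn_of_nonneg B ha hb h hw)

/-- The hypotheses of the abstract Riemann–Hurwitz core for the function field of `X₀(N)`. -/
theorem placeHyps (B : BridgeData N) :
    PlaceHyps (jF N) (Nat.card (X N)) (fun c => OrbP N (tauOf B c)) (W B) (OrbQ N) (Winf B) SQ where
  hpos := hpos B
  hsum := hsum B
  hint := FFInt.hint B
  hposinf := hposinf B
  hsuminf := hsuminf B
  hintinf := hintinf B
  hdne := hdne B
  hdiff := hdiff B
  hdneinf := hdneinf B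
  hdiffinf := hdiffinf B
  hS := hS B

/-- **The genus of `X₀(N)`**: the genus of the function field of `X₀(N)` over `Qb` is given by the
classical formula. -/
theorem genus_eq_genusFormula (N : ℕ) [NeZero N]
    [AlgebraicCurve.HasCanonicalDivisor (K := Qb) (F := FN N)] :
    (AlgebraicCurve.genus Qb (FN N) : ℚ) = ModularCurve.genusFormula N := by
  have B : BridgeData N := bridgeData N embQb
  have : FiniteDimensional Qb⟮jF N⟯ (FN N) := finiteDimensional_FN B
  exact Wrap24.genus_eq_genusFormula' B (Winf B) (transcendental_jF B) (finrank_FN B) SQ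
    (fun _ => mem_SQ) (placeHyps B) (W_j_sub B) (Winf_j_inv B)

end Fermat.Agent.GenusLib.FF
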