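import Mathlib
import Fermat.Agent.GenusLib.PlaceCoreDefs

/-!
# S24: Gauss-lemma style descent for bivariate polynomials and membership in `K[t]_(t)`

Elementary facts about `k[X][Y]` (pseudo-division, divisors of polynomials whose leading
coefficient dominates), and the passage from a bivariate relation `G(j, g) = 0` to integrality of
`g` over the local rings `K[j - c]_(j - c)` and `K[1/j]_(1/j)` inside a field `F`.
-/

set_option autoImplicit false

noncomputable section

namespace Fermat.Agent.GenusLib.GaussLoc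

open Polynomial
open Fermat.Agent.GenusLib.PlaceCore

section Biv

variable {k : Type*} [Field k]

/-- Pseudo-division in `k[X][Y]` by a nonzero `G`. -/
theorem exists_pseudo_div (G H : k[X][X]) (hG : G ≠ 0) :
    ∃ (D : k[X]) (Q R : k[X][X]), D ≠ 0 ∧ C D * H = G * Q + R ∧
      (R = 0 ∨ R.natDegree < G.natDegree) := by
  induction' hn : H.natDegree using Nat.strong_induction_on with n ih generalizing H
  by_cases hlt : H = 0 ∨ H.natDegree < G.natDegree
  · exact ⟨1, 0, H, one_ne_zero, by simp, hlt⟩
  · rw [not_or, not_lt] at hlt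
    obtain ⟨hH0, hle⟩ := hlt
    have ha0 : G.leadingCoeff ≠ 0 := leadingCoeff_ne_zero.mpr hG
    have hb0 : H.leadingCoeff ≠ 0 := leadingCoeff_ne_zero.mpr hH0
    have hdeg : (C G.leadingCoeff * H -
        G * (C H.leadingCoeff * X ^ (H.natDegree - G.natDegree))).degree
          < (C G.leadingCoeff * H).degree := by
      apply degree_sub_lt_left
      · rw [degree_mul, degree_mul, degree_C ha0, zero_add, degree_mul, degree_C hb0, zero_add,
          degree_X_pow, degree_eq_natDegree hG, degree_eq_natDegree hH0, ← Nat.cast_add]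
        congr 1
        omega
      · exact mul_ne_zero (C_ne_zero.mpr ha0) hH0
      · rw [leadingCoeff_mul, leadingCoeff_mul, leadingCoeff_C, leadingCoeff_mul, leadingCoeff_C,
          leadingCoeff_X_pow, mul_one]
    rw [degree_mul, degree_C ha0, zero_add] at hdeg
    have key : ∃ (D : k[X]) (Q R : k[X][X]), D ≠ 0 ∧
        C D * (C G.leadingCoeff * H -
          G * (C H.leadingCoeff * X ^ (H.natDegree - G.natDegree))) = G * Q + R ∧
        (R = 0 ∨ R.natDegree < G.natDegree) := by
      by_cases hH'0 : C G.leadingCoeff * H -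
          G * (C H.leadingCoeff * X ^ (H.natDegree - G.natDegree)) = 0
      · exact ⟨1, 0, 0, one_ne_zero, by simp [hH'0], Or.inl rfl⟩
      · exact ih _ (hn ▸ natDegree_lt_natDegree hH'0 hdeg) _ rfl
    obtain ⟨D', Q', R', hD', hrel, hR'⟩ := key
    refine ⟨D' * G.leadingCoeff,
      Q' + C D' * (C H.leadingCoeff * X ^ (H.natDegree - G.natDegree)), R',
      mul_ne_zero hD' ha0, ?_, hR'⟩
    have h1 : C D' * (C G.leadingCoeff * H) =
        C D' * (C G.leadingCoeff * H -
          G * (C H.leadingCoeff * X ^ (H.natDegree - G.natDegree))) +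
        C D' * (G * (C H.leadingCoeff * X ^ (H.natDegree - G.natDegree))) := by ring
    rw [C_mul, mul_assoc, h1, hrel]
    ring

/-- If `G ∣ D · P`, `G` is not divisible by `X - c`, and the `X - c`-adic valuation of the
leading coefficient of `P` is minimal among the coefficients of `P`, then the leading
coefficient of `G` does not vanish at `c`. -/
theorem leadingCoeff_eval_ne_zero_of_dvd (G P Q : k[X][X]) (D : k[X]) (c : k) (hD : D ≠ 0)
    (hP : P ≠ 0) (h : C D * P = G * Q) (hG : ¬ C (X - C c) ∣ G)
    (hdiv : ∀ n, (X - C c) ^ (P.leadingCoeff.rootMultiplicity c) ∣ P.coeff n) :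
    G.leadingCoeff.eval c ≠ 0 := by
  have hπp : Prime (X - C c : k[X]) := prime_X_sub_C c
  have hCπp : Prime (C (X - C c) : k[X][X]) := prime_C_iff.mpr hπp
  have hlP0 : P.leadingCoeff ≠ 0 := leadingCoeff_ne_zero.mpr hP
  obtain ⟨P', hP'⟩ : C ((X - C c) ^ (P.leadingCoeff.rootMultiplicity c)) ∣ P :=
    (C_dvd_iff_dvd_coeff _ _).mpr hdiv
  have hP'lead : ¬ (X - C c) ∣ P'.leadingCoeff := by
    intro hdvd
    obtain ⟨u, hu⟩ := hdvd
    have h1 : (X - C c) ^ (P.leadingCoeff.rootMultiplicity c + 1) ∣ P.leadingCoeff := by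
      refine ⟨u, ?_⟩
      conv_lhs => rw [hP', leadingCoeff_mul, leadingCoeff_C, hu]
      ring
    have h2 := (le_rootMultiplicity_iff hlP0).mpr h1
    omega
  obtain ⟨D', hD'eq, hD'nd⟩ := exists_eq_pow_rootMultiplicity_mul_and_not_dvd D hD c
  have hCD : (C D : k[X][X]) = C (X - C c) ^ (D.rootMultiplicity c) * C D' := by
    conv_lhs => rw [hD'eq]
    rw [C_mul, C_pow]
  have hPe : P = C (X - C c) ^ (P.leadingCoeff.rootMultiplicity c) * P' := by
    conv_lhs => rw [hP']
    rw [C_pow]
  have hCDP : C D * P = C (X - C c) ^ (D.rootMultiplicity c + P.leadingCoeff.rootMultiplicity c)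
      * (C D' * P') := by
    rw [hCD]
    conv_lhs => rw [hPe]
    ring
  have h3 : (C (X - C c) : k[X][X]) ^
      (D.rootMultiplicity c + P.leadingCoeff.rootMultiplicity c) ∣ G * Q := by
    rw [← h, hCDP]
    exact dvd_mul_right _ _
  obtain ⟨Q', hQ'⟩ := hCπp.pow_dvd_of_dvd_mul_left _ hG h3
  have h5 : C D' * P' = G * Q' := by
    have hne : (C (X - C c) : k[X][X]) ^
        (D.rootMultiplicity c + P.leadingCoeff.rootMultiplicity c) ≠ 0 :=
      pow_ne_zero _ hCπp.ne_zero
    apply mul_left_cancel₀ hne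
    rw [← hCDP, h, hQ']
    ring
  intro hev
  have h6 : (X - C c) ∣ G.leadingCoeff := dvd_iff_isRoot.mpr hev
  have h7 : D' * P'.leadingCoeff = G.leadingCoeff * Q'.leadingCoeff := by
    have := congrArg leadingCoeff h5
    rwa [leadingCoeff_mul, leadingCoeff_mul, leadingCoeff_C] at this
  have h8 : (X - C c) ∣ D' * P'.leadingCoeff := h7 ▸ Dvd.dvd.mul_right h6 _
  rcases hπp.dvd_or_dvd h8 with h9 | h9
  · exact hD'nd h9
  · exact hP'lead h9

/-- Coefficients of the swapped polynomial. -/
theorem coeff_coeff_swap (A : k[X][X]) (i j : ℕ) :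
    ((Polynomial.Bivariate.swap A).coeff i).coeff j = (A.coeff j).coeff i := by
  induction A using Polynomial.induction_on' with
  | add p q hp hq => simp only [map_add, coeff_add, hp, hq]
  | monomial n a =>
    induction a using Polynomial.induction_on' with
    | add p q hp hq => simp only [map_add, coeff_add, hp, hq]
    | monomial m r =>
      rw [Polynomial.Bivariate.swap_monomial_monomial]
      simp only [coeff_monomial]
      by_cases h1 : m = i <;> by_cases h2 : n = j <;> simp [h1, h2, coeff_monomial]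

theorem natDegree_coeff_le_natDegree_swap (A : k[X][X]) (n : ℕ) :
    (A.coeff n).natDegree ≤ (Polynomial.Bivariate.swap A).natDegree := by
  rw [natDegree_le_iff_coeff_eq_zero]
  intro N hN
  rw [← coeff_coeff_swap, coeff_eq_zero_of_natDegree_lt hN, coeff_zero]

theorem natDegree_swap_le (A : k[X][X]) (N : ℕ) (h : ∀ n, (A.coeff n).natDegree ≤ N) :
    (Polynomial.Bivariate.swap A).natDegree ≤ N := by
  rw [natDegree_le_iff_coeff_eq_zero]
  intro M hM
  ext n
  rw [coeff_coeff_swap, coeff_zero]
  exact coeff_eq_zero_of_natDegree_lt (lt_of_le_of_lt (h n) hM)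

/-- If `G ∣ D · P` and the leading coefficient of `P` has maximal degree among the coefficients
of `P`, then the same holds for `G`. -/
theorem natDegree_coeff_le_of_dvd (G P Q : k[X][X]) (D : k[X]) (hD : D ≠ 0) (hP : P ≠ 0)
    (h : C D * P = G * Q)
    (hdeg : ∀ n, (P.coeff n).natDegree ≤ P.leadingCoeff.natDegree) :
    ∀ n, (G.coeff n).natDegree ≤ G.leadingCoeff.natDegree := by
  have hCD0 : (C D : k[X][X]) ≠ 0 := C_ne_zero.mpr hD
  have hGQ0 : G * Q ≠ 0 := h ▸ mul_ne_zero hCD0 hP
  have hG0 : G ≠ 0 := left_ne_zero_of_mul hGQ0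
  have hQ0 : Q ≠ 0 := right_ne_zero_of_mul hGQ0
  have hsw : ∀ A : k[X][X], A ≠ 0 → Polynomial.Bivariate.swap A ≠ 0 := fun A hA =>
    (map_ne_zero_iff _ (Polynomial.Bivariate.swap (R := k)).injective).mpr hA
  -- the swapped degree of `P`
  have hVP : (Polynomial.Bivariate.swap P).natDegree = P.leadingCoeff.natDegree :=
    le_antisymm (natDegree_swap_le P _ hdeg) (natDegree_coeff_le_natDegree_swap P P.natDegree)
  have hVD : (Polynomial.Bivariate.swap (C D : k[X][X])).natDegree = D.natDegree := by
    rw [Polynomial.Bivariate.swap_C]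
    exact natDegree_map_eq_of_injective C_injective D
  have h1 : (Polynomial.Bivariate.swap G).natDegree + (Polynomial.Bivariate.swap Q).natDegree
      = D.natDegree + P.leadingCoeff.natDegree := by
    have := congrArg (fun A => (Polynomial.Bivariate.swap A).natDegree) h
    simp only [map_mul] at this
    rw [natDegree_mul (hsw _ hCD0) (hsw _ hP), natDegree_mul (hsw _ hG0) (hsw _ hQ0), hVD, hVP]
      at this
    exact this.symm
  have h2 : D.natDegree + P.leadingCoeff.natDegree
      = G.leadingCoeff.natDegree + Q.leadingCoeff.natDegree := by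
    have := congrArg leadingCoeff h
    rw [leadingCoeff_mul, leadingCoeff_mul, leadingCoeff_C] at this
    have h3 := congrArg natDegree this
    rwa [natDegree_mul hD (leadingCoeff_ne_zero.mpr hP),
      natDegree_mul (leadingCoeff_ne_zero.mpr hG0) (leadingCoeff_ne_zero.mpr hQ0)] at h3
  have h4 : Q.leadingCoeff.natDegree ≤ (Polynomial.Bivariate.swap Q).natDegree :=
    natDegree_coeff_le_natDegree_swap Q Q.natDegree
  intro n
  have h5 := natDegree_coeff_le_natDegree_swap G n
  omega

end Biv

section Loc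

variable {K F : Type*} [Field K] [Field F] [Algebra K F]

/-- A quotient `p(j)/q(j)` with `q(c) ≠ 0` lies in `K[j - c]_(j - c)`. -/
theorem div_mem_locRing_sub (j : F) (c : K) (p q : K[X]) (hq : q.eval c ≠ 0) :
    aeval j p / aeval j q ∈ locRing K (j - algebraMap K F c) := by
  by_cases hq0 : aeval j q = 0
  · rw [hq0, div_zero]
    exact zero_mem _
  · refine ⟨p.comp (X + C c), q.comp (X + C c), ?_, ?_⟩
    · rw [eval_comp]
      simpa using hq
    · have hx : aeval (j - algebraMap K F c) (X + C c : K[X]) = j := by simp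
      rw [aeval_comp, aeval_comp, hx]
      field_simp

/-- A quotient `p(j)/q(j)` with `deg p ≤ deg q` lies in `K[1/j]_(1/j)`. -/
theorem div_mem_locRing_inv (j : F) (hj : Transcendental K j) (p q : K[X]) (hq : q ≠ 0)
    (hdeg : p.natDegree ≤ q.natDegree) : aeval j p / aeval j q ∈ locRing K j⁻¹ := by
  have hj0 : j ≠ 0 := by
    rintro rfl
    exact hj (isAlgebraic_zero)
  have hq0 : aeval j q ≠ 0 := fun h0 => hq ((transcendental_iff.mp hj) q h0)
  have hjN : j ^ q.natDegree ≠ 0 := pow_ne_zero _ hj0
  let _ : Invertible j := invertibleOfNonzero hj0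
  have hp1 := eval₂_reflect_mul_pow (algebraMap K F) j q.natDegree p hdeg
  have hq1 := eval₂_reflect_mul_pow (algebraMap K F) j q.natDegree q le_rfl
  rw [invOf_eq_inv] at hp1 hq1
  refine ⟨reflect q.natDegree p, reflect q.natDegree q, ?_, ?_⟩
  · rw [← coeff_zero_eq_eval_zero, coeff_reflect, revAt_zero]
    exact leadingCoeff_ne_zero.mpr hq
  · apply mul_right_cancel₀ hjN
    rw [aeval_def, aeval_def, aeval_def, aeval_def, mul_assoc, hq1, hp1]
    rw [aeval_def] at hq0
    field_simp

/-- A bivariate relation `G(j, g) = 0` whose coefficients, divided by the leading one, all lie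
in `K[t]_(t)` makes `g` integral over `K[t]_(t)`. -/
theorem isIntegral_locRing_of_relation (t j g : F) (G : K[X][X])
    (hlead : aeval j G.leadingCoeff ≠ 0) (hroot : Polynomial.aevalAeval j g G = 0)
    (hmem : ∀ n, aeval j (G.coeff n) / aeval j G.leadingCoeff ∈ locRing K t) :
    IsIntegral (locRing K t) g := by
  have hsum : ∑ n ∈ Finset.range (G.natDegree + 1), aeval j (G.coeff n) * g ^ n = 0 := by
    rw [← hroot]
    conv_rhs => rw [G.as_sum_range_C_mul_X_pow]
    rw [map_sum]
    refine Finset.sum_congr rfl fun n _ => ?_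
    rw [map_mul, map_pow, Polynomial.aevalAeval_C, Polynomial.aevalAeval_Y]
  have hdeg' : (∑ n ∈ Finset.range G.natDegree,
      C (⟨_, hmem n⟩ : locRing K t) * (X : (locRing K t)[X]) ^ n).degree
        < (G.natDegree : WithBot ℕ) := by
    refine lt_of_le_of_lt (degree_sum_le _ _) ?_
    refine (Finset.sup_lt_iff (WithBot.bot_lt_coe G.natDegree)).mpr ?_
    intro n hn
    exact lt_of_le_of_lt (degree_C_mul_X_pow_le n _)
      (WithBot.coe_lt_coe.mpr (Finset.mem_range.mp hn))
  refine ⟨X ^ G.natDegree + ∑ n ∈ Finset.range G.natDegree,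
    C (⟨_, hmem n⟩ : locRing K t) * X ^ n, monic_X_pow_add hdeg', ?_⟩
  rw [eval₂_add, eval₂_X_pow, eval₂_finsetSum]
  simp only [eval₂_mul, eval₂_C, eval₂_X_pow]
  rw [Finset.sum_range_succ] at hsum
  apply mul_left_cancel₀ hlead
  rw [mul_zero, mul_add, Finset.mul_sum, ← hsum, add_comm]
  congr 1
  refine Finset.sum_congr rfl fun n _ => ?_
  show aeval j G.leadingCoeff * (aeval j (G.coeff n) / aeval j G.leadingCoeff * g ^ n)
    = aeval j (G.coeff n) * g ^ n
  field_simp

end Loc

end Fermat.Agent.GenusLib.GaussLoc
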