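import Mathlib

/-!
# PROJECT Y (S24), abstract core, step (L2): Kähler differentials of a function field in one
variable are generated by `D j`

For fields `K ⊆ F` of characteristic `0` and `j : F` with `F` algebraic over `K⟮j⟯`, the
`F`-module `Ω[F⁄K]` is spanned by `D j`.
-/

set_option autoImplicit false

noncomputable section

namespace Fermat.Agent.GenusLib.KaehlerGen

open KaehlerDifferential Polynomial IntermediateField

variable {K F : Type*} [Field K] [Field F] [Algebra K F]

/-- The differential of a rational function of `j` is a multiple of `D j`. -/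
theorem D_mem_span_of_mem_adjoin (j : F) {y : F} (hy : y ∈ K⟮j⟯) :
    D K F y ∈ Submodule.span F {D K F j} := by
  obtain ⟨r, s, rfl⟩ := (mem_adjoin_simple_iff K y).mp hy
  by_cases hs : aeval j s = 0
  · rw [hs, div_zero, map_zero]
    exact Submodule.zero_mem _
  · have h1 : aeval j r / aeval j s * aeval j s = aeval j r := div_mul_cancel₀ _ hs
    have h2 := congrArg (D K F) h1
    rw [Derivation.leibniz, Derivation.map_aeval, Derivation.map_aeval] at h2
    have h3 : D K F (aeval j r / aeval j s) =
        (aeval j s)⁻¹ • (aeval j (derivative r) • D K F j -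
          (aeval j r / aeval j s) • aeval j (derivative s) • D K F j) := by
      rw [← h2, add_sub_cancel_left, smul_smul, inv_mul_cancel₀ hs, one_smul]
    rw [h3]
    refine Submodule.smul_mem _ _ (Submodule.sub_mem _ ?_ ?_)
    · exact Submodule.smul_mem _ _ (Submodule.mem_span_singleton_self _)
    · exact Submodule.smul_mem _ _ (Submodule.smul_mem _ _ (Submodule.mem_span_singleton_self _))

/-- The image of `Ω[K⟮j⟯⁄K]` in `Ω[F⁄K]` lies in the span of `D j`. -/
theorem map_mem_span (j : F) (ω : Ω[K⟮j⟯⁄K]) :
    KaehlerDifferential.map K K K⟮j⟯ F ω ∈ Submodule.span F {D K F j} := by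
  have hω : ω ∈ Submodule.span K⟮j⟯ (Set.range (D K K⟮j⟯)) := by
    rw [KaehlerDifferential.span_range_derivation]; trivial
  induction hω using Submodule.span_induction with
  | mem z hz =>
    obtain ⟨y, rfl⟩ := hz
    rw [KaehlerDifferential.map_D]
    exact D_mem_span_of_mem_adjoin j y.2
  | zero => rw [map_zero]; exact Submodule.zero_mem _
  | add u v _ _ hu hv => rw [map_add]; exact Submodule.add_mem _ hu hv
  | smul a u _ hu =>
    rw [map_smul]
    exact Submodule.smul_of_tower_mem _ a hu

theorem mapBaseChange_mem_span (j : F) (t : TensorProduct K⟮j⟯ F Ω[K⟮j⟯⁄K]) :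
    KaehlerDifferential.mapBaseChange K K⟮j⟯ F t ∈ Submodule.span F {D K F j} := by
  induction t using TensorProduct.induction_on with
  | zero => rw [map_zero]; exact Submodule.zero_mem _
  | tmul b ω =>
    rw [KaehlerDifferential.mapBaseChange_tmul]
    exact Submodule.smul_mem _ _ (map_mem_span j ω)
  | add u v hu hv => rw [map_add]; exact Submodule.add_mem _ hu hv

/-- **(L2)** In characteristic `0`, if `F` is algebraic over `K⟮j⟯` then `Ω[F⁄K]` is spanned by
`D j`. -/
theorem span_D_singleton_eq_top [CharZero K] (j : F) [Algebra.IsAlgebraic K⟮j⟯ F] :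
    Submodule.span F {D K F j} = ⊤ := by
  have : CharZero K⟮j⟯ := charZero_of_injective_algebraMap (algebraMap K K⟮j⟯).injective
  have : Algebra.IsSeparable K⟮j⟯ F := inferInstance
  have : Algebra.FormallyUnramified K⟮j⟯ F := Algebra.FormallyUnramified.of_isSeparable _ _
  rw [eq_top_iff, ← KaehlerDifferential.span_range_derivation K F, Submodule.span_le]
  rintro _ ⟨x, rfl⟩
  have h1 : KaehlerDifferential.map K K⟮j⟯ F F (D K F x) = 0 := Subsingleton.elim _ _
  obtain ⟨t, ht⟩ := (KaehlerDifferential.exact_mapBaseChange_map K K⟮j⟯ F _).mp h1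
  rw [SetLike.mem_coe, ← ht]
  exact mapBaseChange_mem_span j t

/-- Every differential is a multiple of `D j`. -/
theorem exists_eq_smul_D [CharZero K] (j : F) [Algebra.IsAlgebraic K⟮j⟯ F] (ω : Ω[F⁄K]) :
    ∃ g : F, ω = g • D K F j := by
  have h : ω ∈ Submodule.span F {D K F j} := by
    rw [span_D_singleton_eq_top j]; trivial
  obtain ⟨g, hg⟩ := Submodule.mem_span_singleton.mp h
  exact ⟨g, hg.symm⟩

end Fermat.Agent.GenusLib.KaehlerGen
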