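import Mathlib
import Fermat.Prelude.Def_ModularCurve_PeriodMap

/-!
# An upper bound for the space of parabolic homomorphisms `Γ → ℂ`

For a finite index subgroup `Γ ≤ SL(2, ℤ)` containing `-1`, with `X = SL(2, ℤ) ⧸ Γ`,
`μ = |X|`, `ν₂ = #Fix(S)`, `ν₃ = #Fix(S * T)`, `c = #(⟨T⟩-orbits on X)` we prove
`6 * dim Hom_par(Γ, ℂ) + 3 * ν₂ + 4 * ν₃ + 6 * c ≤ μ + 12`, i.e. `dim Hom_par ≤ 2 g`.

Method: a homomorphism `φ` gives the cocycle `c_φ(g)(x) = φ(s(g x)⁻¹ g s(x))` with values in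
functions on `X`; a cocycle is determined by its values at `S` and `R = S * T`, which are
constrained by `S² = R³ = -1` and, for parabolic `φ`, by the vanishing of the `T`-orbit sums.
-/

set_option autoImplicit false
set_option linter.unusedSectionVars false

namespace Fermat.Agent.GenusLib.ParHom

open scoped MatrixGroups
open Matrix.SpecialLinearGroup Module

local notation "S" => ModularGroup.S
local notation "T" => ModularGroup.T

/-- `R = S * T`, of order six. -/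
def Rm : SL(2, ℤ) := ModularGroup.S * ModularGroup.T

theorem S_mul_S : (S * S : SL(2, ℤ)) = -1 := by
  apply Subtype.ext
  rw [coe_mul, ModularGroup.S_mul_S_eq, coe_neg, Matrix.SpecialLinearGroup.coe_one]

theorem Rm_cube : (Rm * Rm * Rm : SL(2, ℤ)) = -1 := by
  apply Subtype.ext
  simp only [Rm, coe_mul, ModularGroup.coe_S, ModularGroup.coe_T, coe_neg,
    Matrix.SpecialLinearGroup.coe_one]
  ext i j
  fin_cases i <;> fin_cases j <;> simp [Matrix.mul_apply, Fin.sum_univ_two]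

theorem T_eq : (T : SL(2, ℤ)) = S⁻¹ * Rm := by simp [Rm]

theorem trace_T_pow (n : ℕ) : ((T ^ n : SL(2, ℤ)) : Matrix (Fin 2) (Fin 2) ℤ).trace = 2 := by
  have h := ModularGroup.coe_T_zpow (n : ℤ)
  rw [zpow_natCast] at h
  rw [h, Matrix.trace_fin_two_of]
  norm_num

theorem trace_conj (a b : SL(2, ℤ)) :
    ((a⁻¹ * b * a : SL(2, ℤ)) : Matrix (Fin 2) (Fin 2) ℤ).trace
      = (b : Matrix (Fin 2) (Fin 2) ℤ).trace := by
  rw [coe_mul, Matrix.trace_mul_comm, ← coe_mul, ← mul_assoc, mul_inv_cancel, one_mul]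

/-! ### Linear algebra on functions on a finite `SL(2, ℤ)`-set -/

section Lin

variable {X : Type*} [Fintype X] [DecidableEq X] [MulAction SL(2, ℤ) X]

theorem trace_funLeft (e : X → X) :
    LinearMap.trace ℂ (X → ℂ) (LinearMap.funLeft ℂ ℂ e)
      = ((Finset.univ.filter fun x => e x = x).card : ℂ) := by
  rw [LinearMap.trace_eq_matrix_trace ℂ (Pi.basisFun ℂ X), Matrix.trace, Finset.card_filter]
  push_cast
  refine Finset.sum_congr rfl fun x _ => ?_
  simp [LinearMap.funLeft_apply, Pi.single_apply]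

variable (X) in
/-- Functions odd under `S`. -/
def Vm : Submodule ℂ (X → ℂ) where
  carrier := {u | ∀ x, u (S • x) = -u x}
  add_mem' := by
    intro u u' hu hu' x
    simp only [Pi.add_apply, hu x, hu' x]
    ring
  zero_mem' := by
    intro x
    simp
  smul_mem' := by
    intro c u hu x
    simp only [Pi.smul_apply, hu x, smul_eq_mul]
    ring

variable (X) in
/-- Functions with vanishing `R`-orbit sums. -/
def Kr : Submodule ℂ (X → ℂ) where
  carrier := {w | ∀ x, w x + w (Rm • x) + w (Rm • Rm • x) = 0}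
  add_mem' := by
    intro u u' hu hu' x
    simp only [Pi.add_apply]
    linear_combination hu x + hu' x
  zero_mem' := by
    intro x
    simp
  smul_mem' := by
    intro c u hu x
    simp only [Pi.smul_apply, smul_eq_mul]
    linear_combination c * hu x

variable (X) in
/-- `T`-invariant functions. -/
def VT : Submodule ℂ (X → ℂ) where
  carrier := {b | ∀ x, b (T • x) = b x}
  add_mem' := by
    intro u u' hu hu' x
    simp only [Pi.add_apply, hu x, hu' x]
  zero_mem' := by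
    intro x
    simp
  smul_mem' := by
    intro c u hu x
    simp only [Pi.smul_apply, hu x]

section Neg

variable (hneg : ∀ x : X, (-1 : SL(2, ℤ)) • x = x)
include hneg

theorem S_smul_S_smul (x : X) : S • S • x = x := by
  rw [← mul_smul, S_mul_S, hneg]

theorem Rm_smul_cube (x : X) : Rm • Rm • Rm • x = x := by
  rw [← mul_smul, ← mul_smul, Rm_cube, hneg]

theorem S_smul_eq_iff (x y : X) : S • y = x ↔ y = S • x := by
  constructor
  · rintro rfl
    rw [S_smul_S_smul hneg]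
  · rintro rfl
    rw [S_smul_S_smul hneg]

theorem Rm_Rm_smul_eq_iff (x y : X) : Rm • Rm • y = x ↔ y = Rm • x := by
  constructor
  · rintro rfl
    rw [Rm_smul_cube hneg]
  · rintro rfl
    rw [Rm_smul_cube hneg]

theorem Rm_smul_eq_iff (x y : X) : Rm • y = x ↔ y = Rm • Rm • x := by
  constructor
  · rintro rfl
    rw [Rm_smul_cube hneg]
  · rintro rfl
    rw [Rm_smul_cube hneg]

end Neg

/-- The projector onto `Vm`. -/
noncomputable def P2 : (X → ℂ) →ₗ[ℂ] (X → ℂ) :=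
  (2 : ℂ)⁻¹ • (LinearMap.funLeft ℂ ℂ (fun x : X => x) - LinearMap.funLeft ℂ ℂ (fun x : X => S • x))

theorem P2_apply (f : X → ℂ) (x : X) : P2 f x = (f x - f (S • x)) / 2 := by
  simp only [P2, LinearMap.smul_apply, LinearMap.sub_apply, LinearMap.funLeft_apply,
    Pi.smul_apply, Pi.sub_apply, smul_eq_mul]
  ring

/-- The projector onto `Kr`. -/
noncomputable def P3 : (X → ℂ) →ₗ[ℂ] (X → ℂ) :=
  LinearMap.funLeft ℂ ℂ (fun x : X => x) - (3 : ℂ)⁻¹ • (LinearMap.funLeft ℂ ℂ (fun x : X => x)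
    + LinearMap.funLeft ℂ ℂ (fun x : X => Rm • x)
    + LinearMap.funLeft ℂ ℂ (fun x : X => Rm • Rm • x))

theorem P3_apply (f : X → ℂ) (x : X) :
    P3 f x = f x - (f x + f (Rm • x) + f (Rm • Rm • x)) / 3 := by
  simp only [P3, LinearMap.smul_apply, LinearMap.sub_apply, LinearMap.add_apply,
    LinearMap.funLeft_apply, Pi.smul_apply, Pi.sub_apply, Pi.add_apply, smul_eq_mul]
  ring

section Neg2

variable (hneg : ∀ x : X, (-1 : SL(2, ℤ)) • x = x)
include hneg

theorem isProj_P2 : LinearMap.IsProj (Vm X) (P2 (X := X)) := by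
  refine ⟨fun f x => ?_, fun u hu => ?_⟩
  · rw [P2_apply, P2_apply, S_smul_S_smul hneg]
    ring
  · funext x
    rw [P2_apply, hu x]
    ring

theorem isProj_P3 : LinearMap.IsProj (Kr X) (P3 (X := X)) := by
  refine ⟨fun f x => ?_, fun w hw => ?_⟩
  · rw [P3_apply, P3_apply, P3_apply, Rm_smul_cube hneg]
    ring
  · funext x
    rw [P3_apply, hw x]
    ring

theorem finrank_Vm :
    2 * finrank ℂ (Vm X) + (Finset.univ.filter fun x : X => S • x = x).card
      = Fintype.card X := by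
  have h := (isProj_P2 hneg).trace
  rw [P2, map_smul, map_sub, trace_funLeft, trace_funLeft] at h
  have h1 : (Finset.univ.filter fun x : X => x = x) = Finset.univ := by simp
  rw [h1, Finset.card_univ, smul_eq_mul] at h
  have h2 : ((2 * finrank ℂ (Vm X) + (Finset.univ.filter fun x : X => S • x = x).card : ℕ) : ℂ)
      = (Fintype.card X : ℂ) := by
    push_cast
    rw [← h]
    ring
  exact_mod_cast h2

theorem finrank_Kr :
    3 * finrank ℂ (Kr X) + 2 * (Finset.univ.filter fun x : X => Rm • x = x).card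
      = 2 * Fintype.card X := by
  have h := (isProj_P3 hneg).trace
  rw [P3, map_sub, map_smul, map_add, map_add, trace_funLeft, trace_funLeft, trace_funLeft] at h
  have h1 : (Finset.univ.filter fun x : X => x = x) = Finset.univ := by simp
  have h2 : (Finset.univ.filter fun x : X => Rm • Rm • x = x)
      = (Finset.univ.filter fun x : X => Rm • x = x) := by
    refine Finset.filter_congr fun x _ => ?_
    constructor
    · intro hx
      have := congrArg (fun y => Rm • y) hx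
      simp only [Rm_smul_cube hneg] at this
      exact this.symm
    · intro hx
      rw [hx, hx]
  rw [h1, h2, Finset.card_univ, smul_eq_mul] at h
  have h3 : ((3 * finrank ℂ (Kr X) + 2 * (Finset.univ.filter fun x : X => Rm • x = x).card : ℕ) : ℂ)
      = ((2 * Fintype.card X : ℕ) : ℂ) := by
    push_cast
    rw [← h]
    ring
  exact_mod_cast h3

end Neg2

section Span

variable (hneg : ∀ x : X, (-1 : SL(2, ℤ)) • x = x)
include hneg

theorem single_sub_S_mem (x : X) :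
    (Pi.single x (1 : ℂ) - Pi.single (S • x) (1 : ℂ) : X → ℂ) ∈ Vm X := by
  intro y
  simp only [Pi.sub_apply, Pi.single_apply, S_smul_eq_iff hneg, S_smul_S_smul hneg]
  ring

theorem single_sub_Rm_mem (x : X) :
    (Pi.single x (1 : ℂ) - Pi.single (Rm • x) (1 : ℂ) : X → ℂ) ∈ Kr X := by
  intro y
  simp only [Pi.sub_apply, Pi.single_apply, Rm_Rm_smul_eq_iff hneg, Rm_smul_eq_iff hneg,
    Rm_smul_cube hneg]
  ring

theorem single_sub_smul_mem (g : SL(2, ℤ)) :
    ∀ x : X, (Pi.single x (1 : ℂ) - Pi.single (g • x) (1 : ℂ) : X → ℂ) ∈ Vm X ⊔ Kr X := by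
  have hmul : ∀ g h : SL(2, ℤ),
      (∀ x : X, (Pi.single x (1 : ℂ) - Pi.single (g • x) (1 : ℂ) : X → ℂ) ∈ Vm X ⊔ Kr X) →
      (∀ x : X, (Pi.single x (1 : ℂ) - Pi.single (h • x) (1 : ℂ) : X → ℂ) ∈ Vm X ⊔ Kr X) →
      ∀ x : X, (Pi.single x (1 : ℂ) - Pi.single ((g * h) • x) (1 : ℂ) : X → ℂ) ∈ Vm X ⊔ Kr X := by
    intro g h hg hh x
    have e : (Pi.single x (1 : ℂ) - Pi.single ((g * h) • x) (1 : ℂ) : X → ℂ)
        = (Pi.single x (1 : ℂ) - Pi.single (h • x) (1 : ℂ))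
          + (Pi.single (h • x) (1 : ℂ) - Pi.single (g • h • x) (1 : ℂ)) := by
      rw [mul_smul]
      abel
    rw [e]
    exact Submodule.add_mem _ (hh x) (hg (h • x))
  have hinv : ∀ g : SL(2, ℤ),
      (∀ x : X, (Pi.single x (1 : ℂ) - Pi.single (g • x) (1 : ℂ) : X → ℂ) ∈ Vm X ⊔ Kr X) →
      ∀ x : X, (Pi.single x (1 : ℂ) - Pi.single (g⁻¹ • x) (1 : ℂ) : X → ℂ) ∈ Vm X ⊔ Kr X := by
    intro g hg x
    have e : (Pi.single x (1 : ℂ) - Pi.single (g⁻¹ • x) (1 : ℂ) : X → ℂ)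
        = -(Pi.single (g⁻¹ • x) (1 : ℂ) - Pi.single (g • g⁻¹ • x) (1 : ℂ)) := by
      rw [smul_inv_smul]
      abel
    rw [e]
    exact Submodule.neg_mem _ (hg (g⁻¹ • x))
  have hS : ∀ x : X, (Pi.single x (1 : ℂ) - Pi.single (S • x) (1 : ℂ) : X → ℂ) ∈ Vm X ⊔ Kr X :=
    fun x => Submodule.mem_sup_left (single_sub_S_mem hneg x)
  have hR : ∀ x : X, (Pi.single x (1 : ℂ) - Pi.single (Rm • x) (1 : ℂ) : X → ℂ) ∈ Vm X ⊔ Kr X :=
    fun x => Submodule.mem_sup_right (single_sub_Rm_mem hneg x)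
  have hT : ∀ x : X, (Pi.single x (1 : ℂ) - Pi.single (T • x) (1 : ℂ) : X → ℂ) ∈ Vm X ⊔ Kr X := by
    rw [T_eq]
    exact hmul _ _ (hinv _ hS) hR
  have hg : g ∈ Subgroup.closure ({S, T} : Set SL(2, ℤ)) := by
    rw [SpecialLinearGroup.SL2Z_generators]
    exact Subgroup.mem_top g
  induction hg using Subgroup.closure_induction with
  | mem y hy =>
    rcases hy with rfl | rfl
    · exact hS
    · exact hT
  | one =>
    intro x
    rw [one_smul, sub_self]
    exact Submodule.zero_mem _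
  | mul y z _ _ hy hz => exact hmul y z hy hz
  | inv y _ hy => exact hinv y hy

theorem mem_sup_of_sum_eq_zero [MulAction.IsPretransitive SL(2, ℤ) X] (f : X → ℂ)
    (hf : ∑ x, f x = 0) : f ∈ Vm X ⊔ Kr X := by
  rcases isEmpty_or_nonempty X with hX | ⟨⟨x₀⟩⟩
  · have : f = 0 := by
      funext x
      exact (hX.false x).elim
    rw [this]
    exact Submodule.zero_mem _
  · have e : f = ∑ x, f x • (Pi.single x (1 : ℂ) - Pi.single x₀ (1 : ℂ) : X → ℂ) := by
      funext y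
      rw [Finset.sum_apply]
      simp only [Pi.smul_apply, Pi.sub_apply, Pi.single_apply, smul_eq_mul, mul_sub,
        Finset.sum_sub_distrib, mul_ite, mul_one,
        mul_zero, Finset.sum_ite_eq, Finset.mem_univ, if_true]
      by_cases h : y = x₀ <;> simp [h, hf]
    rw [e]
    refine Submodule.sum_mem _ fun x _ => Submodule.smul_mem _ _ ?_
    obtain ⟨g, hg⟩ := MulAction.exists_smul_eq SL(2, ℤ) x x₀
    rw [← hg]
    exact single_sub_smul_mem hneg g x

end Span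

/-! ### The orbit-sum map and the dimension count -/

section Count

variable (X) in
/-- The sum functional on `T`-invariant functions. -/
def sumVT : VT X →ₗ[ℂ] ℂ where
  toFun b := ∑ x, b.1 x
  map_add' b b' := by simp [Finset.sum_add_distrib]
  map_smul' c b := by simp [Finset.mul_sum]

variable (X) in
/-- The orbit-sum map `(u, w) ↦ (x ↦ ∑_{i<n} (w (T^i x) - u (T^(i+1) x)))`. -/
def Lam (n : ℕ) : (Vm X × Kr X) →ₗ[ℂ] (X → ℂ) where
  toFun p := fun x => ∑ i ∈ Finset.range n, (p.2.1 (T ^ i • x) - p.1.1 (T ^ (i + 1) • x))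
  map_add' p q := by
    funext x
    simp only [Prod.fst_add, Prod.snd_add, Submodule.coe_add, Pi.add_apply]
    rw [← Finset.sum_add_distrib]
    exact Finset.sum_congr rfl fun i _ => by ring
  map_smul' c p := by
    funext x
    simp only [Prod.smul_fst, Prod.smul_snd, Submodule.coe_smul, Pi.smul_apply, smul_eq_mul,
      RingHom.id_apply]
    rw [Finset.mul_sum]
    exact Finset.sum_congr rfl fun i _ => by ring

theorem Lam_apply (n : ℕ) (p : Vm X × Kr X) (x : X) :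
    Lam X n p x = ∑ i ∈ Finset.range n, (p.2.1 (T ^ i • x) - p.1.1 (T ^ (i + 1) • x)) := rfl

theorem sum_shift {n : ℕ} (hT : ∀ x : X, T ^ n • x = x) (h : X → ℂ) (x : X) :
    ∑ i ∈ Finset.range n, h (T ^ (i + 1) • x) = ∑ i ∈ Finset.range n, h (T ^ i • x) := by
  have h1 := Finset.sum_range_succ (fun i => h (T ^ i • x)) n
  have h2 := Finset.sum_range_succ' (fun i => h (T ^ i • x)) n
  rw [h1] at h2
  simp only [pow_zero, one_smul, hT x] at h2
  exact (add_right_cancel h2).symm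

theorem VT_pow (b : X → ℂ) (hb : b ∈ VT X) (i : ℕ) (x : X) : b (T ^ i • x) = b x := by
  induction i with
  | zero => simp
  | succ i ih => rw [pow_succ', mul_smul, hb, ih]

variable (hneg : ∀ x : X, (-1 : SL(2, ℤ)) • x = x) [MulAction.IsPretransitive SL(2, ℤ) X]
include hneg

theorem ker_sumVT_le_range {n : ℕ} (hn : 0 < n) (hT : ∀ x : X, T ^ n • x = x)
    (b : VT X) (hb : sumVT X b = 0) : b.1 ∈ LinearMap.range (Lam X n) := by
  have hmem := mem_sup_of_sum_eq_zero hneg b.1 hb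
  obtain ⟨u, hu, w, hw, huw⟩ := Submodule.mem_sup.mp hmem
  have hn0 : (n : ℂ) ≠ 0 := Nat.cast_ne_zero.mpr hn.ne'
  refine ⟨(⟨-((n : ℂ)⁻¹ • u), Submodule.neg_mem _ (Submodule.smul_mem _ _ hu)⟩,
    ⟨(n : ℂ)⁻¹ • w, Submodule.smul_mem _ _ hw⟩), ?_⟩
  funext x
  rw [Lam_apply]
  simp only [Pi.neg_apply, Pi.smul_apply, smul_eq_mul]
  have h1 : ∑ i ∈ Finset.range n, ((n : ℂ)⁻¹ * w (T ^ i • x) - -((n : ℂ)⁻¹ * u (T ^ (i + 1) • x)))
      = (n : ℂ)⁻¹ * (∑ i ∈ Finset.range n, w (T ^ i • x)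
          + ∑ i ∈ Finset.range n, u (T ^ (i + 1) • x)) := by
    rw [← Finset.sum_add_distrib, Finset.mul_sum]
    exact Finset.sum_congr rfl fun i _ => by ring
  rw [h1, sum_shift hT u x, ← Finset.sum_add_distrib]
  have h2 : ∀ i ∈ Finset.range n, w (T ^ i • x) + u (T ^ i • x) = b.1 x := by
    intro i _
    have := congrFun huw (T ^ i • x)
    rw [Pi.add_apply] at this
    rw [add_comm, this, VT_pow b.1 b.2]
  rw [Finset.sum_congr rfl h2, Finset.sum_const, Finset.card_range, nsmul_eq_mul, ← mul_assoc,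
    inv_mul_cancel₀ hn0, one_mul]

theorem card_orbits_le_finrank_range {n : ℕ} (hn : 0 < n) (hT : ∀ x : X, T ^ n • x = x) :
    Nat.card (MulAction.orbitRel.Quotient (Subgroup.zpowers T) X)
      ≤ finrank ℂ (LinearMap.range (Lam X n)) + 1 := by
  classical
  let _ : Fintype (MulAction.orbitRel.Quotient (Subgroup.zpowers T) X) := Fintype.ofFinite _
  -- orbits inject into `VT`
  let ι : (MulAction.orbitRel.Quotient (Subgroup.zpowers T) X → ℂ) →ₗ[ℂ] VT X :=
    { toFun := fun g => ⟨fun x => g (Quotient.mk'' x), fun x => by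
        show g (Quotient.mk'' (T • x)) = g (Quotient.mk'' x)
        congr 1
        apply Quotient.sound'
        exact ⟨⟨T, Subgroup.mem_zpowers T⟩, rfl⟩⟩
      map_add' := fun g g' => rfl
      map_smul' := fun c g => rfl }
  have hι : Function.Injective ι := by
    intro g g' h
    funext q
    induction q using Quotient.inductionOn' with
    | h x => exact congrFun (congrArg Subtype.val h) x
  have h1 : Nat.card (MulAction.orbitRel.Quotient (Subgroup.zpowers T) X) ≤ finrank ℂ (VT X) := by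
    have := LinearMap.finrank_le_finrank_of_injective hι
    rwa [Module.finrank_fintype_fun_eq_card, ← Nat.card_eq_fintype_card] at this
  -- the kernel of the sum functional lies in the range of `Lam`
  have h2 : finrank ℂ (LinearMap.ker (sumVT X)) ≤ finrank ℂ (LinearMap.range (Lam X n)) := by
    let κ : LinearMap.ker (sumVT X) →ₗ[ℂ] LinearMap.range (Lam X n) :=
      { toFun := fun b => ⟨b.1.1, ker_sumVT_le_range hneg hn hT b.1 b.2⟩
        map_add' := fun b b' => rfl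
        map_smul' := fun c b => rfl }
    have hκ : Function.Injective κ := by
      intro b b' h
      have h' : ((κ b : LinearMap.range (Lam X n)) : X → ℂ) = (κ b' : LinearMap.range (Lam X n)) :=
        congrArg Subtype.val h
      exact Subtype.ext (Subtype.ext h')
    exact LinearMap.finrank_le_finrank_of_injective hκ
  have h3 := LinearMap.finrank_range_add_finrank_ker (sumVT X)
  have h4 : finrank ℂ (LinearMap.range (sumVT X)) ≤ 1 := by
    have := Submodule.finrank_le (LinearMap.range (sumVT X))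
    rwa [Module.finrank_self] at this
  omega

/-- The dimension count of Part 1. -/
theorem finrank_ker_Lam_le {n : ℕ} (hn : 0 < n) (hT : ∀ x : X, T ^ n • x = x) :
    6 * finrank ℂ (LinearMap.ker (Lam X n))
        + 6 * Nat.card (MulAction.orbitRel.Quotient (Subgroup.zpowers T) X)
        + 3 * (Finset.univ.filter fun x : X => S • x = x).card
        + 4 * (Finset.univ.filter fun x : X => Rm • x = x).card
      ≤ 7 * Fintype.card X + 6 := by
  have h1 := finrank_Vm (X := X) hneg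
  have h2 := finrank_Kr (X := X) hneg
  have h3 := card_orbits_le_finrank_range hneg hn hT
  have h4 := LinearMap.finrank_range_add_finrank_ker (Lam X n)
  rw [Module.finrank_prod] at h4
  omega

end Count

end Lin

/-! ### Cocycles attached to homomorphisms -/

section Coc

open ModularCurve.Period

variable (Γ : Subgroup SL(2, ℤ))

/-- A section of `SL(2, ℤ) → SL(2, ℤ) ⧸ Γ`. -/
noncomputable def sec (x : SL(2, ℤ) ⧸ Γ) : SL(2, ℤ) := Quotient.out x

theorem sec_spec (x : SL(2, ℤ) ⧸ Γ) : ((sec Γ x : SL(2, ℤ)) : SL(2, ℤ) ⧸ Γ) = x :=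
  QuotientGroup.out_eq' x

theorem gam_mem (g : SL(2, ℤ)) (x : SL(2, ℤ) ⧸ Γ) :
    (sec Γ (g • x))⁻¹ * g * sec Γ x ∈ Γ := by
  rw [mul_assoc, ← QuotientGroup.eq, sec_spec]
  conv_lhs => rw [← sec_spec Γ x]
  rfl

/-- The element `s(g x)⁻¹ g s(x)` of `Γ`. -/
noncomputable def gam (g : SL(2, ℤ)) (x : SL(2, ℤ) ⧸ Γ) : Γ :=
  ⟨(sec Γ (g • x))⁻¹ * g * sec Γ x, gam_mem Γ g x⟩

theorem gam_mul (g h : SL(2, ℤ)) (x : SL(2, ℤ) ⧸ Γ) :
    gam Γ (g * h) x = gam Γ g (h • x) * gam Γ h x := by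
  apply Subtype.ext
  simp only [gam, Subgroup.coe_mul, mul_smul]
  group

variable {Γ}

/-- The (generalised) cocycle of a homomorphism `φ` and a function `f`. -/
noncomputable def coc (φ : Additive Γ →+ ℂ) (f : SL(2, ℤ) ⧸ Γ → ℂ) (g : SL(2, ℤ))
    (x : SL(2, ℤ) ⧸ Γ) : ℂ :=
  φ (Additive.ofMul (gam Γ g x)) + f (g • x) - f x

variable (φ : Additive Γ →+ ℂ) (f : SL(2, ℤ) ⧸ Γ → ℂ)

theorem coc_mul (g h : SL(2, ℤ)) (x : SL(2, ℤ) ⧸ Γ) :
    coc φ f (g * h) x = coc φ f g (h • x) + coc φ f h x := by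
  simp only [coc, gam_mul, ofMul_mul, map_add, mul_smul]
  ring

theorem coc_one (x : SL(2, ℤ) ⧸ Γ) : coc φ f 1 x = 0 := by
  have h := coc_mul φ f 1 1 x
  rw [mul_one, one_smul] at h
  linear_combination -h

theorem coc_inv (g : SL(2, ℤ)) (x : SL(2, ℤ) ⧸ Γ) :
    coc φ f g⁻¹ x = -coc φ f g (g⁻¹ • x) := by
  have h := coc_mul φ f g g⁻¹ x
  rw [mul_inv_cancel, coc_one] at h
  linear_combination -h

theorem coc_pow (g : SL(2, ℤ)) (n : ℕ) (x : SL(2, ℤ) ⧸ Γ) :
    coc φ f (g ^ n) x = ∑ i ∈ Finset.range n, coc φ f g (g ^ i • x) := by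
  induction n with
  | zero => simp [coc_one]
  | succ n ih => rw [pow_succ', coc_mul, ih, Finset.sum_range_succ, add_comm]

theorem coc_T (x : SL(2, ℤ) ⧸ Γ) :
    coc φ f T x = coc φ f Rm x - coc φ f S (T • x) := by
  have h : coc φ f T x = coc φ f (S⁻¹ * Rm) x := by rw [← T_eq]
  rw [h, coc_mul, coc_inv, ← mul_smul, ← T_eq]
  ring

theorem coc_eq_zero (hS : ∀ x, coc φ f S x = 0) (hR : ∀ x, coc φ f Rm x = 0)
    (g : SL(2, ℤ)) : ∀ x, coc φ f g x = 0 := by
  have hg : g ∈ Subgroup.closure ({S, T} : Set SL(2, ℤ)) := by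
    rw [SpecialLinearGroup.SL2Z_generators]
    exact Subgroup.mem_top g
  induction hg using Subgroup.closure_induction with
  | mem y hy =>
    rcases hy with rfl | rfl
    · exact hS
    · intro x
      rw [coc_T, hR, hS, sub_zero]
  | one => exact coc_one φ f
  | mul y z _ _ hy hz =>
    intro x
    rw [coc_mul, hy, hz, add_zero]
  | inv y _ hy =>
    intro x
    rw [coc_inv, hy, neg_zero]

section NegOne

variable (hneg : (-1 : SL(2, ℤ)) ∈ Γ)
include hneg

theorem neg_one_smul_coset (x : SL(2, ℤ) ⧸ Γ) : (-1 : SL(2, ℤ)) • x = x := by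
  induction x using QuotientGroup.induction_on with
  | H g =>
    have h1 : (-1 : SL(2, ℤ)) • (g : SL(2, ℤ) ⧸ Γ) = ((g * (-1) : SL(2, ℤ)) : SL(2, ℤ) ⧸ Γ) := by
      have : (-1 : SL(2, ℤ)) * g = g * (-1) := by simp
      rw [← this]
      rfl
    rw [h1]
    exact QuotientGroup.mk_mul_of_mem g hneg

theorem map_neg_one : φ (Additive.ofMul (⟨-1, hneg⟩ : Γ)) = 0 := by
  have h1 : (⟨-1, hneg⟩ : Γ) * ⟨-1, hneg⟩ = 1 := by
    apply Subtype.ext
    simp
  have h2 : φ (Additive.ofMul (⟨-1, hneg⟩ : Γ)) + φ (Additive.ofMul (⟨-1, hneg⟩ : Γ)) = 0 := by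
    rw [← map_add, ← ofMul_mul, h1, ofMul_one, map_zero]
  linear_combination h2 / 2

theorem coc_neg_one (x : SL(2, ℤ) ⧸ Γ) : coc φ f (-1) x = 0 := by
  have h1 : gam Γ (-1) x = ⟨-1, hneg⟩ := by
    apply Subtype.ext
    simp only [gam]
    rw [neg_one_smul_coset hneg]
    simp
  rw [coc, h1, map_neg_one φ hneg, neg_one_smul_coset hneg]
  ring

theorem coc_S_mem : (fun x => coc φ f S x) ∈ Vm (SL(2, ℤ) ⧸ Γ) := by
  intro x
  have h := coc_mul φ f S S x
  rw [S_mul_S, coc_neg_one φ f hneg] at h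
  show coc φ f S (S • x) = -coc φ f S x
  linear_combination -h

theorem coc_Rm_mem : (fun x => coc φ f Rm x) ∈ Kr (SL(2, ℤ) ⧸ Γ) := by
  intro x
  have h := coc_mul φ f (Rm * Rm) Rm x
  rw [Rm_cube, coc_neg_one φ f hneg, coc_mul] at h
  show coc φ f Rm x + coc φ f Rm (Rm • x) + coc φ f Rm (Rm • Rm • x) = 0
  linear_combination -h

end NegOne

theorem coc_T_pow_eq (n : ℕ) (x : SL(2, ℤ) ⧸ Γ) :
    coc φ f (T ^ n) x
      = ∑ i ∈ Finset.range n, (coc φ f Rm (T ^ i • x) - coc φ f S (T ^ (i + 1) • x)) := by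
  rw [coc_pow]
  refine Finset.sum_congr rfl fun i _ => ?_
  rw [coc_T, ← mul_smul, ← pow_succ']

theorem coc_T_pow_parabolic (hφ : IsParabolicHom Γ φ) {n : ℕ} (x : SL(2, ℤ) ⧸ Γ)
    (hT : T ^ n • x = x) : coc φ f (T ^ n) x = 0 := by
  have h1 : φ (Additive.ofMul (gam Γ (T ^ n) x)) = 0 := by
    apply hφ
    show ((((sec Γ (T ^ n • x))⁻¹ * T ^ n * sec Γ x : SL(2, ℤ)) :
      Matrix (Fin 2) (Fin 2) ℤ)).trace ^ 2 = 4
    rw [hT, trace_conj, trace_T_pow]
    norm_num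
  rw [coc, h1, hT]
  ring

/-- Evaluating the cocycle at an element of `Γ` and the base coset recovers `φ`. -/
theorem coc_base (γ : Γ) :
    coc φ f (γ : SL(2, ℤ)) ((1 : SL(2, ℤ)) : SL(2, ℤ) ⧸ Γ) = φ (Additive.ofMul γ) := by
  have hx : (γ : SL(2, ℤ)) • ((1 : SL(2, ℤ)) : SL(2, ℤ) ⧸ Γ) = ((1 : SL(2, ℤ)) : SL(2, ℤ) ⧸ Γ) := by
    have : (γ : SL(2, ℤ)) • ((1 : SL(2, ℤ)) : SL(2, ℤ) ⧸ Γ)
        = (((1 : SL(2, ℤ)) * γ : SL(2, ℤ)) : SL(2, ℤ) ⧸ Γ) := by
      rw [one_mul]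
      show (((γ : SL(2, ℤ)) * 1 : SL(2, ℤ)) : SL(2, ℤ) ⧸ Γ) = _
      rw [mul_one]
    rw [this]
    exact QuotientGroup.mk_mul_of_mem 1 γ.2
  have ht : sec Γ ((1 : SL(2, ℤ)) : SL(2, ℤ) ⧸ Γ) ∈ Γ := by
    have h := sec_spec Γ ((1 : SL(2, ℤ)) : SL(2, ℤ) ⧸ Γ)
    have h2 := QuotientGroup.eq.mp h.symm
    simpa using h2
  have h1 : gam Γ (γ : SL(2, ℤ)) ((1 : SL(2, ℤ)) : SL(2, ℤ) ⧸ Γ)
      = (⟨_, ht⟩ : Γ)⁻¹ * γ * ⟨_, ht⟩ := by
    apply Subtype.ext
    simp only [gam, Subgroup.coe_mul, Subgroup.coe_inv]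
    rw [hx]
  rw [coc, h1, hx, ofMul_mul, ofMul_mul, ofMul_inv, map_add, map_add, map_neg]
  ring

end Coc

/-! ### The main inequality -/

section Main

open ModularCurve.Period

variable (Γ : Subgroup SL(2, ℤ)) [Γ.FiniteIndex] (hneg : (-1 : SL(2, ℤ)) ∈ Γ)

noncomputable local instance instFintypeQuot : Fintype (SL(2, ℤ) ⧸ Γ) := Fintype.ofFinite _

noncomputable local instance instDecEqQuot : DecidableEq (SL(2, ℤ) ⧸ Γ) := Classical.decEq _

theorem coc_add (φ φ' : Additive Γ →+ ℂ) (f f' : SL(2, ℤ) ⧸ Γ → ℂ) (g : SL(2, ℤ))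
    (x : SL(2, ℤ) ⧸ Γ) : coc (φ + φ') (f + f') g x = coc φ f g x + coc φ' f' g x := by
  simp only [coc, AddMonoidHom.add_apply, Pi.add_apply]
  ring

theorem coc_smul (c : ℂ) (φ : Additive Γ →+ ℂ) (f : SL(2, ℤ) ⧸ Γ → ℂ) (g : SL(2, ℤ))
    (x : SL(2, ℤ) ⧸ Γ) : coc (c • φ) (c • f) g x = c * coc φ f g x := by
  simp only [coc, AddMonoidHom.smul_apply, Pi.smul_apply, smul_eq_mul]
  ring

/-- The map `(φ, f) ↦ (c(S), c(R))`. -/
noncomputable def Psi :
    (parabolicHoms ℂ Γ ℂ × (SL(2, ℤ) ⧸ Γ → ℂ)) →ₗ[ℂ]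
      (Vm (SL(2, ℤ) ⧸ Γ) × Kr (SL(2, ℤ) ⧸ Γ)) where
  toFun p := (⟨fun x => coc p.1.1 p.2 S x, coc_S_mem _ _ hneg⟩,
    ⟨fun x => coc p.1.1 p.2 Rm x, coc_Rm_mem _ _ hneg⟩)
  map_add' p q := by
    refine Prod.ext (Subtype.ext ?_) (Subtype.ext ?_)
    · funext x
      exact coc_add Γ p.1.1 q.1.1 p.2 q.2 S x
    · funext x
      exact coc_add Γ p.1.1 q.1.1 p.2 q.2 Rm x
  map_smul' c p := by
    refine Prod.ext (Subtype.ext ?_) (Subtype.ext ?_)
    · funext x
      exact coc_smul Γ c p.1.1 p.2 S x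
    · funext x
      exact coc_smul Γ c p.1.1 p.2 Rm x

theorem Psi_fst (p : parabolicHoms ℂ Γ ℂ × (SL(2, ℤ) ⧸ Γ → ℂ)) (x : SL(2, ℤ) ⧸ Γ) :
    (Psi Γ hneg p).1.1 x = coc p.1.1 p.2 S x := rfl

theorem Psi_snd (p : parabolicHoms ℂ Γ ℂ × (SL(2, ℤ) ⧸ Γ → ℂ)) (x : SL(2, ℤ) ⧸ Γ) :
    (Psi Γ hneg p).2.1 x = coc p.1.1 p.2 Rm x := rfl

theorem range_Psi_le {n : ℕ} (hT : ∀ x : SL(2, ℤ) ⧸ Γ, T ^ n • x = x) :
    LinearMap.range (Psi Γ hneg) ≤ LinearMap.ker (Lam (SL(2, ℤ) ⧸ Γ) n) := by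
  rintro _ ⟨p, rfl⟩
  rw [LinearMap.mem_ker]
  funext x
  rw [Lam_apply]
  simp only [Psi_fst, Psi_snd]
  rw [← coc_T_pow_eq, coc_T_pow_parabolic p.1.1 p.2 p.1.2 x (hT x)]
  rfl

theorem ker_Psi (p : parabolicHoms ℂ Γ ℂ × (SL(2, ℤ) ⧸ Γ → ℂ)) (hp : Psi Γ hneg p = 0) :
    p.1 = 0 ∧ ∀ x, p.2 x = p.2 ((1 : SL(2, ℤ)) : SL(2, ℤ) ⧸ Γ) := by
  have hS : ∀ x, coc p.1.1 p.2 S x = 0 := by
    intro x
    rw [← Psi_fst Γ hneg, hp]
    rfl
  have hR : ∀ x, coc p.1.1 p.2 Rm x = 0 := by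
    intro x
    rw [← Psi_snd Γ hneg, hp]
    rfl
  have hall := coc_eq_zero p.1.1 p.2 hS hR
  have hφ : p.1 = 0 := by
    apply Subtype.ext
    refine AddMonoidHom.ext fun a => ?_
    have h := coc_base p.1.1 p.2 (Additive.toMul a)
    rw [hall] at h
    simpa using h.symm
  refine ⟨hφ, fun x => ?_⟩
  induction x using QuotientGroup.induction_on with
  | H g =>
    have h := hall g ((1 : SL(2, ℤ)) : SL(2, ℤ) ⧸ Γ)
    rw [coc, hφ] at h
    have hg : g • ((1 : SL(2, ℤ)) : SL(2, ℤ) ⧸ Γ) = (g : SL(2, ℤ) ⧸ Γ) := by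
      show (((g * 1 : SL(2, ℤ))) : SL(2, ℤ) ⧸ Γ) = _
      rw [mul_one]
    rw [hg] at h
    simp only [Submodule.coe_zero, AddMonoidHom.zero_apply, zero_add] at h
    exact sub_eq_zero.mp h

include hneg in
theorem finite_parabolicHoms : FiniteDimensional ℂ (parabolicHoms ℂ Γ ℂ) := by
  let ι : parabolicHoms ℂ Γ ℂ →ₗ[ℂ] (Vm (SL(2, ℤ) ⧸ Γ) × Kr (SL(2, ℤ) ⧸ Γ)) :=
    (Psi Γ hneg) ∘ₗ (LinearMap.inl ℂ _ _)
  have hι : Function.Injective ι := by
    rw [injective_iff_map_eq_zero]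
    intro φ hφ
    exact (ker_Psi Γ hneg (φ, 0) hφ).1
  exact Module.Finite.of_injective ι hι

include hneg in
/-- **Upper bound for the parabolic homomorphisms**:
`6 dim Hom_par(Γ, ℂ) + 6 c + 3 ν₂ + 4 ν₃ ≤ μ + 12`. -/
theorem finrank_parabolicHoms_le :
    FiniteDimensional ℂ (parabolicHoms ℂ Γ ℂ) ∧
    6 * finrank ℂ (parabolicHoms ℂ Γ ℂ)
        + 6 * Nat.card (MulAction.orbitRel.Quotient (Subgroup.zpowers T) (SL(2, ℤ) ⧸ Γ))
        + 3 * Nat.card {q : SL(2, ℤ) ⧸ Γ // S • q = q}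
        + 4 * Nat.card {q : SL(2, ℤ) ⧸ Γ // (S * T) • q = q}
      ≤ Nat.card (SL(2, ℤ) ⧸ Γ) + 12 := by
  have hfin := finite_parabolicHoms Γ hneg
  refine ⟨hfin, ?_⟩
  have hnegX := neg_one_smul_coset (Γ := Γ) hneg
  -- a common period of `T`
  obtain ⟨n, hn, hT⟩ : ∃ n : ℕ, 0 < n ∧ ∀ x : SL(2, ℤ) ⧸ Γ, T ^ n • x = x := by
    refine ⟨orderOf (MulAction.toPermHom SL(2, ℤ) (SL(2, ℤ) ⧸ Γ) T), orderOf_pos _, fun x => ?_⟩
    have h := pow_orderOf_eq_one (MulAction.toPermHom SL(2, ℤ) (SL(2, ℤ) ⧸ Γ) T)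
    rw [← map_pow] at h
    have h2 := congrArg (fun e : Equiv.Perm (SL(2, ℤ) ⧸ Γ) => e x) h
    simpa using h2
  have h1 : 6 * finrank ℂ (LinearMap.ker (Lam (SL(2, ℤ) ⧸ Γ) n))
        + 6 * Nat.card (MulAction.orbitRel.Quotient (Subgroup.zpowers T) (SL(2, ℤ) ⧸ Γ))
        + 3 * (Finset.univ.filter fun x : SL(2, ℤ) ⧸ Γ => S • x = x).card
        + 4 * (Finset.univ.filter fun x : SL(2, ℤ) ⧸ Γ => Rm • x = x).card
      ≤ 7 * Fintype.card (SL(2, ℤ) ⧸ Γ) + 6 :=
    finrank_ker_Lam_le (X := SL(2, ℤ) ⧸ Γ) hnegX hn hT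
  -- rank-nullity for `Psi`
  have h2 := LinearMap.finrank_range_add_finrank_ker (Psi Γ hneg)
  rw [Module.finrank_prod, Module.finrank_fintype_fun_eq_card] at h2
  have h3 : finrank ℂ (LinearMap.range (Psi Γ hneg))
      ≤ finrank ℂ (LinearMap.ker (Lam (SL(2, ℤ) ⧸ Γ) n)) :=
    Submodule.finrank_mono (range_Psi_le Γ hneg hT)
  have h4 : finrank ℂ (LinearMap.ker (Psi Γ hneg)) ≤ 1 := by
    let ev : LinearMap.ker (Psi Γ hneg) →ₗ[ℂ] ℂ :=
      { toFun := fun p => p.1.2 ((1 : SL(2, ℤ)) : SL(2, ℤ) ⧸ Γ)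
        map_add' := fun p q => rfl
        map_smul' := fun c p => rfl }
    have hev : Function.Injective ev := by
      rw [injective_iff_map_eq_zero]
      intro p hp
      have hk := ker_Psi Γ hneg p.1 (LinearMap.mem_ker.mp p.2)
      apply Subtype.ext
      refine Prod.ext hk.1 ?_
      funext x
      rw [hk.2 x]
      exact hp
    have := LinearMap.finrank_le_finrank_of_injective hev
    rwa [Module.finrank_self] at this
  have e1 : Nat.card {q : SL(2, ℤ) ⧸ Γ // S • q = q}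
      = (Finset.univ.filter fun x : SL(2, ℤ) ⧸ Γ => S • x = x).card := by
    rw [Nat.card_eq_fintype_card, Fintype.card_subtype]
  have e2 : Nat.card {q : SL(2, ℤ) ⧸ Γ // (S * T) • q = q}
      = (Finset.univ.filter fun x : SL(2, ℤ) ⧸ Γ => Rm • x = x).card := by
    rw [Nat.card_eq_fintype_card, Fintype.card_subtype]
    rfl
  have e3 : Nat.card (SL(2, ℤ) ⧸ Γ) = Fintype.card (SL(2, ℤ) ⧸ Γ) := Nat.card_eq_fintype_card
  rw [e1, e2, e3]
  omega

end Main

end Fermat.Agent.GenusLib.ParHom
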