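import Fermat.Agent.GenusLib.PlaceCoreLoc

/-!
# Abstract core for S24: the degree of a canonical divisor

`degree_canonical`: Riemann–Hurwitz for `j : X → P¹`, given the analytic description of all the
places of `F/K` (hypothesis bundle `PlaceHyps`) and the product formula.
-/

set_option autoImplicit false
set_option linter.style.haveILetI false

noncomputable section

namespace Fermat.Agent.GenusLib.PlaceCore

open AlgebraicCurve Polynomial IsDedekindDomain IntermediateField KaehlerDifferential

variable {K F : Type*} [Field K] [Field F] [Algebra K F]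

/-! ### Differentials -/

/-- `D x` is a multiple of `D j` for `x ∈ K(j)`. -/
theorem D_mem_span_of_mem_adjoin (j : F) {x : F} (hx : x ∈ K⟮j⟯) :
    D K F x ∈ Submodule.span F {D K F j} := by
  induction hx using IntermediateField.adjoin_induction with
  | mem x hx =>
    rw [Set.mem_singleton_iff] at hx
    rw [hx]; exact Submodule.subset_span rfl
  | algebraMap x => simp
  | add x y _ _ hx hy => rw [map_add]; exact Submodule.add_mem _ hx hy
  | inv x _ hx =>
    rw [Derivation.leibniz_inv]
    exact Submodule.smul_mem _ _ hx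
  | mul x y _ _ hx hy =>
    rw [Derivation.leibniz]
    exact Submodule.add_mem _ (Submodule.smul_mem _ _ hy) (Submodule.smul_mem _ _ hx)

/-- If `F` is algebraic over `K(j)` (characteristic zero), every differential is a multiple of
`D j`. -/
theorem D_mem_span [CharZero K] (j : F) [FiniteDimensional K⟮j⟯ F] (x : F) :
    D K F x ∈ Submodule.span F {D K F j} := by
  haveI : CharZero F := charZero_of_injective_algebraMap (algebraMap K F).injective
  haveI : CharZero K⟮j⟯ := (algebraMap K⟮j⟯ F).charZero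
  have hxint : IsIntegral K⟮j⟯ x := Algebra.IsIntegral.isIntegral x
  have hsep : (minpoly K⟮j⟯ x).Separable := (minpoly.irreducible hxint).separable
  have hc : aeval x (derivative (minpoly K⟮j⟯ x)) ≠ 0 :=
    hsep.aeval_derivative_ne_zero (minpoly.aeval _ _)
  have key : ∀ P : K⟮j⟯[X],
      D K F (aeval x P) - aeval x (derivative P) • D K F x ∈ Submodule.span F {D K F j} := by
    intro P
    induction P using Polynomial.induction_on' with
    | add p q hp hq =>
      have : D K F (aeval x (p + q)) - aeval x (derivative (p + q)) • D K F x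
          = (D K F (aeval x p) - aeval x (derivative p) • D K F x)
            + (D K F (aeval x q) - aeval x (derivative q) • D K F x) := by
        simp only [map_add, add_smul]; abel
      rw [this]
      exact Submodule.add_mem _ hp hq
    | monomial k a =>
      have h1 : aeval x (monomial k a : K⟮j⟯[X]) = (a : F) * x ^ k := by
        rw [aeval_monomial]; rfl
      have h2 : aeval x (derivative (monomial k a : K⟮j⟯[X])) = (a : F) * (k : F) * x ^ (k - 1) := by
        rw [derivative_monomial, aeval_monomial, map_mul, map_natCast]; rfl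
      have h3 : D K F ((a : F) * x ^ k) - ((a : F) * (k : F) * x ^ (k - 1)) • D K F x
          = x ^ k • D K F (a : F) := by
        rw [Derivation.leibniz, Derivation.leibniz_pow]
        have e1 : (a : F) • (k • x ^ (k - 1) • D K F x)
            = ((a : F) * (k : F) * x ^ (k - 1)) • D K F x := by
          rw [← Nat.cast_smul_eq_nsmul F k, smul_smul, smul_smul, mul_assoc]
        rw [e1]; abel
      rw [h1, h2, h3]
      exact Submodule.smul_mem _ _ (D_mem_span_of_mem_adjoin j a.2)
  have h := key (minpoly K⟮j⟯ x)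
  rw [minpoly.aeval, map_zero, zero_sub, Submodule.neg_mem_iff] at h
  have h' := Submodule.smul_mem _ (aeval x (derivative (minpoly K⟮j⟯ x)))⁻¹ h
  rwa [smul_smul, inv_mul_cancel₀ hc, one_smul] at h'

theorem exists_eq_smul_D [CharZero K] (j : F) [FiniteDimensional K⟮j⟯ F] (ω : Ω[F⁄K]) :
    ∃ g : F, ω = g • D K F j := by
  have h1 : Submodule.span F (Set.range (D K F)) ≤ Submodule.span F {D K F j} := by
    rw [Submodule.span_le]
    rintro _ ⟨x, rfl⟩
    exact D_mem_span j x
  have h2 : ω ∈ Submodule.span F {D K F j} :=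
    h1 (by rw [KaehlerDifferential.span_range_derivation]; exact Submodule.mem_top)
  obtain ⟨g, hg⟩ := Submodule.mem_span_singleton.mp h2
  exact ⟨g, hg.symm⟩


/-- The order of a differential `ω = g • D j` at a place, from the order of `D j`. -/
theorem ordDifferential_eq (v : Place K F) (ω : Ω[F⁄K]) (j g : F) (hω : ω = g • D K F j)
    (hg : g ≠ 0) (hspan : ∀ x : F, ∃ f : F, D K F x = f • D K F j)
    (hdne : ∀ π : F, v.ord π = 1 → D K F π ≠ 0) (e : ℤ)
    (hdiff : ∀ π f : F, v.ord π = 1 → D K F j = f • D K F π → v.ord f = e) :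
    v.ordDifferential ω = v.ord g + e := by
  obtain ⟨π, hπ, hdc⟩ := dCoord_spec v
  have hπ1 : v.ord (π : F) = 1 := v.ord_coe_irreducible hπ
  have hDπ : D K F (π : F) ≠ 0 := hdne _ hπ1
  obtain ⟨h, hh⟩ := hspan (π : F)
  have hh0 : h ≠ 0 := by
    rintro rfl
    rw [zero_smul] at hh
    exact hDπ hh
  have hDj : D K F j = h⁻¹ • D K F (π : F) := by
    rw [hh, smul_smul, inv_mul_cancel₀ hh0, one_smul]
  have he : v.ord h⁻¹ = e := hdiff _ _ hπ1 hDj
  have hωc : ω = (g * h⁻¹) • v.dCoord := by rw [hdc, hω, hDj, smul_smul]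
  have hex : ∃ f : F, ω = f • v.dCoord := ⟨_, hωc⟩
  have hcoeff : v.differentialCoeff ω = g * h⁻¹ := by
    have h1 : v.differentialCoeff ω = hex.choose := by
      unfold Place.differentialCoeff
      rw [dif_pos hex]
    have h2 := hex.choose_spec
    have h3 : (hex.choose - g * h⁻¹) • v.dCoord = 0 := by
      rw [sub_smul, ← h2, ← hωc, sub_self]
    rcases smul_eq_zero.mp h3 with h4 | h4
    · rw [h1]; exact sub_eq_zero.mp h4
    · exact absurd (hdc ▸ h4) hDπ
  unfold Place.ordDifferential
  rw [hcoeff, v.ord_mul hg (inv_ne_zero hh0), he]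

/-! ### Classification of the places -/

theorem place_ord_neg (v : Place K F) (f : F) : v.ord (-f) = v.ord f := by
  by_cases hf : f = 0
  · simp [hf]
  · exact (placeOrdFun v).w_neg hf

theorem ord_multiset_prod (v : Place K F) (m : Multiset F)
    (h : ∀ x ∈ m, x ≠ 0 ∧ v.ord x = 0) : m.prod ≠ 0 ∧ v.ord m.prod = 0 := by
  induction m using Multiset.induction with
  | empty => simp
  | cons a m ih =>
    have ha := h a (Multiset.mem_cons_self a m)
    have hm := ih (fun x hx => h x (Multiset.mem_cons_of_mem hx))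
    rw [Multiset.prod_cons]
    exact ⟨mul_ne_zero ha.1 hm.1, by rw [v.ord_mul ha.1 hm.1, ha.2, hm.2, add_zero]⟩

/-- Every place lies over a point of the `j`-line. -/
theorem place_classify [IsAlgClosed K] [CharZero K] (j : F) (hj : Transcendental K j)
    [FiniteDimensional K⟮j⟯ F] (v : Place K F) :
    (∃ c : K, 0 < v.ord (j - algebraMap K F c)) ∨ 0 < v.ord j⁻¹ := by
  by_cases hj0 : 0 ≤ v.ord j
  · left
    by_contra hcon
    rw [not_exists] at hcon
    obtain ⟨-, -, -, -, -, halg⟩ := places_over j hj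
    have hjc : ∀ c : K, j - algebraMap K F c ≠ 0 ∧ v.ord (j - algebraMap K F c) = 0 := by
      intro c
      have h1 : j - algebraMap K F c ≠ 0 := by
        intro h0
        apply hj
        rw [sub_eq_zero.mp h0]
        exact isAlgebraic_algebraMap c
      have h2 : 0 ≤ v.ord (j - algebraMap K F c) := by
        rw [← place_mem_iff]
        exact sub_mem ((place_mem_iff v j).mpr hj0) (v.algebraMap_mem' c)
      exact ⟨h1, le_antisymm (not_lt.mp (hcon c)) h2⟩
    have hq : ∀ q : K[X], q ≠ 0 → aeval j q ≠ 0 ∧ v.ord (aeval j q) = 0 := by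
      intro q hq0
      have hsplit := IsAlgClosed.splits q
      have hprod : aeval j q = algebraMap K F q.leadingCoeff
          * (q.roots.map (fun c => j - algebraMap K F c)).prod := by
        conv_lhs => rw [hsplit.eq_prod_roots]
        rw [map_mul, aeval_C, map_multiset_prod, Multiset.map_map]
        congr 2
        refine Multiset.map_congr rfl fun c _ => ?_
        simp
      have hlc : q.leadingCoeff ≠ 0 := leadingCoeff_ne_zero.mpr hq0
      have hlcF : algebraMap K F q.leadingCoeff ≠ 0 := by simpa using hlc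
      obtain ⟨hp1, hp2⟩ := ord_multiset_prod v (q.roots.map (fun c => j - algebraMap K F c)) (by
        intro x hx
        obtain ⟨c, -, rfl⟩ := Multiset.mem_map.mp hx
        exact hjc c)
      rw [hprod]
      exact ⟨mul_ne_zero hlcF hp1,
        by rw [v.ord_mul hlcF hp1, place_ord_algebraMap v _ hlc, hp2, add_zero]⟩
    apply v.ne_top'
    refine SetLike.ext fun f => ⟨fun _ => ValuationSubring.mem_top f, fun _ => ?_⟩
    by_cases hf0 : f = 0
    · rw [hf0]; exact v.toValuationSubring.zero_mem
    obtain ⟨q, hq0, hqf⟩ := halg v hj0 f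
    obtain ⟨h1, h2⟩ := hq q hq0
    rw [v.ord_mul h1 hf0, h2, zero_add] at hqf
    exact (place_mem_iff v f).mpr hqf
  · right
    rw [v.ord_inv]; omega

theorem place_center_unique (v : Place K F) (j : F) {c c' : K}
    (h : 0 < v.ord (j - algebraMap K F c)) (h' : 0 < v.ord (j - algebraMap K F c')) : c = c' := by
  by_contra hne
  have hcc : c' - c ≠ 0 := sub_ne_zero.mpr (Ne.symm hne)
  have h0 := place_ord_algebraMap v (c' - c) hcc
  have hx0 := place_ord_pos_ne_zero v h
  have hy0 := place_ord_pos_ne_zero v h'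
  have hsum : (j - algebraMap K F c) + -(j - algebraMap K F c') = algebraMap K F (c' - c) := by
    rw [map_sub]; ring
  have hsum0 : (j - algebraMap K F c) + -(j - algebraMap K F c') ≠ 0 := by
    rw [hsum]; exact (map_ne_zero (algebraMap K F)).mpr hcc
  have h1 := place_ord_add v _ _ hx0 (neg_ne_zero.mpr hy0) hsum0
  rw [hsum, h0, place_ord_neg] at h1
  have := lt_min h h'
  omega

theorem place_not_both (v : Place K F) (j : F) {c : K}
    (h : 0 < v.ord (j - algebraMap K F c)) (h' : 0 < v.ord j⁻¹) : False := by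
  rw [v.ord_inv] at h'
  have h1 : j - algebraMap K F c ∈ v.toValuationSubring := (place_mem_iff v _).mpr h.le
  have h2 := add_mem h1 (v.algebraMap_mem' c)
  rw [sub_add_cancel, place_mem_iff] at h2
  omega

/-! ### Changing the generator of `K(j)` -/

theorem adjoin_sub_algebraMap (j : F) (c : K) : K⟮j - algebraMap K F c⟯ = K⟮j⟯ := by
  apply le_antisymm
  · rw [adjoin_simple_le_iff]
    exact sub_mem (mem_adjoin_simple_self K j) (IntermediateField.algebraMap_mem _ c)
  · rw [adjoin_simple_le_iff]
    have := add_mem (mem_adjoin_simple_self K (j - algebraMap K F c))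
      (IntermediateField.algebraMap_mem K⟮j - algebraMap K F c⟯ c)
    rwa [sub_add_cancel] at this

theorem adjoin_inv_eq (j : F) : K⟮j⁻¹⟯ = K⟮j⟯ := by
  apply le_antisymm
  · rw [adjoin_simple_le_iff]
    exact inv_mem (mem_adjoin_simple_self K j)
  · rw [adjoin_simple_le_iff]
    have := inv_mem (mem_adjoin_simple_self K j⁻¹)
    rwa [inv_inv] at this

theorem transcendental_sub_algebraMap {j : F} (hj : Transcendental K j) (c : K) :
    Transcendental K (j - algebraMap K F c) := by
  intro h
  apply hj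
  have := h.add (isAlgebraic_algebraMap (R := K) (A := F) c)
  rwa [sub_add_cancel] at this

theorem transcendental_inv {j : F} (hj : Transcendental K j) : Transcendental K j⁻¹ := by
  intro h
  apply hj
  have := h.inv
  rwa [inv_inv] at this

/-- The local bijection for another generator `t` of `K(j)`. -/
theorem local_bijection' [IsAlgClosed K] [CharZero K] (j : F) [FiniteDimensional K⟮j⟯ F]
    (t : F) (ht : Transcendental K t) (hE : K⟮t⟯ = K⟮j⟯)
    {ι : Type*} [Fintype ι] (w : ι → OrdFun K F)
    (hpos : ∀ i, 0 < (w i).w t) (hsum : ∑ i, (w i).w t = (Module.finrank K⟮j⟯ F : ℤ))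
    (hint : ∀ f : F, f ≠ 0 → (∀ i, 0 ≤ (w i).w f) → IsIntegral (locRing K t) f) :
    ∃ Φ : ι → Place K F, Function.Injective Φ ∧
      (∀ i (f : F), f ≠ 0 → (Φ i).ord f = (w i).w f) ∧
      (∀ v : Place K F, 0 < v.ord t → ∃ i, Φ i = v) ∧
      (∀ i, (Φ i).deg = 1) := by
  haveI : FiniteDimensional K⟮t⟯ F := by rw [hE]; infer_instance
  have hfr : Module.finrank K⟮t⟯ F = Module.finrank K⟮j⟯ F := by rw [hE]
  exact local_bijection t ht w hpos (by rw [hfr]; exact hsum) hint

/-! ### The degree of a canonical divisor -/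

/-- **Riemann–Hurwitz**, abstract form. -/
theorem degree_canonical [IsAlgClosed K] [CharZero K]
    (j : F) (hj : Transcendental K j) [FiniteDimensional K⟮j⟯ F] (n : ℕ)
    (hn : Module.finrank K⟮j⟯ F = n)
    (I : K → Type) [∀ c, Fintype (I c)] (W : ∀ c, I c → OrdFun K F)
    (Iinf : Type) [Fintype Iinf] (Winf : Iinf → OrdFun K F) (S : Finset K)
    (H : PlaceHyps j n I W Iinf Winf S) (hPF : ProductFormula I W Iinf Winf)
    (ω : Ω[F⁄K]) (hω : ω ≠ 0) (Dv : Divisor K F)
    (hDv : ∀ v : Place K F, Dv v = v.ordDifferential ω) :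
    Divisor.degree Dv = ∑ c ∈ S, ∑ i, ((W c i).w (j - algebraMap K F c) - 1)
      - ∑ i, ((Winf i).w j⁻¹ + 1) := by
  classical
  have hΦ : ∀ c, ∃ Φ : I c → Place K F, Function.Injective Φ ∧
      (∀ i (f : F), f ≠ 0 → (Φ i).ord f = (W c i).w f) ∧
      (∀ v : Place K F, 0 < v.ord (j - algebraMap K F c) → ∃ i, Φ i = v) ∧
      (∀ i, (Φ i).deg = 1) := by
    intro c
    exact local_bijection' j (j - algebraMap K F c) (transcendental_sub_algebraMap hj c)
      (adjoin_sub_algebraMap j c) (W c) (H.hpos c) (by rw [hn]; exact H.hsum c) (H.hint c)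
  choose Φ hΦinj hΦord hΦsurj hΦdeg using hΦ
  obtain ⟨Φi, hΦiinj, hΦiord, hΦisurj, hΦideg⟩ := local_bijection' j j⁻¹ (transcendental_inv hj)
    (adjoin_inv_eq j) Winf H.hposinf (by rw [hn]; exact H.hsuminf) H.hintinf
  have hj0 : j ≠ 0 := fun h0 => hj (h0 ▸ isAlgebraic_zero)
  have hjc0 : ∀ c : K, j - algebraMap K F c ≠ 0 := by
    intro c h0
    apply hj
    rw [sub_eq_zero.mp h0]
    exact isAlgebraic_algebraMap c
  have hΦpos : ∀ c i, 0 < (Φ c i).ord (j - algebraMap K F c) := by
    intro c i
    rw [hΦord c i _ (hjc0 c)]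
    exact H.hpos c i
  have hΦipos : ∀ i, 0 < (Φi i).ord j⁻¹ := by
    intro i
    rw [hΦiord i _ (inv_ne_zero hj0)]
    exact H.hposinf i
  have hdeg : ∀ v : Place K F, v.deg = 1 := by
    intro v
    rcases place_classify j hj v with ⟨c, hc⟩ | hinf
    · obtain ⟨i, rfl⟩ := hΦsurj c v hc
      exact hΦdeg c i
    · obtain ⟨i, rfl⟩ := hΦisurj v hinf
      exact hΦideg i
  obtain ⟨g, hg⟩ := exists_eq_smul_D j ω
  have hg0 : g ≠ 0 := by
    rintro rfl
    rw [zero_smul] at hg
    exact hω hg
  have hDj : D K F j ≠ 0 := by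
    intro h0
    rw [h0, smul_zero] at hg
    exact hω hg
  have hspan : ∀ x : F, ∃ f : F, D K F x = f • D K F j := fun x => exists_eq_smul_D j (D K F x)
  have hval : ∀ c i, Dv (Φ c i) = (W c i).w g + ((W c i).w (j - algebraMap K F c) - 1) := by
    intro c i
    rw [hDv, ordDifferential_eq (Φ c i) ω j g hg hg0 hspan ?_
      ((W c i).w (j - algebraMap K F c) - 1) ?_, hΦord c i g hg0]
    · intro π hπ
      have hπ0 : π ≠ 0 := by rintro rfl; simp at hπ
      exact H.hdne c i π (by rw [← hΦord c i π hπ0]; exact hπ)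
    · intro π f hπ hf
      have hπ0 : π ≠ 0 := by rintro rfl; simp at hπ
      have hf0 : f ≠ 0 := by
        rintro rfl
        rw [zero_smul] at hf
        exact hDj hf
      rw [hΦord c i f hf0]
      exact H.hdiff c i π f (by rw [← hΦord c i π hπ0]; exact hπ) hf
  have hvali : ∀ i, Dv (Φi i) = (Winf i).w g + (-(Winf i).w j⁻¹ - 1) := by
    intro i
    rw [hDv, ordDifferential_eq (Φi i) ω j g hg hg0 hspan ?_
      (-(Winf i).w j⁻¹ - 1) ?_, hΦiord i g hg0]
    · intro π hπ
      have hπ0 : π ≠ 0 := by rintro rfl; simp at hπ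
      exact H.hdneinf i π (by rw [← hΦiord i π hπ0]; exact hπ)
    · intro π f hπ hf
      have hπ0 : π ≠ 0 := by rintro rfl; simp at hπ
      have hf0 : f ≠ 0 := by
        rintro rfl
        rw [zero_smul] at hf
        exact hDj hf
      rw [hΦiord i f hf0]
      exact H.hdiffinf i π f (by rw [← hΦiord i π hπ0]; exact hπ) hf
  have hdegree : Divisor.degree Dv = ∑ v ∈ Dv.support, Dv v := by
    unfold Divisor.degree
    rw [Finsupp.liftAddHom_apply, Finsupp.sum]
    refine Finset.sum_congr rfl fun v _ => ?_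
    simp [hdeg v]
  obtain ⟨p, q, hp0, hq0, hpq, hpqinf⟩ := hPF g hg0
  let cOf : Place K F → K := fun v =>
    if h : ∃ c, 0 < v.ord (j - algebraMap K F c) then h.choose else 0
  have hcOf : ∀ c i, cOf (Φ c i) = c := by
    intro c i
    have h : ∃ c', 0 < (Φ c i).ord (j - algebraMap K F c') := ⟨c, hΦpos c i⟩
    simp only [cOf, dif_pos h]
    exact place_center_unique _ j h.choose_spec (hΦpos c i)
  set T : Finset K := S ∪ p.roots.toFinset ∪ q.roots.toFinset ∪ Dv.support.image cOf with hT
  set Z : Finset (Place K F) :=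
    (T.biUnion (fun c => Finset.univ.image (Φ c))) ∪ Finset.univ.image Φi with hZ
  have hsuppZ : Dv.support ⊆ Z := by
    intro v hv
    rcases place_classify j hj v with ⟨c, hc⟩ | hinf
    · obtain ⟨i, rfl⟩ := hΦsurj c v hc
      refine Finset.mem_union_left _ (Finset.mem_biUnion.mpr
        ⟨c, ?_, Finset.mem_image_of_mem _ (Finset.mem_univ i)⟩)
      exact Finset.mem_union_right _ (Finset.mem_image.mpr ⟨Φ c i, hv, hcOf c i⟩)
    · obtain ⟨i, rfl⟩ := hΦisurj v hinf
      exact Finset.mem_union_right _ (Finset.mem_image_of_mem _ (Finset.mem_univ i))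
  have hsumZ : ∑ v ∈ Dv.support, Dv v = ∑ v ∈ Z, Dv v :=
    Finset.sum_subset hsuppZ (fun v _ hv => Finsupp.notMem_support_iff.mp hv)
  have hdisj1 : Disjoint (T.biUnion (fun c => Finset.univ.image (Φ c)))
      (Finset.univ.image Φi) := by
    rw [Finset.disjoint_left]
    intro v hv hv'
    obtain ⟨c, -, hc⟩ := Finset.mem_biUnion.mp hv
    obtain ⟨i, -, rfl⟩ := Finset.mem_image.mp hc
    obtain ⟨i', -, hi'⟩ := Finset.mem_image.mp hv'
    exact place_not_both (Φ c i) j (hΦpos c i) (hi' ▸ hΦipos i')
  have hdisj2 : ∀ c ∈ T, ∀ c' ∈ T, c ≠ c' →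
      Disjoint (Finset.univ.image (Φ c)) (Finset.univ.image (Φ c')) := by
    intro c _ c' _ hne
    rw [Finset.disjoint_left]
    intro v hv hv'
    obtain ⟨i, -, rfl⟩ := Finset.mem_image.mp hv
    obtain ⟨i', -, hi'⟩ := Finset.mem_image.mp hv'
    exact hne (place_center_unique (Φ c i) j (hΦpos c i) (hi' ▸ hΦpos c' i'))
  have hsplitZ : ∑ v ∈ Z, Dv v = ∑ c ∈ T, ∑ i, Dv (Φ c i) + ∑ i, Dv (Φi i) := by
    rw [hZ, Finset.sum_union hdisj1, Finset.sum_biUnion hdisj2,
      Finset.sum_image (fun a _ b _ h => hΦiinj h)]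
    congr 1
    refine Finset.sum_congr rfl fun c _ => ?_
    rw [Finset.sum_image (fun a _ b _ h => hΦinj c h)]
  have hroots : ∀ r : K[X], r.roots.toFinset ⊆ T →
      ∑ c ∈ T, (r.rootMultiplicity c : ℤ) = r.natDegree := by
    intro r hsub
    have h1 : ∑ c ∈ T, (r.rootMultiplicity c : ℤ)
        = ∑ c ∈ r.roots.toFinset, (r.rootMultiplicity c : ℤ) := by
      symm
      refine Finset.sum_subset hsub (fun c _ hc => ?_)
      rw [Multiset.mem_toFinset] at hc
      rw [Nat.cast_eq_zero, ← Polynomial.count_roots, Multiset.count_eq_zero]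
      exact hc
    rw [h1, ← Nat.cast_sum]
    congr 1
    have h2 : ∑ c ∈ r.roots.toFinset, r.rootMultiplicity c
        = ∑ c ∈ r.roots.toFinset, r.roots.count c :=
      Finset.sum_congr rfl (fun c _ => (Polynomial.count_roots r).symm)
    rw [h2, Multiset.toFinset_sum_count_eq]
    exact Polynomial.splits_iff_card_roots.mp (IsAlgClosed.splits r)
  have hST : S ⊆ T := fun c hc =>
    Finset.mem_union_left _ (Finset.mem_union_left _ (Finset.mem_union_left _ hc))
  have hpT : p.roots.toFinset ⊆ T := fun c hc =>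
    Finset.mem_union_left _ (Finset.mem_union_left _ (Finset.mem_union_right _ hc))
  have hqT : q.roots.toFinset ⊆ T := fun c hc =>
    Finset.mem_union_left _ (Finset.mem_union_right _ hc)
  have e1 : ∑ c ∈ T, ∑ i, Dv (Φ c i) = ∑ c ∈ T, ∑ i, (W c i).w g
      + ∑ c ∈ T, ∑ i, ((W c i).w (j - algebraMap K F c) - 1) := by
    rw [← Finset.sum_add_distrib]
    refine Finset.sum_congr rfl fun c _ => ?_
    rw [← Finset.sum_add_distrib]
    exact Finset.sum_congr rfl fun i _ => hval c i
  have e2 : ∑ i, Dv (Φi i) = ∑ i, (Winf i).w g - ∑ i, ((Winf i).w j⁻¹ + 1) := by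
    rw [← Finset.sum_sub_distrib]
    exact Finset.sum_congr rfl fun i _ => by rw [hvali i]; ring
  have e3 : ∑ c ∈ T, ∑ i, (W c i).w g = (p.natDegree : ℤ) - q.natDegree := by
    rw [Finset.sum_congr rfl (fun c _ => hpq c), Finset.sum_sub_distrib, hroots p hpT,
      hroots q hqT]
  have e4 : ∑ c ∈ T, ∑ i, ((W c i).w (j - algebraMap K F c) - 1)
      = ∑ c ∈ S, ∑ i, ((W c i).w (j - algebraMap K F c) - 1) := by
    symm
    refine Finset.sum_subset hST (fun c _ hc => ?_)
    refine Finset.sum_eq_zero fun i _ => ?_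
    rw [H.hS c hc i]; simp
  rw [hdegree, hsumZ, hsplitZ, e1, e2, e3, e4, hpqinf]
  ring

end Fermat.Agent.GenusLib.PlaceCore
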