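import Fermat.Agent.GenusLib.PlaceCoreOrd

/-!
# Abstract core for S24: places and Dedekind domains

Places of `F/K` whose valuation ring contains a Dedekind domain `B` with fraction field `F`
correspond to the height one primes of `B`.
-/

set_option autoImplicit false
set_option linter.unusedSectionVars false
set_option linter.style.haveILetI false

noncomputable section

namespace Fermat.Agent.GenusLib.PlaceCore

open AlgebraicCurve Polynomial IsDedekindDomain

variable {K F : Type*} [Field K] [Field F] [Algebra K F]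

/-! ### Units and the maximal ideal of a place -/

theorem place_isUnit_iff (v : Place K F) (y : v.toValuationSubring) :
    IsUnit y ↔ (y : F) ≠ 0 ∧ v.ord (y : F) = 0 := by
  constructor
  · intro hy
    refine ⟨fun h0 => hy.ne_zero (Subtype.ext h0), ?_⟩
    have := v.ord_coe_unit hy.unit
    simpa using this
  · rintro ⟨h0, h1⟩
    have h2 : (y : F)⁻¹ ∈ v.toValuationSubring := by
      rw [place_mem_iff, v.ord_inv, h1]; simp
    refine IsUnit.of_mul_eq_one ⟨(y : F)⁻¹, h2⟩ (Subtype.ext ?_)
    simp [h0]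

theorem place_mem_maximalIdeal_iff (v : Place K F) (y : v.toValuationSubring) :
    y ∈ IsLocalRing.maximalIdeal v.toValuationSubring ↔ (y : F) = 0 ∨ 0 < v.ord (y : F) := by
  rw [IsLocalRing.mem_maximalIdeal, mem_nonunits_iff, place_isUnit_iff]
  have h0 : 0 ≤ v.ord (y : F) := (place_mem_iff v _).mp y.2
  constructor
  · intro h
    by_cases hy : (y : F) = 0
    · left; exact hy
    · right
      have : v.ord (y : F) ≠ 0 := fun h1 => h ⟨hy, h1⟩
      omega
  · rintro (h | h) ⟨h1, h2⟩
    · exact h1 h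
    · omega

section Dedekind

variable {B : Type*} [CommRing B] [IsDedekindDomain B] [Algebra B F] [IsFractionRing B F]
  [Algebra K B] [IsScalarTower K B F]

/-- The order function attached to the adic valuation of a height one prime. -/
def hosOrdFun (w : HeightOneSpectrum B) : OrdFun K F where
  w := fun f => -WithZero.log (w.valuation F f)
  map_mul' := by
    intro f g hf hg
    rw [map_mul, WithZero.log_mul ((Valuation.ne_zero_iff _).mpr hf)
      ((Valuation.ne_zero_iff _).mpr hg)]
    ring
  map_add' := by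
    intro f g hf hg hfg
    have h := (w.valuation F).map_add f g
    have hF := (Valuation.ne_zero_iff (w.valuation F)).mpr hf
    have hG := (Valuation.ne_zero_iff (w.valuation F)).mpr hg
    have hFG := (Valuation.ne_zero_iff (w.valuation F)).mpr hfg
    rcases le_max_iff.mp h with h1 | h1
    · have := (WithZero.log_le_log hFG hF).mpr h1
      exact le_trans (min_le_left _ _) (by omega)
    · have := (WithZero.log_le_log hFG hG).mpr h1
      exact le_trans (min_le_right _ _) (by omega)
  map_const' := by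
    intro a ha
    have h1 : w.valuation F (algebraMap K F a) ≤ 1 := by
      rw [IsScalarTower.algebraMap_apply K B F]; exact w.valuation_le_one _
    have h2 : w.valuation F (algebraMap K F a⁻¹) ≤ 1 := by
      rw [IsScalarTower.algebraMap_apply K B F]; exact w.valuation_le_one _
    have h0 : w.valuation F (algebraMap K F a) ≠ 0 :=
      (Valuation.ne_zero_iff _).mpr (by simpa using ha)
    rw [map_inv₀, map_inv₀] at h2
    have h3 : 1 ≤ w.valuation F (algebraMap K F a) := by
      rwa [inv_le_one₀ (zero_lt_iff.mpr h0)] at h2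
    have h4 : w.valuation F (algebraMap K F a) = 1 := le_antisymm h1 h3
    rw [h4]; simp

theorem hosOrdFun_vs (w : HeightOneSpectrum B) :
    (hosOrdFun (K := K) (F := F) w).vs
      = (Place.ofHeightOneSpectrum (K := K) (F := F) w).toValuationSubring := by
  ext f
  rw [Place.ofHeightOneSpectrum_toValuationSubring, Valuation.mem_valuationSubring_iff,
    OrdFun.mem_vs]
  by_cases hf : f = 0
  · simp [hf]
  have h0 : w.valuation F f ≠ 0 := (Valuation.ne_zero_iff _).mpr hf
  simp only [hf, false_or]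
  show 0 ≤ -WithZero.log (w.valuation F f) ↔ _
  rw [← (WithZero.log_le_log h0 one_ne_zero), WithZero.log_one]
  omega

/-- The order of the place of a height one prime is given by its adic valuation. -/
theorem ofHOS_ord (w : HeightOneSpectrum B) {f : F} (hf : f ≠ 0) :
    (Place.ofHeightOneSpectrum (K := K) (F := F) w).ord f = -WithZero.log (w.valuation F f) := by
  obtain ⟨d, hd, h⟩ := place_ord_unique (Place.ofHeightOneSpectrum (K := K) (F := F) w)
    (hosOrdFun w) (hosOrdFun_vs w)
  obtain ⟨ϖ, hϖ⟩ := w.valuation_exists_uniformizer F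
  have hϖ0 : ϖ ≠ 0 := by
    intro h0; rw [h0, map_zero] at hϖ; exact WithZero.exp_ne_zero.symm hϖ
  have h1 := h ϖ hϖ0
  have h2 : (hosOrdFun (K := K) (F := F) w).w ϖ = 1 := by
    show -WithZero.log (w.valuation F ϖ) = 1
    rw [hϖ, WithZero.log_exp]; norm_num
  rw [h2] at h1
  have hd1 : d = 1 := Int.eq_one_of_mul_eq_one_right hd.le h1.symm
  have h3 := h f hf
  rw [hd1, one_mul] at h3
  rw [← h3]; rfl

theorem ofHOS_ord_algebraMap_nonneg (w : HeightOneSpectrum B) (b : B) :
    0 ≤ (Place.ofHeightOneSpectrum (K := K) (F := F) w).ord (algebraMap B F b) := by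
  rw [← place_mem_iff, Place.ofHeightOneSpectrum_toValuationSubring,
    Valuation.mem_valuationSubring_iff]
  exact w.valuation_le_one b

theorem ofHOS_ord_algebraMap_pos_iff (w : HeightOneSpectrum B) {b : B} (hb : b ≠ 0) :
    0 < (Place.ofHeightOneSpectrum (K := K) (F := F) w).ord (algebraMap B F b)
      ↔ b ∈ w.asIdeal := by
  have hbF : algebraMap B F b ≠ 0 := by
    simpa using (map_ne_zero_iff _ (IsFractionRing.injective B F)).mpr hb
  have h0 : w.valuation F (algebraMap B F b) ≠ 0 := (Valuation.ne_zero_iff _).mpr hbF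
  rw [ofHOS_ord w hbF, ← w.valuation_lt_one_iff_mem (K := F), ← WithZero.log_lt_log h0 one_ne_zero,
    WithZero.log_one]
  omega

theorem ofHOS_injective :
    Function.Injective (Place.ofHeightOneSpectrum (K := K) (F := F) (R := B)) := by
  intro w w' h
  apply HeightOneSpectrum.ext
  ext b
  by_cases hb : b = 0
  · simp [hb]
  rw [← ofHOS_ord_algebraMap_pos_iff (K := K) (F := F) w hb,
    ← ofHOS_ord_algebraMap_pos_iff (K := K) (F := F) w' hb, h]

/-- A place whose valuation ring contains `B` is the place of a height one prime of `B`. -/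
theorem exists_hos_of_le (v : Place K F) (hB : ∀ b : B, 0 ≤ v.ord (algebraMap B F b)) :
    ∃ w : HeightOneSpectrum B, Place.ofHeightOneSpectrum (K := K) (F := F) w = v := by
  let ι : B →+* v.toValuationSubring :=
    (algebraMap B F).codRestrict v.toValuationSubring.toSubring
      (fun b => (place_mem_iff v _).mpr (hB b))
  have hι : ∀ b, ((ι b : v.toValuationSubring) : F) = algebraMap B F b := fun _ => rfl
  let P : Ideal B := (IsLocalRing.maximalIdeal v.toValuationSubring).comap ι
  have hPmem : ∀ b : B, b ∈ P ↔ algebraMap B F b = 0 ∨ 0 < v.ord (algebraMap B F b) := by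
    intro b
    rw [Ideal.mem_comap, place_mem_maximalIdeal_iff, hι]
  have hPprime : P.IsPrime := Ideal.comap_isPrime ι _
  have hPbot : P ≠ ⊥ := by
    obtain ⟨x, hx⟩ : ∃ x : F, x ∉ v.toValuationSubring := by
      by_contra hcon
      rw [not_exists] at hcon
      apply v.ne_top'
      exact SetLike.ext fun x => ⟨fun _ => ValuationSubring.mem_top x, fun _ => not_not.mp (hcon x)⟩
    have hx0 : x ≠ 0 := fun h0 => hx (h0 ▸ v.toValuationSubring.zero_mem)
    have hordx : v.ord x < 0 := by
      by_contra hcon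
      exact hx ((place_mem_iff v x).mpr (not_lt.mp hcon))
    obtain ⟨a, s, hs, rfl⟩ := IsFractionRing.div_surjective (A := B) x
    have hs0 : algebraMap B F s ≠ 0 := by
      intro h0; rw [h0, div_zero] at hx0; exact hx0 rfl
    have ha0 : algebraMap B F a ≠ 0 := by
      intro h0; rw [h0, zero_div] at hx0; exact hx0 rfl
    rw [div_eq_mul_inv, v.ord_mul ha0 (inv_ne_zero hs0), v.ord_inv] at hordx
    have h1 := hB a
    have hsP : s ∈ P := (hPmem s).mpr (Or.inr (by omega))
    intro hbot
    rw [hbot, Ideal.mem_bot] at hsP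
    rw [hsP, map_zero] at hs0
    exact hs0 rfl
  refine ⟨⟨P, hPprime, hPbot⟩, ?_⟩
  apply place_eq_of_le
  intro x hx
  rw [Place.ofHeightOneSpectrum_toValuationSubring, Valuation.mem_valuationSubring_iff] at hx
  obtain ⟨n, d, hnd⟩ := HeightOneSpectrum.exists_primeCompl_mul_eq_of_integer
    (⟨P, hPprime, hPbot⟩ : HeightOneSpectrum B) x hx
  have hd : (d : B) ∉ P := d.2
  rw [hPmem] at hd
  rw [not_or, not_lt] at hd
  have hd0 : v.ord (algebraMap B F d) = 0 := le_antisymm hd.2 (hB d)
  rw [place_mem_iff]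
  by_cases hx0 : x = 0
  · simp [hx0]
  have h1 := hB n
  rw [← hnd, v.ord_mul hx0 hd.1, hd0, add_zero] at h1
  exact h1

/-- Prime avoidance for height one primes. -/
theorem hos_avoid (w : HeightOneSpectrum B) (T : Finset (HeightOneSpectrum B)) (hw : w ∉ T) :
    ∃ b : B, b ≠ 0 ∧ b ∈ w.asIdeal ∧ ∀ u ∈ T, b ∉ u.asIdeal := by
  classical
  by_contra hcon
  have hsub : (w.asIdeal : Set B) ⊆ ⋃ I ∈ (↑(insert ⊥ (T.image HeightOneSpectrum.asIdeal))
      : Set (Ideal B)), (I : Set B) := by
    intro b hb
    by_cases hb0 : b = 0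
    · refine Set.mem_biUnion (x := (⊥ : Ideal B)) (by simp) ?_
      simp [hb0]
    by_contra hnot
    apply hcon
    refine ⟨b, hb0, hb, fun u hu hbu => hnot ?_⟩
    refine Set.mem_biUnion (x := u.asIdeal) ?_ hbu
    simp only [Finset.coe_insert, Finset.coe_image, Set.mem_insert_iff, Set.mem_image,
      Finset.mem_coe]
    exact Or.inr ⟨u, hu, rfl⟩
  have hprime : ∀ I ∈ insert ⊥ (T.image HeightOneSpectrum.asIdeal), I ≠ (⊥ : Ideal B) →
      I ≠ (⊥ : Ideal B) → I.IsPrime := by
    intro I hI hI0 _
    rw [Finset.mem_insert, Finset.mem_image] at hI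
    rcases hI with hI | ⟨u, -, rfl⟩
    · exact absurd hI hI0
    · exact u.isPrime
  obtain ⟨I, hI, hle⟩ := (Ideal.subset_union_prime (f := fun I : Ideal B => I) ⊥ ⊥ hprime).mp hsub
  rw [Finset.mem_insert, Finset.mem_image] at hI
  rcases hI with hI | ⟨u, hu, rfl⟩
  · rw [hI, le_bot_iff] at hle
    exact w.ne_bot hle
  · have : w.asIdeal = u.asIdeal := w.isMaximal.eq_of_le u.isPrime.ne_top hle
    exact hw ((HeightOneSpectrum.ext this) ▸ hu)

end Dedekind

/-! ### The polynomial setting -/

/-- Elements integral over `K[X]` (acting through `X ↦ t`) lie in every valuation ring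
containing `t`. -/
theorem integral_ord_nonneg [Algebra K[X] F] [IsScalarTower K K[X] F] (v : Place K F)
    (hv : 0 ≤ v.ord (algebraMap K[X] F X)) {x : F} (hx : IsIntegral K[X] x) : 0 ≤ v.ord x := by
  have hmem : ∀ q : K[X], algebraMap K[X] F q ∈ v.toValuationSubring := by
    intro q
    have h1 : algebraMap K[X] F q = aeval (algebraMap K[X] F X) q := by
      have := Polynomial.aeval_algHom_apply (IsScalarTower.toAlgHom K K[X] F) X q
      rw [Polynomial.aeval_X_left_apply] at this
      exact this.symm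
    rw [h1, ← placeOrdFun_vs]
    apply OrdFun.aeval_mem_vs
    rw [placeOrdFun_vs, place_mem_iff]
    exact hv
  let ι : K[X] →+* v.toValuationSubring :=
    (algebraMap K[X] F).codRestrict v.toValuationSubring.toSubring hmem
  obtain ⟨P, hmonic, hP⟩ := hx
  have hint : IsIntegral v.toValuationSubring x := by
    refine ⟨P.map ι, hmonic.map ι, ?_⟩
    rw [Polynomial.eval₂_map]
    exact hP
  obtain ⟨y, hy⟩ := IsIntegrallyClosed.isIntegral_iff.mp hint
  rw [← place_mem_iff, ← hy]
  exact y.2

theorem span_X_isMaximal : (Ideal.span {(X : K[X])}).IsMaximal :=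
  PrincipalIdealRing.isMaximal_of_irreducible Polynomial.irreducible_X

section PolySetting

variable {B : Type*} [CommRing B] [IsDedekindDomain B] [Algebra B F] [IsFractionRing B F]
  [Algebra K B] [IsScalarTower K B F]
  [Algebra K[X] B] [Algebra K[X] F] [IsScalarTower K[X] B F] [IsScalarTower K K[X] B]
  [IsScalarTower K K[X] F] [Module.Finite K[X] B] [Module.Free K[X] B]

theorem tB_ne_zero (ht0 : algebraMap K[X] F X ≠ 0) : algebraMap K[X] B X ≠ 0 := by
  intro h; apply ht0; rw [IsScalarTower.algebraMap_apply K[X] B F, h, map_zero]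

theorem liesOver_of_mem (q : Ideal B) [hq' : q.IsPrime] (hq : algebraMap K[X] B X ∈ q) :
    q.LiesOver (Ideal.span {(X : K[X])}) := by
  constructor
  have hmax := span_X_isMaximal (K := K)
  apply hmax.eq_of_le
  · exact (Ideal.IsPrime.under K[X] q).ne_top
  · rw [Ideal.span_le, Set.singleton_subset_iff]; exact hq

/-- The residue field of a prime of `B` containing `X` is `K`. -/
theorem residue_const [IsAlgClosed K] (q : Ideal B) [q.IsPrime] (hq : algebraMap K[X] B X ∈ q) (b : B) :
    ∃ a : K, b - algebraMap K B a ∈ q := by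
  obtain ⟨Q, hQm, hQ⟩ := Algebra.IsIntegral.isIntegral (R := K[X]) b
  let φ : K[X] →+* B ⧸ q := (Ideal.Quotient.mk q).comp (algebraMap K[X] B)
  let ψ : K →+* B ⧸ q := (Ideal.Quotient.mk q).comp (algebraMap K B)
  have hφ : φ = ψ.comp (Polynomial.evalRingHom 0) := by
    apply Polynomial.ringHom_ext
    · intro a
      simp only [φ, ψ, RingHom.coe_comp, Function.comp_apply, coe_evalRingHom, eval_C]
      rw [IsScalarTower.algebraMap_apply K K[X] B a, Polynomial.algebraMap_eq]
    · simp only [φ, ψ, RingHom.coe_comp, Function.comp_apply, coe_evalRingHom, eval_X, map_zero]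
      exact Ideal.Quotient.eq_zero_iff_mem.mpr hq
  have h1 : eval₂ φ (Ideal.Quotient.mk q b) Q = 0 := by
    rw [← Polynomial.hom_eval₂, hQ, map_zero]
  rw [hφ, ← Polynomial.eval₂_map] at h1
  have hQ₀m : (Q.map (evalRingHom 0)).Monic := hQm.map _
  have hsplit := IsAlgClosed.splits (Q.map (evalRingHom (0 : K)))
  rw [hsplit.eq_prod_roots_of_monic hQ₀m, ← Polynomial.coe_eval₂RingHom, map_multiset_prod,
    Multiset.map_map, Multiset.prod_eq_zero_iff] at h1
  obtain ⟨c, -, hc⟩ := Multiset.mem_map.mp h1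
  refine ⟨c, ?_⟩
  simp only [Function.comp_apply, coe_eval₂RingHom, eval₂_sub, eval₂_X, eval₂_C] at hc
  rw [← Ideal.Quotient.eq]
  exact (sub_eq_zero.mp hc)

theorem inertiaDeg_eq_one [IsAlgClosed K] (q : Ideal B) [hq' : q.IsPrime]
    (hq : algebraMap K[X] B X ∈ q) (hq0 : q ≠ ⊥) : q.inertiaDeg K[X] = 1 := by
  haveI := span_X_isMaximal (K := K)
  haveI := liesOver_of_mem q hq
  haveI : q.IsMaximal := Ideal.IsPrime.isMaximal hq' hq0
  rw [Ideal.inertiaDeg_eq_of_isMaximal (Ideal.span {(X : K[X])}) q]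
  letI : Field (K[X] ⧸ Ideal.span {(X : K[X])}) := Ideal.Quotient.field _
  letI : Field (B ⧸ q) := Ideal.Quotient.field _
  rw [finrank_eq_one_iff_of_nonzero' (1 : B ⧸ q) one_ne_zero]
  intro y
  obtain ⟨b, rfl⟩ := Ideal.Quotient.mk_surjective y
  obtain ⟨a, ha⟩ := residue_const q hq b
  refine ⟨Ideal.Quotient.mk _ (C a), ?_⟩
  rw [Algebra.smul_def, mul_one, Ideal.Quotient.algebraMap_mk_of_liesOver]
  rw [eq_comm, Ideal.Quotient.eq, ← Polynomial.algebraMap_eq,
    ← IsScalarTower.algebraMap_apply K K[X] B]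
  exact ha

theorem ofHOS_ord_t (ht0 : algebraMap K[X] F X ≠ 0) (w : HeightOneSpectrum B)
    (hw : algebraMap K[X] B X ∈ w.asIdeal) :
    (Place.ofHeightOneSpectrum (K := K) (F := F) w).ord (algebraMap K[X] F X)
      = (w.asIdeal.ramificationIdx K[X] : ℤ) := by
  haveI := liesOver_of_mem w.asIdeal hw
  have htB : algebraMap K[X] B X ≠ 0 := tB_ne_zero ht0
  have hmap : (Ideal.span {(X : K[X])}).map (algebraMap K[X] B)
      = Ideal.span {algebraMap K[X] B X} := by
    rw [Ideal.map_span, Set.image_singleton]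
  have hne : (Ideal.span {(X : K[X])}).map (algebraMap K[X] B) ≠ ⊥ := by
    rw [hmap, Ne, Ideal.span_singleton_eq_bot]; exact htB
  rw [Ideal.IsDedekindDomain.ramificationIdx_eq_multiplicity (Ideal.span {(X : K[X])})
    w.asIdeal hne, hmap, ofHOS_ord w ht0, IsScalarTower.algebraMap_apply K[X] B F,
    HeightOneSpectrum.valuation_of_algebraMap,
    HeightOneSpectrum.intValuation_eq_exp_neg_multiplicity w htB, WithZero.log_exp]
  ring

/-- The places of `F/K` at which `t = X` vanishes: abstract version over a Dedekind domain `B`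
finite free over `K[X]`. -/
theorem partA_abs [IsAlgClosed K] (ht0 : algebraMap K[X] F X ≠ 0) :
    ∃ s : Finset (Place K F),
      (∀ v, v ∈ s ↔ 0 < v.ord (algebraMap K[X] F X)) ∧
      (∑ v ∈ s, v.ord (algebraMap K[X] F X) = (Module.finrank K[X] B : ℤ)) ∧
      (∀ v ∈ s, ∀ T : Finset (Place K F), T ⊆ s → v ∉ T →
        ∃ b : F, b ≠ 0 ∧ 0 < v.ord b ∧ ∀ u ∈ T, u.ord b = 0) ∧
      (∀ v ∈ s, ∀ x : F, 0 ≤ v.ord x →
        ∃ a : K, x = algebraMap K F a ∨ 0 < v.ord (x - algebraMap K F a)) := by
  classical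
  haveI hpmax : (Ideal.span {(X : K[X])}).IsMaximal := span_X_isMaximal
  have htB : algebraMap K[X] B X ≠ 0 := tB_ne_zero ht0
  letI : Fintype ((Ideal.span {(X : K[X])}).primesOver B) :=
    (Algebra.QuasiFinite.finite_primesOver _).fintype
  have hmemq : ∀ q : (Ideal.span {(X : K[X])}).primesOver B, algebraMap K[X] B X ∈ q.1 := by
    intro q
    rw [← Ideal.mem_of_liesOver q.1 (Ideal.span {(X : K[X])})]
    exact Ideal.subset_span rfl
  have hq0 : ∀ q : (Ideal.span {(X : K[X])}).primesOver B, q.1 ≠ ⊥ := by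
    intro q h
    have := hmemq q
    rw [h, Ideal.mem_bot] at this
    exact htB this
  let hosOf : (Ideal.span {(X : K[X])}).primesOver B → HeightOneSpectrum B :=
    fun q => ⟨q.1, q.2.1, hq0 q⟩
  let plc : (Ideal.span {(X : K[X])}).primesOver B → Place K F :=
    fun q => Place.ofHeightOneSpectrum (hosOf q)
  have hosOf_inj : Function.Injective hosOf :=
    fun q q' h => Subtype.ext (congrArg HeightOneSpectrum.asIdeal h)
  have plc_inj : Function.Injective plc := ofHOS_injective.comp hosOf_inj
  have hplc_t : ∀ q, (plc q).ord (algebraMap K[X] F X) = (q.1.ramificationIdx K[X] : ℤ) :=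
    fun q => ofHOS_ord_t ht0 (hosOf q) (hmemq q)
  have hplc_pos : ∀ q, 0 < (plc q).ord (algebraMap K[X] F X) := by
    intro q
    rw [IsScalarTower.algebraMap_apply K[X] B F]
    exact (ofHOS_ord_algebraMap_pos_iff (hosOf q) htB).mpr (hmemq q)
  have hsurj : ∀ v : Place K F, 0 < v.ord (algebraMap K[X] F X) → ∃ q, plc q = v := by
    intro v hv
    have hB : ∀ b : B, 0 ≤ v.ord (algebraMap B F b) := fun b =>
      integral_ord_nonneg v hv.le (IsIntegral.algebraMap (Algebra.IsIntegral.isIntegral b))
    obtain ⟨w, hw⟩ := exists_hos_of_le v hB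
    have hwt : algebraMap K[X] B X ∈ w.asIdeal := by
      rw [← ofHOS_ord_algebraMap_pos_iff (K := K) (F := F) w htB, hw,
        ← IsScalarTower.algebraMap_apply]
      exact hv
    haveI := liesOver_of_mem w.asIdeal hwt
    exact ⟨⟨w.asIdeal, w.isPrime, inferInstance⟩, hw⟩
  have hplc_nonneg : ∀ q (b : B), 0 ≤ (plc q).ord (algebraMap B F b) :=
    fun q b => ofHOS_ord_algebraMap_nonneg (hosOf q) b
  have hplc_pos_iff : ∀ q (b : B), b ≠ 0 → (0 < (plc q).ord (algebraMap B F b) ↔ b ∈ q.1) :=
    fun q b hb => ofHOS_ord_algebraMap_pos_iff (hosOf q) hb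
  have hBF : ∀ b : B, b ≠ 0 → algebraMap B F b ≠ 0 := fun b hb =>
    (map_ne_zero_iff _ (IsFractionRing.injective B F)).mpr hb
  refine ⟨Finset.univ.image plc, ?_, ?_, ?_, ?_⟩
  · intro v
    rw [Finset.mem_image]
    constructor
    · rintro ⟨q, -, rfl⟩
      exact hplc_pos q
    · intro hv
      obtain ⟨q, hq⟩ := hsurj v hv
      exact ⟨q, Finset.mem_univ _, hq⟩
  · rw [Finset.sum_image (fun q _ q' _ h => plc_inj h)]
    rw [← Ideal.sum_ramification_inertia_eq_finrank (Ideal.span {(X : K[X])}) B]
    push_cast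
    refine Finset.sum_congr rfl fun q _ => ?_
    rw [hplc_t q, inertiaDeg_eq_one q.1 (hmemq q) (hq0 q)]
    simp
  · intro v hv T hT hvT
    obtain ⟨q₀, -, rfl⟩ := Finset.mem_image.mp hv
    set T' : Finset (HeightOneSpectrum B) :=
      (Finset.univ.filter (fun q => plc q ∈ T)).image hosOf with hT'
    have hq₀ : hosOf q₀ ∉ T' := by
      intro h
      obtain ⟨q, hq, hqq⟩ := Finset.mem_image.mp h
      rw [hosOf_inj hqq] at hq
      exact hvT (Finset.mem_filter.mp hq).2
    obtain ⟨b, hb0, hbq, hbT⟩ := hos_avoid (hosOf q₀) T' hq₀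
    refine ⟨algebraMap B F b, hBF b hb0, (hplc_pos_iff q₀ b hb0).mpr hbq, fun u hu => ?_⟩
    obtain ⟨q, -, rfl⟩ := Finset.mem_image.mp (hT hu)
    have h1 : b ∉ q.1 := hbT (hosOf q) (Finset.mem_image.mpr
      ⟨q, Finset.mem_filter.mpr ⟨Finset.mem_univ _, hu⟩, rfl⟩)
    have h2 := hplc_nonneg q b
    have h3 : ¬ 0 < (plc q).ord (algebraMap B F b) := fun h => h1 ((hplc_pos_iff q b hb0).mp h)
    omega
  · intro v hv x hx
    obtain ⟨q, -, rfl⟩ := Finset.mem_image.mp hv
    have hx' : (hosOf q).valuation F x ≤ 1 := by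
      rw [← Valuation.mem_valuationSubring_iff, ← Place.ofHeightOneSpectrum_toValuationSubring
        (K := K), place_mem_iff]
      exact hx
    obtain ⟨n, d, hnd⟩ := HeightOneSpectrum.exists_primeCompl_mul_eq_of_integer (hosOf q) x hx'
    have hd : (d : B) ∉ q.1 := d.2
    have hd0 : (d : B) ≠ 0 := fun h => hd (h ▸ q.1.zero_mem)
    obtain ⟨cn, hcn⟩ := residue_const q.1 (hmemq q) n
    obtain ⟨cd, hcd⟩ := residue_const q.1 (hmemq q) (d : B)
    have hcd0 : cd ≠ 0 := by
      rintro rfl
      rw [map_zero, sub_zero] at hcd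
      exact hd hcd
    refine ⟨cn / cd, ?_⟩
    have hkey : n - algebraMap K B (cn / cd) * d ∈ q.1 := by
      have h1 : n - algebraMap K B (cn / cd) * d
          = (n - algebraMap K B cn) - algebraMap K B (cn / cd) * ((d : B) - algebraMap K B cd) := by
        have h2 : algebraMap K B (cn / cd) * algebraMap K B cd = algebraMap K B cn := by
          rw [← map_mul, div_mul_cancel₀ _ hcd0]
        rw [mul_sub, h2]; ring
      rw [h1]
      exact q.1.sub_mem hcn (q.1.mul_mem_left _ hcd)
    have hdF : algebraMap B F d ≠ 0 := hBF _ hd0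
    have hxe : x - algebraMap K F (cn / cd)
        = algebraMap B F (n - algebraMap K B (cn / cd) * d) / algebraMap B F d := by
      rw [eq_div_iff hdF, sub_mul, hnd, map_sub, map_mul,
        ← IsScalarTower.algebraMap_apply K B F]
    by_cases hz : n - algebraMap K B (cn / cd) * d = 0
    · left
      rw [hz, map_zero, zero_div] at hxe
      exact sub_eq_zero.mp hxe
    · right
      have hd1 : (plc q).ord (algebraMap B F d) = 0 := by
        have h2 := hplc_nonneg q d
        have h3 : ¬ 0 < (plc q).ord (algebraMap B F d) :=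
          fun h => hd ((hplc_pos_iff q d hd0).mp h)
        omega
      rw [hxe, div_eq_mul_inv, (plc q).ord_mul (hBF _ hz) (inv_ne_zero hdF), (plc q).ord_inv, hd1]
      have := (hplc_pos_iff q _ hz).mpr hkey
      omega

end PolySetting
/-! ### The places over a transcendental element -/

open IntermediateField in
/-- The places of `F/K` at which a transcendental `t` vanishes (`F` finite over `K(t)`): they form
a finite set `s`, the orders of `t` sum to `[F : K(t)]`, distinct places in `s` can be separated,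
the residue fields are `K`; moreover `F` is algebraic over `K[t]` in a form adapted to places. -/
theorem places_over [IsAlgClosed K] [CharZero K] (t : F) (ht : Transcendental K t)
    [FiniteDimensional K⟮t⟯ F] :
    ∃ s : Finset (Place K F),
      (∀ v, v ∈ s ↔ 0 < v.ord t) ∧
      (∑ v ∈ s, v.ord t = (Module.finrank K⟮t⟯ F : ℤ)) ∧
      (∀ v ∈ s, ∀ T : Finset (Place K F), T ⊆ s → v ∉ T →
        ∃ b : F, b ≠ 0 ∧ 0 < v.ord b ∧ ∀ u ∈ T, u.ord b = 0) ∧
      (∀ v ∈ s, ∀ x : F, 0 ≤ v.ord x →
        ∃ a : K, x = algebraMap K F a ∨ 0 < v.ord (x - algebraMap K F a)) ∧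
      (∀ v : Place K F, 0 ≤ v.ord t → ∀ f : F, ∃ q : K[X], q ≠ 0 ∧ 0 ≤ v.ord (aeval t q * f)) := by
  letI algF : Algebra K[X] F := (aeval t).toRingHom.toAlgebra
  letI algE : Algebra K[X] K⟮t⟯ := (aeval (AdjoinSimple.gen K t)).toRingHom.toAlgebra
  have hF : ∀ q : K[X], algebraMap K[X] F q = aeval t q := fun _ => rfl
  have hE : ∀ q : K[X], algebraMap K[X] K⟮t⟯ q = aeval (AdjoinSimple.gen K t) q := fun _ => rfl
  haveI : IsScalarTower K[X] K⟮t⟯ F := IsScalarTower.of_algebraMap_eq (fun q => by
    rw [hF, hE]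
    simp)
  haveI : IsScalarTower K K[X] F := IsScalarTower.of_algebraMap_eq (fun a => by
    rw [hF, Polynomial.algebraMap_eq, aeval_C])
  haveI : IsScalarTower K K[X] K⟮t⟯ := IsScalarTower.of_algebraMap_eq (fun a => by
    rw [hE, Polynomial.algebraMap_eq, aeval_C])
  haveI : IsFractionRing K[X] K⟮t⟯ := by
    let e : RatFunc K ≃ₐ[K[X]] K⟮t⟯ :=
      AlgEquiv.ofRingEquiv (f := (RatFunc.algEquivOfTranscendental t ht).toRingEquiv)
        (fun g => by
          rw [hE]
          exact RatFunc.algEquivOfTranscendental_algebraMap t ht g)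
    exact IsLocalization.isLocalization_of_algEquiv (nonZeroDivisors K[X]) e
  haveI : CharZero F := charZero_of_injective_algebraMap (algebraMap K F).injective
  haveI : CharZero K⟮t⟯ := (algebraMap K⟮t⟯ F).charZero
  haveI : Algebra.IsSeparable K⟮t⟯ F := inferInstance
  haveI : Module.IsTorsionFree K[X] F := .trans_faithfulSMul K[X] K⟮t⟯ F
  haveI : IsDedekindDomain (integralClosure K[X] F) := integralClosure.isDedekindDomain K[X] K⟮t⟯ F
  haveI : IsFractionRing (integralClosure K[X] F) F :=
    integralClosure.isFractionRing_of_finite_extension K⟮t⟯ F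
  haveI : Module.Finite K[X] (integralClosure K[X] F) :=
    IsIntegralClosure.finite K[X] K⟮t⟯ F (integralClosure K[X] F)
  haveI : Module.Free K[X] (integralClosure K[X] F) :=
    IsIntegralClosure.module_free K[X] K⟮t⟯ F (integralClosure K[X] F)
  have hrank : Module.finrank K[X] (integralClosure K[X] F) = Module.finrank K⟮t⟯ F :=
    IsIntegralClosure.rank K[X] K⟮t⟯ F (integralClosure K[X] F)
  haveI : IsScalarTower K (integralClosure K[X] F) F := IsScalarTower.of_algebraMap_eq (fun a => rfl)
  haveI : IsScalarTower K K[X] (integralClosure K[X] F) := IsScalarTower.of_algebraMap_eq (fun a => by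
    apply Subtype.ext
    show algebraMap K F a = algebraMap K[X] F (algebraMap K K[X] a)
    rw [hF, Polynomial.algebraMap_eq, aeval_C])
  have hX : algebraMap K[X] F X = t := aeval_X t
  have ht0 : algebraMap K[X] F X ≠ 0 := by
    rw [hX]; exact fun h0 => ht (h0 ▸ isAlgebraic_zero)
  have key := partA_abs (K := K) (F := F) (B := integralClosure K[X] F) ht0
  rw [hX, hrank] at key
  obtain ⟨s, h1, h2, h3, h4⟩ := key
  refine ⟨s, h1, h2, h3, h4, fun v hv f => ?_⟩
  haveI : Algebra.IsAlgebraic K[X] K⟮t⟯ := IsLocalization.isAlgebraic _ (nonZeroDivisors K[X])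
  haveI : Algebra.IsAlgebraic K[X] F := Algebra.IsAlgebraic.trans K[X] K⟮t⟯ F
  obtain ⟨q, hq0, hq⟩ := (Algebra.IsAlgebraic.isAlgebraic (R := K[X]) f).exists_integral_multiple
  refine ⟨q, hq0, ?_⟩
  rw [Algebra.smul_def, hF] at hq
  exact integral_ord_nonneg v (by rw [hX]; exact hv) hq

end Fermat.Agent.GenusLib.PlaceCore
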