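import Fermat.Agent.GenusLib.PlaceCorePF

/-!
# Abstract core for S24: the genus from the hypotheses `PlaceHyps`

`genus_of_placeHyps`: if the Riemann–Hurwitz count equals `2 g - 2`, the genus of `F/K` is `g`.
-/

set_option autoImplicit false
set_option linter.style.haveILetI false

noncomputable section

namespace Fermat.Agent.GenusLib.PlaceCore

open AlgebraicCurve Polynomial IsDedekindDomain IntermediateField KaehlerDifferential

variable {K F : Type*} [Field K] [Field F] [Algebra K F]

/-- Under `PlaceHyps` with `n > 0`, the differential of `j` does not vanish. -/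
theorem PlaceHyps.D_sub_ne_zero {j : F} {n : ℕ}
    {I : K → Type} [∀ c, Fintype (I c)] {W : ∀ c, I c → OrdFun K F}
    {Iinf : Type} [Fintype Iinf] {Winf : Iinf → OrdFun K F} {S : Finset K}
    (H : PlaceHyps j n I W Iinf Winf S) (hn : 0 < n) {c : K} (hc : c ∉ S) :
    D K F (j - algebraMap K F c) ≠ 0 := by
  have hne : Nonempty (I c) := by
    by_contra hemp
    rw [not_nonempty_iff] at hemp
    have h := H.hsum c
    rw [Finset.univ_eq_empty, Finset.sum_empty] at h
    have : (n : ℤ) = 0 := h.symm
    omega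
  obtain ⟨i⟩ := hne
  exact H.hdne c i _ (H.hS c hc i)

theorem PlaceHyps.exists_differential_ne_zero [CharZero K] {j : F} {n : ℕ}
    {I : K → Type} [∀ c, Fintype (I c)] {W : ∀ c, I c → OrdFun K F}
    {Iinf : Type} [Fintype Iinf] {Winf : Iinf → OrdFun K F} {S : Finset K}
    (H : PlaceHyps j n I W Iinf Winf S) (hn : 0 < n) : ∃ ω : Ω[F⁄K], ω ≠ 0 := by
  obtain ⟨c, hc⟩ := Infinite.exists_notMem_finset S
  exact ⟨_, H.D_sub_ne_zero hn hc⟩

/-- **The genus from the analytic description of the places.** -/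
theorem genus_of_placeHyps [IsAlgClosed K] [CharZero K] [HasCanonicalDivisor (K := K) (F := F)]
    (j : F) (hj : Transcendental K j) [FiniteDimensional K⟮j⟯ F] (n : ℕ)
    (hn : Module.finrank K⟮j⟯ F = n)
    (I : K → Type) [∀ c, Fintype (I c)] (W : ∀ c, I c → OrdFun K F)
    (Iinf : Type) [Fintype Iinf] (Winf : Iinf → OrdFun K F) (S : Finset K)
    (H : PlaceHyps j n I W Iinf Winf S) (g : ℕ)
    (hcount : ∑ c ∈ S, ∑ i, ((W c i).w (j - algebraMap K F c) - 1)
      - ∑ i, ((Winf i).w j⁻¹ + 1) = 2 * (g : ℤ) - 2) :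
    AlgebraicCurve.genus K F = g := by
  have hn0 : 0 < n := by
    rw [← hn]
    exact Module.finrank_pos
  refine genus_eq g (H.exists_differential_ne_zero hn0) fun ω hω Dv hDv => ?_
  rw [degree_canonical' j hj n hn I W Iinf Winf S H ω hω Dv hDv, hcount]

end Fermat.Agent.GenusLib.PlaceCore
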