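import Fermat.Agent.GenusLib.PlaceCoreDed

/-!
# Abstract core for S24: the local bijection

Given a transcendental `t` with `[F : K(t)] = n` and a finite family of order functions `w i`
with `0 < w i t`, `∑ i, w i t = n`, such that every `f` with all `w i f ≥ 0` is integral over
`K[t]_(t)`: the `w i` are exactly the orders of the places of `F/K` at which `t` vanishes.
-/

set_option autoImplicit false

noncomputable section

namespace Fermat.Agent.GenusLib.PlaceCore

open AlgebraicCurve Polynomial IsDedekindDomain IntermediateField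

variable {K F : Type*} [Field K] [Field F] [Algebra K F]

/-- A place all of whose integral elements are congruent to constants has degree one. -/
theorem place_deg_eq_one (v : Place K F)
    (h : ∀ x : F, 0 ≤ v.ord x →
      ∃ a : K, x = algebraMap K F a ∨ 0 < v.ord (x - algebraMap K F a)) : v.deg = 1 := by
  unfold Place.deg
  rw [finrank_eq_one_iff_of_nonzero' (1 : v.ResidueField) one_ne_zero]
  intro y
  obtain ⟨x, rfl⟩ := IsLocalRing.residue_surjective y
  obtain ⟨a, ha⟩ := h (x : F) ((place_mem_iff v _).mp x.2)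
  refine ⟨a, ?_⟩
  rw [Algebra.smul_def, mul_one]
  show IsLocalRing.residue _ (algebraMap K v.toValuationSubring a) = IsLocalRing.residue _ x
  rw [eq_comm, ← sub_eq_zero, ← map_sub, IsLocalRing.residue_eq_zero_iff,
    place_mem_maximalIdeal_iff]
  rcases ha with ha | ha
  · left; simp [ha]
  · right; simpa using ha

/-- **Local bijection.** -/
theorem local_bijection [IsAlgClosed K] [CharZero K] (t : F) (ht : Transcendental K t)
    [FiniteDimensional K⟮t⟯ F] {ι : Type*} [Fintype ι] (w : ι → OrdFun K F)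
    (hpos : ∀ i, 0 < (w i).w t) (hsum : ∑ i, (w i).w t = (Module.finrank K⟮t⟯ F : ℤ))
    (hint : ∀ f : F, f ≠ 0 → (∀ i, 0 ≤ (w i).w f) → IsIntegral (locRing K t) f) :
    ∃ Φ : ι → Place K F, Function.Injective Φ ∧
      (∀ i (f : F), f ≠ 0 → (Φ i).ord f = (w i).w f) ∧
      (∀ v : Place K F, 0 < v.ord t → ∃ i, Φ i = v) ∧
      (∀ i, (Φ i).deg = 1) := by
  classical
  have ht0 : t ≠ 0 := fun h0 => ht (h0 ▸ isAlgebraic_zero)
  obtain ⟨s, hs_mem, hs_sum, hs_avoid, hs_res, -⟩ := places_over t ht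
  let Φ : ι → Place K F := fun i => (w i).toPlace t ht0 (hpos i)
  have hd : ∀ i, ∃ d : ℤ, 0 < d ∧ ∀ f : F, f ≠ 0 → (w i).w f = d * (Φ i).ord f :=
    fun i => (w i).toPlace_ord t ht0 (hpos i)
  choose d hdpos hdw using hd
  have hΦpos : ∀ i, 0 < (Φ i).ord t := by
    intro i
    have h1 := hpos i
    rw [hdw i t ht0] at h1
    exact (mul_pos_iff_of_pos_left (hdpos i)).mp h1
  have hΦs : ∀ i, Φ i ∈ s := fun i => (hs_mem _).mpr (hΦpos i)
  have hsurj : ∀ v ∈ s, ∃ i, Φ i = v := by
    intro v hv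
    by_contra hcon
    rw [not_exists] at hcon
    have hvT : v ∉ Finset.univ.image Φ := by
      intro h
      obtain ⟨i, -, hi⟩ := Finset.mem_image.mp h
      exact hcon i hi
    have hTs : Finset.univ.image Φ ⊆ s := by
      intro u hu
      obtain ⟨i, -, rfl⟩ := Finset.mem_image.mp hu
      exact hΦs i
    obtain ⟨b, hb0, hbv, hbT⟩ := hs_avoid v hv _ hTs hvT
    have hwb : ∀ i, 0 ≤ (w i).w b⁻¹ := by
      intro i
      rw [(w i).w_inv hb0, hdw i b hb0,
        hbT (Φ i) (Finset.mem_image_of_mem _ (Finset.mem_univ i))]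
      simp
    have hintb := hint b⁻¹ (inv_ne_zero hb0) hwb
    have hvt : 0 < v.ord t := (hs_mem v).mp hv
    have hmem : b⁻¹ ∈ (placeOrdFun v).vs :=
      OrdFun.isIntegral_locRing_mem_vs (placeOrdFun v) ht0 hvt hintb
    rw [placeOrdFun_vs, place_mem_iff, v.ord_inv] at hmem
    omega
  have hcount : ∑ i, d i * (Φ i).ord t = ∑ v ∈ s, v.ord t := by
    rw [hs_sum, ← hsum]
    exact Finset.sum_congr rfl (fun i _ => (hdw i t ht0).symm)
  have hfib : ∑ v ∈ s, ∑ i ∈ Finset.univ.filter (fun i => Φ i = v), d i * (Φ i).ord t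
      = ∑ i, d i * (Φ i).ord t :=
    Finset.sum_fiberwise_of_maps_to (fun i _ => hΦs i) _
  have hterm : ∀ v ∈ s,
      v.ord t ≤ ∑ i ∈ Finset.univ.filter (fun i => Φ i = v), d i * (Φ i).ord t := by
    intro v hv
    obtain ⟨i, hi⟩ := hsurj v hv
    have h1 : d i * (Φ i).ord t
        ≤ ∑ i ∈ Finset.univ.filter (fun i => Φ i = v), d i * (Φ i).ord t :=
      Finset.single_le_sum (f := fun i => d i * (Φ i).ord t)
        (fun k _ => (mul_pos (hdpos k) (hΦpos k)).le)
        (Finset.mem_filter.mpr ⟨Finset.mem_univ i, hi⟩)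
    have h2 : v.ord t ≤ d i * (Φ i).ord t := by
      rw [hi]
      nlinarith [hdpos i, (hs_mem v).mp hv]
    exact h2.trans h1
  have heq : ∀ v ∈ s,
      v.ord t = ∑ i ∈ Finset.univ.filter (fun i => Φ i = v), d i * (Φ i).ord t :=
    (Finset.sum_eq_sum_iff_of_le hterm).mp (by rw [hfib, hcount])
  have hkey : ∀ i, d i = 1 ∧ ∀ k, Φ k = Φ i → k = i := by
    intro i
    have h1 := heq (Φ i) (hΦs i)
    have hi : i ∈ Finset.univ.filter (fun k => Φ k = Φ i) :=
      Finset.mem_filter.mpr ⟨Finset.mem_univ i, rfl⟩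
    have hpos' : ∀ k, 0 < d k * (Φ k).ord t := fun k => mul_pos (hdpos k) (hΦpos k)
    constructor
    · have h2 : d i * (Φ i).ord t
          ≤ ∑ k ∈ Finset.univ.filter (fun k => Φ k = Φ i), d k * (Φ k).ord t :=
        Finset.single_le_sum (f := fun k => d k * (Φ k).ord t) (fun k _ => (hpos' k).le) hi
      rw [← h1] at h2
      have he := hΦpos i
      have hd1 := hdpos i
      nlinarith
    · intro k hk
      by_contra hne
      have hkS : k ∈ Finset.univ.filter (fun k => Φ k = Φ i) :=
        Finset.mem_filter.mpr ⟨Finset.mem_univ k, hk⟩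
      have hsub : ({i, k} : Finset ι) ⊆ Finset.univ.filter (fun k => Φ k = Φ i) := by
        intro x hx
        rcases Finset.mem_insert.mp hx with rfl | hx
        · exact hi
        · rw [Finset.mem_singleton.mp hx]; exact hkS
      have h2 := Finset.sum_le_sum_of_subset_of_nonneg hsub
        (f := fun k => d k * (Φ k).ord t) (fun x _ _ => (hpos' x).le)
      rw [Finset.sum_pair (Ne.symm hne), ← h1] at h2
      have h3 := hpos' k
      have he := hΦpos i
      have hd1 := hdpos i
      nlinarith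
  refine ⟨Φ, fun i k h => ((hkey k).2 i h), fun i f hf => ?_,
    fun v hv => hsurj v ((hs_mem v).mpr hv),
    fun i => place_deg_eq_one (Φ i) (fun x hx => hs_res (Φ i) (hΦs i) x hx)⟩
  rw [hdw i f hf, (hkey i).1, one_mul]

end Fermat.Agent.GenusLib.PlaceCore
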