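import Fermat.Agent.GenusLib.PlaceCoreDefs

/-!
# Abstract core for S24: calculus of order functions and places

* `OrdFun.vs`: the valuation subring of an order function; `OrdFun.toPlace`.
* `placeOrdFun v`: the order function of a place; `place_mem_iff`.
* `place_ord_unique`: an order function with the same valuation ring as a place `v` is a positive
  multiple of `v.ord`.
* `place_eq_of_le`: discrete valuation rings are maximal.
-/

set_option autoImplicit false

noncomputable section

namespace Fermat.Agent.GenusLib.PlaceCore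

open AlgebraicCurve Polynomial IsDedekindDomain

variable {K F : Type*} [Field K] [Field F] [Algebra K F]

namespace OrdFun

variable (w : OrdFun K F)

theorem w_one : w.w 1 = 0 := by simpa using w.map_const' 1 one_ne_zero

theorem w_neg_one : w.w (-1) = 0 := by
  simpa using w.map_const' (-1) (neg_ne_zero.mpr one_ne_zero)

theorem w_neg {f : F} (hf : f ≠ 0) : w.w (-f) = w.w f := by
  have h := w.map_mul' (-1) f (neg_ne_zero.mpr one_ne_zero) hf
  rw [neg_one_mul, w_neg_one, zero_add] at h
  exact h

theorem w_inv {f : F} (hf : f ≠ 0) : w.w f⁻¹ = -w.w f := by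
  have h := w.map_mul' f f⁻¹ hf (inv_ne_zero hf)
  rw [mul_inv_cancel₀ hf, w_one] at h
  omega

theorem w_div {f g : F} (hf : f ≠ 0) (hg : g ≠ 0) : w.w (f / g) = w.w f - w.w g := by
  rw [div_eq_mul_inv, w.map_mul' f g⁻¹ hf (inv_ne_zero hg), w_inv w hg]; ring

theorem w_pow {f : F} (hf : f ≠ 0) (n : ℕ) : w.w (f ^ n) = n * w.w f := by
  induction n with
  | zero => simp [w_one]
  | succ n ih =>
    rw [pow_succ, w.map_mul' _ _ (pow_ne_zero n hf) hf, ih]; push_cast; ring

theorem w_zpow {f : F} (hf : f ≠ 0) (n : ℤ) : w.w (f ^ n) = n * w.w f := by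
  obtain ⟨m, rfl | rfl⟩ := n.eq_nat_or_neg
  · rw [zpow_natCast, w_pow w hf]
  · rw [zpow_neg, zpow_natCast, w_inv w (pow_ne_zero m hf), w_pow w hf]; ring

/-- The ultrametric inequality is an equality for different orders. -/
theorem w_add_of_lt {f g : F} (hf : f ≠ 0) (hg : g ≠ 0) (h : w.w f < w.w g) :
    f + g ≠ 0 ∧ w.w (f + g) = w.w f := by
  have hne : f + g ≠ 0 := by
    intro h0
    have : f = -g := eq_neg_of_add_eq_zero_left h0
    rw [this, w_neg w hg] at h
    exact lt_irrefl _ h
  refine ⟨hne, le_antisymm ?_ ?_⟩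
  · have h1 := w.map_add' (f + g) (-g) hne (neg_ne_zero.mpr hg) (by simpa using hf)
    rw [add_neg_cancel_right, w_neg w hg] at h1
    rcases min_le_iff.mp h1 with h2 | h2
    · exact h2
    · omega
  · have h1 := w.map_add' f g hf hg hne
    rw [min_eq_left h.le] at h1
    exact h1

/-- The valuation subring of an order function. -/
def vs : ValuationSubring F where
  carrier := {f | f = 0 ∨ 0 ≤ w.w f}
  mul_mem' := by
    rintro f g (rfl | hf) (rfl | hg)
    · left; simp
    · left; simp
    · left; simp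
    · by_cases hf0 : f = 0
      · left; simp [hf0]
      by_cases hg0 : g = 0
      · left; simp [hg0]
      right
      rw [w.map_mul' f g hf0 hg0]; omega
  one_mem' := Or.inr (by rw [w_one])
  add_mem' := by
    rintro f g hf hg
    by_cases hf0 : f = 0
    · simpa [hf0] using hg
    by_cases hg0 : g = 0
    · simpa [hg0] using hf
    by_cases hfg : f + g = 0
    · left; exact hfg
    right
    have h1 := w.map_add' f g hf0 hg0 hfg
    have h2 : 0 ≤ w.w f := hf.resolve_left hf0
    have h3 : 0 ≤ w.w g := hg.resolve_left hg0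
    exact le_trans (le_min h2 h3) h1
  zero_mem' := Or.inl rfl
  neg_mem' := by
    rintro f (rfl | hf)
    · left; simp
    · by_cases hf0 : f = 0
      · left; simp [hf0]
      right
      rw [w_neg w hf0]; exact hf
  mem_or_inv_mem' := by
    intro f
    by_cases hf0 : f = 0
    · left; left; exact hf0
    rcases le_total 0 (w.w f) with h | h
    · left; right; exact h
    · right; right
      rw [w_inv w hf0]; omega

theorem mem_vs {f : F} : f ∈ w.vs ↔ f = 0 ∨ 0 ≤ w.w f := Iff.rfl

theorem mem_vs_of_ne {f : F} (hf : f ≠ 0) : f ∈ w.vs ↔ 0 ≤ w.w f := by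
  rw [mem_vs]; simp [hf]

theorem algebraMap_mem_vs (a : K) : algebraMap K F a ∈ w.vs := by
  by_cases ha : a = 0
  · left; simp [ha]
  · right; exact (w.map_const' a ha).ge

theorem aeval_mem_vs {t : F} (ht : t ∈ w.vs) (p : K[X]) : aeval t p ∈ w.vs := by
  rw [Polynomial.aeval_eq_sum_range]
  refine Subring.sum_mem w.vs.toSubring fun i _ => ?_
  rw [Algebra.smul_def]
  exact mul_mem (algebraMap_mem_vs w _) (pow_mem ht i)

/-- If `0 < w t` and `q(0) ≠ 0` then `q(t)` is a unit for `w`. -/
theorem w_aeval_eq_zero {t : F} (ht0 : t ≠ 0) (ht : 0 < w.w t) (q : K[X]) (hq : q.eval 0 ≠ 0) :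
    aeval t q ≠ 0 ∧ w.w (aeval t q) = 0 := by
  have hq' : q.coeff 0 ≠ 0 := by rwa [Polynomial.coeff_zero_eq_eval_zero]
  have hdec : aeval t q = algebraMap K F (q.coeff 0) + t * aeval t q.divX := by
    conv_lhs => rw [← Polynomial.X_mul_divX_add q]
    rw [map_add, map_mul, aeval_X, aeval_C, add_comm]
  have ha0 : algebraMap K F (q.coeff 0) ≠ 0 := by simpa using hq'
  have hwa : w.w (algebraMap K F (q.coeff 0)) = 0 := w.map_const' _ hq'
  by_cases hr : aeval t q.divX = 0
  · rw [hdec, hr, mul_zero, add_zero]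
    exact ⟨ha0, hwa⟩
  · have hmem : aeval t q.divX ∈ w.vs := aeval_mem_vs w (Or.inr ht.le) _
    have hr0 : 0 ≤ w.w (aeval t q.divX) := hmem.resolve_left hr
    have hlt : w.w (algebraMap K F (q.coeff 0)) < w.w (t * aeval t q.divX) := by
      rw [w.map_mul' _ _ ht0 hr, hwa]; omega
    have h := w_add_of_lt w ha0 (mul_ne_zero ht0 hr) hlt
    rw [hdec]
    exact ⟨h.1, h.2.trans hwa⟩

theorem locRing_le_vs {t : F} (ht0 : t ≠ 0) (ht : 0 < w.w t) {x : F} (hx : x ∈ locRing K t) :
    x ∈ w.vs := by
  obtain ⟨p, q, hq, h⟩ := hx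
  by_cases hx0 : x = 0
  · left; exact hx0
  right
  obtain ⟨hq0, hwq⟩ := w_aeval_eq_zero w ht0 ht q hq
  have hp0 : aeval t p ≠ 0 := by rw [← h]; exact mul_ne_zero hx0 hq0
  have hmem : aeval t p ∈ w.vs := aeval_mem_vs w (Or.inr ht.le) _
  have h1 : 0 ≤ w.w (aeval t p) := hmem.resolve_left hp0
  rw [← h, w.map_mul' _ _ hx0 hq0, hwq, add_zero] at h1
  exact h1

/-- Valuation rings are integrally closed: an element integral over a subalgebra contained in the
valuation ring lies in the valuation ring. -/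
theorem _root_.Fermat.Agent.GenusLib.PlaceCore.isIntegral_mem_valuationSubring
    (A : ValuationSubring F) (R : Subalgebra K F)
    (hR : ∀ y ∈ R, y ∈ A) {x : F} (hx : IsIntegral R x) : x ∈ A := by
  obtain ⟨P, hmonic, hP⟩ := hx
  let ι : R →+* A :=
    { toFun := fun y => ⟨y.1, hR y.1 y.2⟩
      map_one' := rfl
      map_mul' := fun _ _ => rfl
      map_zero' := rfl
      map_add' := fun _ _ => rfl }
  have hint : IsIntegral A x := by
    refine ⟨P.map ι, hmonic.map ι, ?_⟩
    rw [Polynomial.eval₂_map]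
    exact hP
  obtain ⟨y, hy⟩ := IsIntegrallyClosed.isIntegral_iff.mp hint
  rw [← hy]
  exact y.2

theorem isIntegral_locRing_mem_vs {t : F} (ht0 : t ≠ 0) (ht : 0 < w.w t) {x : F}
    (hx : IsIntegral (locRing K t) x) : x ∈ w.vs :=
  isIntegral_mem_valuationSubring w.vs (locRing K t) (fun _ hy => locRing_le_vs w ht0 ht hy) hx

/-- The place of an order function which is positive somewhere. -/
def toPlace (t : F) (ht0 : t ≠ 0) (ht : 0 < w.w t) : Place K F where
  toValuationSubring := w.vs
  algebraMap_mem' := algebraMap_mem_vs w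
  ne_top' := by
    intro h
    have h1 : t⁻¹ ∈ w.vs := by rw [h]; exact ValuationSubring.mem_top _
    rcases h1 with h1 | h1
    · exact inv_ne_zero ht0 h1
    · rw [w_inv w ht0] at h1; omega
  isPrincipalIdealRing' := by
    refine ⟨fun I => ?_⟩
    by_cases hI : I = ⊥
    · rw [hI]; exact bot_isPrincipal
    obtain ⟨a0, ha0I, ha0⟩ := Submodule.exists_mem_ne_zero_of_ne_bot hI
    have hex : ∃ n : ℕ, ∃ a : w.vs, a ∈ I ∧ a ≠ 0 ∧ w.w (a : F) = n := by
      have h0 : (a0 : F) ≠ 0 := fun h => ha0 (Subtype.ext h)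
      have h1 : 0 ≤ w.w (a0 : F) := a0.2.resolve_left h0
      exact ⟨(w.w (a0 : F)).toNat, a0, ha0I, ha0, (Int.toNat_of_nonneg h1).symm⟩
    classical
    obtain ⟨a, haI, ha, han⟩ := Nat.find_spec hex
    have haF : (a : F) ≠ 0 := fun h => ha (Subtype.ext h)
    refine ⟨⟨a, le_antisymm ?_ ?_⟩⟩
    · intro b hb
      by_cases hb0 : b = 0
      · rw [hb0]; exact Submodule.zero_mem _
      have hbF : (b : F) ≠ 0 := fun h => hb0 (Subtype.ext h)
      have h1 : 0 ≤ w.w (b : F) := b.2.resolve_left hbF
      have h2 : Nat.find hex ≤ (w.w (b : F)).toNat :=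
        Nat.find_min' hex ⟨b, hb, hb0, (Int.toNat_of_nonneg h1).symm⟩
      have h3 : w.w (a : F) ≤ w.w (b : F) := by rw [han]; omega
      have hq : (b : F) / (a : F) ∈ w.vs := by
        right
        rw [w_div w hbF haF]; omega
      rw [Submodule.mem_span_singleton]
      refine ⟨⟨_, hq⟩, Subtype.ext ?_⟩
      simp only [smul_eq_mul, MulMemClass.coe_mul]
      field_simp
    · rw [Submodule.span_singleton_le_iff_mem]
      exact haI

@[simp]
theorem toPlace_toValuationSubring (t : F) (ht0 : t ≠ 0) (ht : 0 < w.w t) :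
    (w.toPlace t ht0 ht).toValuationSubring = w.vs := rfl

end OrdFun

/-! ### Places as order functions -/

theorem place_mem_iff (v : Place K F) (f : F) : f ∈ v.toValuationSubring ↔ 0 ≤ v.ord f := by
  by_cases hf : f = 0
  · simp [hf, v.toValuationSubring.zero_mem]
  constructor
  · intro hmem
    have h1 : v.adicValuation f ≤ 1 := by
      have := v.adicValuation_coe ⟨f, hmem⟩
      simp only at this
      rw [this]
      exact HeightOneSpectrum.intValuation_le_one _ _
    have h2 : WithZero.log (v.adicValuation f) ≤ 0 := by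
      rw [← WithZero.log_one]
      exact (WithZero.log_le_log (v.adicValuation_ne_zero hf) one_ne_zero).mpr h1
    unfold Place.ord; omega
  · intro h
    obtain ⟨π, hπ⟩ := IsDiscreteValuationRing.exists_irreducible v.toValuationSubring
    obtain ⟨u, hu⟩ := v.exists_unit_mul_zpow hf hπ
    rw [hu]
    obtain ⟨n, hn⟩ := Int.eq_ofNat_of_zero_le h
    rw [hn, zpow_natCast]
    exact mul_mem (SetLike.coe_mem (u : v.toValuationSubring)) (pow_mem π.2 n)

theorem place_ord_algebraMap (v : Place K F) (a : K) (_ha : a ≠ 0) :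
    v.ord (algebraMap K F a) = 0 := by
  have h1 : 0 ≤ v.ord (algebraMap K F a) := (place_mem_iff v _).mp (v.algebraMap_mem' a)
  have h2 : 0 ≤ v.ord (algebraMap K F a⁻¹) := (place_mem_iff v _).mp (v.algebraMap_mem' a⁻¹)
  rw [map_inv₀, v.ord_inv] at h2
  omega

theorem place_ord_add (v : Place K F) (f g : F) (hf : f ≠ 0) (hg : g ≠ 0) (hfg : f + g ≠ 0) :
    min (v.ord f) (v.ord g) ≤ v.ord (f + g) := by
  have h := v.adicValuation.map_add f g
  have hF := v.adicValuation_ne_zero hf
  have hG := v.adicValuation_ne_zero hg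
  have hFG := v.adicValuation_ne_zero hfg
  unfold Place.ord
  rcases le_max_iff.mp h with h1 | h1
  · have := (WithZero.log_le_log hFG hF).mpr h1
    exact le_trans (min_le_left _ _) (by omega)
  · have := (WithZero.log_le_log hFG hG).mpr h1
    exact le_trans (min_le_right _ _) (by omega)

/-- The order function of a place. -/
def placeOrdFun (v : Place K F) : OrdFun K F where
  w := v.ord
  map_mul' := fun _ _ hf hg => v.ord_mul hf hg
  map_add' := place_ord_add v
  map_const' := place_ord_algebraMap v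

@[simp] theorem placeOrdFun_w (v : Place K F) : (placeOrdFun v).w = v.ord := rfl

theorem placeOrdFun_vs (v : Place K F) : (placeOrdFun v).vs = v.toValuationSubring := by
  ext f
  rw [place_mem_iff, OrdFun.mem_vs, placeOrdFun_w]
  constructor
  · rintro (rfl | h)
    · simp
    · exact h
  · intro h; exact Or.inr h

/-- An order function with the same valuation ring as the place `v` is a positive multiple of
`v.ord`. -/
theorem place_ord_unique (v : Place K F) (w : OrdFun K F) (h : w.vs = v.toValuationSubring) :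
    ∃ d : ℤ, 0 < d ∧ ∀ f : F, f ≠ 0 → w.w f = d * v.ord f := by
  obtain ⟨π, hπ⟩ := IsDiscreteValuationRing.exists_irreducible v.toValuationSubring
  have hπF : (π : F) ≠ 0 := fun h0 => hπ.ne_zero (Subtype.ext h0)
  have hunit : ∀ u : v.toValuationSubringˣ, w.w ((u : v.toValuationSubring) : F) = 0 := by
    intro u
    have hu0 : ((u : v.toValuationSubring) : F) ≠ 0 := fun h0 => u.ne_zero (Subtype.ext h0)
    have h1 : ((u : v.toValuationSubring) : F) ∈ w.vs := by rw [h]; exact SetLike.coe_mem _
    have h2 : (((u⁻¹ : v.toValuationSubringˣ) : v.toValuationSubring) : F) ∈ w.vs := by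
      rw [h]; exact SetLike.coe_mem _
    have h3 : (((u⁻¹ : v.toValuationSubringˣ) : v.toValuationSubring) : F)
        = ((u : v.toValuationSubring) : F)⁻¹ := by
      have h4 : ((u : v.toValuationSubring) : F)
          * (((u⁻¹ : v.toValuationSubringˣ) : v.toValuationSubring) : F) = 1 := by
        have := congrArg Subtype.val (Units.mul_inv u)
        exact this
      exact eq_inv_of_mul_eq_one_right h4
    rw [h3] at h2
    have h5 := h1.resolve_left hu0
    have h6 := h2.resolve_left (inv_ne_zero hu0)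
    rw [OrdFun.w_inv w hu0] at h6
    omega
  have hπmem : (π : F) ∈ w.vs := by rw [h]; exact π.2
  have hd0 : 0 ≤ w.w (π : F) := hπmem.resolve_left hπF
  have hd : 0 < w.w (π : F) := by
    rcases hd0.lt_or_eq with h1 | h1
    · exact h1
    · exfalso
      have h2 : (π : F)⁻¹ ∈ w.vs := by
        right; rw [OrdFun.w_inv w hπF]; omega
      rw [h] at h2
      apply hπ.not_isUnit
      refine IsUnit.of_mul_eq_one ⟨(π : F)⁻¹, h2⟩ (Subtype.ext ?_)
      simp [hπF]
  refine ⟨w.w (π : F), hd, fun f hf => ?_⟩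
  obtain ⟨u, hu⟩ := v.exists_unit_mul_zpow hf hπ
  have hu0 : ((u : v.toValuationSubring) : F) ≠ 0 := fun h0 => u.ne_zero (Subtype.ext h0)
  conv_lhs => rw [hu]
  rw [w.map_mul' _ _ hu0 (zpow_ne_zero _ hπF), hunit u, zero_add, OrdFun.w_zpow w hπF]
  ring

/-- The place of an order function: the orders are proportional. -/
theorem OrdFun.toPlace_ord (w : OrdFun K F) (t : F) (ht0 : t ≠ 0) (ht : 0 < w.w t) :
    ∃ d : ℤ, 0 < d ∧ ∀ f : F, f ≠ 0 → w.w f = d * (w.toPlace t ht0 ht).ord f :=
  place_ord_unique _ w rfl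

/-- Discrete valuation rings are maximal subrings of their fraction field. -/
theorem place_eq_of_le {u v : Place K F} (h : u.toValuationSubring ≤ v.toValuationSubring) :
    u = v := by
  apply Place.ext
  refine le_antisymm h fun x hx => ?_
  by_contra hxu
  have hx0 : x ≠ 0 := fun h0 => hxu (h0 ▸ u.toValuationSubring.zero_mem)
  have hordx : u.ord x < 0 := by
    by_contra hcon
    exact hxu ((place_mem_iff u x).mpr (not_lt.mp hcon))
  apply v.ne_top'
  refine SetLike.ext fun y => ⟨fun _ => ValuationSubring.mem_top y, fun _ => ?_⟩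
  by_cases hy0 : y = 0
  · rw [hy0]; exact v.toValuationSubring.zero_mem
  set k : ℕ := (-(u.ord y)).toNat with hk
  have h1 : y * (x⁻¹) ^ k ∈ u.toValuationSubring := by
    rw [place_mem_iff, u.ord_mul hy0 (pow_ne_zero _ (inv_ne_zero hx0)), ← zpow_natCast,
      u.ord_zpow, u.ord_inv]
    have hk' : -(u.ord y) ≤ (k : ℤ) := by rw [hk]; exact Int.self_le_toNat _
    nlinarith
  have h2 : y = (y * (x⁻¹) ^ k) * x ^ k := by
    rw [inv_pow, mul_assoc, inv_mul_cancel₀ (pow_ne_zero _ hx0), mul_one]
  rw [h2]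
  exact mul_mem (h h1) (pow_mem hx k)

theorem place_ord_pos_ne_zero (v : Place K F) {f : F} (h : 0 < v.ord f) : f ≠ 0 := by
  rintro rfl
  simp at h

end Fermat.Agent.GenusLib.PlaceCore
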